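/-
helper4, S25 (Jacobian exists), package CHART = DIV + ET (Mumford chart) — INTERFACE FILE, part 1 (Mathlib only).
Plan: NOTES/plan/S25.md (owner helper32; sub-planner of DIV / ET / LIM: helper4).

THE CHART.  `k` a ring (later an algebraically closed field), `A` a `k`-algebra (the coordinate ring of an affine open
`W` of the curve), `x : A` (a function on `W`, étale over the affine line), `g : ℕ` (the genus).
A point of the chart with values in a `k`-algebra `R` is an effective relative divisor `Z ⊂ W × Spec R`, finite free of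
rank `g` over `R`, with `R`-basis `1, x, …, x^(g-1)` of `O(Z)` ("Mumford coordinates": `O(Z) = R[X]/(f)`, `f` monic of
degree `g`, and a `k`-algebra map `ψ : A → R[X]/(f)` with `ψ x = X`).

We use the MATRIX FORM, which has no dependent types and is visibly functorial in `R`:
  `Pt k A x g R = { ρ : A →ₐ[k] Matrix (Fin g) (Fin g) R // ρ x is a companion matrix }`,
`ρ a` = the matrix of multiplication by `ψ a` on `O(Z)` in the basis `1, x, …, x^(g-1)`.
`e₀` = the first basis vector is the cyclic vector `1 ∈ O(Z)`; `a ↦ ρ a e₀` is the quotient map `R ⊗ A → O(Z) = R^g`,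
its kernel is the ideal of `Z`.
-/
import Mathlib

set_option autoImplicit false

universe u

open Polynomial TensorProduct

namespace Fermat.Agent.S25.Chart

/-- `M` is a companion matrix: `M e_i = e_(i+1)` for `i + 1 < g` (the last column is free: it carries the
coefficients of the monic polynomial `f`). -/
def IsCompanion {g : ℕ} {R : Type u} [CommRing R] (M : Matrix (Fin g) (Fin g) R) : Prop :=
  ∀ i j : Fin g, (i : ℕ) + 1 < g → M j i = if (j : ℕ) = (i : ℕ) + 1 then 1 else 0

section Pt

variable (k : Type u) [CommRing k] (A : Type u) [CommRing A] [Algebra k A] (x : A) (g : ℕ)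

/-- The `R`-valued points of the Mumford chart of `(A, x)` in degree `g` (matrix form). -/
@[ext]
structure Pt (R : Type u) [CommRing R] [Algebra k R] : Type u where
  /-- the action of `A` on `O(Z) = R^g` -/
  ρ : A →ₐ[k] Matrix (Fin g) (Fin g) R
  /-- `x` acts by a companion matrix: `1, x, …, x^(g-1)` is the standard basis -/
  comp : IsCompanion (ρ x)

variable {k A x g}
variable {R : Type u} [CommRing R] [Algebra k R] {R' : Type u} [CommRing R'] [Algebra k R']
  {R'' : Type u} [CommRing R''] [Algebra k R'']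

theorem IsCompanion.map {M : Matrix (Fin g) (Fin g) R} (hM : IsCompanion M) (φ : R →ₐ[k] R') :
    IsCompanion (φ.mapMatrix M) := by
  intro i j hi
  have h := hM i j hi
  simp only [AlgHom.mapMatrix_apply, Matrix.map_apply, h]
  split_ifs <;> simp

/-- Functoriality of the chart in `R`. -/
def Pt.map (φ : R →ₐ[k] R') (p : Pt k A x g R) : Pt k A x g R' :=
  ⟨(φ.mapMatrix (m := Fin g)).comp p.ρ, by
    rw [AlgHom.comp_apply]; exact p.comp.map φ⟩

@[simp] theorem Pt.map_ρ_apply (φ : R →ₐ[k] R') (p : Pt k A x g R) (a : A) :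
    (p.map φ).ρ a = φ.mapMatrix (p.ρ a) := rfl

theorem Pt.map_id (p : Pt k A x g R) : p.map (AlgHom.id k R) = p := by
  apply Pt.ext; apply AlgHom.ext; intro a
  ext i j; simp

theorem Pt.map_comp (φ : R →ₐ[k] R') (φ' : R' →ₐ[k] R'') (p : Pt k A x g R) :
    p.map (φ'.comp φ) = (p.map φ).map φ' := by
  apply Pt.ext; apply AlgHom.ext; intro a
  ext i j; simp

/-- The `R`-linear extension `R ⊗ A → M_g(R)` of `ρ`. -/
def Pt.rho (p : Pt k A x g R) : R ⊗[k] A →ₐ[R] Matrix (Fin g) (Fin g) R :=
  Algebra.TensorProduct.lift (Algebra.ofId R _) p.ρ (fun r a => by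
    rw [Algebra.ofId_apply]; exact Algebra.commutes r (p.ρ a))

@[simp] theorem Pt.rho_tmul (p : Pt k A x g R) (r : R) (a : A) :
    p.rho (r ⊗ₜ[k] a) = r • p.ρ a := by
  simp [Pt.rho, Algebra.ofId_apply, Algebra.smul_def]

/-- The first basis vector (the cyclic vector `1 ∈ O(Z)`); it is `0` when `g = 0`. -/
def e0 (g : ℕ) (R : Type u) [CommRing R] : Fin g → R := fun i => if (i : ℕ) = 0 then 1 else 0

/-- The quotient map `R ⊗ A → O(Z) = R^g`, `b ↦ ρ(b) e₀`. -/
def Pt.quot (p : Pt k A x g R) : R ⊗[k] A →ₗ[R] (Fin g → R) where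
  toFun b := (p.rho b).mulVec (e0 g R)
  map_add' b b' := by rw [map_add, Matrix.add_mulVec]
  map_smul' r b := by rw [map_smul, Matrix.smul_mulVec, RingHom.id_apply]

/-- The ideal of the divisor `Z` of a chart point. -/
def Pt.ideal (p : Pt k A x g R) : Ideal (R ⊗[k] A) where
  carrier := {b | p.quot b = 0}
  add_mem' {a b} ha hb := by
    simp only [Set.mem_ofPred_eq] at ha hb ⊢; rw [map_add, ha, hb, add_zero]
  zero_mem' := by simp only [Set.mem_ofPred_eq, map_zero]
  smul_mem' c b hb := by
    simp only [Set.mem_ofPred_eq, smul_eq_mul] at hb ⊢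
    change (p.rho (c * b)).mulVec (e0 g R) = 0
    have hb' : (p.rho b).mulVec (e0 g R) = 0 := hb
    rw [map_mul, ← Matrix.mulVec_mulVec, hb', Matrix.mulVec_zero]

theorem Pt.mem_ideal (p : Pt k A x g R) (b : R ⊗[k] A) :
    b ∈ p.ideal ↔ (p.rho b).mulVec (e0 g R) = 0 := Iff.rfl

/-- A universal point: `B` represents the chart functor. -/
structure IsUniv {B : Type u} [CommRing B] [Algebra k B] (u : Pt k A x g B) : Prop where
  bij : ∀ (R : Type u) [CommRing R] [Algebra k R],
    Function.Bijective (fun φ : B →ₐ[k] R => u.map φ)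

end Pt

/-! ## The leaves of CHART, part 1 (pure algebra) -/

/-- **CH-CYC** (cyclic vector lemma): for a chart point, `ρ(x^i) e₀ = e_i`; hence `quot` is onto, every `ρ b`
is a polynomial in the companion matrix `ρ x`, and `ρ` is determined by `quot`:
`(ρ b)_{ij} = (quot (b * x^j))_i`. -/
def Stmt_CYC : Prop :=
  ∀ (k : Type u) [CommRing k] (A : Type u) [CommRing A] [Algebra k A] (x : A) (g : ℕ)
    (R : Type u) [CommRing R] [Algebra k R] (p : Pt k A x g R),
    (∀ i : Fin g, p.quot ((1 : R) ⊗ₜ[k] x ^ (i : ℕ)) = Pi.single i 1) ∧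
    Function.Surjective p.quot ∧
    (∀ (b : R ⊗[k] A) (i j : Fin g), p.rho b i j = p.quot (b * (1 : R) ⊗ₜ[k] x ^ (j : ℕ)) i) ∧
    (∀ b : R ⊗[k] A, b ∈ p.ideal ↔ p.rho b = 0)

/-- **CH-IDEAL**: chart points = ideals `I ⊂ R ⊗ A` such that the classes of `1, x, …, x^(g-1)` are an `R`-basis
of `(R ⊗ A)/I`. -/
def Stmt_IDEAL : Prop :=
  ∀ (k : Type u) [CommRing k] (A : Type u) [CommRing A] [Algebra k A] (x : A) (g : ℕ)
    (R : Type u) [CommRing R] [Algebra k R],
    (∀ p p' : Pt k A x g R, p.ideal = p'.ideal → p = p') ∧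
    (∀ I : Ideal (R ⊗[k] A),
      (∃ b : Module.Basis (Fin g) R ((R ⊗[k] A) ⧸ I),
        ∀ i : Fin g, b i = Ideal.Quotient.mk I ((1 : R) ⊗ₜ[k] x ^ (i : ℕ))) →
      ∃ p : Pt k A x g R, p.ideal = I)

/-- **CH-HILB** (representability; = the ADHM core for `b_i = x^i`): if `A` is a finitely presented `k`-algebra,
the chart functor is represented by a finitely presented `k`-algebra. -/
def Stmt_HILB : Prop :=
  ∀ (k : Type u) [CommRing k] (A : Type u) [CommRing A] [Algebra k A] [Algebra.FinitePresentation k A]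
    (x : A) (g : ℕ),
    ∃ (B : Type u) (_ : CommRing B) (_ : Algebra k B) (_ : Algebra.FinitePresentation k B)
      (u : Pt k A x g B), IsUniv u

/-- **CH-LIFT** (the infinitesimal lifting property; the heart of ET): if `k[X] → A`, `X ↦ x`, is formally étale,
then chart points lift along square-zero extensions. -/
def Stmt_LIFT : Prop :=
  ∀ (k : Type u) [CommRing k] (A : Type u) [CommRing A] [Algebra k A] (x : A) (g : ℕ),
    (Polynomial.aeval (R := k) x).toRingHom.FormallyEtale →
    ∀ (R : Type u) [CommRing R] [Algebra k R] (I : Ideal R), I ^ 2 = ⊥ →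
      Function.Surjective (fun p : Pt k A x g R => p.map (Ideal.Quotient.mkₐ k I))

/-- **CH-SMOOTH** (= ET): the representing algebra of the chart is smooth over `k`. -/
def Stmt_SMOOTH : Prop :=
  ∀ (k : Type u) [CommRing k] (A : Type u) [CommRing A] [Algebra k A] [Algebra.FinitePresentation k A]
    (x : A) (g : ℕ), (Polynomial.aeval (R := k) x).toRingHom.FormallyEtale →
    ∀ (B : Type u) [CommRing B] [Algebra k B] [Algebra.FinitePresentation k B] (u : Pt k A x g B),
      IsUniv u → Algebra.Smooth k B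

/-- **CH-OPENUNIT**: for `h : A`, the locus where `Z ⊂ D(h)` is the principal open `det ρ(h) ≠ 0`:
points of `(A[1/h], x)` = points `p` of `(A, x)` with `ρ(h)` invertible. -/
def Stmt_OPENUNIT : Prop :=
  ∀ (k : Type u) [CommRing k] (A : Type u) [CommRing A] [Algebra k A] (x h : A)
    (A' : Type u) [CommRing A'] [Algebra k A'] [Algebra A A'] [IsScalarTower k A A']
    [IsLocalization.Away h A'] (g : ℕ) (R : Type u) [CommRing R] [Algebra k R],
    ∀ p : Pt k A x g R, IsUnit (p.ρ h).det ↔
      ∃ p' : Pt k A' (algebraMap A A' x) g R, ∀ a : A, p'.ρ (algebraMap A A' a) = p.ρ a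

end Fermat.Agent.S25.Chart
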