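/-
helper4, S25 (Jacobian exists), package CHART — INTERFACE FILE, part 2: the chart and the line bundles.
Imports the types of helper71 (S25/LB/Defs.lean: `CurveDatum`, `Triple`) and part 1 (S25/Chart/Defs.lean: `Pt`).

SETTING.  `𝒞` a good curve datum, `h : 𝒞.B0` with `B0[1/h]` étale over `k[x0]` (`IsEtAt`), `g` the genus.
A chart point `p : Pt k 𝒞.B0 𝒞.x0 g R` with `det ρ(h)` a unit is an effective relative divisor `Z_p ⊂ D(h) × Spec R` of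
degree `g` (ideal `p.ideal ⊂ R ⊗ B0` on the chart `V0`, `p.ideal1 ⊂ R ⊗ B1` on the chart `V1`; `Z_p` does not meet
`x0 = ∞`, in particular not the base point).
`IsDiv L s0 s1 p` : `(s0, s1)` is a regular global section of the triple `L` with divisor `Z_p` (so `L ≅ O(Z_p)`).
`BC φ L L'`      : `L'` (over `R'`) is the base change of `L` (over `R`) along `φ : R →ₐ[k] R'` (data).

THE OUTPUT OF THE PACKAGE is `Stmt_CHARTLEMMA` (consumed by TOP) and the limit reduction `Stmt_LIMOBJ`, `Stmt_LIMISO`.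
-/
import Fermat.Agent.S25.Chart.Defs
import Fermat.Agent.S25.LB.DefsB

set_option autoImplicit false

universe u

open Polynomial TensorProduct

namespace Fermat.Agent.S25.Chart

open Fermat.Agent.S25.LB

variable {k : Type u} [Field k]

/-- The étale locus: `h ≠ 0` and `k[X] → B0[1/h]`, `X ↦ x0`, is formally étale. -/
def IsEtAt (𝒞 : CurveDatum k) (h : 𝒞.B0) : Prop :=
  h ≠ 0 ∧ ((algebraMap 𝒞.B0 (Localization.Away h)).comp
    (Polynomial.aeval (R := k) 𝒞.x0).toRingHom).FormallyEtale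

section BC

variable {𝒞 : CurveDatum k} {R : Type u} [CommRing R] [Algebra k R] {R' : Type u} [CommRing R']
  [Algebra k R']

/-- The ring map `R ⊗ B → R' ⊗ B` induced by `φ : R → R'`. -/
noncomputable def tmap (φ : R →ₐ[k] R') (B : Type u) [CommRing B] [Algebra k B] :
    (R ⊗[k] B) →ₐ[k] (R' ⊗[k] B) :=
  Algebra.TensorProduct.map φ (AlgHom.id k B)

/-- `L'` is the base change of `L` along `φ`: semilinear maps `b_i : L.P_i → L'.P_i`, compatible with the restriction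
maps, whose images generate (a surjection of invertible modules is an isomorphism, so
`(R' ⊗ B_i) ⊗_(R ⊗ B_i) L.P_i ≃ L'.P_i`). -/
structure BC (φ : R →ₐ[k] R') (L : Triple 𝒞 R) (L' : Triple 𝒞 R') where
  b0 : L.P0 →+ L'.P0
  b1 : L.P1 →+ L'.P1
  b01 : L.P01 →+ L'.P01
  semi0 : ∀ (c : R ⊗[k] 𝒞.B0) (q : L.P0), b0 (c • q) = tmap φ 𝒞.B0 c • b0 q
  semi1 : ∀ (c : R ⊗[k] 𝒞.B1) (q : L.P1), b1 (c • q) = tmap φ 𝒞.B1 c • b1 q
  semi01 : ∀ (c : R ⊗[k] 𝒞.B01) (q : L.P01), b01 (c • q) = tmap φ 𝒞.B01 c • b01 q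
  comm0 : ∀ q, b01 (L.r0 q) = L'.r0 (b0 q)
  comm1 : ∀ q, b01 (L.r1 q) = L'.r1 (b1 q)
  gen0 : Submodule.span (R' ⊗[k] 𝒞.B0) (Set.range b0) = ⊤
  gen1 : Submodule.span (R' ⊗[k] 𝒞.B1) (Set.range b1) = ⊤

/-- The localisation map as a `k`-algebra map. -/
noncomputable def awayMap (r : R) : R →ₐ[k] Localization.Away r :=
  IsScalarTower.toAlgHom k R (Localization.Away r)

end BC

section Div

variable {𝒞 : CurveDatum k} {g : ℕ} {R : Type u} [CommRing R] [Algebra k R]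

/-- The ideal of `Z_p ∩ V1` in `R ⊗ B1`. -/
noncomputable def Pt.ideal1 (p : Pt k 𝒞.B0 𝒞.x0 g R) : Ideal (R ⊗[k] 𝒞.B1) :=
  Ideal.comap (𝒞.ι1 R) (Ideal.map (𝒞.ι0 R) p.ideal)

/-- `(s0, s1)` is a regular section of `L` with divisor `Z_p`: `p.ideal = (S0 s0 : L.P0)` and
`p.ideal1 = (S1 s1 : L.P1)`. -/
structure IsDiv (L : Triple 𝒞 R) (s0 : L.P0) (s1 : L.P1) (p : Pt k 𝒞.B0 𝒞.x0 g R) : Prop where
  glue : L.r0 s0 = L.r1 s1
  reg0 : ∀ c : R ⊗[k] 𝒞.B0, c • s0 = 0 → c = 0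
  reg1 : ∀ c : R ⊗[k] 𝒞.B1, c • s1 = 0 → c = 0
  div0 : ∀ c : R ⊗[k] 𝒞.B0, c ∈ p.ideal ↔ ∀ q : L.P0, ∃ d : R ⊗[k] 𝒞.B0, c • q = d • s0
  div1 : ∀ c : R ⊗[k] 𝒞.B1, c ∈ p.ideal1 ↔ ∀ q : L.P1, ∃ d : R ⊗[k] 𝒞.B1, c • q = d • s1

/-- The section `(s0, s1)` generates `H0 L` over `R`. -/
def GenH0 (L : Triple 𝒞 R) (s0 : L.P0) (s1 : L.P1) : Prop :=
  ∀ t0 : L.P0, ∀ t1 : L.P1, L.r0 t0 = L.r1 t1 →
    ∃ r : R, t0 = ((r ⊗ₜ[k] (1 : 𝒞.B0)) : R ⊗[k] 𝒞.B0) • s0 ∧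
      t1 = ((r ⊗ₜ[k] (1 : 𝒞.B1)) : R ⊗[k] 𝒞.B1) • s1

/-- The genus of a curve datum is `g`: `H1` of some (= every) unit triple over `k` has dimension `g`. -/
def IsGenus (𝒞 : CurveDatum k) (g : ℕ) : Prop :=
  ∀ (L : Triple 𝒞 k) (e0 : L.P0 ≃ₗ[k ⊗[k] 𝒞.B0] (k ⊗[k] 𝒞.B0))
    (e1 : L.P1 ≃ₗ[k ⊗[k] 𝒞.B1] (k ⊗[k] 𝒞.B1))
    (e01 : L.P01 ≃ₗ[k ⊗[k] 𝒞.B01] (k ⊗[k] 𝒞.B01)),
    (∀ q, e01 (L.r0 q) = 𝒞.ι0 k (e0 q)) → (∀ q, e01 (L.r1 q) = 𝒞.ι1 k (e1 q)) →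
    Module.finrank k L.H1 = g

end Div

/-! ## Leaves, part 2 -/

/-- **DIV-EX**: every chart point in the étale locus is the divisor of a regular section of a triple
(`L = O(Z_p)`, `P0 = Hom(p.ideal, R ⊗ B0)`), and that triple is rigid (`Z_p` misses the base point).
Key: a section of an étale map is an open-closed immersion (`ker` is generated by an idempotent), so `p.ideal` is
locally generated by the non-zero-divisor `f(x0)`, `f = charpoly (ρ x0)`.  Valid for EVERY `k`-algebra `R`. -/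
def Stmt_DIVEX : Prop :=
  ∀ (k : Type u) [Field k] (𝒞 : CurveDatum k), 𝒞.IsGood → ∀ h : 𝒞.B0, IsEtAt 𝒞 h →
    ∀ (g : ℕ) (R : Type u) [CommRing R] [Algebra k R] (p : Pt k 𝒞.B0 𝒞.x0 g R),
      IsUnit (p.ρ h).det →
      ∃ (L : Triple 𝒞 R) (s0 : L.P0) (s1 : L.P1), IsDiv L s0 s1 p ∧ L.IsRigid

/-- **DIV-UNIQ**: the triple of a chart point is unique up to isomorphism. -/
def Stmt_DIVUNIQ : Prop :=
  ∀ (k : Type u) [Field k] (𝒞 : CurveDatum k), 𝒞.IsGood →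
    ∀ (g : ℕ) (R : Type u) [CommRing R] [Algebra k R] (p : Pt k 𝒞.B0 𝒞.x0 g R)
      (L L' : Triple 𝒞 R) (s0 : L.P0) (s1 : L.P1) (s0' : L'.P0) (s1' : L'.P1),
      IsDiv L s0 s1 p → IsDiv L' s0' s1' p → Nonempty (Triple.Iso L L')

/-- **DIV-BC**: base change of the divisor of a section. -/
def Stmt_DIVBC : Prop :=
  ∀ (k : Type u) [Field k] (𝒞 : CurveDatum k), 𝒞.IsGood →
    ∀ (g : ℕ) (R R' : Type u) [CommRing R] [Algebra k R] [CommRing R'] [Algebra k R']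
      (φ : R →ₐ[k] R') (p : Pt k 𝒞.B0 𝒞.x0 g R)
      (L : Triple 𝒞 R) (L' : Triple 𝒞 R') (β : BC φ L L') (s0 : L.P0) (s1 : L.P1),
      IsDiv L s0 s1 p → IsDiv L' (β.b0 s0) (β.b1 s1) (p.map φ)

/-- **DIV-H0**: on the non-special locus (`H1 = 0`) the canonical section generates `H0`
(`0 → O → O(Z) → O(Z)|Z → 0`, `H0(O) = R`, `H0(O(Z)|Z) ≅ R^g → H1(O) ≅ R^g` onto hence bijective). -/
def Stmt_DIVH0 : Prop :=
  ∀ (k : Type u) [Field k] (𝒞 : CurveDatum k), 𝒞.IsGood → ∀ g : ℕ, IsGenus 𝒞 g →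
    ∀ (R : Type u) [CommRing R] [Algebra k R] (p : Pt k 𝒞.B0 𝒞.x0 g R)
      (L : Triple 𝒞 R) (s0 : L.P0) (s1 : L.P1),
      IsDiv L s0 s1 p → Subsingleton L.H1 → GenH0 L s0 s1

/-- **DIV-MONO**: a triple whose `H0` is generated by a section with divisor `Z_p` determines `p`. -/
def Stmt_MONO : Prop :=
  ∀ (k : Type u) [Field k] (𝒞 : CurveDatum k), 𝒞.IsGood →
    ∀ (g : ℕ) (R : Type u) [CommRing R] [Algebra k R] (p p' : Pt k 𝒞.B0 𝒞.x0 g R)
      (L L' : Triple 𝒞 R) (s0 : L.P0) (s1 : L.P1) (s0' : L'.P0) (s1' : L'.P1),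
      IsDiv L s0 s1 p → IsDiv L' s0' s1' p' → GenH0 L s0 s1 → Nonempty (Triple.Iso L L') → p = p'

/-- **DIV-SPREAD** (the chart is open): `R` of finite type over `k`, `t` a `k`-point of `Spec R`; if the fibre `L_t` is
non-special with divisor a chart point, the same holds over a neighbourhood `D(r)` of `t`. -/
def Stmt_SPREAD : Prop :=
  ∀ (k : Type u) [Field k] [IsAlgClosed k] (𝒞 : CurveDatum k), 𝒞.IsGood → ∀ h : 𝒞.B0, IsEtAt 𝒞 h →
    ∀ g : ℕ, IsGenus 𝒞 g →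
    ∀ (R : Type u) [CommRing R] [Algebra k R] [Algebra.FiniteType k R] (L : Triple 𝒞 R)
      (t : R →ₐ[k] k) (Lt : Triple 𝒞 k) (_ : BC t L Lt) (pt : Pt k 𝒞.B0 𝒞.x0 g k)
      (s0 : Lt.P0) (s1 : Lt.P1),
      IsDiv Lt s0 s1 pt → IsUnit (pt.ρ h).det → Subsingleton Lt.H1 →
      ∃ r : R, t r ≠ 0 ∧
        ∃ (Lr : Triple 𝒞 (Localization.Away r)) (_ : BC (awayMap r) L Lr)
          (p : Pt k 𝒞.B0 𝒞.x0 g (Localization.Away r)) (σ0 : Lr.P0) (σ1 : Lr.P1),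
          IsDiv Lr σ0 σ1 p ∧ IsUnit (p.ρ h).det ∧ Subsingleton Lr.H1

/-- **CHARTLEMMA** (the output for TOP): a smooth finitely presented `k`-algebra `B` with a rigid triple `P` over `B`,
non-special (`H1 = 0` after every base change), such that
(mono) `φ ↦ φ^* P` is injective on `Hom_k(B, R)` up to isomorphism of triples, for every `R`;
(open) for `R` of finite type and a `k`-point `t`: if `L_t ≅ y^* P` for a `k`-point `y` of `B`, then `L ≅ φ^* P`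
over a neighbourhood `D(r)` of `t`;
(centre) `B` has a `k`-point.
Proof: `B = B_univ[1/(det ρ(h) · δ)]` (HILB for `B0[1/h]`, OPENUNIT, δ from FG + BC1 + Nakayama at a non-special
point given by NUM-NSP), `P` from DIVEX, (mono) from MONO + DIVH0 + DIVBC, (open) from SPREAD + DIVUNIQ. -/
def Stmt_CHARTLEMMA : Prop :=
  ∀ (k : Type u) [Field k] [IsAlgClosed k] (𝒞 : CurveDatum k), 𝒞.IsGood → ∀ h : 𝒞.B0, IsEtAt 𝒞 h →
    ∃ (B : Type u) (_ : CommRing B) (_ : Algebra k B) (_ : Algebra.FinitePresentation k B)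
      (_ : Algebra.Smooth k B) (P : Triple 𝒞 B),
      P.IsRigid ∧ Nonempty (B →ₐ[k] k) ∧
      (∀ (R : Type u) [CommRing R] [Algebra k R] (φ : B →ₐ[k] R) (L : Triple 𝒞 R),
        BC φ P L → Subsingleton L.H1 ∧ ∃ s0 s1, L.r0 s0 = L.r1 s1 ∧ GenH0 L s0 s1 ∧
          (∀ c : R ⊗[k] 𝒞.B0, c • s0 = 0 → c = 0)) ∧
      (∀ (R : Type u) [CommRing R] [Algebra k R] (φ φ' : B →ₐ[k] R) (L L' : Triple 𝒞 R),
        BC φ P L → BC φ' P L' → Nonempty (Triple.Iso L L') → φ = φ') ∧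
      (∀ (R : Type u) [CommRing R] [Algebra k R] [Algebra.FiniteType k R] (L : Triple 𝒞 R)
        (t : R →ₐ[k] k) (Lt : Triple 𝒞 k) (y : B →ₐ[k] k) (Py : Triple 𝒞 k),
        BC t L Lt → BC y P Py → Nonempty (Triple.Iso Lt Py) →
        ∃ r : R, t r ≠ 0 ∧
          ∃ (Lr : Triple 𝒞 (Localization.Away r)) (φ : B →ₐ[k] Localization.Away r)
            (Pφ : Triple 𝒞 (Localization.Away r)),
            Nonempty (BC (awayMap r) L Lr) ∧ Nonempty (BC φ P Pφ) ∧ Nonempty (Triple.Iso Lr Pφ))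

/-! ## Limit reduction (LIM) -/

/-- **LIM-OBJ**: every triple over a `k`-algebra `R` is the base change of a triple over a finitely generated
subalgebra (an invertible module is the image of an idempotent matrix; the gluing is a matrix; `R₀ ⊗ B ⊂ R ⊗ B`
because `B` is flat over the field `k`; rank one descends because `R₀ → R` is injective). -/
def Stmt_LIMOBJ : Prop :=
  ∀ (k : Type u) [Field k] (𝒞 : CurveDatum k), 𝒞.IsGood →
    ∀ (R : Type u) [CommRing R] [Algebra k R] (L : Triple 𝒞 R),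
      ∃ (R₀ : Subalgebra k R), R₀.FG ∧ ∃ L₀ : Triple 𝒞 R₀, Nonempty (BC R₀.val L₀ L)

/-- **LIM-ISO**: an isomorphism between the base changes to `R` of two triples over a finitely generated
subalgebra `R₀` is defined over a larger finitely generated subalgebra `R₁`. -/
def Stmt_LIMISO : Prop :=
  ∀ (k : Type u) [Field k] (𝒞 : CurveDatum k), 𝒞.IsGood →
    ∀ (R : Type u) [CommRing R] [Algebra k R] (R₀ : Subalgebra k R) (L₀ L₀' : Triple 𝒞 R₀)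
      (L L' : Triple 𝒞 R), R₀.FG → BC R₀.val L₀ L → BC R₀.val L₀' L' → Nonempty (Triple.Iso L L') →
      ∃ (R₁ : Subalgebra k R) (hle : R₀ ≤ R₁) (L₁ L₁' : Triple 𝒞 R₁), R₁.FG ∧
        Nonempty (BC (Subalgebra.inclusion hle) L₀ L₁) ∧
        Nonempty (BC (Subalgebra.inclusion hle) L₀' L₁') ∧ Nonempty (Triple.Iso L₁ L₁')

/-- **LIM-RIG**: rigidity descends to a finitely generated subalgebra. -/
def Stmt_LIMRIG : Prop :=
  ∀ (k : Type u) [Field k] (𝒞 : CurveDatum k), 𝒞.IsGood →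
    ∀ (R : Type u) [CommRing R] [Algebra k R] (R₀ : Subalgebra k R) (L₀ : Triple 𝒞 R₀)
      (L : Triple 𝒞 R), R₀.FG → BC R₀.val L₀ L → L.IsRigid →
      ∃ (R₁ : Subalgebra k R) (hle : R₀ ≤ R₁) (L₁ : Triple 𝒞 R₁), R₁.FG ∧
        Nonempty (BC (Subalgebra.inclusion hle) L₀ L₁) ∧ L₁.IsRigid

end Fermat.Agent.S25.Chart
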