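import Fermat.Agent.S25.Chart.H82_LimTens

/-!
# S25 (Jacobian exists), package CHART, leaf LIM-OBJ (helper82)

**`stmt_LIMOBJ : Stmt_LIMOBJ`**: every triple `L` over a `k`-algebra `R` is the base change of a
triple over a finitely generated subalgebra `R₀ ⊂ R`.

Construction: dual bases `(p_i, q_i)` of `P0`, `P1` (trace one), numerators `y` of the
`r0 (p0 j)` in `P1` and of the `r1 (p1 i)` in `P0`; `R₀` contains the coordinates of the four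
matrices `q0 i (p0 j)`, `q0 j (yx i)`, `q1 i (p1 j)`, `q1 i (yz j)`; the triple over `R₀` is made of
the sub-lattices `Q0 = ∑ (R₀ ⊗ B0) p0 j ⊂ P0`, `Q1 = ∑ (R₀ ⊗ B1) p1 i ⊂ P1`,
`Q01 = (R₀ ⊗ B01) r0 (Q0) ⊂ P01`; the maps of the base change are the inclusions.
-/

set_option autoImplicit false
set_option linter.style.haveILetI false
set_option linter.unusedSectionVars false
set_option linter.unusedVariables false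

universe u

noncomputable section

open TensorProduct

namespace Fermat.Agent.S25.Chart.H82

open Fermat.Agent.S25.LB Fermat.Agent.S25.Chart

variable {k : Type u} [Field k]

section Build

variable {𝒞 : CurveDatum k} {R : Type u} [CommRing R] [Algebra k R] (L : Triple 𝒞 R)
  (R₀ : Subalgebra k R)

/-- `R₀ ⊗ B0 → R ⊗ B0`. -/
abbrev tt0 (𝒞 : CurveDatum k) (R₀ : Subalgebra k R) : (↥R₀ ⊗[k] 𝒞.B0) →+* (R ⊗[k] 𝒞.B0) :=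
  (tmap R₀.val 𝒞.B0).toRingHom

/-- `R₀ ⊗ B1 → R ⊗ B1`. -/
abbrev tt1 (𝒞 : CurveDatum k) (R₀ : Subalgebra k R) : (↥R₀ ⊗[k] 𝒞.B1) →+* (R ⊗[k] 𝒞.B1) :=
  (tmap R₀.val 𝒞.B1).toRingHom

/-- `R₀ ⊗ B01 → R ⊗ B01`. -/
abbrev tt01 (𝒞 : CurveDatum k) (R₀ : Subalgebra k R) :
    (↥R₀ ⊗[k] 𝒞.B01) →+* (R ⊗[k] 𝒞.B01) :=
  (tmap R₀.val 𝒞.B01).toRingHom

theorem tt0_one_tmul (b : 𝒞.B0) :
    tt0 𝒞 R₀ ((1 : ↥R₀) ⊗ₜ[k] b) = (1 : R) ⊗ₜ[k] b := by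
  change tmap R₀.val 𝒞.B0 _ = _
  rw [tmap_tmul, map_one]

theorem tt1_one_tmul (b : 𝒞.B1) :
    tt1 𝒞 R₀ ((1 : ↥R₀) ⊗ₜ[k] b) = (1 : R) ⊗ₜ[k] b := by
  change tmap R₀.val 𝒞.B1 _ = _
  rw [tmap_tmul, map_one]

theorem tt01_one_tmul (b : 𝒞.B01) :
    tt01 𝒞 R₀ ((1 : ↥R₀) ⊗ₜ[k] b) = (1 : R) ⊗ₜ[k] b := by
  change tmap R₀.val 𝒞.B01 _ = _
  rw [tmap_tmul, map_one]

theorem ι0_tt0 (c : ↥R₀ ⊗[k] 𝒞.B0) : 𝒞.ι0 R (tt0 𝒞 R₀ c) = tt01 𝒞 R₀ (𝒞.ι0 ↥R₀ c) :=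
  ι0_tmap 𝒞 R₀.val c

theorem ι1_tt1 (c : ↥R₀ ⊗[k] 𝒞.B1) : 𝒞.ι1 R (tt1 𝒞 R₀ c) = tt01 𝒞 R₀ (𝒞.ι1 ↥R₀ c) :=
  ι1_tmap 𝒞 R₀.val c

variable {n0 n1 : ℕ} (p0 : Fin n0 → L.P0) (p1 : Fin n1 → L.P1)

/-- The sub-lattice of `P0`. -/
def Q0 : Submodule (↥R₀ ⊗[k] 𝒞.B0) (Res (tt0 𝒞 R₀) L.P0) := descSub (tt0 𝒞 R₀) p0

/-- The sub-lattice of `P1`. -/
def Q1 : Submodule (↥R₀ ⊗[k] 𝒞.B1) (Res (tt1 𝒞 R₀) L.P1) := descSub (tt1 𝒞 R₀) p1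

/-- The sub-lattice of `P01`. -/
def Q01 : Submodule (↥R₀ ⊗[k] 𝒞.B01) (Res (tt01 𝒞 R₀) L.P01) :=
  Submodule.span (↥R₀ ⊗[k] 𝒞.B01) {m | ∃ p : L.P0, p ∈ Q0 L R₀ p0 ∧ L.r0 p = m}

theorem r0_mem_Q01 {p : L.P0} (hp : p ∈ Q0 L R₀ p0) : L.r0 p ∈ Q01 L R₀ p0 :=
  Submodule.subset_span ⟨p, hp, rfl⟩

theorem smul_mem_Q01 (c : ↥R₀ ⊗[k] 𝒞.B01) {m : L.P01} (hm : m ∈ Q01 L R₀ p0) :
    tt01 𝒞 R₀ c • m ∈ Q01 L R₀ p0 :=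
  (Q01 L R₀ p0).smul_mem c hm

/-- Induction principle for `Q01`. -/
theorem Q01_induction {C : L.P01 → Prop} (h0 : C 0)
    (hr : ∀ p : L.P0, p ∈ Q0 L R₀ p0 → C (L.r0 p))
    (hadd : ∀ m m', C m → C m' → C (m + m'))
    (hsmul : ∀ (c : ↥R₀ ⊗[k] 𝒞.B01) m, C m → C (tt01 𝒞 R₀ c • m))
    {m : L.P01} (hm : m ∈ Q01 L R₀ p0) : C m := by
  induction hm using Submodule.span_induction with
  | mem x hx => obtain ⟨p, hp, rfl⟩ := hx; exact hr p hp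
  | zero => exact h0
  | add x y _ _ hx hy => exact hadd x y hx hy
  | smul c x _ hx => exact hsmul c x hx

/-- The restriction map `Q0 → Q01`. -/
def r0' : ↥(Q0 L R₀ p0) →ₛₗ[𝒞.ι0 ↥R₀] ↥(Q01 L R₀ p0) where
  toFun p := ⟨L.r0 p.1, r0_mem_Q01 L R₀ p0 p.2⟩
  map_add' p p' := by
    apply Subtype.ext
    change L.r0 ((show L.P0 from p.1) + (show L.P0 from p'.1)) = L.r0 p.1 + L.r0 p'.1
    rw [map_add]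
  map_smul' c p := by
    apply Subtype.ext
    change L.r0 (tt0 𝒞 R₀ c • (show L.P0 from p.1)) = tt01 𝒞 R₀ (𝒞.ι0 ↥R₀ c) • L.r0 p.1
    rw [L.r0.map_smulₛₗ, ι0_tt0]

variable (h1 : ∀ p : L.P1, p ∈ Q1 L R₀ p1 → L.r1 p ∈ Q01 L R₀ p0)

/-- The restriction map `Q1 → Q01`. -/
def r1' : ↥(Q1 L R₀ p1) →ₛₗ[𝒞.ι1 ↥R₀] ↥(Q01 L R₀ p0) where
  toFun p := ⟨L.r1 p.1, h1 p.1 p.2⟩
  map_add' p p' := by
    apply Subtype.ext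
    change L.r1 ((show L.P1 from p.1) + (show L.P1 from p'.1)) = L.r1 p.1 + L.r1 p'.1
    rw [map_add]
  map_smul' c p := by
    apply Subtype.ext
    change L.r1 (tt1 𝒞 R₀ c • (show L.P1 from p.1)) = tt01 𝒞 R₀ (𝒞.ι1 ↥R₀ c) • L.r1 p.1
    rw [L.r1.map_smulₛₗ, ι1_tt1]

variable (inv0 : Module.Invertible (↥R₀ ⊗[k] 𝒞.B0) ↥(Q0 L R₀ p0))
  (inv1 : Module.Invertible (↥R₀ ⊗[k] 𝒞.B1) ↥(Q1 L R₀ p1))
  (hs0 : ∀ m : L.P01, m ∈ Q01 L R₀ p0 →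
    ∃ (n : ℕ) (p : L.P0), p ∈ Q0 L R₀ p0 ∧ ((1 : R) ⊗ₜ[k] 𝒞.i0 𝒞.x0 : R ⊗[k] 𝒞.B01) ^ n • m = L.r0 p)
  (hs1 : ∀ m : L.P01, m ∈ Q01 L R₀ p0 →
    ∃ (n : ℕ) (p : L.P1), p ∈ Q1 L R₀ p1 ∧ ((1 : R) ⊗ₜ[k] 𝒞.i1 𝒞.z1 : R ⊗[k] 𝒞.B01) ^ n • m = L.r1 p)

/-- **The triple over `R₀`.** -/
def triple₀ : Triple 𝒞 ↥R₀ where
  P0 := ↥(Q0 L R₀ p0)
  P1 := ↥(Q1 L R₀ p1)
  P01 := ↥(Q01 L R₀ p0)
  r0 := r0' L R₀ p0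
  r1 := r1' L R₀ p0 p1 h1
  inv0 := inv0
  inv1 := inv1
  surj0 := by
    intro m
    obtain ⟨n, p, hp, h⟩ := hs0 m.1 m.2
    refine ⟨n, ⟨p, hp⟩, ?_⟩
    apply Subtype.ext
    change tt01 𝒞 R₀ (((1 : ↥R₀) ⊗ₜ[k] 𝒞.i0 𝒞.x0) ^ n) • (show L.P01 from m.1) = L.r0 p
    rw [map_pow, tt01_one_tmul]
    exact h
  ker0 := by
    intro p hp
    have hp' : L.r0 p.1 = 0 := congrArg Subtype.val hp
    obtain ⟨n, hn⟩ := L.ker0 p.1 hp'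
    refine ⟨n, ?_⟩
    apply Subtype.ext
    change tt0 𝒞 R₀ (((1 : ↥R₀) ⊗ₜ[k] 𝒞.x0) ^ n) • (show L.P0 from p.1) = 0
    rw [map_pow, tt0_one_tmul]
    exact hn
  surj1 := by
    intro m
    obtain ⟨n, p, hp, h⟩ := hs1 m.1 m.2
    refine ⟨n, ⟨p, hp⟩, ?_⟩
    apply Subtype.ext
    change tt01 𝒞 R₀ (((1 : ↥R₀) ⊗ₜ[k] 𝒞.i1 𝒞.z1) ^ n) • (show L.P01 from m.1) = L.r1 p
    rw [map_pow, tt01_one_tmul]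
    exact h
  ker1 := by
    intro p hp
    have hp' : L.r1 p.1 = 0 := congrArg Subtype.val hp
    obtain ⟨n, hn⟩ := L.ker1 p.1 hp'
    refine ⟨n, ?_⟩
    apply Subtype.ext
    change tt1 𝒞 R₀ (((1 : ↥R₀) ⊗ₜ[k] 𝒞.z1) ^ n) • (show L.P1 from p.1) = 0
    rw [map_pow, tt1_one_tmul]
    exact hn

/-- **The base change structure**: the inclusions. -/
def bc₀ (hgen0 : Submodule.span (R ⊗[k] 𝒞.B0) (Set.range p0) = ⊤)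
    (hgen1 : Submodule.span (R ⊗[k] 𝒞.B1) (Set.range p1) = ⊤) :
    BC R₀.val (triple₀ L R₀ p0 p1 h1 inv0 inv1 hs0 hs1) L where
  b0 := { toFun := fun p => p.1, map_zero' := rfl, map_add' := fun _ _ => rfl }
  b1 := { toFun := fun p => p.1, map_zero' := rfl, map_add' := fun _ _ => rfl }
  b01 := { toFun := fun p => p.1, map_zero' := rfl, map_add' := fun _ _ => rfl }
  semi0 := fun _ _ => rfl
  semi1 := fun _ _ => rfl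
  semi01 := fun _ _ => rfl
  comm0 := fun _ => rfl
  comm1 := fun _ => rfl
  gen0 := by
    rw [eq_top_iff, ← hgen0]
    refine Submodule.span_mono ?_
    rintro _ ⟨i, rfl⟩
    exact ⟨⟨p0 i, mem_descSub (tt0 𝒞 R₀) p0 i⟩, rfl⟩
  gen1 := by
    rw [eq_top_iff, ← hgen1]
    refine Submodule.span_mono ?_
    rintro _ ⟨i, rfl⟩
    exact ⟨⟨p1 i, mem_descSub (tt1 𝒞 R₀) p1 i⟩, rfl⟩

end Build

section Main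

variable {𝒞 : CurveDatum k} {R : Type u} [CommRing R] [Algebra k R]

/-- The generators of a dual basis span. -/
theorem span_of_dualBasis {S : Type*} [CommRing S] {M : Type*} [AddCommGroup M] [Module S M]
    {ι : Type*} [Fintype ι] (p : ι → M) (q : ι → Module.Dual S M) (h1 : ∑ i, q i (p i) = 1)
    (h2 : ∀ i (m m' : M), q i m • m' = q i m' • m) :
    Submodule.span S (Set.range p) = ⊤ := by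
  rw [eq_top_iff]
  intro m _
  rw [eq_sum_of_dualBasis p q h1 h2 m]
  exact Submodule.sum_mem _ (fun i _ => Submodule.smul_mem _ _ (Submodule.subset_span ⟨i, rfl⟩))

theorem unit_pow_smul (L : Triple 𝒞 R) (n : ℕ) (m : L.P01) :
    ((1 : R) ⊗ₜ[k] 𝒞.i1 𝒞.z1 : R ⊗[k] 𝒞.B01) ^ n
      • (((1 : R) ⊗ₜ[k] 𝒞.i0 𝒞.x0 : R ⊗[k] 𝒞.B01) ^ n • m) = m := by
  rw [smul_smul, ← mul_pow, mul_comm, Triple.unit_mul_unit, one_pow, one_smul]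

/-- **LIM-OBJ**, for one triple. -/
theorem limObj (hg : 𝒞.IsGood) (L : Triple 𝒞 R) :
    ∃ (R₀ : Subalgebra k R), R₀.FG ∧ ∃ L₀ : Triple 𝒞 R₀, Nonempty (BC R₀.val L₀ L) := by
  classical
  haveI := L.inv0
  haveI := L.inv1
  -- the dual bases
  obtain ⟨n0, p0, q0, h10⟩ := exists_dualBasis_of_invertible (S := R ⊗[k] 𝒞.B0) (M := L.P0)
  obtain ⟨n1, p1, q1, h11⟩ := exists_dualBasis_of_invertible (S := R ⊗[k] 𝒞.B1) (M := L.P1)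
  have h20 : ∀ i (m m' : L.P0), q0 i m • m' = q0 i m' • m := fun i m m' =>
    rankOne_of_invertible (q0 i) m m'
  have h21 : ∀ i (m m' : L.P1), q1 i m • m' = q1 i m' • m := fun i m m' =>
    rankOne_of_invertible (q1 i) m m'
  -- the numerators
  choose nz yz hz using fun j : Fin n0 => L.surj1 (L.r0 (p0 j))
  choose nx yx hx using fun i : Fin n1 => L.surj0 (L.r1 (p1 i))
  -- the subalgebra
  obtain ⟨Ra, fa, da⟩ := exists_fg_defOver_family 𝒞.B0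
    (fun ij : Fin n0 × Fin n0 => q0 ij.1 (p0 ij.2))
  obtain ⟨Rb, fb, db⟩ := exists_fg_defOver_family 𝒞.B0
    (fun ji : Fin n0 × Fin n1 => q0 ji.1 (yx ji.2))
  obtain ⟨Rc, fc, dc⟩ := exists_fg_defOver_family 𝒞.B1
    (fun ij : Fin n1 × Fin n1 => q1 ij.1 (p1 ij.2))
  obtain ⟨Rd, fd, dd⟩ := exists_fg_defOver_family 𝒞.B1
    (fun ij : Fin n1 × Fin n0 => q1 ij.1 (yz ij.2))
  set R₀ : Subalgebra k R := (Ra ⊔ Rb) ⊔ (Rc ⊔ Rd) with hR₀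
  have hfg : R₀.FG := (fa.sup fb).sup (fc.sup fd)
  have lea : Ra ≤ R₀ := le_sup_left.trans le_sup_left
  have leb : Rb ≤ R₀ := le_sup_right.trans le_sup_left
  have lec : Rc ≤ R₀ := le_sup_left.trans le_sup_right
  have led : Rd ≤ R₀ := le_sup_right.trans le_sup_right
  have hc0 : ∀ i j, q0 i (p0 j) ∈ (tt0 𝒞 R₀).range := fun i j =>
    (defOver_iff_mem_range R₀ _).1 (defOver_mono lea (da (i, j)))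
  have hy0 : ∀ j i, q0 j (yx i) ∈ (tt0 𝒞 R₀).range := fun j i =>
    (defOver_iff_mem_range R₀ _).1 (defOver_mono leb (db (j, i)))
  have hc1 : ∀ i j, q1 i (p1 j) ∈ (tt1 𝒞 R₀).range := fun i j =>
    (defOver_iff_mem_range R₀ _).1 (defOver_mono lec (dc (i, j)))
  have hy1 : ∀ i j, q1 i (yz j) ∈ (tt1 𝒞 R₀).range := fun i j =>
    (defOver_iff_mem_range R₀ _).1 (defOver_mono led (dd (i, j)))
  have inj0 : Function.Injective (tt0 𝒞 R₀) :=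
    tmap_injective 𝒞.B0 R₀.val Subtype.val_injective
  have inj1 : Function.Injective (tt1 𝒞 R₀) :=
    tmap_injective 𝒞.B1 R₀.val Subtype.val_injective
  -- invertibility
  have inv0 : Module.Invertible (↥R₀ ⊗[k] 𝒞.B0) ↥(Q0 L R₀ p0) :=
    invertible_descSub (tt0 𝒞 R₀) p0 q0 inj0 h10 h20 hc0
  have inv1 : Module.Invertible (↥R₀ ⊗[k] 𝒞.B1) ↥(Q1 L R₀ p1) :=
    invertible_descSub (tt1 𝒞 R₀) p1 q1 inj1 h11 h21 hc1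
  -- the numerators are in the sub-lattices
  have hyx : ∀ i, yx i ∈ Q0 L R₀ p0 := fun i =>
    (mem_descSub_iff (tt0 𝒞 R₀) p0 q0 h10 h20 hc0 (yx i)).2 (fun j => hy0 j i)
  have hyz : ∀ j, yz j ∈ Q1 L R₀ p1 := fun j =>
    (mem_descSub_iff (tt1 𝒞 R₀) p1 q1 h11 h21 hc1 (yz j)).2 (fun i => hy1 i j)
  -- `r1` maps `Q1` into `Q01`
  have h1 : ∀ p : L.P1, p ∈ Q1 L R₀ p1 → L.r1 p ∈ Q01 L R₀ p0 := by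
    intro p hp
    refine descSub_induction (tt1 𝒞 R₀) p1 (C := fun p => L.r1 p ∈ Q01 L R₀ p0) ?_ ?_ ?_ ?_ hp
    · rw [map_zero]
      exact (Q01 L R₀ p0).zero_mem
    · intro i
      have e : L.r1 (p1 i) = tt01 𝒞 R₀ (((1 : ↥R₀) ⊗ₜ[k] 𝒞.i1 𝒞.z1) ^ nx i) • L.r0 (yx i) := by
        rw [map_pow, tt01_one_tmul, ← hx i, unit_pow_smul]
      rw [e]
      exact smul_mem_Q01 L R₀ p0 _ (r0_mem_Q01 L R₀ p0 (hyx i))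
    · intro m m' hm hm'
      rw [map_add]
      exact (Q01 L R₀ p0).add_mem hm hm'
    · intro c m hm
      rw [L.r1.map_smulₛₗ, ι1_tt1]
      exact smul_mem_Q01 L R₀ p0 _ hm
  -- the localisation properties
  have hloc0 : ∀ c : ↥R₀ ⊗[k] 𝒞.B01, ∃ (n : ℕ) (a : ↥R₀ ⊗[k] 𝒞.B0),
      (𝒞.ι0 R (tt0 𝒞 R₀ ((1 : ↥R₀) ⊗ₜ[k] 𝒞.x0))) ^ n * tt01 𝒞 R₀ c = 𝒞.ι0 R (tt0 𝒞 R₀ a) := by
    intro c
    obtain ⟨n, a, ha⟩ := loc0_tensor ↥R₀ hg c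
    refine ⟨n, a, ?_⟩
    have e1 : 𝒞.ι0 R (tt0 𝒞 R₀ a) = tt01 𝒞 R₀ (𝒞.ι0 ↥R₀ a) := ι0_tt0 R₀ a
    rw [e1, ← ha, map_mul, map_pow, tt01_one_tmul, tt0_one_tmul, ι0_one_tmul_x0]
  have hloc1 : ∀ c : ↥R₀ ⊗[k] 𝒞.B01, ∃ (n : ℕ) (a : ↥R₀ ⊗[k] 𝒞.B1),
      (𝒞.ι1 R (tt1 𝒞 R₀ ((1 : ↥R₀) ⊗ₜ[k] 𝒞.z1))) ^ n * tt01 𝒞 R₀ c = 𝒞.ι1 R (tt1 𝒞 R₀ a) := by
    intro c
    obtain ⟨n, a, ha⟩ := loc1_tensor ↥R₀ hg c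
    refine ⟨n, a, ?_⟩
    have e1 : 𝒞.ι1 R (tt1 𝒞 R₀ a) = tt01 𝒞 R₀ (𝒞.ι1 ↥R₀ a) := ι1_tt1 R₀ a
    rw [e1, ← ha, map_mul, map_pow, tt01_one_tmul, tt1_one_tmul, ι1_one_tmul_z1]
  have ex0 : 𝒞.ι0 R (tt0 𝒞 R₀ ((1 : ↥R₀) ⊗ₜ[k] 𝒞.x0)) = (1 : R) ⊗ₜ[k] 𝒞.i0 𝒞.x0 := by
    rw [tt0_one_tmul, ι0_one_tmul_x0]
  have ex1 : 𝒞.ι1 R (tt1 𝒞 R₀ ((1 : ↥R₀) ⊗ₜ[k] 𝒞.z1)) = (1 : R) ⊗ₜ[k] 𝒞.i1 𝒞.z1 := by
    rw [tt1_one_tmul, ι1_one_tmul_z1]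
  -- `Q01 ⊂ Good` on both sides
  have g0 : ∀ m : L.P01, m ∈ Q01 L R₀ p0 →
      Good (tt0 𝒞 R₀) (𝒞.ι0 R) L.r0 (Q0 L R₀ p0) ((1 : ↥R₀) ⊗ₜ[k] 𝒞.x0) m := by
    intro m hm
    refine Q01_induction L R₀ p0
      (C := fun m => Good (tt0 𝒞 R₀) (𝒞.ι0 R) L.r0 (Q0 L R₀ p0) ((1 : ↥R₀) ⊗ₜ[k] 𝒞.x0) m)
      (good_zero _ _ _ _ _) (fun p hp => good_of_mem _ _ _ _ _ hp)
      (fun m m' h h' => good_add _ _ _ _ _ h h')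
      (fun c m h => good_smul (tt0 𝒞 R₀) (tt01 𝒞 R₀) (𝒞.ι0 R) L.r0 _ _ hloc0 c h) hm
  have g1r : ∀ p : L.P0, p ∈ Q0 L R₀ p0 →
      Good (tt1 𝒞 R₀) (𝒞.ι1 R) L.r1 (Q1 L R₀ p1) ((1 : ↥R₀) ⊗ₜ[k] 𝒞.z1) (L.r0 p) := by
    intro p hp
    refine descSub_induction (tt0 𝒞 R₀) p0
      (C := fun p => Good (tt1 𝒞 R₀) (𝒞.ι1 R) L.r1 (Q1 L R₀ p1) ((1 : ↥R₀) ⊗ₜ[k] 𝒞.z1)
        (L.r0 p)) ?_ ?_ ?_ ?_ hp
    · rw [map_zero]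
      exact good_zero _ _ _ _ _
    · intro j
      refine ⟨nz j, yz j, hyz j, ?_⟩
      rw [ex1]
      exact hz j
    · intro m m' h h'
      rw [map_add]
      exact good_add _ _ _ _ _ h h'
    · intro c m h
      rw [L.r0.map_smulₛₗ, ι0_tt0]
      exact good_smul (tt1 𝒞 R₀) (tt01 𝒞 R₀) (𝒞.ι1 R) L.r1 _ _ hloc1 _ h
  have g1 : ∀ m : L.P01, m ∈ Q01 L R₀ p0 →
      Good (tt1 𝒞 R₀) (𝒞.ι1 R) L.r1 (Q1 L R₀ p1) ((1 : ↥R₀) ⊗ₜ[k] 𝒞.z1) m := by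
    intro m hm
    refine Q01_induction L R₀ p0
      (C := fun m => Good (tt1 𝒞 R₀) (𝒞.ι1 R) L.r1 (Q1 L R₀ p1) ((1 : ↥R₀) ⊗ₜ[k] 𝒞.z1) m)
      (good_zero _ _ _ _ _) g1r
      (fun m m' h h' => good_add _ _ _ _ _ h h')
      (fun c m h => good_smul (tt1 𝒞 R₀) (tt01 𝒞 R₀) (𝒞.ι1 R) L.r1 _ _ hloc1 c h) hm
  have hs0 : ∀ m : L.P01, m ∈ Q01 L R₀ p0 → ∃ (n : ℕ) (p : L.P0), p ∈ Q0 L R₀ p0 ∧
      ((1 : R) ⊗ₜ[k] 𝒞.i0 𝒞.x0 : R ⊗[k] 𝒞.B01) ^ n • m = L.r0 p := by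
    intro m hm
    obtain ⟨n, p, hp, h⟩ := g0 m hm
    rw [ex0] at h
    exact ⟨n, p, hp, h⟩
  have hs1 : ∀ m : L.P01, m ∈ Q01 L R₀ p0 → ∃ (n : ℕ) (p : L.P1), p ∈ Q1 L R₀ p1 ∧
      ((1 : R) ⊗ₜ[k] 𝒞.i1 𝒞.z1 : R ⊗[k] 𝒞.B01) ^ n • m = L.r1 p := by
    intro m hm
    obtain ⟨n, p, hp, h⟩ := g1 m hm
    rw [ex1] at h
    exact ⟨n, p, hp, h⟩
  exact ⟨R₀, hfg, triple₀ L R₀ p0 p1 h1 inv0 inv1 hs0 hs1,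
    ⟨bc₀ L R₀ p0 p1 h1 inv0 inv1 hs0 hs1 (span_of_dualBasis p0 q0 h10 h20)
      (span_of_dualBasis p1 q1 h11 h21)⟩⟩

/-- **LIM-OBJ.** -/
theorem stmt_LIMOBJ : Stmt_LIMOBJ.{u} := by
  intro k _ 𝒞 hg R _ _ L
  exact limObj hg L

end Main

end Fermat.Agent.S25.Chart.H82
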