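/-
helper33, S25 (Jacobian exists), package CHART: the CHARTLEMMA assembly.

`chartLemma_of` : `Stmt_CHARTLEMMA` from the leaves
  HILB, SMOOTH, OPENUNIT (part 1), DIVEX, DIVUNIQ, DIVBC, DIVH0, MONO (part 2), SPREADN, ISODIV (part 3),
  LB.Stmt_BCEX, LB.Stmt_BCUNIQ, LB.Stmt_BCCOMP, LB.Stmt_BCDATA, LB.Stmt_FIBK (package LB) and
  `Stmt_NSP` (package NUM: the genus exists and there is a non-special chart point over `k` in the étale locus).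

Construction: `A' = B0[1/h]`, `(Bu, u)` the universal chart point of `(A', x0)` (HILB), smooth by SMOOTH;
`u₀` = the restriction of `u` to `B0` (a chart point of `B0` with `det ρ(h)` a unit, OPENUNIT);
`Lu` = the triple of `u₀` over `Bu` (DIVEX); `y₀ : Bu → k` the point of the non-special chart point of NSP;
`δ` with `y₀ δ ≠ 0` and `H1 = 0` over `D(δ)` (FIBK); `B = Bu[1/δ]`, `P` = the triple of `u₀|_B` over `B` (DIVEX).
-/
import Fermat.Agent.S25.Chart.H33_ChartAux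

set_option autoImplicit false
set_option maxHeartbeats 1000000

universe u

open Polynomial TensorProduct

namespace Fermat.Agent.S25.Chart.H33

open Fermat.Agent.S25.LB Fermat.Agent.S25.Chart Fermat.Agent.S25

/-- **NUM-NSP**: the genus exists, and there is a non-special chart point over `k` in the étale locus of `h`
(`g` general points of `D(h)`: "a general point drops `h1`"). -/
def Stmt_NSP : Prop :=
  ∀ (k : Type u) [Field k] [IsAlgClosed k] (𝒞 : CurveDatum k), 𝒞.IsGood → ∀ h : 𝒞.B0, IsEtAt 𝒞 h →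
    ∃ g : ℕ, IsGenus 𝒞 g ∧
      ∃ (pt : Pt k 𝒞.B0 𝒞.x0 g k) (Lt : Triple 𝒞 k) (s0 : Lt.P0) (s1 : Lt.P1),
        IsDiv Lt s0 s1 pt ∧ IsUnit (pt.ρ h).det ∧ Subsingleton Lt.H1

/-- `H1 = 0` is stable under base change of triples. -/
theorem h1_of_bc (hBCDATA : LB.Stmt_BCDATA.{u}) {k : Type u} [Field k] {𝒞 : CurveDatum k}
    (hG : 𝒞.IsGood) {R R' : Type u} [CommRing R] [Algebra k R] [CommRing R'] [Algebra k R']
    {φ : R →ₐ[k] R'} {L : Triple 𝒞 R} {L' : Triple 𝒞 R'} (β : BC φ L L')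
    (h : Subsingleton L.H1) : Subsingleton L'.H1 := by
  let _ : Algebra R R' := φ.toRingHom.toAlgebra
  obtain ⟨E⟩ := hBCDATA k 𝒞 hG R R' φ L L' β
  exact h1_subsingleton_of_dataIso E (h1_subsingleton_baseChange L.toData h R')

/-! ### The universal chart point of the étale locus -/

section Univ

variable {k : Type u} [Field k] {𝒞 : CurveDatum k} (h : 𝒞.B0) {g : ℕ}
  {Bu : Type u} [CommRing Bu] [Algebra k Bu]
  (uu : Pt k (Localization.Away h) (algebraMap 𝒞.B0 (Localization.Away h) 𝒞.x0) g Bu)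

/-- The universal chart point, restricted to `B0`. -/
abbrev u0 : Pt k 𝒞.B0 𝒞.x0 g Bu := restrict (Localization.Away h) uu

variable {h uu}

theorem isUnit_det_u0 (hOU : Stmt_OPENUNIT.{u}) : IsUnit ((u0 h uu).ρ h).det :=
  (hOU k 𝒞.B0 𝒞.x0 h (Localization.Away h) g Bu (u0 h uu)).2 ⟨uu, fun _ => rfl⟩

theorem exists_hom_of_pt (hOU : Stmt_OPENUNIT.{u}) (hu : IsUniv uu)
    {R : Type u} [CommRing R] [Algebra k R] (p : Pt k 𝒞.B0 𝒞.x0 g R)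
    (hp : IsUnit (p.ρ h).det) : ∃ ψ : Bu →ₐ[k] R, (u0 h uu).map ψ = p := by
  obtain ⟨p', hp'⟩ := (hOU k 𝒞.B0 𝒞.x0 h (Localization.Away h) g R p).1 hp
  obtain ⟨ψ, hψ⟩ := (hu.bij R).2 p'
  refine ⟨ψ, ?_⟩
  have hψ' : uu.map ψ = p' := hψ
  rw [← restrict_map, hψ']
  apply Pt.ext; apply AlgHom.ext; intro a
  exact hp' a

theorem hom_ext_of_pt (hu : IsUniv uu) {R : Type u} [CommRing R] [Algebra k R]
    (ψ ψ' : Bu →ₐ[k] R) (hψ : (u0 h uu).map ψ = (u0 h uu).map ψ') : ψ = ψ' := by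
  apply (hu.bij R).1
  change uu.map ψ = uu.map ψ'
  apply restrict_injective (Localization.Away h) h
  rw [restrict_map, restrict_map]
  exact hψ

end Univ

/-! ### Localisations away from an element -/

section Away

variable {k : Type u} [Field k] {R : Type u} [CommRing R] [Algebra k R]
  {S : Type u} [CommRing S] [Algebra k S]

/-- The lift of `f : R → S` to `R[1/r]` when `f r` is a unit. -/
noncomputable def awayLift (r : R) (f : R →ₐ[k] S) (hf : IsUnit (f r)) :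
    Localization.Away r →ₐ[k] S :=
  IsLocalization.Away.liftAlgHom (A := k) r (f := f) hf

theorem awayLift_comp (r : R) (f : R →ₐ[k] S) (hf : IsUnit (f r)) :
    (awayLift r f hf).comp (awayMap r) = f := by
  apply AlgHom.ext; intro a
  exact IsLocalization.Away.lift_eq r hf a

theorem away_hom_ext (r : R) (φ φ' : Localization.Away r →ₐ[k] S)
    (h : φ.comp (awayMap r) = φ'.comp (awayMap r)) : φ = φ' := by
  apply AlgHom.coe_ringHom_injective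
  apply IsLocalization.ringHom_ext (Submonoid.powers r)
  apply RingHom.ext; intro a
  exact congrArg (fun ψ : R →ₐ[k] S => ψ a) h

theorem awayDvd_comp (r ρ : R) (h : r ∣ ρ) :
    (awayDvd (k := k) r ρ h).comp (awayMap r) = awayMap ρ :=
  awayLift_comp r (awayMap ρ) (isUnit_awayMap_of_dvd r ρ h)

theorem isUnit_awayMap_self (r : R) : IsUnit (awayMap (k := k) r r) :=
  isUnit_awayMap_of_dvd r r dvd_rfl

end Away

/-! ### The universal chart exists and is smooth -/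

theorem exists_univ (hHILB : Stmt_HILB.{u}) (hSMOOTH : Stmt_SMOOTH.{u})
    {k : Type u} [Field k] {𝒞 : CurveDatum k} (hG : 𝒞.IsGood) {h : 𝒞.B0} (hEt : IsEtAt 𝒞 h)
    (g : ℕ) :
    ∃ (Bu : Type u) (_ : CommRing Bu) (_ : Algebra k Bu) (_ : Algebra.Smooth k Bu)
      (uu : Pt k (Localization.Away h) (algebraMap 𝒞.B0 (Localization.Away h) 𝒞.x0) g Bu),
      IsUniv uu := by
  have : Algebra.FinitePresentation k 𝒞.B0 := hG.smooth0.finitePresentation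
  have : Algebra.FinitePresentation 𝒞.B0 (Localization.Away h) :=
    IsLocalization.Away.finitePresentation h
  have : Algebra.FinitePresentation k (Localization.Away h) :=
    Algebra.FinitePresentation.trans k 𝒞.B0 (Localization.Away h)
  obtain ⟨Bu, _, _, _, uu, hu⟩ :=
    hHILB k (Localization.Away h) (algebraMap 𝒞.B0 (Localization.Away h) 𝒞.x0) g
  have hfe : (Polynomial.aeval (R := k)
      (algebraMap 𝒞.B0 (Localization.Away h) 𝒞.x0)).toRingHom.FormallyEtale := by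
    have he : (Polynomial.aeval (R := k) (algebraMap 𝒞.B0 (Localization.Away h) 𝒞.x0)).toRingHom =
        (algebraMap 𝒞.B0 (Localization.Away h)).comp
          (Polynomial.aeval (R := k) 𝒞.x0).toRingHom := by
      apply RingHom.ext; intro p
      exact Polynomial.aeval_algebraMap_apply (Localization.Away h) 𝒞.x0 p
    rw [he]; exact hEt.2
  exact ⟨Bu, _, _, hSMOOTH k _ _ g hfe Bu uu hu, uu, hu⟩

/-! ### The leaves -/

/-- The leaves used by the assembly. -/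
structure Leaves : Prop where
  hilb : Stmt_HILB.{u}
  smooth : Stmt_SMOOTH.{u}
  openunit : Stmt_OPENUNIT.{u}
  divex : Stmt_DIVEX.{u}
  divuniq : Stmt_DIVUNIQ.{u}
  divbc : Stmt_DIVBC.{u}
  divh0 : Stmt_DIVH0.{u}
  mono : Stmt_MONO.{u}
  spreadn : Stmt_SPREADN.{u}
  isodiv : Stmt_ISODIV.{u}
  bcex : LB.Stmt_BCEX.{u}
  bcuniq : LB.Stmt_BCUNIQ.{u}
  bccomp : LB.Stmt_BCCOMP.{u}
  bcdata : LB.Stmt_BCDATA.{u}
  fibk : LB.Stmt_FIBK.{u}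
  nsp : Stmt_NSP.{u}

/-! ### The three clauses -/

section Core

variable (H : Leaves.{u}) {k : Type u} [Field k] {𝒞 : CurveDatum k} (hG : 𝒞.IsGood)
  {h : 𝒞.B0} {g : ℕ} (hg : IsGenus 𝒞 g)
  {Bu : Type u} [CommRing Bu] [Algebra k Bu]
  {uu : Pt k (Localization.Away h) (algebraMap 𝒞.B0 (Localization.Away h) 𝒞.x0) g Bu}
  (hu : IsUniv uu) {δ : Bu} {P : Triple 𝒞 (Localization.Away δ)} {sP0 : P.P0} {sP1 : P.P1}
  (hdP : IsDiv P sP0 sP1 ((u0 h uu).map (awayMap δ))) (hH1 : Subsingleton P.H1)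

include H hG hg hdP hH1 in
theorem core_nsp {R : Type u} [CommRing R] [Algebra k R] (φ : Localization.Away δ →ₐ[k] R)
    (L : Triple 𝒞 R) (β : BC φ P L) :
    Subsingleton L.H1 ∧ ∃ s0 s1, L.r0 s0 = L.r1 s1 ∧ GenH0 L s0 s1 ∧
      (∀ c : R ⊗[k] 𝒞.B0, c • s0 = 0 → c = 0) := by
  have hH : Subsingleton L.H1 := h1_of_bc H.bcdata hG β hH1
  have hd : IsDiv L (β.b0 sP0) (β.b1 sP1) (((u0 h uu).map (awayMap δ)).map φ) :=
    H.divbc k 𝒞 hG g _ _ φ _ P L β sP0 sP1 hdP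
  exact ⟨hH, β.b0 sP0, β.b1 sP1, hd.glue, H.divh0 k 𝒞 hG g hg R _ L _ _ hd hH, hd.reg0⟩

include H hG hg hu hdP hH1 in
theorem core_mono {R : Type u} [CommRing R] [Algebra k R] (φ φ' : Localization.Away δ →ₐ[k] R)
    (L L' : Triple 𝒞 R) (β : BC φ P L) (β' : BC φ' P L') (e : Nonempty (Triple.Iso L L')) :
    φ = φ' := by
  have hH : Subsingleton L.H1 := h1_of_bc H.bcdata hG β hH1
  have hd : IsDiv L (β.b0 sP0) (β.b1 sP1) (((u0 h uu).map (awayMap δ)).map φ) :=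
    H.divbc k 𝒞 hG g _ _ φ _ P L β sP0 sP1 hdP
  have hd' : IsDiv L' (β'.b0 sP0) (β'.b1 sP1) (((u0 h uu).map (awayMap δ)).map φ') :=
    H.divbc k 𝒞 hG g _ _ φ' _ P L' β' sP0 sP1 hdP
  have hgen : GenH0 L (β.b0 sP0) (β.b1 sP1) := H.divh0 k 𝒞 hG g hg R _ L _ _ hd hH
  have hp : ((u0 h uu).map (awayMap δ)).map φ = ((u0 h uu).map (awayMap δ)).map φ' :=
    H.mono k 𝒞 hG g R _ _ L L' _ _ _ _ hd hd' hgen e
  rw [← Pt.map_comp, ← Pt.map_comp] at hp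
  exact away_hom_ext δ φ φ' (hom_ext_of_pt hu _ _ hp)

include H hG hg in
/-- The fibre at the `k`-point `t₁` of `R[1/r₁]` of a chart point over `R[1/r₁]` of the restriction of `L`
is the chart point of the fibre `Lt`. -/
theorem fibre_pt {R : Type u} [CommRing R] [Algebra k R] (L : Triple 𝒞 R) (t : R →ₐ[k] k)
    (Lt : Triple 𝒞 k) (βt : BC t L Lt) {pt : Pt k 𝒞.B0 𝒞.x0 g k} {s0 : Lt.P0} {s1 : Lt.P1}
    (hdLt : IsDiv Lt s0 s1 pt) (hH1Lt : Subsingleton Lt.H1)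
    (r₁ : R) (t₁ : Localization.Away r₁ →ₐ[k] k) (ht₁ : t₁.comp (awayMap r₁) = t)
    (Lr₁ : Triple 𝒞 (Localization.Away r₁)) (β₁ : BC (awayMap r₁) L Lr₁)
    {p₁ : Pt k 𝒞.B0 𝒞.x0 g (Localization.Away r₁)} {σ0 : Lr₁.P0} {σ1 : Lr₁.P1}
    (hd₁ : IsDiv Lr₁ σ0 σ1 p₁) : pt = p₁.map t₁ := by
  obtain ⟨Lt', ⟨β'⟩⟩ := H.bcex k 𝒞 hG _ k t₁ Lr₁
  have hdLt' : IsDiv Lt' (β'.b0 σ0) (β'.b1 σ1) (p₁.map t₁) :=
    H.divbc k 𝒞 hG g _ _ t₁ p₁ Lr₁ Lt' β' σ0 σ1 hd₁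
  obtain ⟨βc⟩ := (H.bccomp k 𝒞 hG R L).2 _ _ (awayMap r₁) t₁ Lr₁ Lt' β₁ β'
  have βc' : BC t L Lt' := bcCongr ht₁ βc
  obtain ⟨e'⟩ := H.bcuniq k 𝒞 hG R k t L L Lt Lt' βt βc' ⟨isoRefl L⟩
  have hgen : GenH0 Lt s0 s1 := H.divh0 k 𝒞 hG g hg k pt Lt _ _ hdLt hH1Lt
  exact H.mono k 𝒞 hG g k pt (p₁.map t₁) Lt Lt' _ _ _ _ hdLt hdLt' hgen ⟨e'⟩

include H hG hg hu hdP hH1 in
theorem core_open [IsAlgClosed k] (hEt : IsEtAt 𝒞 h)
    {R : Type u} [CommRing R] [Algebra k R] [Algebra.FiniteType k R] (L : Triple 𝒞 R)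
    (t : R →ₐ[k] k) (Lt : Triple 𝒞 k) (y : Localization.Away δ →ₐ[k] k) (Py : Triple 𝒞 k)
    (βt : BC t L Lt) (βy : BC y P Py) (e : Nonempty (Triple.Iso Lt Py)) :
    ∃ r : R, t r ≠ 0 ∧
      ∃ (Lr : Triple 𝒞 (Localization.Away r)) (φ : Localization.Away δ →ₐ[k] Localization.Away r)
        (Pφ : Triple 𝒞 (Localization.Away r)),
        Nonempty (BC (awayMap r) L Lr) ∧ Nonempty (BC φ P Pφ) ∧ Nonempty (Triple.Iso Lr Pφ) := by
  obtain ⟨e⟩ := e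
  have hupB : IsUnit (((u0 h uu).map (awayMap δ)).ρ h).det :=
    isUnit_det_map _ _ _ (isUnit_det_u0 H.openunit)
  -- the fibre at `y`
  have hdPy : IsDiv Py (βy.b0 sP0) (βy.b1 sP1) (((u0 h uu).map (awayMap δ)).map y) :=
    H.divbc k 𝒞 hG g _ _ y _ P Py βy sP0 sP1 hdP
  have hH1Py : Subsingleton Py.H1 := h1_of_bc H.bcdata hG βy hH1
  have hH1Lt : Subsingleton Lt.H1 := h1_subsingleton_of_iso (isoSymm e) hH1Py
  have hdLt := H.isodiv k 𝒞 g k _ Py Lt (isoSymm e) _ _ hdPy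
  have hupt : IsUnit ((((u0 h uu).map (awayMap δ)).map y).ρ h).det := isUnit_det_map _ _ _ hupB
  obtain ⟨r₁, hr₁, hnear⟩ :=
    H.spreadn k 𝒞 hG h hEt g hg R L t Lt βt _ _ _ hdLt hupt hH1Lt
  obtain ⟨Lr₁, ⟨β₁⟩⟩ := H.bcex k 𝒞 hG R (Localization.Away r₁) (awayMap r₁) L
  obtain ⟨p₁, σ0, σ1, hd₁, hu₁, -⟩ := hnear r₁ dvd_rfl hr₁ Lr₁ β₁
  obtain ⟨ψ₁, hψ₁⟩ := exists_hom_of_pt H.openunit hu p₁ hu₁
  -- the point `t₁` of `R[1/r₁]`
  have htu : IsUnit (t r₁) := IsUnit.mk0 _ hr₁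
  have ht₁ : (awayLift r₁ t htu).comp (awayMap r₁) = t := awayLift_comp r₁ t htu
  have hpt : ((u0 h uu).map (awayMap δ)).map y = p₁.map (awayLift r₁ t htu) :=
    fibre_pt H hG hg L t Lt βt hdLt hH1Lt r₁ _ ht₁ Lr₁ β₁ hd₁
  -- `t₁ ∘ ψ₁ = y ∘ awayMap δ`
  have hcomp : (awayLift r₁ t htu).comp ψ₁ = y.comp (awayMap δ) := by
    apply hom_ext_of_pt hu
    rw [Pt.map_comp, Pt.map_comp, hψ₁, ← hpt]
  have hne : (awayLift r₁ t htu) (ψ₁ δ) ≠ 0 := by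
    have h1 : (awayLift r₁ t htu) (ψ₁ δ) = y (awayMap (k := k) δ δ) :=
      congrArg (fun f : Bu →ₐ[k] k => f δ) hcomp
    rw [h1]
    exact ((isUnit_awayMap_self (k := k) δ).map y).ne_zero
  obtain ⟨n, a, ha⟩ := IsLocalization.Away.surj r₁ (ψ₁ δ)
  have ha' : ψ₁ δ * awayMap (k := k) r₁ r₁ ^ n = awayMap (k := k) r₁ a := ha
  have hta : t a ≠ 0 := by
    have h1 : (awayLift r₁ t htu) (ψ₁ δ) * t r₁ ^ n = t a := by
      have h2 := congrArg (awayLift r₁ t htu) ha'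
      rw [map_mul, map_pow] at h2
      have h3 : ∀ b : R, (awayLift r₁ t htu) (awayMap (k := k) r₁ b) = t b := fun b =>
        congrArg (fun f : R →ₐ[k] k => f b) ht₁
      rw [h3, h3] at h2
      exact h2
    rw [← h1]; exact mul_ne_zero hne (pow_ne_zero _ hr₁)
  have hr : t (r₁ * a) ≠ 0 := by rw [map_mul]; exact mul_ne_zero hr₁ hta
  have hdvd : r₁ ∣ r₁ * a := Dvd.intro _ rfl
  have hψδ : IsUnit (((awayDvd r₁ (r₁ * a) hdvd).comp ψ₁) δ) := by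
    have h2 : ((awayDvd r₁ (r₁ * a) hdvd).comp ψ₁) δ * (awayMap (k := k) (r₁ * a) r₁) ^ n =
        awayMap (k := k) (r₁ * a) a := by
      have h4 := congrArg (awayDvd (k := k) r₁ (r₁ * a) hdvd) ha'
      rw [map_mul, map_pow] at h4
      have h3 : ∀ b : R, (awayDvd (k := k) r₁ (r₁ * a) hdvd) (awayMap (k := k) r₁ b) =
          awayMap (k := k) (r₁ * a) b := fun b =>
        congrArg (fun f : R →ₐ[k] Localization.Away (r₁ * a) => f b) (awayDvd_comp r₁ (r₁ * a) hdvd)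
      rw [h3, h3] at h4
      exact h4
    have h5 : IsUnit (awayMap (k := k) (r₁ * a) a) :=
      isUnit_awayMap_of_dvd a (r₁ * a) (Dvd.intro_left _ rfl)
    rw [← h2] at h5
    exact isUnit_of_mul_isUnit_left h5
  have hφ : (awayLift δ _ hψδ).comp (awayMap δ) = (awayDvd r₁ (r₁ * a) hdvd).comp ψ₁ :=
    awayLift_comp δ _ hψδ
  obtain ⟨Lr, ⟨βr⟩⟩ := H.bcex k 𝒞 hG R _ (awayMap (r₁ * a)) L
  obtain ⟨Pφ, ⟨βφ⟩⟩ := H.bcex k 𝒞 hG _ _ (awayLift δ _ hψδ) P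
  refine ⟨r₁ * a, hr, Lr, awayLift δ _ hψδ, Pφ, ⟨βr⟩, ⟨βφ⟩, ?_⟩
  have hdPφ := H.divbc k 𝒞 hG g _ _ (awayLift δ _ hψδ) _ P Pφ βφ sP0 sP1 hdP
  have hpφ : ((u0 h uu).map (awayMap δ)).map (awayLift δ _ hψδ) =
      p₁.map (awayDvd r₁ (r₁ * a) hdvd) := by
    rw [← Pt.map_comp, hφ, Pt.map_comp, hψ₁]
  obtain ⟨Lr', ⟨β''⟩⟩ := H.bcex k 𝒞 hG _ _ (awayDvd r₁ (r₁ * a) hdvd) Lr₁
  have hdLr' := H.divbc k 𝒞 hG g _ _ (awayDvd r₁ (r₁ * a) hdvd) p₁ Lr₁ Lr' β'' σ0 σ1 hd₁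
  obtain ⟨βc2⟩ :=
    (H.bccomp k 𝒞 hG R L).2 _ _ (awayMap r₁) (awayDvd r₁ (r₁ * a) hdvd) Lr₁ Lr' β₁ β''
  have βc2' : BC (awayMap (r₁ * a)) L Lr' := bcCongr (awayDvd_comp r₁ (r₁ * a) hdvd) βc2
  obtain ⟨e2⟩ := H.bcuniq k 𝒞 hG R _ (awayMap (r₁ * a)) L L Lr' Lr βc2' βr ⟨isoRefl L⟩
  have hdLr := H.isodiv k 𝒞 g _ _ Lr' Lr e2 _ _ hdLr'
  rw [← hpφ] at hdLr
  exact H.divuniq k 𝒞 hG g _ _ Lr Pφ _ _ _ _ hdLr hdPφ

end Core

/-! ### The assembly -/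

/-- **CHARTLEMMA** from its leaves. -/
theorem chartLemma_of_leaves (H : Leaves.{u}) : Stmt_CHARTLEMMA.{u} := by
  intro k _ _ 𝒞 hG h hEt
  obtain ⟨g, hg, pt₀, Lt₀, s0₀, s1₀, hd₀, hu₀, hH₀⟩ := H.nsp k 𝒞 hG h hEt
  obtain ⟨Bu, _, _, hsm, uu, hu⟩ := exists_univ H.hilb H.smooth hG hEt g
  have huu₀ : IsUnit ((u0 h uu).ρ h).det := isUnit_det_u0 H.openunit
  obtain ⟨Lu, su0, su1, hdu, -⟩ := H.divex k 𝒞 hG h hEt g Bu (u0 h uu) huu₀
  obtain ⟨y₀, hy₀⟩ := exists_hom_of_pt H.openunit hu pt₀ hu₀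
  obtain ⟨Ly₀, ⟨βy₀⟩⟩ := H.bcex k 𝒞 hG Bu k y₀ Lu
  have hdy₀ := H.divbc k 𝒞 hG g Bu k y₀ (u0 h uu) Lu Ly₀ βy₀ su0 su1 hdu
  rw [hy₀] at hdy₀
  obtain ⟨e₀⟩ := H.divuniq k 𝒞 hG g k pt₀ Lt₀ Ly₀ _ _ _ _ hd₀ hdy₀
  have hHy₀ : Subsingleton Ly₀.H1 := h1_subsingleton_of_iso e₀ hH₀
  obtain ⟨δ, hδ, hfib⟩ := H.fibk k 𝒞 hG Bu Lu y₀ Ly₀ βy₀ hHy₀
  have hpB : IsUnit (((u0 h uu).map (awayMap δ)).ρ h).det :=
    isUnit_det_map (awayMap δ) (u0 h uu) h huu₀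
  obtain ⟨P, sP0, sP1, hdP, hrig⟩ :=
    H.divex k 𝒞 hG h hEt g (Localization.Away δ) ((u0 h uu).map (awayMap δ)) hpB
  obtain ⟨Lδ, ⟨βδ⟩⟩ := H.bcex k 𝒞 hG Bu _ (awayMap δ) Lu
  have hHδ : Subsingleton Lδ.H1 := (hfib Lδ βδ).1
  have hdδ := H.divbc k 𝒞 hG g Bu _ (awayMap δ) (u0 h uu) Lu Lδ βδ su0 su1 hdu
  obtain ⟨eδ⟩ := H.divuniq k 𝒞 hG g _ _ Lδ P _ _ _ _ hdδ hdP
  have hH1P : Subsingleton P.H1 := h1_subsingleton_of_iso eδ hHδ
  have hsm1 : Algebra.Smooth Bu (Localization.Away δ) := Algebra.Smooth.of_isLocalization_Away δ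
  have hsm2 : Algebra.Smooth k (Localization.Away δ) :=
    Algebra.Smooth.comp k Bu (Localization.Away δ)
  refine ⟨Localization.Away δ, inferInstance, inferInstance, hsm2.finitePresentation, hsm2, P,
    hrig, ⟨awayLift δ y₀ (IsUnit.mk0 _ hδ)⟩, ?_, ?_, ?_⟩
  · intro R _ _ φ L β
    exact core_nsp H hG hg hdP hH1P φ L β
  · intro R _ _ φ φ' L L' β β' e
    exact core_mono H hG hg hu hdP hH1P φ φ' L L' β β' e
  · intro R _ _ _ L t Lt y Py βt βy e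
    exact core_open H hG hg hu hdP hH1P hEt L t Lt y Py βt βy e

/-- **CHARTLEMMA** from its leaves (unbundled). -/
theorem chartLemma_of (hHILB : Stmt_HILB.{u}) (hSMOOTH : Stmt_SMOOTH.{u})
    (hOPENUNIT : Stmt_OPENUNIT.{u}) (hDIVEX : Stmt_DIVEX.{u}) (hDIVUNIQ : Stmt_DIVUNIQ.{u})
    (hDIVBC : Stmt_DIVBC.{u}) (hDIVH0 : Stmt_DIVH0.{u}) (hMONO : Stmt_MONO.{u})
    (hSPREADN : Stmt_SPREADN.{u}) (hISODIV : Stmt_ISODIV.{u}) (hBCEX : LB.Stmt_BCEX.{u})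
    (hBCUNIQ : LB.Stmt_BCUNIQ.{u}) (hBCCOMP : LB.Stmt_BCCOMP.{u}) (hBCDATA : LB.Stmt_BCDATA.{u})
    (hFIBK : LB.Stmt_FIBK.{u}) (hNSP : Stmt_NSP.{u}) : Stmt_CHARTLEMMA.{u} :=
  chartLemma_of_leaves ⟨hHILB, hSMOOTH, hOPENUNIT, hDIVEX, hDIVUNIQ, hDIVBC, hDIVH0, hMONO,
    hSPREADN, hISODIV, hBCEX, hBCUNIQ, hBCCOMP, hBCDATA, hFIBK, hNSP⟩

end Fermat.Agent.S25.Chart.H33
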