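import Mathlib

/-!
# S25, package CHART, leaf DIVBC, part 1 (helper46): sections of invertible modules

`S` a commutative ring, `P` an invertible `S`-module, `s : P`.

* `rank_one`        : `λ q • q' = λ q' • q` for `λ : P →ₗ[S] S` (an invertible module has rank one);
* `exists_dual`     : a finite family `(λ_i, q_i)` with `∑ λ_i q_i = 1`;
* `colon s`         : the ideal `(S s : P) = {c | c P ⊆ S s}`;
* `apply_mem_colon` : `λ s ∈ colon s`;
* `colon_le_map`, `map_le_colon`, `colon_map` : for a semilinear `b : P → P'` over `τ : S → S'`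
  whose image generates the invertible `S'`-module `P'`: `colon (b s) = (colon s) S'`;
* `regular_of_mem_colon` : if `colon s` contains a non-zero-divisor, `s` is regular.
-/

set_option autoImplicit false

open TensorProduct

namespace Fermat.Agent.S25.Chart.H46i

section One

variable {S : Type*} [CommRing S] {P : Type*} [AddCommGroup P] [Module S P]

/-- An invertible module has rank one. -/
theorem rank_one [Module.Invertible S P] (l : P →ₗ[S] S) (q q' : P) : l q • q' = l q' • q := by
  have h := congrArg (TensorProduct.lift ((LinearMap.lsmul S P).comp l))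
    (Module.Invertible.tmul_comm (R := S) (m₁ := q) (m₂ := q'))
  simpa using h

/-- Dual data of an invertible module. -/
theorem exists_dual (S : Type*) [CommRing S] (P : Type*) [AddCommGroup P] [Module S P]
    [Module.Invertible S P] :
    ∃ F : Finset ((P →ₗ[S] S) × P), ∑ i ∈ F, i.1 i.2 = 1 := by
  obtain ⟨t, ht⟩ := (Module.Invertible.bijective (R := S) (M := P)).2 1
  obtain ⟨F, rfl⟩ := TensorProduct.exists_finset t
  refine ⟨F, ?_⟩
  rw [map_sum] at ht
  rw [← ht]
  refine Finset.sum_congr rfl fun i _ => ?_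
  simp [contractLeft_apply]

/-- The dual basis property. -/
theorem sum_dual [Module.Invertible S P] {F : Finset ((P →ₗ[S] S) × P)}
    (hF : ∑ i ∈ F, i.1 i.2 = 1) (q : P) : ∑ i ∈ F, i.1 q • i.2 = q := by
  have h : ∀ i ∈ F, i.1 q • i.2 = i.1 i.2 • q := fun i _ => rank_one i.1 q i.2
  rw [Finset.sum_congr rfl h, ← Finset.sum_smul, hF, one_smul]

variable (S) in
/-- The ideal `(S s : P)`. -/
def colon (s : P) : Ideal S where
  carrier := {c | ∀ q : P, ∃ d : S, c • q = d • s}
  add_mem' := by
    intro a b ha hb q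
    obtain ⟨d, hd⟩ := ha q
    obtain ⟨e, he⟩ := hb q
    exact ⟨d + e, by rw [add_smul, add_smul, hd, he]⟩
  zero_mem' := fun q => ⟨0, by rw [zero_smul, zero_smul]⟩
  smul_mem' := by
    intro c a ha q
    obtain ⟨d, hd⟩ := ha q
    exact ⟨c * d, by rw [smul_eq_mul, mul_smul, hd, mul_smul]⟩

theorem mem_colon {s : P} {c : S} : c ∈ colon S s ↔ ∀ q : P, ∃ d : S, c • q = d • s := Iff.rfl

theorem apply_mem_colon [Module.Invertible S P] (l : P →ₗ[S] S) (s : P) : l s ∈ colon S s :=
  fun q => ⟨l q, rank_one l s q⟩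

/-- An element of the colon ideal is a combination of the values of the linear forms at `s`. -/
theorem eq_sum_of_mem_colon [Module.Invertible S P] {F : Finset ((P →ₗ[S] S) × P)}
    (hF : ∑ i ∈ F, i.1 i.2 = 1) {s : P} {c : S} (hc : c ∈ colon S s) :
    ∃ d : ((P →ₗ[S] S) × P) → S, c = ∑ i ∈ F, d i * i.1 s := by
  choose d hd using fun i : (P →ₗ[S] S) × P => hc i.2
  refine ⟨d, ?_⟩
  have h1 : c = ∑ i ∈ F, i.1 (c • i.2) := by
    have : ∀ i ∈ F, i.1 (c • i.2) = c * i.1 i.2 := fun i _ => by
      rw [map_smul, smul_eq_mul]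
    rw [Finset.sum_congr rfl this, ← Finset.mul_sum, hF, mul_one]
  rw [h1]
  refine Finset.sum_congr rfl fun i _ => ?_
  rw [hd i, map_smul, smul_eq_mul]

/-- If the colon ideal of `s` contains a non-zero-divisor, `s` is regular. -/
theorem regular_of_mem_colon [Module.Invertible S P] {s : P} {t : S} (ht : t ∈ colon S s)
    (hreg : ∀ c : S, t * c = 0 → c = 0) (c : S) (hc : c • s = 0) : c = 0 := by
  obtain ⟨F, hF⟩ := exists_dual S P
  apply hreg
  have h1 : t * c = ∑ i ∈ F, i.1 ((t * c) • i.2) := by
    have : ∀ i ∈ F, i.1 ((t * c) • i.2) = (t * c) * i.1 i.2 := fun i _ => by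
      rw [map_smul, smul_eq_mul]
    rw [Finset.sum_congr rfl this, ← Finset.mul_sum, hF, mul_one]
  rw [h1]
  refine Finset.sum_eq_zero fun i _ => ?_
  obtain ⟨d, hd⟩ := ht i.2
  rw [mul_comm t c, mul_smul, hd, smul_smul, mul_comm c d, mul_smul, hc, smul_zero, map_zero]

end One

section Two

variable {S S' : Type*} [CommRing S] [CommRing S'] (τ : S →+* S')
  {P P' : Type*} [AddCommGroup P] [Module S P] [AddCommGroup P'] [Module S' P']
  (b : P →+ P') (hb : ∀ (c : S) (q : P), b (c • q) = τ c • b q)

include hb in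
/-- The colon ideal of `b s` contains the extension of the colon ideal of `s`, if the image of
`b` generates. -/
theorem map_le_colon (hgen : Submodule.span S' (Set.range b) = ⊤) (s : P) :
    Ideal.map τ (colon S s) ≤ colon S' (b s) := by
  rw [Ideal.map_le_iff_le_comap]
  intro c hc q'
  have hq' : q' ∈ Submodule.span S' (Set.range b) := by
    rw [hgen]
    trivial
  induction hq' using Submodule.span_induction with
  | mem x hx =>
    obtain ⟨q, rfl⟩ := hx
    obtain ⟨d, hd⟩ := hc q
    exact ⟨τ d, by rw [← hb, hd, hb]⟩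
  | zero => exact ⟨0, by rw [smul_zero, zero_smul]⟩
  | add x y _ _ hx hy =>
    obtain ⟨d, hd⟩ := hx
    obtain ⟨e, he⟩ := hy
    exact ⟨d + e, by rw [smul_add, hd, he, add_smul]⟩
  | smul a x _ hx =>
    obtain ⟨d, hd⟩ := hx
    exact ⟨a * d, by rw [smul_comm, hd, mul_smul]⟩

include hb in
/-- The colon ideal of `b s` is contained in the extension of the colon ideal of `s`. -/
theorem colon_le_map [Module.Invertible S P] [Module.Invertible S' P'] (s : P) :
    colon S' (b s) ≤ Ideal.map τ (colon S s) := by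
  obtain ⟨F, hF⟩ := exists_dual S P
  obtain ⟨F', hF'⟩ := exists_dual S' P'
  have key : ∀ m : P' →ₗ[S'] S', m (b s) ∈ Ideal.map τ (colon S s) := by
    intro m
    have h1 : b s = ∑ i ∈ F, τ (i.1 s) • b i.2 := by
      conv_lhs => rw [← sum_dual hF s]
      rw [map_sum]
      exact Finset.sum_congr rfl fun i _ => hb _ _
    rw [h1, map_sum]
    refine Ideal.sum_mem _ fun i _ => ?_
    rw [map_smul, smul_eq_mul]
    exact Ideal.mul_mem_right _ _ (Ideal.mem_map_of_mem τ (apply_mem_colon i.1 s))
  intro c hc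
  obtain ⟨d, hd⟩ := eq_sum_of_mem_colon hF' hc
  rw [hd]
  exact Ideal.sum_mem _ fun i _ => Ideal.mul_mem_left _ _ (key i.1)

include hb in
/-- **Base change of the colon ideal.** -/
theorem colon_map [Module.Invertible S P] [Module.Invertible S' P']
    (hgen : Submodule.span S' (Set.range b) = ⊤) (s : P) :
    colon S' (b s) = Ideal.map τ (colon S s) :=
  le_antisymm (colon_le_map τ b hb s) (map_le_colon τ b hb hgen s)

end Two

end Fermat.Agent.S25.Chart.H46i
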