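import Fermat.Agent.S25.Chart.H46_Cyc

/-!
# S25, package CHART, leaf DIVBC, part 3 (helper46): base change of the ideal of a chart point

For a chart point `p` over `R` and `φ : R →ₐ[k] R'`, with `τ = φ ⊗ id : R ⊗ A → R' ⊗ A`:

* `rho_map`           : `(p.map φ).rho (τ c) = φ (p.rho c)` (entrywise);
* `quot_map`          : `(p.map φ).quot (τ c) = φ ∘ p.quot c`;
* `nf`                : the normal form `c ↦ ∑ (quot c)_i (1 ⊗ x) ^ i`, `sub_nf_mem : c - nf c ∈ ideal`;
* `ideal_map`         : `(p.map φ).ideal = (p.ideal) (R' ⊗ A)`;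
* `charpoly_mem_ideal`: `f (1 ⊗ x) ∈ p.ideal` for `f = charpoly (ρ x)` (Cayley–Hamilton).
-/

set_option autoImplicit false

universe u

open Polynomial TensorProduct

namespace Fermat.Agent.S25.Chart.H46p

open Fermat.Agent.S25.Chart.H46

variable {k : Type u} [CommRing k] {A : Type u} [CommRing A] [Algebra k A] {x : A} {g : ℕ}
  {R : Type u} [CommRing R] [Algebra k R] {R' : Type u} [CommRing R'] [Algebra k R']

/-- The map `φ ⊗ id : R ⊗ A → R' ⊗ A`. -/
noncomputable def tau (φ : R →ₐ[k] R') (A : Type u) [CommRing A] [Algebra k A] :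
    (R ⊗[k] A) →ₐ[k] (R' ⊗[k] A) :=
  Algebra.TensorProduct.map φ (AlgHom.id k A)

@[simp] theorem tau_tmul (φ : R →ₐ[k] R') (r : R) (a : A) :
    tau φ A (r ⊗ₜ[k] a) = φ r ⊗ₜ[k] a := by
  simp [tau]

theorem rho_map (φ : R →ₐ[k] R') (p : Pt k A x g R) (c : R ⊗[k] A) :
    (p.map φ).rho (tau φ A c) = φ.mapMatrix (p.rho c) := by
  induction c using TensorProduct.induction_on with
  | zero => simp
  | add c c' hc hc' => rw [map_add, map_add, hc, hc', map_add, map_add]
  | tmul r a =>
    rw [tau_tmul, Pt.rho_tmul, Pt.rho_tmul, Pt.map_ρ_apply]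
    ext i j
    simp [Matrix.smul_apply]

theorem quot_map (φ : R →ₐ[k] R') (p : Pt k A x g R) (c : R ⊗[k] A) (i : Fin g) :
    (p.map φ).quot (tau φ A c) i = φ (p.quot c i) := by
  show ((p.map φ).rho (tau φ A c)).mulVec (e0 g R') i = φ ((p.rho c).mulVec (e0 g R) i)
  rw [rho_map]
  simp only [Matrix.mulVec, dotProduct, AlgHom.mapMatrix_apply, Matrix.map_apply, map_sum,
    map_mul]
  refine Finset.sum_congr rfl fun j _ => ?_
  congr 1
  simp only [e0]
  split_ifs <;> simp

theorem tau_mem_ideal (φ : R →ₐ[k] R') (p : Pt k A x g R) {c : R ⊗[k] A} (hc : c ∈ p.ideal) :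
    tau φ A c ∈ (p.map φ).ideal := by
  rw [H46.mem_ideal_iff] at hc ⊢
  rw [rho_map, hc, map_zero]

/-- The normal form of an element modulo the ideal of a chart point. -/
noncomputable def nf (p : Pt k A x g R) (c : R ⊗[k] A) : R ⊗[k] A :=
  ∑ i : Fin g, p.quot c i • ((1 : R) ⊗ₜ[k] x) ^ (i : ℕ)

theorem quot_nf (p : Pt k A x g R) (c : R ⊗[k] A) : p.quot (nf p c) = p.quot c := by
  unfold nf
  rw [map_sum]
  have h : ∀ i : Fin g, p.quot (p.quot c i • ((1 : R) ⊗ₜ[k] x) ^ (i : ℕ))
      = p.quot c i • Pi.single i 1 := by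
    intro i
    rw [map_smul, H46.quot_tmul_pow]
  rw [Finset.sum_congr rfl (fun i _ => h i)]
  funext j
  rw [Finset.sum_apply]
  simp only [Pi.smul_apply, smul_eq_mul]
  rw [Finset.sum_eq_single j]
  · rw [Pi.single_eq_same, mul_one]
  · intro i _ hij
    rw [Pi.single_eq_of_ne (Ne.symm hij), mul_zero]
  · intro hj
    exact absurd (Finset.mem_univ j) hj

theorem sub_nf_mem (p : Pt k A x g R) (c : R ⊗[k] A) : c - nf p c ∈ p.ideal := by
  show p.quot (c - nf p c) = 0
  rw [map_sub, quot_nf, sub_self]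

theorem nf_of_mem (p : Pt k A x g R) {c : R ⊗[k] A} (hc : c ∈ p.ideal) : nf p c = 0 := by
  have h : p.quot c = 0 := hc
  unfold nf
  refine Finset.sum_eq_zero fun i _ => ?_
  rw [h, Pi.zero_apply, zero_smul]

theorem tau_nf (φ : R →ₐ[k] R') (p : Pt k A x g R) (c : R ⊗[k] A) :
    tau φ A (nf p c) = nf (p.map φ) (tau φ A c) := by
  unfold nf
  rw [map_sum]
  refine Finset.sum_congr rfl fun i _ => ?_
  rw [quot_map, Algebra.smul_def, Algebra.smul_def, map_mul, map_pow, tau_tmul, map_one]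
  congr 1

theorem nf_smul (p : Pt k A x g R) (r : R) (c : R ⊗[k] A) : nf p (r • c) = r • nf p c := by
  unfold nf
  rw [Finset.smul_sum]
  refine Finset.sum_congr rfl fun i _ => ?_
  rw [map_smul, Pi.smul_apply, smul_eq_mul, mul_smul]

theorem nf_add (p : Pt k A x g R) (c c' : R ⊗[k] A) : nf p (c + c') = nf p c + nf p c' := by
  unfold nf
  rw [← Finset.sum_add_distrib]
  refine Finset.sum_congr rfl fun i _ => ?_
  rw [map_add, Pi.add_apply, add_smul]

/-- Every element is congruent to its normal form modulo the extension of the ideal. -/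
theorem sub_nf_mem_map (φ : R →ₐ[k] R') (p : Pt k A x g R) (c' : R' ⊗[k] A) :
    c' - nf (p.map φ) c' ∈ Ideal.map (tau φ A) p.ideal := by
  induction c' using TensorProduct.induction_on with
  | zero =>
    have : nf (p.map φ) (0 : R' ⊗[k] A) = 0 := nf_of_mem _ (Ideal.zero_mem _)
    rw [this, sub_zero]
    exact Ideal.zero_mem _
  | add c c' hc hc' =>
    rw [nf_add]
    have : c + c' - (nf (p.map φ) c + nf (p.map φ) c')
        = (c - nf (p.map φ) c) + (c' - nf (p.map φ) c') := by ring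
    rw [this]
    exact Ideal.add_mem _ hc hc'
  | tmul r' a =>
    have h1 : r' ⊗ₜ[k] a = r' • tau φ A ((1 : R) ⊗ₜ[k] a) := by
      rw [tau_tmul, map_one, TensorProduct.smul_tmul', smul_eq_mul, mul_one]
    rw [h1, nf_smul, ← smul_sub, ← tau_nf, ← map_sub, Algebra.smul_def]
    exact Ideal.mul_mem_left _ _ (Ideal.mem_map_of_mem _ (sub_nf_mem p _))

/-- **Base change of the ideal of a chart point.** -/
theorem ideal_map (φ : R →ₐ[k] R') (p : Pt k A x g R) :
    (p.map φ).ideal = Ideal.map (tau φ A) p.ideal := by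
  apply le_antisymm
  · intro c' hc'
    have h := sub_nf_mem_map φ p c'
    rwa [nf_of_mem _ hc', sub_zero] at h
  · rw [Ideal.map_le_iff_le_comap]
    intro c hc
    exact tau_mem_ideal φ p hc

/-- **Cayley–Hamilton**: the characteristic polynomial of `ρ x`, evaluated at `1 ⊗ x`, lies in the
ideal of the chart point. -/
theorem charpoly_mem_ideal (p : Pt k A x g R) :
    Polynomial.aeval ((1 : R) ⊗ₜ[k] x) (p.ρ x).charpoly ∈ p.ideal := by
  rw [H46.mem_ideal_iff, ← Polynomial.aeval_algHom_apply, H46.rho_one_tmul]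
  exact Matrix.aeval_self_charpoly _

end Fermat.Agent.S25.Chart.H46p
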