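import Mathlib

/-!
# S25, package CHART, leaf DIVBC, part 2 (helper46): monic polynomials in `x` are regular

`k` a field, `B` a `k`-algebra which is a domain, `x : B` transcendental over `k`
(`aeval x` injective), `R'` any `k`-algebra, `f : R'[X]` monic.  Then `f (1 ⊗ x)` is a
non-zero-divisor of `R' ⊗[k] B`.

Proof: `B` is a torsion-free, hence flat, `k[X]`-module; `R' ⊗[k] B = R'[X] ⊗[k[X]] B` is a flat
`R'[X]`-module, and `f` is regular in `R'[X]`.
-/

set_option autoImplicit false

universe u

open Polynomial TensorProduct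

namespace Fermat.Agent.S25.Chart.H46r

attribute [local instance] Polynomial.algebra

section

variable {k : Type u} [Field k] {B : Type u} [CommRing B] [Algebra k B]
  {R' : Type u} [CommRing R'] [Algebra k R']

/-- The `k[X]`-algebra structure of `B` given by `x`. -/
@[reducible] noncomputable def algX (x : B) : Algebra k[X] B :=
  (Polynomial.aeval (R := k) x).toRingHom.toAlgebra

theorem algX_smul (x : B) (F : k[X]) (m : B) :
    letI := algX (k := k) x
    F • m = Polynomial.aeval x F * m := rfl

theorem tower_algX (x : B) :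
    letI := algX (k := k) x
    IsScalarTower k k[X] B := by
  letI := algX (k := k) x
  refine IsScalarTower.of_algebraMap_eq fun r => ?_
  show algebraMap k B r = Polynomial.aeval x (algebraMap k k[X] r)
  rw [Polynomial.algebraMap_apply, Polynomial.aeval_C]
  rfl

theorem torsionFree_algX [IsDomain B] (x : B)
    (hx : Function.Injective (Polynomial.aeval (R := k) x)) :
    letI := algX (k := k) x
    Module.IsTorsionFree k[X] B := by
  letI := algX (k := k) x
  refine ⟨fun r hr m₁ m₂ h => ?_⟩
  have hr0 : r ≠ 0 := hr.ne_zero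
  have h0 : Polynomial.aeval x r ≠ 0 := by
    intro h'
    apply hr0
    apply hx
    rw [h', map_zero]
  have h1 : Polynomial.aeval x r * m₁ = Polynomial.aeval x r * m₂ := h
  exact mul_left_cancel₀ h0 h1

/-- The comparison `R'[X] ⊗[k[X]] B ≃ R' ⊗[k] B`. -/
noncomputable def cmp (x : B) :
    letI := algX (k := k) x
    haveI := tower_algX (k := k) x
    (R'[X] ⊗[k[X]] B) ≃ₗ[R'] (R' ⊗[k] B) :=
  letI := algX (k := k) x
  haveI := tower_algX (k := k) x
  Algebra.IsPushout.cancelBaseChange k R' k[X] R'[X] B

theorem cmp_symm_tmul (x : B) (s : R') (m : B) :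
    letI := algX (k := k) x
    haveI := tower_algX (k := k) x
    (cmp (R' := R') x).symm (s ⊗ₜ[k] m) = (Polynomial.C s) ⊗ₜ[k[X]] m := by
  letI := algX (k := k) x
  haveI := tower_algX (k := k) x
  exact Algebra.IsPushout.cancelBaseChange_symm_tmul k R' k[X] R'[X] B s m

/-- The comparison is compatible with the action of `R'[X]`. -/
theorem cmp_symm_mul (x : B) (f : R'[X]) (c : R' ⊗[k] B) :
    letI := algX (k := k) x
    haveI := tower_algX (k := k) x
    (cmp (R' := R') x).symm (Polynomial.aeval ((1 : R') ⊗ₜ[k] x) f * c)
      = f • (cmp (R' := R') x).symm c := by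
  letI := algX (k := k) x
  haveI := tower_algX (k := k) x
  induction c using TensorProduct.induction_on with
  | zero => rw [mul_zero, map_zero, smul_zero]
  | add c c' hc hc' => rw [mul_add, map_add, hc, hc', map_add, smul_add]
  | tmul s m =>
    induction f using Polynomial.induction_on' with
    | add p q hp hq => rw [map_add, add_mul, map_add, hp, hq, add_smul]
    | monomial n a =>
      have h1 : Polynomial.aeval ((1 : R') ⊗ₜ[k] x) (Polynomial.monomial n a)
          = a ⊗ₜ[k] (x ^ n) := by
        rw [← Polynomial.C_mul_X_pow_eq_monomial, map_mul, Polynomial.aeval_C, map_pow,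
          Polynomial.aeval_X, Algebra.TensorProduct.algebraMap_apply,
          Algebra.TensorProduct.tmul_pow, one_pow, Algebra.TensorProduct.tmul_mul_tmul,
          mul_one, one_mul]
        rfl
      rw [h1, Algebra.TensorProduct.tmul_mul_tmul, cmp_symm_tmul, cmp_symm_tmul,
        TensorProduct.smul_tmul', smul_eq_mul]
      have h2 : x ^ n * m = (Polynomial.X ^ n : k[X]) • m := by
        rw [algX_smul, map_pow, Polynomial.aeval_X]
      rw [h2, ← TensorProduct.smul_tmul]
      congr 1
      rw [Algebra.smul_def, Polynomial.algebraMap_def, Polynomial.coe_mapRingHom,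
        Polynomial.map_pow, Polynomial.map_X, ← Polynomial.C_mul_X_pow_eq_monomial, map_mul]
      ring

/-- **A monic polynomial in `1 ⊗ x` is a non-zero-divisor of `R' ⊗[k] B`.** -/
theorem monic_aeval_regular [IsDomain B] (x : B)
    (hx : Function.Injective (Polynomial.aeval (R := k) x)) (f : R'[X]) (hf : f.Monic)
    (c : R' ⊗[k] B) (hc : Polynomial.aeval ((1 : R') ⊗ₜ[k] x) f * c = 0) : c = 0 := by
  letI := algX (k := k) x
  haveI := tower_algX (k := k) x
  haveI := torsionFree_algX (k := k) x hx
  haveI : Module.Flat k[X] B := inferInstance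
  haveI : Module.Flat R'[X] (R'[X] ⊗[k[X]] B) := inferInstance
  have h1 := cmp_symm_mul (R' := R') x f c
  rw [hc, map_zero] at h1
  have h2 : IsSMulRegular (R'[X] ⊗[k[X]] B) f :=
    Module.Flat.isSMulRegular_of_isRegular hf.isRegular
  have h3 : (cmp (R' := R') x).symm c = 0 := by
    apply h2
    show f • (cmp (R' := R') x).symm c = f • 0
    rw [← h1, smul_zero]
  exact (LinearEquiv.map_eq_zero_iff _).1 h3

end

end Fermat.Agent.S25.Chart.H46r
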