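import Fermat.Agent.S25.Chart.Defs2
import Fermat.Agent.S25.Chart.H46_InvMod
import Fermat.Agent.S25.Chart.H46_Reg
import Fermat.Agent.S25.Chart.H46_PtBC

/-!
# S25, package CHART, leaf DIVBC (helper46): base change of the divisor of a section

`stmt_DIVBC : Stmt_DIVBC` : if `(s0, s1)` is a regular section of the triple `L` with divisor
`Z_p` and `β : BC φ L L'`, then `(β.b0 s0, β.b1 s1)` is a regular section of `L'` with divisor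
`Z_(p.map φ)`.

Chart `V0`: `colon (b0 s0) = (colon s0) S0' = (p.ideal) S0' = (p.map φ).ideal` (`H46i.colon_map`,
`H46p.ideal_map`); regularity because the ideal contains `f (1 ⊗ x0)`, `f` the characteristic
polynomial of `ρ x0`, a non-zero-divisor (`H46r.monic_aeval_regular`).
Chart `V1`: `z1` is a unit modulo `ideal1` (the reversed characteristic polynomial lies in
`ideal1`), which allows to cancel the powers of `z1` coming from the overlap.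
-/

set_option autoImplicit false

universe u

open Polynomial TensorProduct

namespace Fermat.Agent.S25.Chart.H46b

open Fermat.Agent.S25.LB Fermat.Agent.S25.Chart.H46i Fermat.Agent.S25.Chart.H46p
  Fermat.Agent.S25.Chart.H46r

variable {k : Type u} [Field k] {𝒞 : CurveDatum k} {g : ℕ}
  {R : Type u} [CommRing R] [Algebra k R] {R' : Type u} [CommRing R'] [Algebra k R']

/-! ### Chart `V0` -/

section Chart0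

variable (p : Pt k 𝒞.B0 𝒞.x0 g R) (L : Triple 𝒞 R) (s0 : L.P0)

theorem colon0_eq (hdiv0 : ∀ c : R ⊗[k] 𝒞.B0, c ∈ p.ideal ↔
      ∀ q : L.P0, ∃ d : R ⊗[k] 𝒞.B0, c • q = d • s0) :
    colon (R ⊗[k] 𝒞.B0) s0 = p.ideal := by
  ext c
  exact (hdiv0 c).symm

/-- On a good curve datum, a section with divisor `Z_p` on `V0` is regular on `V0`. -/
theorem reg0_of_div0 (h𝒞 : 𝒞.IsGood) (hdiv0 : ∀ c : R ⊗[k] 𝒞.B0, c ∈ p.ideal ↔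
      ∀ q : L.P0, ∃ d : R ⊗[k] 𝒞.B0, c • q = d • s0)
    (c : R ⊗[k] 𝒞.B0) (hc : c • s0 = 0) : c = 0 := by
  haveI := L.inv0
  haveI := h𝒞.dom0
  refine regular_of_mem_colon
    (t := Polynomial.aeval ((1 : R) ⊗ₜ[k] 𝒞.x0) (p.ρ 𝒞.x0).charpoly) ?_ ?_ c hc
  · rw [colon0_eq p L s0 hdiv0]
    exact charpoly_mem_ideal p
  · intro c hc
    exact monic_aeval_regular 𝒞.x0 h𝒞.trans0 _ (Matrix.charpoly_monic _) c hc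

/-- Base change of the divisor on the chart `V0`. -/
theorem div0_map (φ : R →ₐ[k] R') (L' : Triple 𝒞 R') (β : BC φ L L')
    (hdiv0 : ∀ c : R ⊗[k] 𝒞.B0, c ∈ p.ideal ↔
      ∀ q : L.P0, ∃ d : R ⊗[k] 𝒞.B0, c • q = d • s0)
    (c : R' ⊗[k] 𝒞.B0) :
    c ∈ (p.map φ).ideal ↔ ∀ q : L'.P0, ∃ d : R' ⊗[k] 𝒞.B0, c • q = d • β.b0 s0 := by
  haveI := L.inv0
  haveI := L'.inv0
  have h1 : colon (R' ⊗[k] 𝒞.B0) (β.b0 s0)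
      = Ideal.map (tau φ 𝒞.B0).toRingHom (colon (R ⊗[k] 𝒞.B0) s0) :=
    colon_map (tau φ 𝒞.B0).toRingHom β.b0 (fun c q => β.semi0 c q) β.gen0 s0
  rw [colon0_eq p L s0 hdiv0] at h1
  have h2 : (p.map φ).ideal = colon (R' ⊗[k] 𝒞.B0) (β.b0 s0) := by
    rw [h1, ideal_map]
    rfl
  rw [h2]
  exact Iff.rfl

end Chart0

/-! ### Compatibilities -/

section Compat

theorem iota0_tau (φ : R →ₐ[k] R') (c : R ⊗[k] 𝒞.B0) :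
    𝒞.ι0 R' (tau φ 𝒞.B0 c) = tau φ 𝒞.B01 (𝒞.ι0 R c) := by
  induction c using TensorProduct.induction_on with
  | zero => simp
  | add c c' hc hc' => rw [map_add, map_add, hc, hc', map_add, map_add]
  | tmul r b => simp [CurveDatum.ι0]

theorem iota1_tau (φ : R →ₐ[k] R') (c : R ⊗[k] 𝒞.B1) :
    𝒞.ι1 R' (tau φ 𝒞.B1 c) = tau φ 𝒞.B01 (𝒞.ι1 R c) := by
  induction c using TensorProduct.induction_on with
  | zero => simp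
  | add c c' hc hc' => rw [map_add, map_add, hc, hc', map_add, map_add]
  | tmul r b => simp [CurveDatum.ι1]

theorem iota0_tmul (r : R) (b : 𝒞.B0) : 𝒞.ι0 R (r ⊗ₜ[k] b) = r ⊗ₜ[k] 𝒞.i0 b := by
  simp [CurveDatum.ι0]

theorem iota1_tmul (r : R) (b : 𝒞.B1) : 𝒞.ι1 R (r ⊗ₜ[k] b) = r ⊗ₜ[k] 𝒞.i1 b := by
  simp [CurveDatum.ι1]

theorem unit_mul_unit' (𝒞 : CurveDatum k) (R : Type u) [CommRing R] [Algebra k R] :
    ((1 : R) ⊗ₜ[k] 𝒞.i1 𝒞.z1 : R ⊗[k] 𝒞.B01) * ((1 : R) ⊗ₜ[k] 𝒞.i0 𝒞.x0) = 1 := by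
  rw [mul_comm]
  exact Triple.unit_mul_unit 𝒞 R

theorem unit_pow (𝒞 : CurveDatum k) (R : Type u) [CommRing R] [Algebra k R] (n : ℕ) :
    ((1 : R) ⊗ₜ[k] 𝒞.i1 𝒞.z1 : R ⊗[k] 𝒞.B01) ^ n * ((1 : R) ⊗ₜ[k] 𝒞.i0 𝒞.x0) ^ n = 1 := by
  rw [← mul_pow, unit_mul_unit', one_pow]

/-- Denominators on the chart `V1`. -/
theorem denom1 (h𝒞 : 𝒞.IsGood) (d01 : R ⊗[k] 𝒞.B01) :
    ∃ (n : ℕ) (d : R ⊗[k] 𝒞.B1), ((1 : R) ⊗ₜ[k] 𝒞.i1 𝒞.z1) ^ n * d01 = 𝒞.ι1 R d := by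
  induction d01 using TensorProduct.induction_on with
  | zero => exact ⟨0, 0, by simp⟩
  | tmul r b =>
    obtain ⟨⟨b1, ⟨_, n, rfl⟩⟩, hb⟩ := @IsLocalization.surj _ _ (Submonoid.powers 𝒞.z1) 𝒞.B01 _
      𝒞.i1.toRingHom.toAlgebra h𝒞.loc1 b
    have hb' : b * 𝒞.i1 𝒞.z1 ^ n = 𝒞.i1 b1 := by
      have h := hb
      simp only [map_pow] at h
      exact h
    refine ⟨n, r ⊗ₜ[k] b1, ?_⟩
    rw [Algebra.TensorProduct.tmul_pow, one_pow, Algebra.TensorProduct.tmul_mul_tmul, one_mul,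
      mul_comm, hb', iota1_tmul]
  | add u v hu hv =>
    obtain ⟨n1, d1, h1⟩ := hu
    obtain ⟨n2, d2, h2⟩ := hv
    refine ⟨n1 + n2, ((1 : R) ⊗ₜ[k] 𝒞.z1) ^ n2 * d1 + ((1 : R) ⊗ₜ[k] 𝒞.z1) ^ n1 * d2, ?_⟩
    rw [map_add, map_mul, map_mul, map_pow, map_pow, ← h1, ← h2, iota1_tmul]
    ring

/-- Denominators on the chart `V0`. -/
theorem denom0 (h𝒞 : 𝒞.IsGood) (d01 : R ⊗[k] 𝒞.B01) :
    ∃ (n : ℕ) (d : R ⊗[k] 𝒞.B0), ((1 : R) ⊗ₜ[k] 𝒞.i0 𝒞.x0) ^ n * d01 = 𝒞.ι0 R d := by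
  induction d01 using TensorProduct.induction_on with
  | zero => exact ⟨0, 0, by simp⟩
  | tmul r b =>
    obtain ⟨⟨b1, ⟨_, n, rfl⟩⟩, hb⟩ := @IsLocalization.surj _ _ (Submonoid.powers 𝒞.x0) 𝒞.B01 _
      𝒞.i0.toRingHom.toAlgebra h𝒞.loc0 b
    have hb' : b * 𝒞.i0 𝒞.x0 ^ n = 𝒞.i0 b1 := by
      have h := hb
      simp only [map_pow] at h
      exact h
    refine ⟨n, r ⊗ₜ[k] b1, ?_⟩
    rw [Algebra.TensorProduct.tmul_pow, one_pow, Algebra.TensorProduct.tmul_mul_tmul, one_mul,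
      mul_comm, hb', iota0_tmul]
  | add u v hu hv =>
    obtain ⟨n1, d1, h1⟩ := hu
    obtain ⟨n2, d2, h2⟩ := hv
    refine ⟨n1 + n2, ((1 : R) ⊗ₜ[k] 𝒞.x0) ^ n2 * d1 + ((1 : R) ⊗ₜ[k] 𝒞.x0) ^ n1 * d2, ?_⟩
    rw [map_add, map_mul, map_mul, map_pow, map_pow, ← h1, ← h2, iota0_tmul]
    ring

theorem z1_ne_zero (h𝒞 : 𝒞.IsGood) : 𝒞.z1 ≠ 0 := by
  haveI := h𝒞.dom01
  intro h
  have h1 := 𝒞.hxz
  rw [h, map_zero, mul_zero] at h1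
  exact zero_ne_one h1

theorem i1_injective (h𝒞 : 𝒞.IsGood) : Function.Injective 𝒞.i1 := by
  haveI := h𝒞.dom1
  letI := 𝒞.i1.toRingHom.toAlgebra
  haveI := h𝒞.loc1
  exact IsLocalization.injective (M := Submonoid.powers 𝒞.z1) 𝒞.B01
    (powers_le_nonZeroDivisors_of_noZeroDivisors (z1_ne_zero h𝒞))

/-- `R ⊗ B1 → R ⊗ B01` is injective. -/
theorem iota1_injective (h𝒞 : 𝒞.IsGood) : Function.Injective (𝒞.ι1 R) := by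
  have h := Module.Flat.lTensor_preserves_injective_linearMap (M := R) 𝒞.i1.toLinearMap
    (i1_injective h𝒞)
  intro a b hab
  apply h
  have e : ∀ c : R ⊗[k] 𝒞.B1, LinearMap.lTensor R 𝒞.i1.toLinearMap c = 𝒞.ι1 R c := by
    intro c
    induction c using TensorProduct.induction_on with
    | zero => simp
    | add c c' hc hc' => rw [map_add, map_add, hc, hc']
    | tmul r b => rw [iota1_tmul]; rfl
  rw [e, e, hab]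

end Compat

/-! ### The overlap and the chart `V1` -/

section Chart1

variable (L : Triple 𝒞 R) (s0 : L.P0) (s1 : L.P1)

/-- On the overlap, the multiples by the (extended) colon ideal of `s0` are multiples of `s0`. -/
theorem overlap_of_mem {y : R ⊗[k] 𝒞.B01}
    (hy : y ∈ Ideal.map (𝒞.ι0 R) (colon (R ⊗[k] 𝒞.B0) s0)) (m : L.P01) :
    ∃ d01 : R ⊗[k] 𝒞.B01, y • m = d01 • L.r0 s0 := by
  revert m
  induction hy using Submodule.span_induction with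
  | mem y hy =>
    obtain ⟨t, ht, rfl⟩ := hy
    intro m
    obtain ⟨n, p0, hn⟩ := L.surj0 m
    obtain ⟨d, hd⟩ := ht p0
    refine ⟨((1 : R) ⊗ₜ[k] 𝒞.i1 𝒞.z1) ^ n * 𝒞.ι0 R d, ?_⟩
    have h1 : 𝒞.ι0 R d • L.r0 s0 = 𝒞.ι0 R t • (((1 : R) ⊗ₜ[k] 𝒞.i0 𝒞.x0) ^ n • m) := by
      rw [hn, ← L.r0.map_smulₛₗ, ← L.r0.map_smulₛₗ, hd]
    have h3 : ((1 : R) ⊗ₜ[k] 𝒞.i1 𝒞.z1) ^ n * 𝒞.ι0 R t * ((1 : R) ⊗ₜ[k] 𝒞.i0 𝒞.x0) ^ n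
        = 𝒞.ι0 R t := by
      calc ((1 : R) ⊗ₜ[k] 𝒞.i1 𝒞.z1) ^ n * 𝒞.ι0 R t * ((1 : R) ⊗ₜ[k] 𝒞.i0 𝒞.x0) ^ n
          = 𝒞.ι0 R t * (((1 : R) ⊗ₜ[k] 𝒞.i1 𝒞.z1) ^ n * ((1 : R) ⊗ₜ[k] 𝒞.i0 𝒞.x0) ^ n) := by
            ring
        _ = 𝒞.ι0 R t := by rw [unit_pow, mul_one]
    rw [mul_smul, h1, smul_smul, smul_smul, h3]
  | zero =>
    intro m
    exact ⟨0, by rw [zero_smul, zero_smul]⟩
  | add y y' _ _ hy hy' =>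
    intro m
    obtain ⟨d, hd⟩ := hy m
    obtain ⟨d', hd'⟩ := hy' m
    exact ⟨d + d', by rw [add_smul, hd, hd', add_smul]⟩
  | smul a y _ hy =>
    intro m
    obtain ⟨d, hd⟩ := hy m
    exact ⟨a * d, by rw [smul_eq_mul, mul_smul, hd, mul_smul]⟩

/-- A regular section on `V0` is regular on the overlap. -/
theorem reg01_of_reg0 (h𝒞 : 𝒞.IsGood) (hreg0 : ∀ c : R ⊗[k] 𝒞.B0, c • s0 = 0 → c = 0)
    (d01 : R ⊗[k] 𝒞.B01) (h : d01 • L.r0 s0 = 0) : d01 = 0 := by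
  obtain ⟨n, d, hd⟩ := denom0 (R := R) h𝒞 d01
  have h1 : L.r0 (d • s0) = 0 := by
    rw [L.r0.map_smulₛₗ, ← hd, mul_smul, h, smul_zero]
  obtain ⟨m, hm⟩ := L.ker0 _ h1
  have h2 : ((1 : R) ⊗ₜ[k] 𝒞.x0) ^ m * d = 0 := by
    apply hreg0
    rw [mul_smul]
    exact hm
  have h3 : ((1 : R) ⊗ₜ[k] 𝒞.i0 𝒞.x0) ^ m * (((1 : R) ⊗ₜ[k] 𝒞.i0 𝒞.x0) ^ n * d01) = 0 := by
    rw [hd, ← iota0_tmul, ← map_pow, ← map_mul, h2, map_zero]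
  have h4 : d01 = ((1 : R) ⊗ₜ[k] 𝒞.i1 𝒞.z1) ^ (m + n) *
      (((1 : R) ⊗ₜ[k] 𝒞.i0 𝒞.x0) ^ m * (((1 : R) ⊗ₜ[k] 𝒞.i0 𝒞.x0) ^ n * d01)) := by
    calc d01 = (((1 : R) ⊗ₜ[k] 𝒞.i1 𝒞.z1) ^ (m + n) * ((1 : R) ⊗ₜ[k] 𝒞.i0 𝒞.x0) ^ (m + n))
          * d01 := by rw [unit_pow, one_mul]
      _ = _ := by ring
  rw [h4, h3, mul_zero]

/-- A section which is regular on `V0` is regular on `V1`. -/
theorem reg1_of_reg0 (h𝒞 : 𝒞.IsGood) (hglue : L.r0 s0 = L.r1 s1)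
    (hreg0 : ∀ c : R ⊗[k] 𝒞.B0, c • s0 = 0 → c = 0)
    (c : R ⊗[k] 𝒞.B1) (hc : c • s1 = 0) : c = 0 := by
  apply iota1_injective (R := R) h𝒞
  rw [map_zero]
  apply reg01_of_reg0 L s0 h𝒞 hreg0
  rw [hglue, ← L.r1.map_smulₛₗ, hc, map_zero]

/-- If `z1` is a unit modulo the colon ideal of `s1`, the colon ideal of `s1` is the restriction
to `V1` of the colon ideal of `s0` on the overlap. -/
theorem mem_colon1_of_overlap (h𝒞 : 𝒞.IsGood) (hglue : L.r0 s0 = L.r1 s1)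
    (w : R ⊗[k] 𝒞.B1)
    (hw : ((1 : R) ⊗ₜ[k] 𝒞.z1) * w - 1 ∈ colon (R ⊗[k] 𝒞.B1) s1)
    {c : R ⊗[k] 𝒞.B1}
    (hc : 𝒞.ι1 R c ∈ Ideal.map (𝒞.ι0 R) (colon (R ⊗[k] 𝒞.B0) s0)) :
    c ∈ colon (R ⊗[k] 𝒞.B1) s1 := by
  intro q
  obtain ⟨d01, hd01⟩ := overlap_of_mem L s0 hc (L.r1 q)
  obtain ⟨n, d, hd⟩ := denom1 (R := R) h𝒞 d01
  have h1 : L.r1 ((((1 : R) ⊗ₜ[k] 𝒞.z1) ^ n * c) • q - d • s1) = 0 := by
    rw [map_sub, L.r1.map_smulₛₗ, L.r1.map_smulₛₗ, map_mul, map_pow, iota1_tmul, mul_smul,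
      hd01, ← hd, mul_smul, hglue, sub_self]
  obtain ⟨m, hm⟩ := L.ker1 _ h1
  -- `z ^ (m + n) c q = (z ^ m d) s1`
  have h2 : (((1 : R) ⊗ₜ[k] 𝒞.z1) ^ (m + n) * c) • q = (((1 : R) ⊗ₜ[k] 𝒞.z1) ^ m * d) • s1 := by
    rw [smul_sub, sub_eq_zero] at hm
    rw [pow_add, mul_assoc, mul_smul, hm, mul_smul]
  -- `(z w) ^ N - 1` lies in the colon ideal
  have h3 : (((1 : R) ⊗ₜ[k] 𝒞.z1) * w) ^ (m + n) - 1 ∈ colon (R ⊗[k] 𝒞.B1) s1 := by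
    obtain ⟨e, he⟩ := sub_dvd_pow_sub_pow (((1 : R) ⊗ₜ[k] 𝒞.z1) * w) 1 (m + n)
    rw [one_pow] at he
    rw [he]
    exact Ideal.mul_mem_right _ _ hw
  obtain ⟨e, he⟩ := h3 (c • q)
  refine ⟨w ^ (m + n) * (((1 : R) ⊗ₜ[k] 𝒞.z1) ^ m * d) - e, ?_⟩
  rw [sub_smul, ← he, mul_smul, ← h2, sub_smul, one_smul, smul_smul, smul_smul]
  have h4 : w ^ (m + n) * (((1 : R) ⊗ₜ[k] 𝒞.z1) ^ (m + n) * c)
      = (((1 : R) ⊗ₜ[k] 𝒞.z1) * w) ^ (m + n) * c := by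
    rw [mul_pow]
    ring
  rw [h4]
  abel

end Chart1

/-! ### The unit `z1` modulo `ideal1`, and the assembly -/

section Asm

theorem iota1_aeval (F : R[X]) :
    𝒞.ι1 R (Polynomial.aeval ((1 : R) ⊗ₜ[k] 𝒞.z1) F)
      = Polynomial.aeval ((1 : R) ⊗ₜ[k] 𝒞.i1 𝒞.z1 : R ⊗[k] 𝒞.B01) F := by
  have h := Polynomial.aeval_algHom_apply
    (Algebra.TensorProduct.map (AlgHom.id R R) 𝒞.i1) ((1 : R) ⊗ₜ[k] 𝒞.z1) F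
  rw [Algebra.TensorProduct.map_tmul] at h
  exact h.symm

theorem iota0_aeval (F : R[X]) :
    𝒞.ι0 R (Polynomial.aeval ((1 : R) ⊗ₜ[k] 𝒞.x0) F)
      = Polynomial.aeval ((1 : R) ⊗ₜ[k] 𝒞.i0 𝒞.x0 : R ⊗[k] 𝒞.B01) F := by
  have h := Polynomial.aeval_algHom_apply
    (Algebra.TensorProduct.map (AlgHom.id R R) 𝒞.i0) ((1 : R) ⊗ₜ[k] 𝒞.x0) F
  rw [Algebra.TensorProduct.map_tmul] at h
  exact h.symm

/-- `z1` is a unit modulo `ideal1`: the reversed characteristic polynomial of `ρ x0`, evaluated at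
`1 ⊗ z1`, lies in `ideal1`, and its constant coefficient is `1`. -/
theorem exists_unit_mod_ideal1 (p : Pt k 𝒞.B0 𝒞.x0 g R) :
    ∃ u : R ⊗[k] 𝒞.B1, ((1 : R) ⊗ₜ[k] 𝒞.z1) * u + 1 ∈ p.ideal1 := by
  have hmonic : (p.ρ 𝒞.x0).charpoly.Monic := Matrix.charpoly_monic _
  refine ⟨Polynomial.aeval ((1 : R) ⊗ₜ[k] 𝒞.z1) (p.ρ 𝒞.x0).charpoly.reverse.divX, ?_⟩
  have h1 : ((1 : R) ⊗ₜ[k] 𝒞.z1) *
      Polynomial.aeval ((1 : R) ⊗ₜ[k] 𝒞.z1) (p.ρ 𝒞.x0).charpoly.reverse.divX + 1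
      = Polynomial.aeval ((1 : R) ⊗ₜ[k] 𝒞.z1) (p.ρ 𝒞.x0).charpoly.reverse := by
    conv_rhs => rw [← Polynomial.X_mul_divX_add (p.ρ 𝒞.x0).charpoly.reverse]
    rw [map_add, map_mul, Polynomial.aeval_X, Polynomial.aeval_C, Polynomial.coeff_zero_reverse,
      hmonic.leadingCoeff, map_one]
  rw [h1]
  show 𝒞.ι1 R (Polynomial.aeval ((1 : R) ⊗ₜ[k] 𝒞.z1) (p.ρ 𝒞.x0).charpoly.reverse)
    ∈ Ideal.map (𝒞.ι0 R) p.ideal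
  rw [iota1_aeval]
  letI : Invertible ((1 : R) ⊗ₜ[k] 𝒞.i0 𝒞.x0 : R ⊗[k] 𝒞.B01) :=
    ⟨(1 : R) ⊗ₜ[k] 𝒞.i1 𝒞.z1, unit_mul_unit' 𝒞 R, Triple.unit_mul_unit 𝒞 R⟩
  have h3 : Polynomial.aeval ((1 : R) ⊗ₜ[k] 𝒞.i1 𝒞.z1 : R ⊗[k] 𝒞.B01)
        (p.ρ 𝒞.x0).charpoly.reverse
      * ((1 : R) ⊗ₜ[k] 𝒞.i0 𝒞.x0) ^ (p.ρ 𝒞.x0).charpoly.natDegree
      = Polynomial.aeval ((1 : R) ⊗ₜ[k] 𝒞.i0 𝒞.x0 : R ⊗[k] 𝒞.B01) (p.ρ 𝒞.x0).charpoly :=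
    Polynomial.eval₂_reverse_mul_pow (algebraMap R (R ⊗[k] 𝒞.B01))
      ((1 : R) ⊗ₜ[k] 𝒞.i0 𝒞.x0) (p.ρ 𝒞.x0).charpoly
  have h4 : Polynomial.aeval ((1 : R) ⊗ₜ[k] 𝒞.i1 𝒞.z1 : R ⊗[k] 𝒞.B01)
        (p.ρ 𝒞.x0).charpoly.reverse
      = Polynomial.aeval ((1 : R) ⊗ₜ[k] 𝒞.i0 𝒞.x0 : R ⊗[k] 𝒞.B01) (p.ρ 𝒞.x0).charpoly
        * ((1 : R) ⊗ₜ[k] 𝒞.i1 𝒞.z1) ^ (p.ρ 𝒞.x0).charpoly.natDegree := by
    rw [← h3, mul_assoc, mul_comm (((1 : R) ⊗ₜ[k] 𝒞.i0 𝒞.x0) ^ _), unit_pow, mul_one]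
  rw [h4, ← iota0_aeval]
  exact Ideal.mul_mem_right _ _ (Ideal.mem_map_of_mem _ (charpoly_mem_ideal p))

/-- The extension of `ideal1` is contained in the `ideal1` of the base change. -/
theorem ideal1_map_le (φ : R →ₐ[k] R') (p : Pt k 𝒞.B0 𝒞.x0 g R) :
    Ideal.map (tau φ 𝒞.B1) p.ideal1 ≤ (p.map φ).ideal1 := by
  rw [Ideal.map_le_iff_le_comap]
  intro c hc
  show 𝒞.ι1 R' (tau φ 𝒞.B1 c) ∈ Ideal.map (𝒞.ι0 R') (p.map φ).ideal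
  rw [iota1_tau]
  have hc' : 𝒞.ι1 R c ∈ Ideal.map (𝒞.ι0 R) p.ideal := hc
  have h : Ideal.map (𝒞.ι0 R) p.ideal
      ≤ Ideal.comap (tau φ 𝒞.B01) (Ideal.map (𝒞.ι0 R') (p.map φ).ideal) := by
    rw [Ideal.map_le_iff_le_comap]
    intro t ht
    show tau φ 𝒞.B01 (𝒞.ι0 R t) ∈ Ideal.map (𝒞.ι0 R') (p.map φ).ideal
    rw [← iota0_tau]
    exact Ideal.mem_map_of_mem _ (tau_mem_ideal φ p ht)
  exact h hc'

/-- **Base change of the divisor of a section.** -/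
theorem isDiv_map (h𝒞 : 𝒞.IsGood) (φ : R →ₐ[k] R') (p : Pt k 𝒞.B0 𝒞.x0 g R)
    (L : Triple 𝒞 R) (L' : Triple 𝒞 R') (β : BC φ L L') (s0 : L.P0) (s1 : L.P1)
    (hD : IsDiv L s0 s1 p) : IsDiv L' (β.b0 s0) (β.b1 s1) (p.map φ) := by
  haveI := L.inv1
  haveI := L'.inv1
  have hglue : L'.r0 (β.b0 s0) = L'.r1 (β.b1 s1) := by
    rw [← β.comm0, ← β.comm1, hD.glue]
  have hdiv0 := div0_map p L s0 φ L' β hD.div0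
  have hreg0 := reg0_of_div0 (p.map φ) L' (β.b0 s0) h𝒞 hdiv0
  have hreg1 := reg1_of_reg0 L' (β.b0 s0) (β.b1 s1) h𝒞 hglue hreg0
  have hcol1 : colon (R ⊗[k] 𝒞.B1) s1 = p.ideal1 := by
    ext c
    exact (hD.div1 c).symm
  have hcolon1 : colon (R' ⊗[k] 𝒞.B1) (β.b1 s1)
      = Ideal.map (tau φ 𝒞.B1).toRingHom (colon (R ⊗[k] 𝒞.B1) s1) :=
    colon_map (tau φ 𝒞.B1).toRingHom β.b1 (fun c q => β.semi1 c q) β.gen1 s1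
  rw [hcol1] at hcolon1
  obtain ⟨u, hu⟩ := exists_unit_mod_ideal1 p
  have hw : ((1 : R') ⊗ₜ[k] 𝒞.z1) * (-(tau φ 𝒞.B1 u)) - 1
      ∈ colon (R' ⊗[k] 𝒞.B1) (β.b1 s1) := by
    rw [hcolon1]
    have h1 := Ideal.mem_map_of_mem (tau φ 𝒞.B1).toRingHom hu
    have e : ((1 : R') ⊗ₜ[k] 𝒞.z1) * (-(tau φ 𝒞.B1 u)) - 1
        = -((tau φ 𝒞.B1).toRingHom (((1 : R) ⊗ₜ[k] 𝒞.z1) * u + 1)) := by
      show _ = -(tau φ 𝒞.B1 (((1 : R) ⊗ₜ[k] 𝒞.z1) * u + 1))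
      rw [map_add, map_mul, tau_tmul, map_one, map_one]
      ring
    rw [e]
    exact (Ideal.neg_mem_iff _).2 h1
  refine ⟨hglue, hreg0, hreg1, hdiv0, fun c => ⟨fun hc => ?_, fun hc => ?_⟩⟩
  · have h0 : colon (R' ⊗[k] 𝒞.B0) (β.b0 s0) = (p.map φ).ideal :=
      colon0_eq (p.map φ) L' (β.b0 s0) hdiv0
    have hc' : 𝒞.ι1 R' c ∈ Ideal.map (𝒞.ι0 R') (colon (R' ⊗[k] 𝒞.B0) (β.b0 s0)) := by
      rw [h0]
      exact hc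
    exact mem_colon1_of_overlap L' (β.b0 s0) (β.b1 s1) h𝒞 hglue _ hw hc'
  · have hc' : c ∈ colon (R' ⊗[k] 𝒞.B1) (β.b1 s1) := hc
    rw [hcolon1] at hc'
    exact ideal1_map_le φ p hc'

/-- **DIVBC**. -/
theorem stmt_DIVBC : Stmt_DIVBC.{u} := by
  intro k _ 𝒞 h𝒞 g R R' _ _ _ _ φ p L L' β s0 s1 hD
  exact isDiv_map h𝒞 φ p L L' β s0 s1 hD

end Asm

end Fermat.Agent.S25.Chart.H46b
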