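import Fermat.Agent.S25.Chart.Defs

/-!
# S25, package CHART, leaf CH-OPENUNIT (helper46)

For `h : A` and `A' = A[1/h]`: the chart points of `(A', x)` are the chart points `p` of `(A, x)`
with `det ρ(h)` a unit.

* `isUnit_det_of_ext` : a point of `(A', x)` over `p` gives `IsUnit (p.ρ h).det`;
* `exists_ext`        : if `det ρ(h)` is a unit, `ρ` extends to `A'` (the `k`-subalgebra of
                        `M_g(R)` generated by the image of `ρ` and `ρ(h)⁻¹` is commutative, so the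
                        universal property of the localisation applies);
* `ext_unique`        : the extension is unique;
* `stmt_OPENUNIT : Stmt_OPENUNIT`.
-/

set_option autoImplicit false

universe u

open Polynomial TensorProduct

open scoped IsMulCommutative

namespace Fermat.Agent.S25.Chart.H46o

variable {k : Type u} [CommRing k] {A : Type u} [CommRing A] [Algebra k A] {x : A} (h : A)
  {A' : Type u} [CommRing A'] [Algebra k A'] [Algebra A A'] [IsScalarTower k A A']
  [IsLocalization.Away h A'] {g : ℕ} {R : Type u} [CommRing R] [Algebra k R]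

/-- A point of `(A[1/h], x)` over `p` forces `det ρ(h)` to be a unit. -/
theorem isUnit_det_of_ext (p : Pt k A x g R) (p' : Pt k A' (algebraMap A A' x) g R)
    (hp : ∀ a : A, p'.ρ (algebraMap A A' a) = p.ρ a) : IsUnit (p.ρ h).det := by
  have h1 : IsUnit (algebraMap A A' h) := IsLocalization.Away.algebraMap_isUnit h
  have h2 : IsUnit (p'.ρ (algebraMap A A' h)) := h1.map p'.ρ
  rw [hp] at h2
  exact (Matrix.isUnit_iff_isUnit_det _).1 h2

/-- An algebra map `ρ : A → M_g(R)` with `ρ(h)` invertible extends to `A[1/h]`. -/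
theorem exists_algHom_ext (ρ : A →ₐ[k] Matrix (Fin g) (Fin g) R) (hM : IsUnit (ρ h)) :
    ∃ ρ' : A' →ₐ[k] Matrix (Fin g) (Fin g) R, ∀ a : A, ρ' (algebraMap A A' a) = ρ a := by
  obtain ⟨u, hu'⟩ := hM
  have hc : ∀ a : A, Commute (ρ a) ((u⁻¹ : (Matrix (Fin g) (Fin g) R)ˣ) :
      Matrix (Fin g) (Fin g) R) := by
    intro a
    apply Commute.units_inv_right
    rw [hu']
    show ρ a * ρ h = ρ h * ρ a
    rw [← map_mul, ← map_mul, mul_comm]
  have hcomm : ∀ a ∈ (Set.range ρ ∪ {((u⁻¹ : (Matrix (Fin g) (Fin g) R)ˣ) :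
      Matrix (Fin g) (Fin g) R)} : Set (Matrix (Fin g) (Fin g) R)),
      ∀ b ∈ (Set.range ρ ∪ {((u⁻¹ : (Matrix (Fin g) (Fin g) R)ˣ) :
      Matrix (Fin g) (Fin g) R)} : Set (Matrix (Fin g) (Fin g) R)), a * b = b * a := by
    rintro a (⟨a', rfl⟩ | ha) b (⟨b', rfl⟩ | hb)
    · rw [← map_mul, ← map_mul, mul_comm]
    · rw [Set.mem_singleton_iff.1 hb]
      exact (hc a').eq
    · rw [Set.mem_singleton_iff.1 ha]
      exact (hc b').eq.symm
    · rw [Set.mem_singleton_iff.1 ha, Set.mem_singleton_iff.1 hb]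
  haveI : IsMulCommutative (Algebra.adjoin k (Set.range ρ ∪
      {((u⁻¹ : (Matrix (Fin g) (Fin g) R)ˣ) : Matrix (Fin g) (Fin g) R)} :
      Set (Matrix (Fin g) (Fin g) R))) := Algebra.isMulCommutative_adjoin k hcomm
  let T : Subalgebra k (Matrix (Fin g) (Fin g) R) := Algebra.adjoin k (Set.range ρ ∪
      {((u⁻¹ : (Matrix (Fin g) (Fin g) R)ˣ) : Matrix (Fin g) (Fin g) R)} :
      Set (Matrix (Fin g) (Fin g) R))
  let ρT : A →ₐ[k] T := ρ.codRestrict T (fun a => Algebra.subset_adjoin (Or.inl ⟨a, rfl⟩))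
  have hunit : IsUnit (ρT h) := by
    refine ⟨⟨ρT h, ⟨((u⁻¹ : (Matrix (Fin g) (Fin g) R)ˣ) : Matrix (Fin g) (Fin g) R),
      Algebra.subset_adjoin (Or.inr rfl)⟩, ?_, ?_⟩, rfl⟩
    · apply Subtype.ext
      show ρ h * ((u⁻¹ : (Matrix (Fin g) (Fin g) R)ˣ) : Matrix (Fin g) (Fin g) R) = 1
      rw [← hu']
      exact u.mul_inv
    · apply Subtype.ext
      show ((u⁻¹ : (Matrix (Fin g) (Fin g) R)ˣ) : Matrix (Fin g) (Fin g) R) * ρ h = 1
      rw [← hu']
      exact u.inv_mul
  refine ⟨T.val.comp (IsLocalization.Away.liftAlgHom (S := A') h (f := ρT) hunit), fun a => ?_⟩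
  show ((IsLocalization.Away.lift (S := A') h (g := ρT.toRingHom) hunit (algebraMap A A' a) : T) :
    Matrix (Fin g) (Fin g) R) = ρ a
  rw [IsLocalization.Away.lift_eq]
  rfl

/-- If `det ρ(h)` is a unit, the point `p` extends to a point of `(A[1/h], x)`. -/
theorem exists_ext (p : Pt k A x g R) (hu : IsUnit (p.ρ h).det) :
    ∃ p' : Pt k A' (algebraMap A A' x) g R, ∀ a : A, p'.ρ (algebraMap A A' a) = p.ρ a := by
  obtain ⟨ρ', hρ'⟩ := exists_algHom_ext (A' := A') h p.ρ ((Matrix.isUnit_iff_isUnit_det _).2 hu)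
  exact ⟨⟨ρ', by rw [hρ']; exact p.comp⟩, hρ'⟩

include h in
/-- The extension to `A[1/h]` is unique. -/
theorem ext_unique (p' p'' : Pt k A' (algebraMap A A' x) g R)
    (hp : ∀ a : A, p'.ρ (algebraMap A A' a) = p''.ρ (algebraMap A A' a)) : p' = p'' := by
  apply Pt.ext
  apply AlgHom.ext
  intro b
  obtain ⟨⟨a, s⟩, hb⟩ := IsLocalization.surj (Submonoid.powers h) b
  have hs : IsUnit (algebraMap A A' (s : A)) := IsLocalization.map_units A' s
  have h1 : p'.ρ b * p'.ρ (algebraMap A A' (s : A)) = p'.ρ (algebraMap A A' a) := by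
    rw [← map_mul, hb]
  have h2 : p''.ρ b * p''.ρ (algebraMap A A' (s : A)) = p''.ρ (algebraMap A A' a) := by
    rw [← map_mul, hb]
  have hu : IsUnit (p''.ρ (algebraMap A A' (s : A))) := hs.map p''.ρ
  rw [hp, hp a] at h1
  exact hu.mul_right_cancel (h1.trans h2.symm)

/-- **CH-OPENUNIT**. -/
theorem stmt_OPENUNIT : Stmt_OPENUNIT.{u} := by
  intro k _ A _ _ x h A' _ _ _ _ _ g R _ _ p
  exact ⟨fun hu => exists_ext h p hu, fun ⟨p', hp'⟩ => isUnit_det_of_ext h p p' hp'⟩

end Fermat.Agent.S25.Chart.H46o
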