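import Fermat.Agent.S25.Chart.Defs3

/-!
# S25 / CHART, leaf CH-LOCSPLIT (helper17)

Over a noetherian local ring, a surjection `Φ : F → P` from a free module onto a projective module
which is injective modulo the maximal ideal is injective.  `F` and `P` need not be finitely
generated: `F = K ⊕ P` (`P` projective), `K ⊆ 𝔪 F` gives `K ⊆ 𝔪 K`, hence `K ⊆ ⋂ 𝔪^n F = 0`
(Krull's intersection theorem on the coordinates of a basis of `F`).

* `eq_zero_of_forall_mem_pow_smul` : `⋂ 𝔪^n F = 0` for `F` free;
* `locsplit`, `stmt_LOCSPLIT : Stmt_LOCSPLIT`.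
-/

set_option autoImplicit false

universe u

namespace Fermat.Agent.S25.Chart.H17

section LocSplit

variable (R : Type u) [CommRing R] [IsLocalRing R] [IsNoetherianRing R]
  (F P : Type u) [AddCommGroup F] [Module R F] [Module.Free R F]
  [AddCommGroup P] [Module R P] [Module.Projective R P]

/-- In a free module over a noetherian local ring, `⋂ 𝔪^n F = 0`. -/
theorem eq_zero_of_forall_mem_pow_smul (v : F)
    (hv : ∀ n : ℕ, v ∈ (IsLocalRing.maximalIdeal R ^ n) • (⊤ : Submodule R F)) : v = 0 := by
  classical
  let b := Module.Free.chooseBasis R F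
  have hcoord : ∀ (n : ℕ) (i : Module.Free.ChooseBasisIndex R F) (w : F),
      w ∈ (IsLocalRing.maximalIdeal R ^ n) • (⊤ : Submodule R F) →
        b.coord i w ∈ IsLocalRing.maximalIdeal R ^ n := by
    intro n i w hw
    refine Submodule.smul_induction_on hw ?_ ?_
    · intro a ha f _
      rw [map_smul, smul_eq_mul]
      exact Ideal.mul_mem_right _ _ ha
    · intro x y hx hy
      rw [map_add]
      exact Ideal.add_mem _ hx hy
  apply b.ext_elem
  intro i
  rw [map_zero, Finsupp.zero_apply]
  have h1 : b.coord i v ∈ (⨅ n : ℕ, IsLocalRing.maximalIdeal R ^ n) := by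
    rw [Ideal.mem_iInf]
    intro n
    exact hcoord n i v (hv n)
  rw [Ideal.iInf_pow_eq_bot_of_isLocalRing _ (IsLocalRing.maximalIdeal.isMaximal R).ne_top] at h1
  exact h1

/-- **LOCSPLIT.** -/
theorem locsplit (Φ : F →ₗ[R] P) (hΦ : Function.Surjective Φ)
    (hinj : ∀ v : F, Φ v ∈ (IsLocalRing.maximalIdeal R) • (⊤ : Submodule R P) →
      v ∈ (IsLocalRing.maximalIdeal R) • (⊤ : Submodule R F)) :
    Function.Injective Φ := by
  obtain ⟨s, hs⟩ := Module.projective_lifting_property Φ LinearMap.id hΦ
  have hs' : ∀ p, Φ (s p) = p := fun p => LinearMap.congr_fun hs p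
  -- the projection onto the kernel
  set π : F →ₗ[R] F := LinearMap.id - s.comp Φ with hπ
  have hπk : ∀ v, Φ (π v) = 0 := by
    intro v
    rw [hπ, LinearMap.sub_apply, LinearMap.id_apply, LinearMap.comp_apply, map_sub, hs',
      sub_self]
  have hπid : ∀ v, Φ v = 0 → π v = v := by
    intro v hv
    rw [hπ, LinearMap.sub_apply, LinearMap.id_apply, LinearMap.comp_apply, hv, map_zero,
      sub_zero]
  have key : ∀ n : ℕ, ∀ v : F, Φ v = 0 →
      v ∈ (IsLocalRing.maximalIdeal R ^ n) • (⊤ : Submodule R F) := by
    intro n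
    induction n with
    | zero =>
      intro v _
      rw [pow_zero, Ideal.one_eq_top, Submodule.top_smul]
      exact Submodule.mem_top
    | succ n ih =>
      intro v hv
      have h1 : v ∈ (IsLocalRing.maximalIdeal R) • (⊤ : Submodule R F) := by
        apply hinj
        rw [hv]
        exact Submodule.zero_mem _
      have h2 : ∀ w : F, w ∈ (IsLocalRing.maximalIdeal R) • (⊤ : Submodule R F) →
          π w ∈ (IsLocalRing.maximalIdeal R ^ (n + 1)) • (⊤ : Submodule R F) := by
        intro w hw
        refine Submodule.smul_induction_on hw ?_ ?_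
        · intro a ha f _
          rw [map_smul, pow_succ', mul_smul]
          exact Submodule.smul_mem_smul ha (ih (π f) (hπk f))
        · intro x y hx hy
          rw [map_add]
          exact Submodule.add_mem _ hx hy
      have h3 := h2 v h1
      rwa [hπid v hv] at h3
  rw [injective_iff_map_eq_zero]
  intro v hv
  exact eq_zero_of_forall_mem_pow_smul R F v (fun n => key n v hv)

end LocSplit

/-- **CH-LOCSPLIT.** -/
theorem stmt_LOCSPLIT : Stmt_LOCSPLIT.{u} := by
  intro R _ _ _ F P _ _ _ _ _ _ Φ hΦ hinj
  exact locsplit R F P Φ hΦ hinj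

end Fermat.Agent.S25.Chart.H17
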