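import Fermat.Agent.S25.Chart.Defs

/-!
# S25, package CHART, leaf CH-HILB (helper76): the chart functor is representable

`A` a finitely presented `k`-algebra, `x : A`.  The functor
`R ↦ Pt k A x g R = {ρ : A →ₐ[k] M_g(R) | ρ x is a companion matrix}` is represented by a finitely
presented `k`-algebra `B`:

* `P = k[z^l_ij]` the coordinate ring of `n`-tuples of `g × g` matrices, `genMat l` the generic
  matrices, `P1 = P ⧸ (entries of the commutators)`; the images `genMat1 l` of the generic matrices
  in `M_g(P1)` commute, so every polynomial `r ∈ k[X_1..X_n]` can be evaluated at them (`ev1`,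
  through `evalComm`: evaluation at commuting elements of a non-commutative algebra);
* `B = P1 ⧸ (entries of ev1 r for the relations r of A, companion equations for ev1 x̃)`.

Main result: `stmt_HILB : Stmt_HILB`.  Mathlib + `S25/Chart/Defs.lean` only; complete proofs,
standard axioms only.
-/

set_option autoImplicit false

universe u v

open TensorProduct

namespace Fermat.Agent.S25.Chart.H76

/-! ### Evaluation of polynomials at commuting elements of a non-commutative algebra -/

section EvalComm

variable {k : Type u} [CommRing k] {S : Type v} [Ring S] [Algebra k S] {n : ℕ}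

theorem range_comm (Y : Fin n → S) (hY : ∀ l m, Commute (Y l) (Y m)) :
    ∀ a ∈ Set.range Y, ∀ b ∈ Set.range Y, a * b = b * a := by
  rintro _ ⟨l, rfl⟩ _ ⟨m, rfl⟩
  exact hY l m

/-- Evaluation of polynomials at pairwise commuting elements `Y l` of a `k`-algebra `S`. -/
noncomputable def evalComm (Y : Fin n → S) (hY : ∀ l m, Commute (Y l) (Y m)) :
    MvPolynomial (Fin n) k →ₐ[k] S :=
  letI : CommRing (Algebra.adjoin k (Set.range Y)) :=
    Algebra.adjoinCommRingOfComm k (range_comm Y hY)
  (Algebra.adjoin k (Set.range Y)).val.comp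
    (MvPolynomial.aeval (fun l =>
      (⟨Y l, Algebra.subset_adjoin ⟨l, rfl⟩⟩ : Algebra.adjoin k (Set.range Y))))

theorem evalComm_X (Y : Fin n → S) (hY : ∀ l m, Commute (Y l) (Y m)) (l : Fin n) :
    evalComm Y hY (MvPolynomial.X l : MvPolynomial (Fin n) k) = Y l := by
  letI : CommRing (Algebra.adjoin k (Set.range Y)) :=
    Algebra.adjoinCommRingOfComm k (range_comm Y hY)
  show (Algebra.adjoin k (Set.range Y)).val
    (MvPolynomial.aeval (fun l =>
      (⟨Y l, Algebra.subset_adjoin ⟨l, rfl⟩⟩ : Algebra.adjoin k (Set.range Y)))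
        (MvPolynomial.X l)) = Y l
  rw [MvPolynomial.aeval_X]
  rfl

/-- Two algebra homomorphisms out of a polynomial ring which agree on the variables are
equal (also for a non-commutative target). -/
theorem algHom_ext_X {F G : MvPolynomial (Fin n) k →ₐ[k] S}
    (h : ∀ l, F (MvPolynomial.X l) = G (MvPolynomial.X l)) : F = G :=
  MvPolynomial.algHom_ext h

end EvalComm

/-! ### Generic commuting matrices -/

section Generic

variable (k : Type u) [CommRing k] (n g : ℕ)

/-- The coordinate ring of `n`-tuples of `g × g` matrices. -/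
abbrev P : Type u := MvPolynomial (Fin n × Fin g × Fin g) k

/-- The generic matrices. -/
noncomputable def genMat (l : Fin n) : Matrix (Fin g) (Fin g) (P k n g) :=
  Matrix.of (fun i j => (MvPolynomial.X (l, i, j) : P k n g))

theorem genMat_apply (l : Fin n) (i j : Fin g) :
    genMat k n g l i j = MvPolynomial.X (l, i, j) := rfl

/-- The entries of the commutators of the generic matrices. -/
noncomputable def commGen (t : (Fin n × Fin n) × (Fin g × Fin g)) : P k n g :=
  (genMat k n g t.1.1 * genMat k n g t.1.2 - genMat k n g t.1.2 * genMat k n g t.1.1) t.2.1 t.2.2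

/-- The ideal of the entries of the commutators. -/
noncomputable def commIdeal : Ideal (P k n g) :=
  Ideal.span (Set.range (commGen k n g))

theorem commIdeal_fg : (commIdeal k n g).FG :=
  ⟨(Set.finite_range (commGen k n g)).toFinset, by rw [Set.Finite.coe_toFinset]; rfl⟩

/-- The coordinate ring of `n`-tuples of commuting `g × g` matrices. -/
abbrev P1 : Type u := P k n g ⧸ commIdeal k n g

/-- The generic commuting matrices. -/
noncomputable def genMat1 (l : Fin n) : Matrix (Fin g) (Fin g) (P1 k n g) :=
  (Ideal.Quotient.mkₐ k (commIdeal k n g)).mapMatrix (genMat k n g l)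

theorem genMat1_commute (l m : Fin n) : Commute (genMat1 k n g l) (genMat1 k n g m) := by
  show genMat1 k n g l * genMat1 k n g m = genMat1 k n g m * genMat1 k n g l
  rw [← sub_eq_zero, genMat1, genMat1, ← map_mul, ← map_mul, ← map_sub]
  ext i j
  rw [AlgHom.mapMatrix_apply, Matrix.map_apply, Matrix.zero_apply, Ideal.Quotient.mkₐ_eq_mk,
    Ideal.Quotient.eq_zero_iff_mem]
  exact Ideal.subset_span ⟨((l, m), (i, j)), rfl⟩

/-- Evaluation of polynomials at the generic commuting matrices. -/
noncomputable def ev1 : MvPolynomial (Fin n) k →ₐ[k] Matrix (Fin g) (Fin g) (P1 k n g) :=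
  evalComm (genMat1 k n g) (genMat1_commute k n g)

theorem ev1_X (l : Fin n) : ev1 k n g (MvPolynomial.X l) = genMat1 k n g l :=
  evalComm_X _ _ l

end Generic

/-! ### The representing algebra -/

section Repr

variable {k : Type u} [CommRing k] {A : Type u} [CommRing A] [Algebra k A] {n : ℕ}
  (f : MvPolynomial (Fin n) k →ₐ[k] A) (s : Finset (MvPolynomial (Fin n) k))
  (xt : MvPolynomial (Fin n) k) (g : ℕ)

/-- The relations coming from the relations of `A`. -/
noncomputable def relGen (t : s × (Fin g × Fin g)) : P1 k n g :=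
  ev1 k n g (t.1 : MvPolynomial (Fin n) k) t.2.1 t.2.2

/-- The companion equations for (the lift `xt` of) `x`. -/
noncomputable def compGen (t : Fin g × Fin g) : P1 k n g :=
  if (t.1 : ℕ) + 1 < g then
    ev1 k n g xt t.2 t.1 - (if (t.2 : ℕ) = (t.1 : ℕ) + 1 then 1 else 0)
  else 0

/-- The ideal of the relations. -/
noncomputable def relIdeal : Ideal (P1 k n g) :=
  Ideal.span (Set.range (relGen s g) ∪ Set.range (compGen xt g))

theorem relIdeal_fg : (relIdeal s xt g).FG :=
  ⟨((Set.finite_range (relGen s g)).union (Set.finite_range (compGen xt g))).toFinset, by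
    rw [Set.Finite.coe_toFinset]; rfl⟩

/-- **The representing algebra of the chart.** -/
abbrev B : Type u := P1 k n g ⧸ relIdeal s xt g

instance finitePresentation_B : Algebra.FinitePresentation k (B s xt g) := by
  haveI h0 : Algebra.FinitePresentation k (P k n g) :=
    Algebra.FinitePresentation.mvPolynomial k k (Fin n × Fin g × Fin g)
  haveI h1 : Algebra.FinitePresentation k (P1 k n g) :=
    Algebra.FinitePresentation.quotient (commIdeal_fg k n g)
  exact Algebra.FinitePresentation.quotient (relIdeal_fg s xt g)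

/-- The evaluation at the universal commuting matrices subject to the relations. -/
noncomputable def psi : MvPolynomial (Fin n) k →ₐ[k] Matrix (Fin g) (Fin g) (B s xt g) :=
  ((Ideal.Quotient.mkₐ k (relIdeal s xt g)).mapMatrix).comp (ev1 k n g)

theorem psi_apply (r : MvPolynomial (Fin n) k) (i j : Fin g) :
    psi s xt g r i j = Ideal.Quotient.mk (relIdeal s xt g) (ev1 k n g r i j) := rfl

theorem psi_mem (r : MvPolynomial (Fin n) k) (hr : r ∈ s) : psi s xt g r = 0 := by
  ext i j
  rw [psi_apply, Matrix.zero_apply, Ideal.Quotient.eq_zero_iff_mem]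
  exact Ideal.subset_span (Or.inl ⟨(⟨r, hr⟩, (i, j)), rfl⟩)

theorem psi_span (r : MvPolynomial (Fin n) k)
    (hr : r ∈ Ideal.span (s : Set (MvPolynomial (Fin n) k))) : psi s xt g r = 0 := by
  induction hr using Submodule.span_induction with
  | mem r hr => exact psi_mem s xt g r hr
  | zero => exact map_zero _
  | add a b _ _ ha hb => rw [map_add, ha, hb, add_zero]
  | smul c a _ ha =>
    have h1 : psi s xt g (c • a) = psi s xt g c * psi s xt g a := by
      rw [smul_eq_mul, map_mul]
    rw [h1, ha]
    exact Matrix.mul_zero (psi s xt g c)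

theorem psi_comp : IsCompanion (psi s xt g xt) := by
  intro i j hi
  rw [psi_apply]
  have h : compGen xt g (i, j) ∈ relIdeal s xt g := Ideal.subset_span (Or.inr ⟨(i, j), rfl⟩)
  rw [compGen, if_pos hi, ← Ideal.Quotient.eq_zero_iff_mem, map_sub, sub_eq_zero] at h
  rw [h]
  split_ifs
  · exact map_one _
  · exact map_zero _

variable (hf : Function.Surjective f)
  (hs : RingHom.ker (f : MvPolynomial (Fin n) k →+* A) = Ideal.span (s : Set _))

include hs in
theorem psi_eq_of_eq (r r' : MvPolynomial (Fin n) k) (h : f r = f r') :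
    psi s xt g r = psi s xt g r' := by
  rw [← sub_eq_zero, ← map_sub]
  refine psi_span s xt g _ ?_
  rw [← hs, RingHom.mem_ker, map_sub]
  exact sub_eq_zero.2 h

/-- The universal homomorphism `A → M_g(B)`. -/
noncomputable def rhoU : A →ₐ[k] Matrix (Fin g) (Fin g) (B s xt g) where
  toFun a := psi s xt g (Function.surjInv hf a)
  map_one' :=
    (psi_eq_of_eq f s xt g hs _ 1 (by rw [Function.surjInv_eq hf, map_one])).trans
      ((psi s xt g).map_one)
  map_mul' a a' :=
    (psi_eq_of_eq f s xt g hs _ (Function.surjInv hf a * Function.surjInv hf a') (by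
      rw [map_mul, Function.surjInv_eq hf, Function.surjInv_eq hf, Function.surjInv_eq hf])).trans
      ((psi s xt g).map_mul _ _)
  map_zero' :=
    (psi_eq_of_eq f s xt g hs _ 0 (by rw [Function.surjInv_eq hf, map_zero])).trans
      ((psi s xt g).map_zero)
  map_add' a a' :=
    (psi_eq_of_eq f s xt g hs _ (Function.surjInv hf a + Function.surjInv hf a') (by
      rw [map_add, Function.surjInv_eq hf, Function.surjInv_eq hf, Function.surjInv_eq hf])).trans
      ((psi s xt g).map_add _ _)
  commutes' c :=
    (psi_eq_of_eq f s xt g hs _ (algebraMap k _ c) (by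
      rw [Function.surjInv_eq hf, AlgHom.commutes])).trans ((psi s xt g).commutes c)

theorem rhoU_f (r : MvPolynomial (Fin n) k) : rhoU f s xt g hf hs (f r) = psi s xt g r :=
  psi_eq_of_eq f s xt g hs _ _ (Function.surjInv_eq hf _)

/-- **The universal point of the chart.** -/
noncomputable def univPt : Pt k A (f xt) g (B s xt g) :=
  ⟨rhoU f s xt g hf hs, by rw [rhoU_f]; exact psi_comp s xt g⟩

theorem univPt_ρ_f (r : MvPolynomial (Fin n) k) :
    (univPt f s xt g hf hs).ρ (f r) = psi s xt g r := rhoU_f f s xt g hf hs r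

/-! ### The universal property -/

section Univ

variable {R : Type u} [CommRing R] [Algebra k R]

/-- The surjection `P → B`. -/
noncomputable def piB : P k n g →ₐ[k] B s xt g :=
  (Ideal.Quotient.mkₐ k (relIdeal s xt g)).comp (Ideal.Quotient.mkₐ k (commIdeal k n g))

theorem piB_surjective : Function.Surjective (piB s xt g) :=
  (Ideal.Quotient.mkₐ_surjective k (relIdeal s xt g)).comp
    (Ideal.Quotient.mkₐ_surjective k (commIdeal k n g))

theorem univPt_ρ_X (l : Fin n) (i j : Fin g) :
    (univPt f s xt g hf hs).ρ (f (MvPolynomial.X l)) i j = piB s xt g (MvPolynomial.X (l, i, j)) := by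
  rw [univPt_ρ_f, psi_apply, ev1_X]
  rfl

theorem map_univPt_X (φ : B s xt g →ₐ[k] R) (l : Fin n) (i j : Fin g) :
    ((univPt f s xt g hf hs).map φ).ρ (f (MvPolynomial.X l)) i j =
      φ (piB s xt g (MvPolynomial.X (l, i, j))) := by
  rw [Pt.map_ρ_apply, AlgHom.mapMatrix_apply, Matrix.map_apply, univPt_ρ_X]

theorem univPt_injective :
    Function.Injective (fun φ : B s xt g →ₐ[k] R => (univPt f s xt g hf hs).map φ) := by
  intro φ φ' h
  have h' : (univPt f s xt g hf hs).map φ = (univPt f s xt g hf hs).map φ' := h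
  have hcomp : φ.comp (piB s xt g) = φ'.comp (piB s xt g) := by
    refine MvPolynomial.algHom_ext (fun t => ?_)
    obtain ⟨l, i, j⟩ := t
    rw [AlgHom.comp_apply, AlgHom.comp_apply, ← map_univPt_X f s xt g hf hs φ,
      ← map_univPt_X f s xt g hf hs φ', h']
  refine AlgHom.ext (fun y => ?_)
  obtain ⟨z, rfl⟩ := piB_surjective s xt g y
  exact congrArg (fun F : P k n g →ₐ[k] R => F z) hcomp

variable (p : Pt k A (f xt) g R)

/-- The matrices of a point. -/
noncomputable def matOf (l : Fin n) : Matrix (Fin g) (Fin g) R := p.ρ (f (MvPolynomial.X l))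

/-- The coordinates of a point: `P → R`. -/
noncomputable def phi0 : P k n g →ₐ[k] R :=
  MvPolynomial.aeval (fun t : Fin n × Fin g × Fin g => matOf f xt g p t.1 t.2.1 t.2.2)

theorem phi0_genMat (l : Fin n) :
    (phi0 f xt g p).mapMatrix (genMat k n g l) = matOf f xt g p l := by
  ext i j
  rw [AlgHom.mapMatrix_apply, Matrix.map_apply, genMat_apply, phi0, MvPolynomial.aeval_X]

theorem matOf_comm (l m : Fin n) :
    matOf f xt g p l * matOf f xt g p m = matOf f xt g p m * matOf f xt g p l := by
  have h1 : matOf f xt g p l * matOf f xt g p m =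
      p.ρ (f (MvPolynomial.X l) * f (MvPolynomial.X m)) := (map_mul p.ρ _ _).symm
  have h2 : matOf f xt g p m * matOf f xt g p l =
      p.ρ (f (MvPolynomial.X m) * f (MvPolynomial.X l)) := (map_mul p.ρ _ _).symm
  rw [h1, h2, mul_comm]

theorem phi0_commGen (t : (Fin n × Fin n) × (Fin g × Fin g)) :
    phi0 f xt g p (commGen k n g t) = 0 := by
  have h : (phi0 f xt g p).mapMatrix
      (genMat k n g t.1.1 * genMat k n g t.1.2 - genMat k n g t.1.2 * genMat k n g t.1.1) = 0 := by
    rw [map_sub, map_mul, map_mul, phi0_genMat, phi0_genMat, matOf_comm, sub_self]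
  have h2 := congrFun (congrFun h t.2.1) t.2.2
  rw [AlgHom.mapMatrix_apply, Matrix.map_apply, Matrix.zero_apply] at h2
  exact h2

theorem phi0_commIdeal (a : P k n g) (ha : a ∈ commIdeal k n g) : phi0 f xt g p a = 0 := by
  induction ha using Submodule.span_induction with
  | mem a ha =>
    obtain ⟨t, rfl⟩ := ha
    exact phi0_commGen f xt g p t
  | zero => exact map_zero _
  | add a b _ _ ha hb => rw [map_add, ha, hb, add_zero]
  | smul c a _ ha => rw [smul_eq_mul, map_mul, ha, mul_zero]

/-- The coordinates of a point: `P1 → R`. -/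
noncomputable def phi1 : P1 k n g →ₐ[k] R :=
  Ideal.Quotient.liftₐ (commIdeal k n g) (phi0 f xt g p) (phi0_commIdeal f xt g p)

theorem phi1_mk (a : P k n g) :
    phi1 f xt g p (Ideal.Quotient.mk (commIdeal k n g) a) = phi0 f xt g p a := rfl

theorem phi1_genMat1 (l : Fin n) :
    (phi1 f xt g p).mapMatrix (genMat1 k n g l) = matOf f xt g p l := by
  rw [← phi0_genMat f xt g p l]
  ext i j
  rfl

theorem phi1_ev1 :
    ((phi1 f xt g p).mapMatrix).comp (ev1 k n g) = p.ρ.comp f := by
  refine MvPolynomial.algHom_ext (fun l => ?_)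
  rw [AlgHom.comp_apply, AlgHom.comp_apply, ev1_X, phi1_genMat1]
  rfl

theorem phi1_ev1_apply (r : MvPolynomial (Fin n) k) (i j : Fin g) :
    phi1 f xt g p (ev1 k n g r i j) = p.ρ (f r) i j := by
  have h := congrArg (fun F : MvPolynomial (Fin n) k →ₐ[k] Matrix (Fin g) (Fin g) R => F r i j)
    (phi1_ev1 f xt g p)
  exact h

include hs in
theorem phi1_relGen (t : s × (Fin g × Fin g)) : phi1 f xt g p (relGen s g t) = 0 := by
  rw [relGen, phi1_ev1_apply]
  have h0 : f (t.1 : MvPolynomial (Fin n) k) = 0 := by
    have : (t.1 : MvPolynomial (Fin n) k) ∈ RingHom.ker (f : MvPolynomial (Fin n) k →+* A) := by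
      rw [hs]
      exact Ideal.subset_span t.1.2
    exact this
  rw [h0, map_zero]
  rfl

theorem phi1_compGen (t : Fin g × Fin g) : phi1 f xt g p (compGen xt g t) = 0 := by
  rw [compGen]
  split_ifs with h1 h2
  · rw [map_sub, map_one, phi1_ev1_apply, p.comp t.1 t.2 h1, if_pos h2, sub_self]
  · rw [map_sub, map_zero, phi1_ev1_apply, p.comp t.1 t.2 h1, if_neg h2, sub_self]
  · exact map_zero _

include hs in
theorem phi1_relIdeal (a : P1 k n g) (ha : a ∈ relIdeal s xt g) : phi1 f xt g p a = 0 := by
  induction ha using Submodule.span_induction with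
  | mem a ha =>
    rcases ha with ⟨t, rfl⟩ | ⟨t, rfl⟩
    · exact phi1_relGen f s xt g hs p t
    · exact phi1_compGen f xt g p t
  | zero => exact map_zero _
  | add a b _ _ ha hb => rw [map_add, ha, hb, add_zero]
  | smul c a _ ha => rw [smul_eq_mul, map_mul, ha, mul_zero]

/-- The classifying homomorphism of a point. -/
noncomputable def phiB : B s xt g →ₐ[k] R :=
  Ideal.Quotient.liftₐ (relIdeal s xt g) (phi1 f xt g p) (phi1_relIdeal f s xt g hs p)

theorem phiB_mk (a : P1 k n g) :
    phiB f s xt g hs p (Ideal.Quotient.mk (relIdeal s xt g) a) = phi1 f xt g p a := rfl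

theorem map_phiB : (univPt f s xt g hf hs).map (phiB f s xt g hs p) = p := by
  apply Pt.ext
  refine AlgHom.ext (fun a => ?_)
  obtain ⟨r, rfl⟩ := hf a
  ext i j
  rw [Pt.map_ρ_apply, AlgHom.mapMatrix_apply, Matrix.map_apply, univPt_ρ_f, psi_apply, phiB_mk,
    phi1_ev1_apply]

theorem univPt_surjective :
    Function.Surjective (fun φ : B s xt g →ₐ[k] R => (univPt f s xt g hf hs).map φ) :=
  fun p => ⟨phiB f s xt g hs p, map_phiB f s xt g hf hs p⟩

end Univ

/-- **The universal point is universal.** -/
theorem isUniv_univPt : IsUniv (univPt f s xt g hf hs) :=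
  ⟨fun _ _ _ => ⟨univPt_injective f s xt g hf hs, univPt_surjective f s xt g hf hs⟩⟩

end Repr

/-- **CH-HILB**: the chart functor of a finitely presented `k`-algebra is represented by a
finitely presented `k`-algebra. -/
theorem stmt_HILB : Stmt_HILB.{u} := by
  intro k _ A _ _ hA x g
  obtain ⟨n, f, hf, hker⟩ := hA.out
  obtain ⟨s, hs⟩ := hker
  obtain ⟨xt, rfl⟩ := hf x
  have hs' : RingHom.ker (f : MvPolynomial (Fin n) k →+* A) = Ideal.span (s : Set _) := hs.symm
  exact ⟨B s xt g, inferInstance, inferInstance, finitePresentation_B s xt g,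
    univPt f s xt g hf hs', isUniv_univPt f s xt g hf hs'⟩

end Fermat.Agent.S25.Chart.H76
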