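import Fermat.Agent.S25.Chart.Defs3
import Fermat.Agent.S25.Chart.H76_Hilb

/-!
# S25, package CHART, leaf CH-PTLOC (helper17)

A chart point over the local ring `R_𝔪` of a `k`-point `t` of `Spec R` is defined over some principal
open neighbourhood `D(r)`, `t r ≠ 0`.

Route: by CH-HILB (`H76.stmt_HILB`) the chart functor is represented by a finitely presented `k`-algebra
`B`; a `k`-algebra map `B → R_𝔪` from a finitely presented algebra factors through some `R_r`
(`exists_factor_away`: lift the images of the generators with a common denominator, then kill the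
finitely many relations by a further localisation).
-/

set_option autoImplicit false

universe u

open Polynomial TensorProduct

namespace Fermat.Agent.S25.Chart.H17

open Fermat.Agent.S25.Chart

section Maps

variable {k : Type u} [Field k] {R : Type u} [CommRing R] [Algebra k R]

theorem awayToLoc_algebraMap (t : R →ₐ[k] k) (r : R) (hr : t r ≠ 0) (a : R) :
    awayToLoc t r hr (algebraMap R (Localization.Away r) a) = algebraMap R (LocAt t) a := by
  unfold awayToLoc
  rw [IsLocalization.Away.coe_liftAlgHom, IsLocalization.Away.lift_eq]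
  rfl

theorem awayDvd_algebraMap (r ρ : R) (h : r ∣ ρ) (a : R) :
    awayDvd (k := k) r ρ h (algebraMap R (Localization.Away r) a)
      = algebraMap R (Localization.Away ρ) a := by
  unfold awayDvd
  rw [IsLocalization.Away.coe_liftAlgHom, IsLocalization.Away.lift_eq]
  rfl

/-- An element of `R_r` which dies in `R_𝔪` dies in `R_ρ` for all sufficiently divisible `ρ`. -/
theorem exists_kill (t : R →ₐ[k] k) (r : R) (hr : t r ≠ 0) (z : Localization.Away r)
    (hz : awayToLoc t r hr z = 0) :
    ∃ s : R, t s ≠ 0 ∧ ∀ (ρ : R) (h : r ∣ ρ), s ∣ ρ → awayDvd (k := k) r ρ h z = 0 := by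
  obtain ⟨n, a, hn⟩ := IsLocalization.Away.surj r z
  have h0 : algebraMap R (LocAt t) a = 0 := by
    rw [← awayToLoc_algebraMap t r hr a, ← hn, map_mul, hz, zero_mul]
  obtain ⟨m, hm⟩ := (IsLocalization.map_eq_zero_iff (ptIdeal t).primeCompl (LocAt t) a).1 h0
  refine ⟨(m : R), fun h => m.2 h, fun ρ h hs => ?_⟩
  have hu : IsUnit (algebraMap R (Localization.Away ρ) r) :=
    IsLocalization.Away.isUnit_of_dvd ρ h
  have hus : IsUnit (algebraMap R (Localization.Away ρ) (m : R)) :=
    IsLocalization.Away.isUnit_of_dvd ρ hs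
  have h1 : awayDvd (k := k) r ρ h z * algebraMap R (Localization.Away ρ) r ^ n
      = algebraMap R (Localization.Away ρ) a := by
    rw [← awayDvd_algebraMap (k := k) r ρ h a, ← hn, map_mul, map_pow, awayDvd_algebraMap]
  have h2 : algebraMap R (Localization.Away ρ) a = 0 := by
    have : algebraMap R (Localization.Away ρ) (m : R) * algebraMap R (Localization.Away ρ) a = 0 := by
      rw [← map_mul, hm, map_zero]
    exact (hus.mul_right_eq_zero).1 this
  rw [h2] at h1
  exact ((hu.pow n).mul_left_eq_zero).1 h1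

/-- Finitely many elements of `R_r` which die in `R_𝔪` die in `R_ρ` for all sufficiently divisible `ρ`. -/
theorem exists_kill_finset (t : R →ₐ[k] k) (r : R) (hr : t r ≠ 0) (Z : Finset (Localization.Away r))
    (hZ : ∀ z ∈ Z, awayToLoc t r hr z = 0) :
    ∃ s : R, t s ≠ 0 ∧ ∀ (ρ : R) (h : r ∣ ρ), s ∣ ρ → ∀ z ∈ Z, awayDvd (k := k) r ρ h z = 0 := by
  classical
  induction Z using Finset.induction_on with
  | empty => exact ⟨1, by rw [map_one]; exact one_ne_zero, fun _ _ _ z hz => by simp at hz⟩
  | insert z₀ Z _ ih =>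
    obtain ⟨s, hs, H⟩ := ih (fun z hz => hZ z (Finset.mem_insert_of_mem hz))
    obtain ⟨s₀, hs₀, H₀⟩ := exists_kill t r hr z₀ (hZ z₀ (Finset.mem_insert_self _ _))
    refine ⟨s₀ * s, by rw [map_mul]; exact mul_ne_zero hs₀ hs, fun ρ h hd z hz => ?_⟩
    rcases Finset.mem_insert.1 hz with rfl | hz
    · exact H₀ ρ h (dvd_of_mul_right_dvd hd)
    · exact H ρ h (dvd_of_mul_left_dvd hd) z hz

/-- Finitely many elements of `R_𝔪` lift to some `R_r`. -/
theorem exists_lift_fin (t : R →ₐ[k] k) {n : ℕ} (y : Fin n → LocAt t) :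
    ∃ (r : R) (hr : t r ≠ 0) (y' : Fin n → Localization.Away r),
      ∀ i, awayToLoc t r hr (y' i) = y i := by
  obtain ⟨b, hb⟩ := IsLocalization.exist_integer_multiples_of_finite (ptIdeal t).primeCompl y
  have hbt : t (b : R) ≠ 0 := fun h => b.2 h
  choose a ha using hb
  refine ⟨(b : R), hbt, fun i => algebraMap R (Localization.Away (b : R)) (a i)
    * IsLocalization.Away.invSelf (b : R), fun i => ?_⟩
  have hu : IsUnit (algebraMap R (LocAt t) (b : R)) :=
    IsLocalization.map_units (M := (ptIdeal t).primeCompl) (LocAt t) b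
  apply hu.mul_left_cancel
  rw [← awayToLoc_algebraMap t (b : R) hbt (b : R), ← map_mul]
  have e : algebraMap R (Localization.Away (b : R)) (b : R)
      * (algebraMap R (Localization.Away (b : R)) (a i) * IsLocalization.Away.invSelf (b : R))
      = algebraMap R (Localization.Away (b : R)) (a i) := by
    rw [mul_comm, mul_assoc, mul_comm (IsLocalization.Away.invSelf (b : R)),
      IsLocalization.Away.mul_invSelf, mul_one]
  rw [e, awayToLoc_algebraMap, ha i, Algebra.smul_def, awayToLoc_algebraMap]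

end Maps

section Factor

variable {k : Type u} [Field k] {R : Type u} [CommRing R] [Algebra k R]

/-- **A map from a finitely presented algebra to the local ring `R_𝔪` factors through some `R_r`.** -/
theorem exists_factor_away (t : R →ₐ[k] k) (B : Type u) [CommRing B] [Algebra k B]
    [hB : Algebra.FinitePresentation k B] (φ : B →ₐ[k] LocAt t) :
    ∃ (r : R) (hr : t r ≠ 0) (ψ : B →ₐ[k] Localization.Away r), (awayToLoc t r hr).comp ψ = φ := by
  classical
  obtain ⟨n, f, hf, hker⟩ := hB.out
  obtain ⟨S, hS⟩ := hker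
  obtain ⟨r₁, hr₁, y', hy'⟩ := exists_lift_fin t (fun i => φ (f (MvPolynomial.X i)))
  set ψ₀ : MvPolynomial (Fin n) k →ₐ[k] Localization.Away r₁ := MvPolynomial.aeval y' with hψ₀
  have hcomp : (awayToLoc t r₁ hr₁).comp ψ₀ = φ.comp f := by
    apply MvPolynomial.algHom_ext
    intro i
    rw [AlgHom.comp_apply, AlgHom.comp_apply, hψ₀, MvPolynomial.aeval_X, hy' i]
  have hSker : ∀ q ∈ S, f q = 0 := by
    intro q hq
    have : q ∈ RingHom.ker f.toRingHom := by
      rw [← hS]; exact Ideal.subset_span hq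
    exact this
  obtain ⟨s, hs, H⟩ := exists_kill_finset t r₁ hr₁ (S.image ψ₀) (by
    intro z hz
    obtain ⟨q, hq, rfl⟩ := Finset.mem_image.1 hz
    have := congrArg (fun F => F q) hcomp
    simp only [AlgHom.comp_apply] at this
    rw [this, hSker q hq, map_zero])
  have hr : t (r₁ * s) ≠ 0 := by rw [map_mul]; exact mul_ne_zero hr₁ hs
  have hd : r₁ ∣ r₁ * s := dvd_mul_right _ _
  set ψ₁ : MvPolynomial (Fin n) k →ₐ[k] Localization.Away (r₁ * s) :=
    (awayDvd r₁ (r₁ * s) hd).comp ψ₀ with hψ₁
  have hle : RingHom.ker f.toRingHom ≤ RingHom.ker ψ₁.toRingHom := by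
    have h1 : RingHom.ker f.toRingHom = Ideal.span (S : Set (MvPolynomial (Fin n) k)) := hS.symm
    rw [h1, Ideal.span_le]
    intro q hq
    show ψ₁ q = 0
    rw [hψ₁, AlgHom.comp_apply]
    exact H (r₁ * s) hd (dvd_mul_left _ _) (ψ₀ q) (Finset.mem_image_of_mem _ hq)
  refine ⟨r₁ * s, hr, AlgHom.liftOfSurjective f hf ψ₁ hle, ?_⟩
  apply AlgHom.ext
  intro b
  obtain ⟨q, rfl⟩ := hf b
  rw [AlgHom.comp_apply, AlgHom.liftOfSurjective_apply, hψ₁, AlgHom.comp_apply]
  have h2 : ∀ z : Localization.Away r₁,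
      awayToLoc t (r₁ * s) hr (awayDvd (k := k) r₁ (r₁ * s) hd z) = awayToLoc t r₁ hr₁ z := by
    intro z
    have := IsLocalization.ringHom_ext (Submonoid.powers r₁) (S := Localization.Away r₁)
      (j := ((awayToLoc t (r₁ * s) hr).comp (awayDvd (k := k) r₁ (r₁ * s) hd)).toRingHom)
      (k := (awayToLoc t r₁ hr₁).toRingHom) (by
        ext a
        show awayToLoc t (r₁ * s) hr (awayDvd (k := k) r₁ (r₁ * s) hd (algebraMap R _ a))
          = awayToLoc t r₁ hr₁ (algebraMap R _ a)
        rw [awayDvd_algebraMap, awayToLoc_algebraMap, awayToLoc_algebraMap])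
    exact congrArg (fun F => F z) this
  rw [h2]
  have := congrArg (fun F => F q) hcomp
  simpa only [AlgHom.comp_apply] using this

end Factor

/-- **CH-PTLOC**: a chart point over the local ring `R_𝔪` is defined over some `R_r`, `t r ≠ 0`. -/
theorem stmt_PTLOC : Stmt_PTLOC.{u} := by
  intro k _ A _ _ _ x g R _ _ t pm
  obtain ⟨B, iB, iA, iFP, u, hu⟩ := H76.stmt_HILB k A x g
  obtain ⟨φ, hφ⟩ := (hu.bij (LocAt t)).2 pm
  obtain ⟨r, hr, ψ, hψ⟩ := exists_factor_away t B φ
  refine ⟨r, hr, u.map ψ, ?_⟩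
  rw [← Pt.map_comp, hψ]
  exact hφ

end Fermat.Agent.S25.Chart.H17

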