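/-
helper4, S25 (Jacobian exists), package CHART — INTERFACE FILE, part 3: the decomposition of DIV-SPREAD.

ROUTE.  `SPREAD` = `SPREADLOC` (the statement over a noetherian LOCAL ring with residue field `k`)
                 + descent from the local ring `R_𝔪` to a principal open `D(r)` (`PTLOC`, `LIMLOC`, `LB.Stmt_FIBK`).
`SPREADLOC`: `H1 L = 0` and the section lifts (`SPLA`: Nakayama + P1-BC0); `P1 = S1 σ1 + z1 P1` (Nakayama + `DIVZ1`);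
`Q0 = P0 / S0 σ0` is a finitely generated `R`-module (`QFINGEN`); `Φ : R^g ⊕ S0 → P0`, `(a, c) ↦ Σ a_i x0^i q + c σ0`
is bijective on the fibre (`DIVCYC`), onto (Nakayama), hence bijective (`LOCSPLIT`); so `σ0` is regular and
`1, x0, …, x0^(g-1)` is a basis of `S0 / (S0 σ0 : P0)`: a chart point `p` (`H92.ofBasis`); `DIV1GEN` gives the chart `V1`.
-/
import Fermat.Agent.S25.Chart.Defs2

set_option autoImplicit false

universe u

open Polynomial TensorProduct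

namespace Fermat.Agent.S25.Chart

open Fermat.Agent.S25.LB

variable {k : Type u} [Field k]

section Maps

variable {R : Type u} [CommRing R] [Algebra k R]

theorem isUnit_awayMap_of_dvd (r ρ : R) (h : r ∣ ρ) : IsUnit (awayMap (k := k) ρ r) := by
  obtain ⟨c, rfl⟩ := h
  have h1 : IsUnit (algebraMap R (Localization.Away (r * c)) (r * c)) :=
    IsLocalization.Away.algebraMap_isUnit (r * c)
  rw [map_mul] at h1
  exact isUnit_of_mul_isUnit_left h1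

/-- `R_r → R_ρ` for `r ∣ ρ`. -/
noncomputable def awayDvd (r ρ : R) (h : r ∣ ρ) : Localization.Away r →ₐ[k] Localization.Away ρ :=
  IsLocalization.Away.liftAlgHom (A := k) r (f := awayMap ρ) (isUnit_awayMap_of_dvd r ρ h)

/-- The maximal ideal of a `k`-point. -/
abbrev ptIdeal (t : R →ₐ[k] k) : Ideal R := RingHom.ker t.toRingHom

instance ptIdeal_isPrime (t : R →ₐ[k] k) : (ptIdeal t).IsPrime := RingHom.ker_isPrime t.toRingHom

/-- The local ring of `Spec R` at a `k`-point. -/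
abbrev LocAt (t : R →ₐ[k] k) : Type u := Localization.AtPrime (ptIdeal t)

/-- `R → R_𝔪`. -/
noncomputable def locMap (t : R →ₐ[k] k) : R →ₐ[k] LocAt t := IsScalarTower.toAlgHom k R (LocAt t)

theorem isUnit_locMap (t : R →ₐ[k] k) (r : R) (hr : t r ≠ 0) : IsUnit (locMap t r) :=
  IsLocalization.map_units (M := (ptIdeal t).primeCompl) (LocAt t) ⟨r, fun h => hr h⟩

/-- `R_r → R_𝔪` for `t r ≠ 0`. -/
noncomputable def awayToLoc (t : R →ₐ[k] k) (r : R) (hr : t r ≠ 0) :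
    Localization.Away r →ₐ[k] LocAt t :=
  IsLocalization.Away.liftAlgHom (A := k) r (f := locMap t) (isUnit_locMap t r hr)

/-- The `k`-point of the local ring. -/
noncomputable def locPt (t : R →ₐ[k] k) : LocAt t →ₐ[k] k :=
  IsLocalization.liftAlgHom (M := (ptIdeal t).primeCompl) (f := t)
    (fun y => IsUnit.mk0 _ (fun h => y.2 h))

end Maps

section Near

variable {𝒞 : CurveDatum k} {R : Type u} [CommRing R] [Algebra k R]

/-- `Q` holds for the restriction of `L` to every sufficiently small principal open neighbourhood `D(ρ)` of the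
`k`-point `t` (monotone form: composable). -/
def Near (t : R →ₐ[k] k) (L : Triple 𝒞 R)
    (Q : ∀ (ρ : R) (Lρ : Triple 𝒞 (Localization.Away ρ)), BC (awayMap ρ) L Lρ → Prop) : Prop :=
  ∃ r : R, t r ≠ 0 ∧ ∀ ρ : R, r ∣ ρ → t ρ ≠ 0 →
    ∀ (Lρ : Triple 𝒞 (Localization.Away ρ)) (β : BC (awayMap ρ) L Lρ), Q ρ Lρ β

/-- The section `(σ0, σ1)` generates `P1` modulo `z1` ("the divisor of `σ` does not meet `x0 = ∞`"). -/
def GenAtInfty (L : Triple 𝒞 R) (σ1 : L.P1) : Prop :=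
  ∀ q : L.P1, ∃ (c : R ⊗[k] 𝒞.B1) (q' : L.P1),
    q = c • σ1 + ((1 : R) ⊗ₜ[k] 𝒞.z1 : R ⊗[k] 𝒞.B1) • q'

/-- `Φ (a, c) = Σ a_i x0^i q + c σ0`. -/
noncomputable def phiMap {g : ℕ} (L : Triple 𝒞 R) (σ0 q : L.P0) (a : Fin g → R) (c : R ⊗[k] 𝒞.B0) :
    L.P0 :=
  (∑ i : Fin g, ((a i ⊗ₜ[k] 𝒞.x0 ^ (i : ℕ) : R ⊗[k] 𝒞.B0) • q)) + c • σ0

end Near

/-! ## Leaves of SPREAD -/

/-- **LOCSPLIT** (pure algebra): over a noetherian local ring, a surjection from a free module onto a projective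
module which is injective modulo the maximal ideal is injective.
[`P` projective ⟹ `F = K ⊕ P`; `K ⊆ 𝔪 F` ⟹ `K = 𝔪 K` (project) ⟹ `K ⊆ ⋂ 𝔪^n F = 0` (Krull, `F` free).] -/
def Stmt_LOCSPLIT : Prop :=
  ∀ (R : Type u) [CommRing R] [IsLocalRing R] [IsNoetherianRing R]
    (F P : Type u) [AddCommGroup F] [Module R F] [Module.Free R F]
    [AddCommGroup P] [Module R P] [Module.Projective R P] (Φ : F →ₗ[R] P),
    Function.Surjective Φ →
    (∀ v : F, Φ v ∈ (IsLocalRing.maximalIdeal R) • (⊤ : Submodule R P) →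
      v ∈ (IsLocalRing.maximalIdeal R) • (⊤ : Submodule R F)) →
    Function.Injective Φ

/-- **BCDATAX**: `LB.Stmt_BCDATA` with the formulas: the isomorphism `R' ⊗ toData L ≅ toData L'` is
`a ⊗ q ↦ a • β.b q`. -/
def Stmt_BCDATAX : Prop :=
  ∀ (k : Type u) [Field k] (𝒞 : CurveDatum k), 𝒞.IsGood →
    ∀ (R R' : Type u) [CommRing R] [Algebra k R] [CommRing R'] [Algebra k R'] (φ : R →ₐ[k] R')
      (L : Triple 𝒞 R) (L' : Triple 𝒞 R') (β : BC φ L L'),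
      letI : Algebra R R' := φ.toRingHom.toAlgebra
      ∃ E : P1.Data.Iso (L.toData.baseChange R') L'.toData,
        (∀ (a : R') (q : L.P0),
          E.e0 (a ⊗ₜ[R] q) = ((a ⊗ₜ[k] (1 : 𝒞.B0) : R' ⊗[k] 𝒞.B0) • β.b0 q : L'.P0)) ∧
        (∀ (a : R') (q : L.P1),
          E.e1 (a ⊗ₜ[R] q) = ((a ⊗ₜ[k] (1 : 𝒞.B1) : R' ⊗[k] 𝒞.B1) • β.b1 q : L'.P1)) ∧
        (∀ (a : R') (q : L.P01),
          E.e01 (a ⊗ₜ[R] q) = ((a ⊗ₜ[k] (1 : 𝒞.B01) : R' ⊗[k] 𝒞.B01) • β.b01 q : L'.P01))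

/-- **ISODIV**: `IsDiv` is invariant under isomorphisms of triples. -/
def Stmt_ISODIV : Prop :=
  ∀ (k : Type u) [Field k] (𝒞 : CurveDatum k) (g : ℕ) (R : Type u) [CommRing R] [Algebra k R]
    (p : Pt k 𝒞.B0 𝒞.x0 g R) (L L' : Triple 𝒞 R) (e : Triple.Iso L L') (s0 : L.P0) (s1 : L.P1),
    IsDiv L s0 s1 p → IsDiv L' (e.e0 s0) (e.e1 s1) p

/-- **DIVZ1**: the divisor of a chart point does not meet `x0 = ∞`
(`z1` is a unit modulo `p.ideal1`: `1 + z (c_(g-1) + … + c_0 z^(g-1)) = z^g f(x0)`, `f = charpoly (ρ x0)`). -/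
def Stmt_DIVZ1 : Prop :=
  ∀ (k : Type u) [Field k] (𝒞 : CurveDatum k), 𝒞.IsGood →
    ∀ (g : ℕ) (R : Type u) [CommRing R] [Algebra k R] (p : Pt k 𝒞.B0 𝒞.x0 g R)
      (L : Triple 𝒞 R) (s0 : L.P0) (s1 : L.P1), IsDiv L s0 s1 p → GenAtInfty L s1

/-- **DIVCYC**: over the field `k`, `P0 / S0 s0` is free over `O(Z) = S0 / p.ideal`: there is `q` such that
`Φ : k^g ⊕ S0 → P0` is bijective. -/
def Stmt_DIVCYC : Prop :=
  ∀ (k : Type u) [Field k] (𝒞 : CurveDatum k), 𝒞.IsGood →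
    ∀ (g : ℕ) (p : Pt k 𝒞.B0 𝒞.x0 g k) (L : Triple 𝒞 k) (s0 : L.P0) (s1 : L.P1),
      IsDiv L s0 s1 p →
      ∃ q : L.P0, Function.Bijective (fun ac : (Fin g → k) × (k ⊗[k] 𝒞.B0) =>
        phiMap L s0 q ac.1 ac.2)

/-- **QFINGEN**: if the divisor of a section does not meet `x0 = ∞`, then `P0 / S0 σ0` is a finitely generated
`R`-module (a monic polynomial in `x0` kills it).  Valid for every `R`. -/
def Stmt_QFINGEN : Prop :=
  ∀ (k : Type u) [Field k] (𝒞 : CurveDatum k), 𝒞.IsGood →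
    ∀ (R : Type u) [CommRing R] [Algebra k R] (L : Triple 𝒞 R) (σ0 : L.P0) (σ1 : L.P1),
      L.r0 σ0 = L.r1 σ1 → GenAtInfty L σ1 →
      ∃ (n : ℕ) (v : Fin n → L.P0), ∀ q : L.P0, ∃ (a : Fin n → R) (c : R ⊗[k] 𝒞.B0),
        q = (∑ i : Fin n, ((a i ⊗ₜ[k] (1 : 𝒞.B0) : R ⊗[k] 𝒞.B0) • v i)) + c • σ0

/-- **DIV1GEN**: the chart `V1` follows from the chart `V0` when the divisor does not meet `x0 = ∞`. -/
def Stmt_DIV1GEN : Prop :=
  ∀ (k : Type u) [Field k] (𝒞 : CurveDatum k), 𝒞.IsGood →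
    ∀ (g : ℕ) (R : Type u) [CommRing R] [Algebra k R] (p : Pt k 𝒞.B0 𝒞.x0 g R)
      (L : Triple 𝒞 R) (σ0 : L.P0) (σ1 : L.P1),
      L.r0 σ0 = L.r1 σ1 → (∀ c : R ⊗[k] 𝒞.B0, c • σ0 = 0 → c = 0) →
      (∀ c : R ⊗[k] 𝒞.B0, c ∈ p.ideal ↔ ∀ q : L.P0, ∃ d : R ⊗[k] 𝒞.B0, c • q = d • σ0) →
      GenAtInfty L σ1 → IsDiv L σ0 σ1 p

/-- **SPLA**: over a noetherian local ring with residue field `k`: if the fibre has `H1 = 0` then `H1 L = 0` and
every section of the fibre lifts. -/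
def Stmt_SPLA : Prop :=
  ∀ (k : Type u) [Field k] (𝒞 : CurveDatum k), 𝒞.IsGood →
    ∀ (R : Type u) [CommRing R] [Algebra k R] [IsLocalRing R] [IsNoetherianRing R] (L : Triple 𝒞 R)
      (t : R →ₐ[k] k) (Lt : Triple 𝒞 k) (β : BC t L Lt), Subsingleton Lt.H1 →
      Subsingleton L.H1 ∧
      ∀ (s0 : Lt.P0) (s1 : Lt.P1), Lt.r0 s0 = Lt.r1 s1 →
        ∃ (σ0 : L.P0) (σ1 : L.P1), L.r0 σ0 = L.r1 σ1 ∧ β.b0 σ0 = s0 ∧ β.b1 σ1 = s1

/-- **SPREADLOC**: DIV-SPREAD over a noetherian local ring with residue field `k`. -/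
def Stmt_SPREADLOC : Prop :=
  ∀ (k : Type u) [Field k] [IsAlgClosed k] (𝒞 : CurveDatum k), 𝒞.IsGood → ∀ h : 𝒞.B0, IsEtAt 𝒞 h →
    ∀ g : ℕ, IsGenus 𝒞 g →
    ∀ (R : Type u) [CommRing R] [Algebra k R] [IsLocalRing R] [IsNoetherianRing R] (L : Triple 𝒞 R)
      (t : R →ₐ[k] k) (Lt : Triple 𝒞 k) (_ : BC t L Lt) (pt : Pt k 𝒞.B0 𝒞.x0 g k)
      (s0 : Lt.P0) (s1 : Lt.P1),
      IsDiv Lt s0 s1 pt → IsUnit (pt.ρ h).det → Subsingleton Lt.H1 →
      ∃ (p : Pt k 𝒞.B0 𝒞.x0 g R) (σ0 : L.P0) (σ1 : L.P1),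
        IsDiv L σ0 σ1 p ∧ IsUnit (p.ρ h).det ∧ Subsingleton L.H1

/-- **PTLOC**: a chart point over the local ring `R_𝔪` is defined over some `R_r`, `t r ≠ 0`
(`A` finitely presented). -/
def Stmt_PTLOC : Prop :=
  ∀ (k : Type u) [Field k] (A : Type u) [CommRing A] [Algebra k A] [Algebra.FinitePresentation k A]
    (x : A) (g : ℕ) (R : Type u) [CommRing R] [Algebra k R] (t : R →ₐ[k] k)
    (pm : Pt k A x g (LocAt t)),
    ∃ (r : R) (hr : t r ≠ 0) (p : Pt k A x g (Localization.Away r)), p.map (awayToLoc t r hr) = pm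

/-- **LIMLOC**: an isomorphism over the local ring `R_𝔪` between the base changes of two triples over `R_r`
is defined over `R_ρ` for all sufficiently divisible `ρ`. -/
def Stmt_LIMLOC : Prop :=
  ∀ (k : Type u) [Field k] (𝒞 : CurveDatum k), 𝒞.IsGood →
    ∀ (R : Type u) [CommRing R] [Algebra k R] (t : R →ₐ[k] k) (r : R) (hr : t r ≠ 0)
      (L₁ L₂ : Triple 𝒞 (Localization.Away r)) (M₁ M₂ : Triple 𝒞 (LocAt t)),
      BC (awayToLoc t r hr) L₁ M₁ → BC (awayToLoc t r hr) L₂ M₂ → Nonempty (Triple.Iso M₁ M₂) →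
      ∃ r' : R, t r' ≠ 0 ∧ r ∣ r' ∧ ∀ (ρ : R) (_ : r' ∣ ρ) (hdvd : r ∣ ρ), t ρ ≠ 0 →
        ∀ (N₁ N₂ : Triple 𝒞 (Localization.Away ρ)),
          BC (awayDvd r ρ hdvd) L₁ N₁ → BC (awayDvd r ρ hdvd) L₂ N₂ → Nonempty (Triple.Iso N₁ N₂)

/-- **SPREADN** (monotone form of DIV-SPREAD). -/
def Stmt_SPREADN : Prop :=
  ∀ (k : Type u) [Field k] [IsAlgClosed k] (𝒞 : CurveDatum k), 𝒞.IsGood → ∀ h : 𝒞.B0, IsEtAt 𝒞 h →
    ∀ g : ℕ, IsGenus 𝒞 g →
    ∀ (R : Type u) [CommRing R] [Algebra k R] [Algebra.FiniteType k R] (L : Triple 𝒞 R)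
      (t : R →ₐ[k] k) (Lt : Triple 𝒞 k) (_ : BC t L Lt) (pt : Pt k 𝒞.B0 𝒞.x0 g k)
      (s0 : Lt.P0) (s1 : Lt.P1),
      IsDiv Lt s0 s1 pt → IsUnit (pt.ρ h).det → Subsingleton Lt.H1 →
      Near t L (fun ρ Lρ _ =>
        ∃ (p : Pt k 𝒞.B0 𝒞.x0 g (Localization.Away ρ)) (σ0 : Lρ.P0) (σ1 : Lρ.P1),
          IsDiv Lρ σ0 σ1 p ∧ IsUnit (p.ρ h).det ∧ Subsingleton Lρ.H1)

end Fermat.Agent.S25.Chart
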