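/-
helper26, S25 package CHART, leaf SPLA (`Stmt_SPLA` of `S25/Chart/Defs3.lean`).

Over a noetherian local `k`-algebra `R` with a `k`-point `t` (so the residue field is `k`): if the fibre `Lt` of a
triple `L` has `H1 = 0`, then `H1 L = 0` (P1-FG + P1-BC1 + Nakayama) and every section of the fibre lifts to a
section of `L` (P1-BC0: `k ⊗ H0 L ≅ H0 Lt`, and every element of `k ⊗_R M` is of the form `1 ⊗ m`).

`stmt_SPLA_of : Stmt_BCDATAX → Stmt_SPLA` (the only input which is not yet on main; everything else is landed).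
The noetherian hypothesis is not used.
-/
import Fermat.Agent.S25.Chart.Defs3
import Fermat.Agent.S25.LB.H7_VB
import Fermat.Agent.S25.P1.H22_FG
import Fermat.Agent.S25.P1.H61_BC1
import Fermat.Agent.S25.P1.H97_BC0
import Fermat.Agent.S25.P1.H45_Iso
import Fermat.Agent.S25.P1.H83_H1FP

set_option autoImplicit false

universe u

open TensorProduct

namespace Fermat.Agent.S25.Chart.H26

open Fermat.Agent.S25.LB Fermat.Agent.S25

section Algebra

variable {R : Type u} [CommRing R] {K : Type u} [Field K] [Algebra R K]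

/-- If `R → K` is onto, every element of `K ⊗_R M` is of the form `1 ⊗ m`. -/
theorem exists_one_tmul_eq (hsurj : Function.Surjective (algebraMap R K))
    (M : Type u) [AddCommGroup M] [Module R M] (z : K ⊗[R] M) :
    ∃ m : M, z = (1 : K) ⊗ₜ[R] m := by
  induction z using TensorProduct.induction_on with
  | zero => exact ⟨0, (TensorProduct.tmul_zero _ _).symm⟩
  | tmul a m =>
    obtain ⟨r, rfl⟩ := hsurj a
    refine ⟨r • m, ?_⟩
    rw [TensorProduct.tmul_smul, TensorProduct.smul_tmul', Algebra.smul_def, mul_one]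
  | add x y hx hy =>
    obtain ⟨m, rfl⟩ := hx
    obtain ⟨n, rfl⟩ := hy
    exact ⟨m + n, (TensorProduct.tmul_add _ _ _).symm⟩

/-- Nakayama over a local ring, for any residue-field-like algebra `R → K` (onto a field):
a finite module with `K ⊗ M = 0` is zero. -/
theorem subsingleton_of_subsingleton_tensor [IsLocalRing R]
    (hsurj : Function.Surjective (algebraMap R K))
    (M : Type u) [AddCommGroup M] [Module R M] [Module.Finite R M]
    (h : Subsingleton (K ⊗[R] M)) : Subsingleton M := by
  set I : Ideal R := RingHom.ker (algebraMap R K) with hI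
  have hIne : I ≠ ⊤ := RingHom.ker_ne_top _
  have hIjac : I ≤ Ideal.jacobson ⊥ := by
    rw [IsLocalRing.jacobson_eq_maximalIdeal ⊥ bot_ne_top]
    exact IsLocalRing.le_maximalIdeal hIne
  -- `m ∈ I M` for all `m`
  have hmem : ∀ m : M, m ∈ I • (⊤ : Submodule R M) := by
    intro m
    -- the `R`-linear map `K ⊗ M → M / I M`
    let f : K →ₗ[R] M →ₗ[R] M ⧸ (I • (⊤ : Submodule R M)) :=
      LinearMap.mk₂ R (fun a m => (I • (⊤ : Submodule R M)).mkQ ((Function.surjInv hsurj a) • m))
        (by
          intro a b m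
          rw [← map_add, ← add_smul, ← sub_eq_zero, ← map_sub, ← sub_smul]
          apply (Submodule.Quotient.mk_eq_zero _).2
          refine Submodule.smul_mem_smul ?_ trivial
          rw [hI, RingHom.mem_ker, map_sub, map_add, Function.surjInv_eq hsurj,
            Function.surjInv_eq hsurj, Function.surjInv_eq hsurj, sub_self])
        (by
          intro c a m
          rw [← map_smul, smul_smul, ← sub_eq_zero, ← map_sub, ← sub_smul]
          apply (Submodule.Quotient.mk_eq_zero _).2
          refine Submodule.smul_mem_smul ?_ trivial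
          rw [hI, RingHom.mem_ker, map_sub, map_mul, Function.surjInv_eq hsurj,
            Function.surjInv_eq hsurj, Algebra.smul_def, sub_self])
        (by
          intro a m n
          rw [smul_add, map_add])
        (by
          intro c a m
          rw [← map_smul, smul_comm])
    have hf : TensorProduct.lift f ((1 : K) ⊗ₜ[R] m) = (I • (⊤ : Submodule R M)).mkQ m := by
      rw [TensorProduct.lift.tmul]
      change (I • (⊤ : Submodule R M)).mkQ ((Function.surjInv hsurj 1) • m) = _
      rw [← sub_eq_zero, ← map_sub]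
      apply (Submodule.Quotient.mk_eq_zero _).2
      have : Function.surjInv hsurj (1 : K) • m - m = (Function.surjInv hsurj (1 : K) - 1) • m := by
        rw [sub_smul, one_smul]
      rw [this]
      refine Submodule.smul_mem_smul ?_ trivial
      rw [hI, RingHom.mem_ker, map_sub, Function.surjInv_eq hsurj, map_one, sub_self]
    have h0 : (1 : K) ⊗ₜ[R] m = 0 := Subsingleton.elim _ _
    rw [h0, map_zero] at hf
    exact (Submodule.Quotient.mk_eq_zero _).1 hf.symm
  have htop : (⊤ : Submodule R M) ≤ I • ⊤ := fun m _ => hmem m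
  have hbot : (⊤ : Submodule R M) = ⊥ :=
    Submodule.eq_bot_of_le_smul_of_le_jacobson_bot I ⊤ Module.Finite.fg_top htop hIjac
  refine ⟨fun x y => ?_⟩
  have hx : x ∈ (⊥ : Submodule R M) := hbot ▸ Submodule.mem_top
  have hy : y ∈ (⊥ : Submodule R M) := hbot ▸ Submodule.mem_top
  rw [(Submodule.mem_bot R).1 hx, (Submodule.mem_bot R).1 hy]

end Algebra

section Main

variable {k : Type u} [Field k]

theorem algebraMap_surjective_of_pt {R : Type u} [CommRing R] [Algebra k R] (t : R →ₐ[k] k) :
    letI : Algebra R k := t.toRingHom.toAlgebra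
    Function.Surjective (algebraMap R k) := by
  intro a
  exact ⟨algebraMap k R a, t.commutes a⟩

/-- **SPLA** from `BCDATAX`. -/
theorem stmt_SPLA_of (hX : Stmt_BCDATAX.{u}) : Stmt_SPLA.{u} := by
  intro k _ 𝒞 h𝒞 R _ _ _ _ L t Lt β hLt
  let _ : Algebra R k := t.toRingHom.toAlgebra
  have hsurj : Function.Surjective (algebraMap R k) := algebraMap_surjective_of_pt t
  obtain ⟨E, hE0, hE1, -⟩ := hX k 𝒞 h𝒞 R k t L Lt β
  have hVB : L.toData.IsVB := LB.H7.stmt_VB k 𝒞 h𝒞 R L
  have hfin : Module.Finite R L.toData.H1 :=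
    P1.H22.stmt_FG R L.toData hVB.loc (P1.H83.fg0_of_proj0 _ hVB.proj0)
  obtain ⟨e1, -⟩ := P1.H61.stmt_BC1 R L.toData k
  have hsub : Subsingleton (k ⊗[R] L.toData.H1) :=
    (e1.trans (P1.H45.h1Equiv E)).toEquiv.subsingleton
  have hH1 : Subsingleton L.toData.H1 := subsingleton_of_subsingleton_tensor hsurj _ hsub
  refine ⟨hH1, ?_⟩
  intro s0 s1 hs
  obtain ⟨e0, he0⟩ := P1.H97.stmt_BC0 R L.toData hVB hH1 k
  have hs' : ((s0, s1) : Lt.toData.N0 × Lt.toData.N1) ∈ Lt.toData.H0 := hs
  set y : (L.toData.baseChange k).H0 := (P1.H45.h0Equiv E).symm ⟨(s0, s1), hs'⟩ with hy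
  obtain ⟨h, hh⟩ := exists_one_tmul_eq hsurj L.toData.H0 (e0.symm y)
  have hey : e0 ((1 : k) ⊗ₜ[R] h) = y := by rw [← hh, LinearEquiv.apply_symm_apply]
  have h1 := he0 1 h
  rw [hey] at h1
  have h2 : P1.H45.h0Equiv E y = ⟨(s0, s1), hs'⟩ := by rw [hy, LinearEquiv.apply_symm_apply]
  have h3 : E.e0 y.1.1 = s0 := by
    have := congrArg (fun z : Lt.toData.H0 => z.1.1) h2
    simpa using this
  have h4 : E.e1 y.1.2 = s1 := by
    have := congrArg (fun z : Lt.toData.H0 => z.1.2) h2
    simpa using this
  have h5 : y.1.1 = (1 : k) ⊗ₜ[R] h.1.1 := congrArg Prod.fst h1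
  have h6 : y.1.2 = (1 : k) ⊗ₜ[R] h.1.2 := congrArg Prod.snd h1
  refine ⟨h.1.1, h.1.2, h.2, ?_, ?_⟩
  · rw [← h3, h5]
    exact ((hE0 1 h.1.1).trans (by rw [← Algebra.TensorProduct.one_def, one_smul])).symm
  · rw [← h4, h6]
    exact ((hE1 1 h.1.2).trans (by rw [← Algebra.TensorProduct.one_def, one_smul])).symm

end Main

end Fermat.Agent.S25.Chart.H26
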