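/-
helper26, S25 package CHART, leaf SPLA, UNCONDITIONAL: `stmt_SPLA : Stmt_SPLA`
(= `stmt_SPLA_of` of `H26_Spla.lean` applied to helper36's `LB.H36.stmt_BCDATAX`).
-/
import Fermat.Agent.S25.Chart.H26_Spla
import Fermat.Agent.S25.LB.H36_BCDataX

set_option autoImplicit false

universe u

namespace Fermat.Agent.S25.Chart.H26

/-- **SPLA**, unconditional. -/
theorem stmt_SPLA : Stmt_SPLA.{u} := stmt_SPLA_of Fermat.Agent.S25.LB.H36.stmt_BCDATAX

end Fermat.Agent.S25.Chart.H26
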