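/-
helper43, S25 (Jacobian exists), package CHART: the assembly of DIV-SPREAD.

`stmt_SPREADN_of : SPREADLOC → PTLOC → LIMLOC → FIBK → DIVEX → DIVBC → DIVUNIQ → ISODIV → BCEX → BCUNIQ → BCCOMP
  → Stmt_SPREADN`  and  `stmt_SPREAD_of_SPREADN : BCEX → Stmt_SPREADN → Stmt_SPREAD`.

ROUTE (NOTES/plan/S25_CHART.md, Chart/Defs3.lean).  `R` of finite type over `k`, `t` a `k`-point, `𝔪 = ker t`.
1. base change `L ↦ L_𝔪` to the noetherian local ring `R_𝔪`; its fibre at the closed point is `≅ L_t`;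
2. SPREADLOC: a chart point `p_𝔪` over `R_𝔪` with `L_𝔪 = O(Z_{p_𝔪})`, `det ρ(h)` a unit, `H1 L_𝔪 = 0`;
3. PTLOC: `p_𝔪` is defined over some `R_r`; after shrinking `det ρ(h)` is a unit over `R_r`;
4. DIVEX over `R_r`: `L' = O(Z_p)`; DIVBC + DIVUNIQ: `L'_𝔪 ≅ L_𝔪`; LIMLOC: `L'_ρ ≅ L_ρ` for `ρ` divisible enough;
5. `H1 L_ρ = 0` for `ρ` divisible enough: FIBK + right exactness of `H1` (proved here: `h1_bc`).
Imports: interface files only.
-/
import Fermat.Agent.S25.Chart.Defs3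
import Fermat.Agent.S25.LB.DefsE

set_option autoImplicit false

universe u

open Polynomial TensorProduct

namespace Fermat.Agent.S25.Chart.H43

open Fermat.Agent.S25.LB Fermat.Agent.S25.Chart

variable {k : Type u} [Field k]

/-! ## Isomorphisms of triples -/

section Iso

variable {𝒞 : CurveDatum k} {R : Type u} [CommRing R] [Algebra k R]

/-- The identity isomorphism. -/
def isoRefl (L : Triple 𝒞 R) : Triple.Iso L L where
  e0 := LinearEquiv.refl _ _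
  e1 := LinearEquiv.refl _ _
  e01 := LinearEquiv.refl _ _
  comm0 := fun _ => rfl
  comm1 := fun _ => rfl

/-- The inverse isomorphism. -/
def isoSymm {L L' : Triple 𝒞 R} (I : Triple.Iso L L') : Triple.Iso L' L where
  e0 := I.e0.symm
  e1 := I.e1.symm
  e01 := I.e01.symm
  comm0 := fun p => by
    apply I.e01.injective
    rw [LinearEquiv.apply_symm_apply, I.comm0, LinearEquiv.apply_symm_apply]
  comm1 := fun p => by
    apply I.e01.injective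
    rw [LinearEquiv.apply_symm_apply, I.comm1, LinearEquiv.apply_symm_apply]

/-- The composition of isomorphisms. -/
def isoTrans {L L' L'' : Triple 𝒞 R} (I : Triple.Iso L L') (J : Triple.Iso L' L'') :
    Triple.Iso L L'' where
  e0 := I.e0.trans J.e0
  e1 := I.e1.trans J.e1
  e01 := I.e01.trans J.e01
  comm0 := fun p => by
    rw [LinearEquiv.trans_apply, LinearEquiv.trans_apply, I.comm0, J.comm0]
  comm1 := fun p => by
    rw [LinearEquiv.trans_apply, LinearEquiv.trans_apply, I.comm1, J.comm1]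

end Iso

/-! ## `H1 = 0` -/

section H1

variable {𝒞 : CurveDatum k} {R : Type u} [CommRing R] [Algebra k R]

/-- `H1 L = 0` iff every section on the overlap is a sum of sections on the two charts. -/
theorem h1_iff (L : Triple 𝒞 R) :
    Subsingleton L.H1 ↔ ∀ m : L.P01, ∃ (a : L.P0) (b : L.P1), m = L.r0 a + L.r1 b := by
  rw [Submodule.Quotient.subsingleton_iff, eq_top_iff]
  constructor
  · intro h m
    have hm : (show L.toData.N01 from m) ∈ L.toData.B1 := h trivial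
    obtain ⟨x, ⟨a, rfl⟩, y, ⟨b, rfl⟩, hxy⟩ := Submodule.mem_sup.mp hm
    exact ⟨a, b, hxy.symm⟩
  · intro h m _
    obtain ⟨a, b, hab⟩ := h m
    have e : m = L.toData.j0 a + L.toData.j1 b := hab
    rw [e]
    exact Submodule.add_mem _ (Submodule.mem_sup_left ⟨a, rfl⟩) (Submodule.mem_sup_right ⟨b, rfl⟩)

/-- `H1 = 0` is invariant under isomorphisms. -/
theorem h1_of_iso {L L' : Triple 𝒞 R} (I : Triple.Iso L L') (h : Subsingleton L.H1) :
    Subsingleton L'.H1 := by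
  rw [h1_iff] at h ⊢
  intro m
  obtain ⟨a, b, hab⟩ := h (I.e01.symm m)
  refine ⟨I.e0 a, I.e1 b, ?_⟩
  rw [← I.comm0, ← I.comm1, ← map_add, ← hab, LinearEquiv.apply_symm_apply]

end H1

/-! ## `H1` is right exact: `H1 L = 0` implies `H1 = 0` for every base change -/

section BCH1

variable {𝒞 : CurveDatum k} {R : Type u} [CommRing R] [Algebra k R] {R' : Type u} [CommRing R']
  [Algebra k R']

/-- The sums of a section on `V0` and a section on `V1`. -/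
def sumSet (L' : Triple 𝒞 R') : AddSubgroup L'.P01 where
  carrier := {y | ∃ (a : L'.P0) (b : L'.P1), y = L'.r0 a + L'.r1 b}
  zero_mem' := ⟨0, 0, by rw [map_zero, map_zero, add_zero]⟩
  add_mem' := by
    rintro _ _ ⟨a, b, rfl⟩ ⟨a', b', rfl⟩
    exact ⟨a + a', b + b', by rw [map_add, map_add]; abel⟩
  neg_mem' := by
    rintro _ ⟨a, b, rfl⟩
    exact ⟨-a, -b, by rw [map_neg, map_neg]; abel⟩

theorem mem_sumSet (L' : Triple 𝒞 R') (y : L'.P01) :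
    y ∈ sumSet L' ↔ ∃ (a : L'.P0) (b : L'.P1), y = L'.r0 a + L'.r1 b := Iff.rfl

theorem h1_bc {φ : R →ₐ[k] R'} {L : Triple 𝒞 R} {L' : Triple 𝒞 R'} (β : BC φ L L')
    (h : Subsingleton L.H1) : Subsingleton L'.H1 := by
  rw [h1_iff] at h ⊢
  have h1 : ∀ (d : R' ⊗[k] 𝒞.B01) (m : L.P01), d • β.b01 m ∈ sumSet L' := by
    intro d
    induction d using TensorProduct.induction_on with
    | zero => intro m; rw [zero_smul]; exact (sumSet L').zero_mem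
    | tmul a c =>
      intro m
      obtain ⟨u, v, huv⟩ := h (((1 : R) ⊗ₜ[k] c : R ⊗[k] 𝒞.B01) • m)
      have e1 : (a ⊗ₜ[k] c : R' ⊗[k] 𝒞.B01) =
          (a ⊗ₜ[k] (1 : 𝒞.B01)) * (tmap φ 𝒞.B01 ((1 : R) ⊗ₜ[k] c)) := by
        simp [tmap, Algebra.TensorProduct.tmul_mul_tmul]
      rw [e1, mul_smul, ← β.semi01, huv, map_add, β.comm0, β.comm1, smul_add]
      refine ⟨(a ⊗ₜ[k] (1 : 𝒞.B0) : R' ⊗[k] 𝒞.B0) • β.b0 u,
        (a ⊗ₜ[k] (1 : 𝒞.B1) : R' ⊗[k] 𝒞.B1) • β.b1 v, ?_⟩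
      rw [L'.r0.map_smulₛₗ, L'.r1.map_smulₛₗ]
      have e2 : (𝒞.ι0 R') (a ⊗ₜ[k] (1 : 𝒞.B0)) = (a ⊗ₜ[k] (1 : 𝒞.B01) : R' ⊗[k] 𝒞.B01) := by
        simp [CurveDatum.ι0]
      have e3 : (𝒞.ι1 R') (a ⊗ₜ[k] (1 : 𝒞.B1)) = (a ⊗ₜ[k] (1 : 𝒞.B01) : R' ⊗[k] 𝒞.B01) := by
        simp [CurveDatum.ι1]
      rw [e2, e3]
    | add x y hx hy => intro m; rw [add_smul]; exact (sumSet L').add_mem (hx m) (hy m)
  have h2 : ∀ (p : L'.P0), ∀ d : R' ⊗[k] 𝒞.B01, d • L'.r0 p ∈ sumSet L' := by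
    intro p
    have hp : p ∈ Submodule.span (R' ⊗[k] 𝒞.B0) (Set.range β.b0) := by rw [β.gen0]; trivial
    induction hp using Submodule.span_induction with
    | mem x hx => obtain ⟨q, rfl⟩ := hx; intro d; rw [← β.comm0]; exact h1 d _
    | zero => intro d; rw [map_zero, smul_zero]; exact (sumSet L').zero_mem
    | add x y _ _ hx hy => intro d; rw [map_add, smul_add]; exact (sumSet L').add_mem (hx d) (hy d)
    | smul c x _ hx => intro d; rw [L'.r0.map_smulₛₗ, smul_smul]; exact hx _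
  intro m
  obtain ⟨n, p, hnp⟩ := L'.surj0 m
  have hm : m = ((1 : R') ⊗ₜ[k] 𝒞.i1 𝒞.z1 : R' ⊗[k] 𝒞.B01) ^ n • L'.r0 p := by
    rw [← hnp, smul_smul, ← mul_pow, mul_comm, Triple.unit_mul_unit, one_pow, one_smul]
  rw [hm]
  exact (mem_sumSet L' _).mp (h2 p _)

end BCH1

/-! ## The localisation maps -/

section Maps

variable {R : Type u} [CommRing R] [Algebra k R]

theorem awayDvd_awayMap (r ρ : R) (h : r ∣ ρ) (x : R) :
    awayDvd (k := k) r ρ h (awayMap (k := k) r x) = awayMap (k := k) ρ x := by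
  exact IsLocalization.Away.lift_eq r (isUnit_awayMap_of_dvd (k := k) r ρ h) x

theorem awayDvd_comp_awayMap (r ρ : R) (h : r ∣ ρ) :
    (awayDvd (k := k) r ρ h).comp (awayMap r) = awayMap ρ :=
  AlgHom.ext (awayDvd_awayMap r ρ h)

theorem awayToLoc_awayMap (t : R →ₐ[k] k) (r : R) (hr : t r ≠ 0) (x : R) :
    awayToLoc t r hr (awayMap (k := k) r x) = locMap t x := by
  exact IsLocalization.Away.lift_eq r (isUnit_locMap t r hr) x

theorem awayToLoc_comp_awayMap (t : R →ₐ[k] k) (r : R) (hr : t r ≠ 0) :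
    (awayToLoc t r hr).comp (awayMap r) = locMap t :=
  AlgHom.ext (awayToLoc_awayMap t r hr)

theorem locPt_locMap (t : R →ₐ[k] k) (x : R) : locPt t (locMap t x) = t x := by
  change IsLocalization.lift _ (algebraMap R (LocAt t) x) = _
  rw [IsLocalization.lift_eq]
  rfl

theorem locPt_comp_locMap (t : R →ₐ[k] k) : (locPt t).comp (locMap t) = t :=
  AlgHom.ext (locPt_locMap t)

/-- Two algebra maps out of `R_r` which agree on `R` are equal. -/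
theorem away_algHom_ext {P : Type u} [CommRing P] [Algebra k P] (r : R)
    (f g : Localization.Away r →ₐ[k] P) (h : f.comp (awayMap r) = g.comp (awayMap r)) : f = g := by
  have h' : f.toRingHom = g.toRingHom := by
    apply IsLocalization.ringHom_ext (Submonoid.powers r)
    ext x
    exact AlgHom.congr_fun h x
  exact AlgHom.ext (fun x => RingHom.congr_fun h' x)

theorem awayToLoc_comp_awayDvd (t : R →ₐ[k] k) (r ρ : R) (h : r ∣ ρ) (hr : t r ≠ 0)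
    (hρ : t ρ ≠ 0) : (awayToLoc t ρ hρ).comp (awayDvd r ρ h) = awayToLoc t r hr := by
  apply away_algHom_ext r
  rw [AlgHom.comp_assoc, awayDvd_comp_awayMap, awayToLoc_comp_awayMap, awayToLoc_comp_awayMap]

theorem awayDvd_comp_awayDvd (r r' ρ : R) (h : r ∣ r') (h' : r' ∣ ρ) (h'' : r ∣ ρ) :
    (awayDvd (k := k) r' ρ h').comp (awayDvd r r' h) = awayDvd r ρ h'' := by
  apply away_algHom_ext r
  rw [AlgHom.comp_assoc, awayDvd_comp_awayMap, awayDvd_comp_awayMap, awayDvd_comp_awayMap]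

/-- The local ring of a finitely generated `k`-algebra at a `k`-point is noetherian. -/
theorem locAt_isNoetherianRing [Algebra.FiniteType k R] (t : R →ₐ[k] k) :
    IsNoetherianRing (LocAt t) := by
  have : IsNoetherianRing R := Algebra.FiniteType.isNoetherianRing k R
  exact IsLocalization.isNoetherianRing (ptIdeal t).primeCompl (LocAt t) inferInstance

/-- An element of `R_r` which is a unit in the local ring `R_𝔪` is a unit over `R_ρ` for `ρ` divisible enough. -/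
theorem exists_isUnit_awayDvd (t : R →ₐ[k] k) (r : R) (hr : t r ≠ 0) (d : Localization.Away r)
    (hd : IsUnit (awayToLoc t r hr d)) :
    ∃ a : R, t a ≠ 0 ∧ ∀ (ρ : R) (hdvd : r ∣ ρ), a ∣ ρ → IsUnit (awayDvd (k := k) r ρ hdvd d) := by
  obtain ⟨⟨a, ⟨_, n, rfl⟩⟩, hda⟩ := IsLocalization.surj (Submonoid.powers r) d
  have hda' : d * awayMap (k := k) r (r ^ n) = awayMap (k := k) r a := hda
  refine ⟨a, ?_, ?_⟩
  · have h1 := congrArg (awayToLoc t r hr) hda'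
    rw [map_mul, awayToLoc_awayMap, awayToLoc_awayMap] at h1
    have h2 : IsUnit (locMap t (r ^ n)) :=
      isUnit_locMap t (r ^ n) (by rw [map_pow]; exact pow_ne_zero n hr)
    have h3 : IsUnit (locMap t a) := by rw [← h1]; exact hd.mul h2
    have h4 : a ∈ (ptIdeal t).primeCompl :=
      (IsLocalization.AtPrime.isUnit_to_map_iff (LocAt t) (ptIdeal t) a).mp h3
    intro h5
    exact h4 h5
  · intro ρ hdvd haρ
    have h1 := congrArg (awayDvd (k := k) r ρ hdvd) hda'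
    rw [map_mul, awayDvd_awayMap, awayDvd_awayMap] at h1
    have h3 : IsUnit (awayMap (k := k) ρ a) := isUnit_awayMap_of_dvd a ρ haρ
    rw [← h1] at h3
    exact isUnit_of_mul_isUnit_left h3

end Maps

/-! ## The assembly -/

section Main

/-- Transport of a base change along an equality of algebra maps. -/
def bcCast {𝒞 : CurveDatum k} {R : Type u} [CommRing R] [Algebra k R] {R' : Type u} [CommRing R']
    [Algebra k R'] {φ ψ : R →ₐ[k] R'} (h : φ = ψ) {L : Triple 𝒞 R} {L' : Triple 𝒞 R'}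
    (β : BC φ L L') : BC ψ L L' := h ▸ β

theorem det_map {A : Type u} [CommRing A] [Algebra k A] {x : A} {g : ℕ} {R : Type u} [CommRing R]
    [Algebra k R] {R' : Type u} [CommRing R'] [Algebra k R'] (p : Pt k A x g R) (φ : R →ₐ[k] R')
    (a : A) : ((p.map φ).ρ a).det = φ ((p.ρ a).det) := by
  rw [Pt.map_ρ_apply]
  exact (AlgHom.map_det φ _).symm

theorem isUnit_det_map {A : Type u} [CommRing A] [Algebra k A] {x : A} {g : ℕ} {R : Type u}
    [CommRing R] [Algebra k R] {R' : Type u} [CommRing R'] [Algebra k R'] (p : Pt k A x g R)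
    (φ : R →ₐ[k] R') (a : A) (h : IsUnit (p.ρ a).det) : IsUnit ((p.map φ).ρ a).det := by
  rw [det_map]
  exact h.map φ

/-- **SPREADN** from its leaves. -/
theorem stmt_SPREADN_of (hSL : Stmt_SPREADLOC.{u}) (hPT : Stmt_PTLOC.{u}) (hLL : Stmt_LIMLOC.{u})
    (hFK : LB.Stmt_FIBK.{u}) (hDE : Stmt_DIVEX.{u}) (hDB : Stmt_DIVBC.{u})
    (hDU : Stmt_DIVUNIQ.{u}) (hID : Stmt_ISODIV.{u}) (hBE : LB.Stmt_BCEX.{u})
    (hBU : LB.Stmt_BCUNIQ.{u}) (hBC : LB.Stmt_BCCOMP.{u}) : Stmt_SPREADN.{u} := by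
  intro k _ _ 𝒞 hg h hh g hgen R _ _ _ L t Lt βt pt s0 s1 hdiv hdet hH1
  -- Step A: the base change to the local ring, and its fibre
  obtain ⟨Lm, ⟨βm⟩⟩ := hBE k 𝒞 hg R (LocAt t) (locMap t) L
  obtain ⟨Lt', ⟨βt'⟩⟩ := hBE k 𝒞 hg (LocAt t) k (locPt t) Lm
  obtain ⟨βc⟩ := (hBC k 𝒞 hg R L).2 (LocAt t) k (locMap t) (locPt t) Lm Lt' βm βt'
  have βc' : BC t L Lt' := bcCast (locPt_comp_locMap t) βc
  obtain ⟨I⟩ := hBU k 𝒞 hg R k t L L Lt Lt' βt βc' ⟨isoRefl L⟩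
  have hdiv' := hID k 𝒞 g k pt Lt Lt' I s0 s1 hdiv
  have hH1' := h1_of_iso I hH1
  -- Step B: SPREADLOC
  have := locAt_isNoetherianRing t
  obtain ⟨pm, σ0, σ1, hdm, hum, -⟩ :=
    hSL k 𝒞 hg h hh g hgen (LocAt t) Lm (locPt t) Lt' βt' pt (I.e0 s0) (I.e1 s1) hdiv' hdet hH1'
  -- Step C: PTLOC, and the determinant
  have : Algebra.FinitePresentation k 𝒞.B0 := hg.smooth0.finitePresentation
  obtain ⟨r, hr, pr, hpr⟩ := hPT k 𝒞.B0 𝒞.x0 g R t pm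
  have hu : IsUnit (awayToLoc t r hr ((pr.ρ h).det)) := by
    rw [← det_map, hpr]; exact hum
  obtain ⟨a, hta, ha⟩ := exists_isUnit_awayDvd t r hr _ hu
  have hr1 : t (r * a) ≠ 0 := by rw [map_mul]; exact mul_ne_zero hr hta
  have hd1 : r ∣ r * a := dvd_mul_right r a
  have hu1 : IsUnit ((pr.map (awayDvd r (r * a) hd1)).ρ h).det := by
    rw [det_map]; exact ha (r * a) hd1 (dvd_mul_left a r)
  have hp1 : (pr.map (awayDvd r (r * a) hd1)).map (awayToLoc t (r * a) hr1) = pm := by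
    rw [← Pt.map_comp, awayToLoc_comp_awayDvd t r (r * a) hd1 hr hr1, hpr]
  -- Step D: DIVEX
  obtain ⟨L', s0', s1', hdiv1, -⟩ :=
    hDE k 𝒞 hg h hh g (Localization.Away (r * a)) (pr.map (awayDvd r (r * a) hd1)) hu1
  -- Step E: compare over the local ring
  obtain ⟨L'm, ⟨β'm⟩⟩ :=
    hBE k 𝒞 hg (Localization.Away (r * a)) (LocAt t) (awayToLoc t (r * a) hr1) L'
  have hdiv'm := hDB k 𝒞 hg g _ _ (awayToLoc t (r * a) hr1) (pr.map (awayDvd r (r * a) hd1))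
    L' L'm β'm s0' s1' hdiv1
  rw [hp1] at hdiv'm
  obtain ⟨J⟩ := hDU k 𝒞 hg g (LocAt t) pm Lm L'm σ0 σ1 _ _ hdm hdiv'm
  -- Step F: LIMLOC
  obtain ⟨L1, ⟨β1⟩⟩ := hBE k 𝒞 hg R (Localization.Away (r * a)) (awayMap (r * a)) L
  obtain ⟨M1, ⟨γ1⟩⟩ :=
    hBE k 𝒞 hg (Localization.Away (r * a)) (LocAt t) (awayToLoc t (r * a) hr1) L1
  obtain ⟨γc⟩ := (hBC k 𝒞 hg R L).2 _ _ (awayMap (r * a)) (awayToLoc t (r * a) hr1) L1 M1 β1 γ1
  have γc' : BC (locMap t) L M1 := bcCast (awayToLoc_comp_awayMap t (r * a) hr1) γc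
  obtain ⟨K⟩ := hBU k 𝒞 hg R (LocAt t) (locMap t) L L M1 Lm γc' βm ⟨isoRefl L⟩
  obtain ⟨r2, hr2, hd2, hLL2⟩ :=
    hLL k 𝒞 hg R t (r * a) hr1 L1 L' M1 L'm γ1 β'm ⟨isoTrans K J⟩
  -- Step G: FIBK
  obtain ⟨r3, hr3, hF⟩ := hFK k 𝒞 hg R L t Lt βt hH1
  obtain ⟨L3, ⟨β3⟩⟩ := hBE k 𝒞 hg R (Localization.Away r3) (awayMap r3) L
  have hH3 := (hF L3 β3).1
  -- the neighbourhood
  refine ⟨r2 * r3, by rw [map_mul]; exact mul_ne_zero hr2 hr3, ?_⟩
  intro ρ hρ htρ Lρ βρ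
  have hd2ρ : r2 ∣ ρ := dvd_trans (dvd_mul_right r2 r3) hρ
  have hd3ρ : r3 ∣ ρ := dvd_trans (dvd_mul_left r3 r2) hρ
  have hd1ρ : r * a ∣ ρ := dvd_trans hd2 hd2ρ
  obtain ⟨N1, ⟨δ1⟩⟩ := hBE k 𝒞 hg _ _ (awayDvd (r * a) ρ hd1ρ) L1
  obtain ⟨δc⟩ := (hBC k 𝒞 hg R L).2 _ _ (awayMap (r * a)) (awayDvd (r * a) ρ hd1ρ) L1 N1 β1 δ1
  have δc' : BC (awayMap ρ) L N1 := bcCast (awayDvd_comp_awayMap (r * a) ρ hd1ρ) δc
  obtain ⟨I1⟩ := hBU k 𝒞 hg R _ (awayMap ρ) L L N1 Lρ δc' βρ ⟨isoRefl L⟩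
  obtain ⟨N2, ⟨δ2⟩⟩ := hBE k 𝒞 hg _ _ (awayDvd (r * a) ρ hd1ρ) L'
  obtain ⟨I2⟩ := hLL2 ρ hd2ρ hd1ρ htρ N1 N2 δ1 δ2
  have hdivN2 := hDB k 𝒞 hg g _ _ (awayDvd (r * a) ρ hd1ρ) (pr.map (awayDvd r (r * a) hd1))
    L' N2 δ2 s0' s1' hdiv1
  have hdivρ := hID k 𝒞 g _ ((pr.map (awayDvd r (r * a) hd1)).map (awayDvd (r * a) ρ hd1ρ))
    N2 Lρ (isoTrans (isoSymm I2) I1) _ _ hdivN2
  refine ⟨(pr.map (awayDvd r (r * a) hd1)).map (awayDvd (r * a) ρ hd1ρ), _, _, hdivρ,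
    isUnit_det_map _ _ _ hu1, ?_⟩
  obtain ⟨N3, ⟨δ3⟩⟩ := hBE k 𝒞 hg _ _ (awayDvd r3 ρ hd3ρ) L3
  obtain ⟨δc3⟩ := (hBC k 𝒞 hg R L).2 _ _ (awayMap r3) (awayDvd r3 ρ hd3ρ) L3 N3 β3 δ3
  have δc3' : BC (awayMap ρ) L N3 := bcCast (awayDvd_comp_awayMap r3 ρ hd3ρ) δc3
  obtain ⟨I4⟩ := hBU k 𝒞 hg R _ (awayMap ρ) L L N3 Lρ δc3' βρ ⟨isoRefl L⟩
  exact h1_of_iso I4 (h1_bc δ3 hH3)

/-- **SPREAD** from its monotone form. -/
theorem stmt_SPREAD_of_SPREADN (hBE : LB.Stmt_BCEX.{u}) (hN : Stmt_SPREADN.{u}) :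
    Stmt_SPREAD.{u} := by
  intro k _ _ 𝒞 hg h hh g hgen R _ _ _ L t Lt βt pt s0 s1 hdiv hdet hH1
  obtain ⟨r, hr, hQ⟩ := hN k 𝒞 hg h hh g hgen R L t Lt βt pt s0 s1 hdiv hdet hH1
  obtain ⟨Lr, ⟨βr⟩⟩ := hBE k 𝒞 hg R (Localization.Away r) (awayMap r) L
  obtain ⟨p, σ0, σ1, h1, h2, h3⟩ := hQ r (dvd_refl r) hr Lr βr
  exact ⟨r, hr, Lr, βr, p, σ0, σ1, h1, h2, h3⟩

/-- **SPREAD** from the leaves. -/
theorem stmt_SPREAD_of (hSL : Stmt_SPREADLOC.{u}) (hPT : Stmt_PTLOC.{u}) (hLL : Stmt_LIMLOC.{u})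
    (hFK : LB.Stmt_FIBK.{u}) (hDE : Stmt_DIVEX.{u}) (hDB : Stmt_DIVBC.{u})
    (hDU : Stmt_DIVUNIQ.{u}) (hID : Stmt_ISODIV.{u}) (hBE : LB.Stmt_BCEX.{u})
    (hBU : LB.Stmt_BCUNIQ.{u}) (hBC : LB.Stmt_BCCOMP.{u}) : Stmt_SPREAD.{u} :=
  stmt_SPREAD_of_SPREADN hBE (stmt_SPREADN_of hSL hPT hLL hFK hDE hDB hDU hID hBE hBU hBC)

end Main

end Fermat.Agent.S25.Chart.H43
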