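/-
helper4, S25 CHART: CORRECTION of `Chart/Defs3.lean`.

`phiMap` of Defs3 was written `a i ⊗ₜ[k] 𝒞.x0 ^ (i : ℕ)`, which Lean parses as `(a i ⊗ₜ 𝒞.x0) ^ i = a_i^i ⊗ x0^i`
(`⊗ₜ` binds tighter than `^`).  So `Stmt_DIVCYC` of Defs3 is FALSE for `g ≥ 1` (the map does not depend on `a 0`).
The intended map is `phiMap2` below, and the leaf to prove is `Stmt_DIVCYC2`.
-/
import Fermat.Agent.S25.Chart.Defs3

set_option autoImplicit false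

universe u

open Polynomial TensorProduct

namespace Fermat.Agent.S25.Chart

open Fermat.Agent.S25.LB

variable {k : Type u} [Field k] {𝒞 : CurveDatum k} {R : Type u} [CommRing R] [Algebra k R]

/-- `u_a = Σ_i a_i ⊗ x0^i ∈ R ⊗ B0`. -/
noncomputable def uOf (𝒞 : CurveDatum k) {g : ℕ} (a : Fin g → R) : R ⊗[k] 𝒞.B0 :=
  ∑ i : Fin g, (a i ⊗ₜ[k] (𝒞.x0 ^ (i : ℕ)) : R ⊗[k] 𝒞.B0)

/-- `Φ (a, c) = (Σ_i a_i ⊗ x0^i) • q + c • σ0`. -/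
noncomputable def phiMap2 {g : ℕ} (L : Triple 𝒞 R) (σ0 q : L.P0) (a : Fin g → R)
    (c : R ⊗[k] 𝒞.B0) : L.P0 :=
  uOf 𝒞 a • q + c • σ0

/-- **DIVCYC2** (corrected DIVCYC): over the field `k`, `P0 / S0 s0` is free of rank one over
`O(Z) = S0 / p.ideal`: there is `q` such that `Φ : k^g ⊕ S0 → P0` is bijective. -/
def Stmt_DIVCYC2 : Prop :=
  ∀ (k : Type u) [Field k] (𝒞 : CurveDatum k), 𝒞.IsGood →
    ∀ (g : ℕ) (p : Pt k 𝒞.B0 𝒞.x0 g k) (L : Triple 𝒞 k) (s0 : L.P0) (s1 : L.P1),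
      IsDiv L s0 s1 p →
      ∃ q : L.P0, Function.Bijective (fun ac : (Fin g → k) × (k ⊗[k] 𝒞.B0) =>
        phiMap2 L s0 q ac.1 ac.2)

end Fermat.Agent.S25.Chart
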