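/-
helper4, S25 CHART: assembly of `Stmt_SPREADLOC` (DIV-SPREAD over a noetherian local ring with residue field `k`)
from the leaves of `Chart/Defs3.lean`.
-/
import Fermat.Agent.S25.Chart.Defs3b
import Fermat.Agent.S25.LB.DefsE

set_option autoImplicit false

universe u

open Polynomial TensorProduct

namespace Fermat.Agent.S25.Chart.H4

open Fermat.Agent.S25.LB Fermat.Agent.S25.Chart Fermat.Agent.S25

variable {k : Type u} [Field k] {𝒞 : CurveDatum k} {R : Type u} [CommRing R] [Algebra k R]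

attribute [local instance] Triple.modR0 Triple.modR1

theorem smul0_def (L : Triple 𝒞 R) (r : R) (n : L.P0) :
    r • n = algebraMap R (R ⊗[k] 𝒞.B0) r • n := rfl

theorem smul1_def (L : Triple 𝒞 R) (r : R) (n : L.P1) :
    r • n = algebraMap R (R ⊗[k] 𝒞.B1) r • n := rfl

theorem t_surj (t : R →ₐ[k] k) : Function.Surjective t := fun c =>
  ⟨algebraMap k R c, by rw [AlgHom.commutes]; rfl⟩

theorem tmap_surj (t : R →ₐ[k] k) (B : Type u) [CommRing B] [Algebra k B] :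
    Function.Surjective (tmap t B) :=
  Algebra.TensorProduct.map_surjective (f := t) (g := AlgHom.id k B) (t_surj t) (fun b => ⟨b, rfl⟩)

theorem b0_surj (t : R →ₐ[k] k) (L : Triple 𝒞 R) (Lt : Triple 𝒞 k) (β : BC t L Lt) :
    Function.Surjective β.b0 := by
  intro y
  have hy : y ∈ Submodule.span (k ⊗[k] 𝒞.B0) (Set.range β.b0) := by rw [β.gen0]; trivial
  induction hy using Submodule.span_induction with
  | mem x hx => exact hx
  | zero => exact ⟨0, map_zero _⟩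
  | add x y _ _ hx hy =>
    obtain ⟨a, rfl⟩ := hx; obtain ⟨b, rfl⟩ := hy; exact ⟨a + b, map_add _ _ _⟩
  | smul c x _ hx =>
    obtain ⟨a, rfl⟩ := hx; obtain ⟨c', rfl⟩ := tmap_surj t 𝒞.B0 c
    exact ⟨c' • a, β.semi0 c' a⟩

theorem b1_surj (t : R →ₐ[k] k) (L : Triple 𝒞 R) (Lt : Triple 𝒞 k) (β : BC t L Lt) :
    Function.Surjective β.b1 := by
  intro y
  have hy : y ∈ Submodule.span (k ⊗[k] 𝒞.B1) (Set.range β.b1) := by rw [β.gen1]; trivial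
  induction hy using Submodule.span_induction with
  | mem x hx => exact hx
  | zero => exact ⟨0, map_zero _⟩
  | add x y _ _ hx hy =>
    obtain ⟨a, rfl⟩ := hx; obtain ⟨b, rfl⟩ := hy; exact ⟨a + b, map_add _ _ _⟩
  | smul c x _ hx =>
    obtain ⟨a, rfl⟩ := hx; obtain ⟨c', rfl⟩ := tmap_surj t 𝒞.B1 c
    exact ⟨c' • a, β.semi1 c' a⟩

/-- The kernel of `R ⊗ B → k ⊗ B` is `𝔪 • ⊤` (as an `R`-submodule). -/
theorem ker_tmap (t : R →ₐ[k] k) (B : Type u) [CommRing B] [Algebra k B] (c : R ⊗[k] B)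
    (hc : tmap t B c = 0) :
    c ∈ (RingHom.ker t.toRingHom) • (⊤ : Submodule R (R ⊗[k] B)) := by
  have h1 : c ∈ RingHom.ker (tmap t B) := hc
  have h2 := Algebra.TensorProduct.rTensor_ker (R := k) (C := B) (f := t) (t_surj t)
  have h3 : c ∈ (RingHom.ker t).map
      (Algebra.TensorProduct.includeLeft : R →ₐ[k] R ⊗[k] B) := by
    rw [← h2]; exact h1
  have h4 := Ideal.map_includeLeft_eq (R := k) (A := R) (B := B) (RingHom.ker t)
  have h5 : c ∈ ((RingHom.ker t).map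
      (Algebra.TensorProduct.includeLeft : R →ₐ[k] R ⊗[k] B)).restrictScalars k := h3
  rw [h4] at h5
  obtain ⟨y, rfl⟩ := h5
  clear hc h1 h2 h3 h4
  induction y using TensorProduct.induction_on with
  | zero => simp
  | tmul m b =>
    have : (LinearMap.rTensor B (Submodule.restrictScalars k (RingHom.ker t)).subtype) (m ⊗ₜ[k] b)
        = (m : R) • ((1 : R) ⊗ₜ[k] b) := by
      simp [TensorProduct.smul_tmul']
    rw [this]
    exact Submodule.smul_mem_smul m.2 trivial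
  | add x y hx hy => rw [map_add]; exact Submodule.add_mem _ hx hy

/-- If `1 ⊗ q = 0` in `k ⊗[R] N` (with `k` an `R`-algebra through `t`) then `q ∈ 𝔪 N`. -/
theorem mem_smul_top_of_tmul_eq_zero (t : R →ₐ[k] k) (N : Type u) [AddCommGroup N] [Module R N]
    (q : N)
    (hq : letI : Algebra R k := t.toRingHom.toAlgebra
      ((1 : k) ⊗ₜ[R] q : k ⊗[R] N) = 0) :
    q ∈ (RingHom.ker t.toRingHom) • (⊤ : Submodule R N) := by
  letI : Algebra R k := t.toRingHom.toAlgebra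
  set g : R →ₗ[R] k := Algebra.linearMap R k with hg
  have hgs : Function.Surjective g := fun c => by
    obtain ⟨r, hr⟩ := t_surj t c
    exact ⟨r, hr⟩
  have hker : LinearMap.ker g = (RingHom.ker t.toRingHom).restrictScalars R := by
    ext r
    simp only [LinearMap.mem_ker, Submodule.restrictScalars_mem, RingHom.mem_ker]
    rfl
  have hex := rTensor_exact N (LinearMap.exact_subtype_ker_map g) hgs
  have h1 : LinearMap.rTensor N g ((1 : R) ⊗ₜ[R] q) = 0 := by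
    rw [LinearMap.rTensor_tmul]
    have : g 1 = (1 : k) := by simp [hg]
    rw [this]; exact hq
  obtain ⟨y, hy⟩ := (hex _).mp h1
  have h2 : q = TensorProduct.lid R N ((1 : R) ⊗ₜ[R] q) := by simp
  rw [h2, ← hy]
  clear hy h2 h1 hq
  induction y using TensorProduct.induction_on with
  | zero => simp
  | tmul m n =>
    rw [LinearMap.rTensor_tmul, TensorProduct.lid_tmul]
    have hm : (m : R) ∈ RingHom.ker t.toRingHom := by
      have h3 : (m : R) ∈ LinearMap.ker g := m.2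
      have h4 : (m : R) ∈ (RingHom.ker t.toRingHom).restrictScalars R := hker ▸ h3
      exact h4
    exact Submodule.smul_mem_smul hm trivial
  | add x y hx hy => rw [map_add, map_add]; exact Submodule.add_mem _ hx hy

theorem ker_b0 (hX : Stmt_BCDATAX.{u}) (h𝒞 : 𝒞.IsGood) (t : R →ₐ[k] k) (L : Triple 𝒞 R)
    (Lt : Triple 𝒞 k) (β : BC t L Lt) (q : L.P0) (hq : β.b0 q = 0) :
    q ∈ (RingHom.ker t.toRingHom) • (⊤ : Submodule R L.P0) := by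
  apply mem_smul_top_of_tmul_eq_zero t L.P0 q
  have h := hX k 𝒞 h𝒞 R k t L Lt β
  obtain ⟨E, h0, -, -⟩ := h
  apply E.e0.injective
  exact ((h0 1 q).trans (by rw [hq, smul_zero]; rfl)).trans (map_zero E.e0).symm

theorem ker_b1 (hX : Stmt_BCDATAX.{u}) (h𝒞 : 𝒞.IsGood) (t : R →ₐ[k] k) (L : Triple 𝒞 R)
    (Lt : Triple 𝒞 k) (β : BC t L Lt) (q : L.P1) (hq : β.b1 q = 0) :
    q ∈ (RingHom.ker t.toRingHom) • (⊤ : Submodule R L.P1) := by
  apply mem_smul_top_of_tmul_eq_zero t L.P1 q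
  have h := hX k 𝒞 h𝒞 R k t L Lt β
  obtain ⟨E, -, h1, -⟩ := h
  apply E.e1.injective
  exact ((h1 1 q).trans (by rw [hq, smul_zero]; rfl)).trans (map_zero E.e1).symm

/-! ### Nakayama -/

theorem ker_eq_maximalIdeal [IsLocalRing R] (t : R →ₐ[k] k) :
    RingHom.ker t.toRingHom = IsLocalRing.maximalIdeal R := by
  have hmax : (RingHom.ker t.toRingHom).IsMaximal :=
    RingHom.ker_isMaximal_of_surjective t.toRingHom (t_surj t)
  exact IsLocalRing.eq_maximalIdeal hmax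

/-- Nakayama: `M = N + N'` with `N'` finitely generated and `M = N + 𝔪 M` imply `N = M`. -/
theorem nak_sup [IsLocalRing R] {M : Type u} [AddCommGroup M] [Module R M] (N N' : Submodule R M)
    (hN' : N'.FG) (h1 : ⊤ ≤ N ⊔ N')
    (h2 : ⊤ ≤ N ⊔ (IsLocalRing.maximalIdeal R) • (⊤ : Submodule R M)) : N = ⊤ := by
  have h3 : N' ≤ N ⊔ (IsLocalRing.maximalIdeal R) • N' := by
    have h4 : (IsLocalRing.maximalIdeal R) • (⊤ : Submodule R M) ≤
        N ⊔ (IsLocalRing.maximalIdeal R) • N' := by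
      have h5 : (⊤ : Submodule R M) = N ⊔ N' := le_antisymm h1 le_top
      rw [h5, Submodule.smul_sup]
      exact sup_le_sup_right Submodule.smul_le_right _
    exact (le_top.trans h2).trans (sup_le le_sup_left h4)
  have h6 : N' ≤ N :=
    Submodule.le_of_le_smul_of_le_jacobson_bot hN' (IsLocalRing.maximalIdeal_le_jacobson _) h3
  exact le_antisymm le_top (h1.trans (sup_le le_rfl h6))

/-! ### Step 2: the divisor does not meet `x0 = ∞` -/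

/-- The `R`-submodule `S1 σ1 + z1 P1` of `P1`. -/
def subN1 (L : Triple 𝒞 R) (σ1 : L.P1) : Submodule R L.P1 where
  carrier := {n | ∃ (c : R ⊗[k] 𝒞.B1) (q' : L.P1),
    n = c • σ1 + ((1 : R) ⊗ₜ[k] 𝒞.z1 : R ⊗[k] 𝒞.B1) • q'}
  zero_mem' := ⟨0, 0, by rw [zero_smul, smul_zero, add_zero]⟩
  add_mem' := by
    rintro a b ⟨c, q, rfl⟩ ⟨c', q', rfl⟩
    refine ⟨c + c', q + q', ?_⟩
    rw [add_smul, smul_add]; abel
  smul_mem' := by
    rintro r n ⟨c, q, rfl⟩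
    refine ⟨algebraMap R (R ⊗[k] 𝒞.B1) r * c, algebraMap R (R ⊗[k] 𝒞.B1) r • q, ?_⟩
    rw [smul1_def, smul_add, smul_smul, smul_smul, smul_smul,
      mul_comm (algebraMap R (R ⊗[k] 𝒞.B1) r) ((1 : R) ⊗ₜ[k] 𝒞.z1)]

theorem genAtInfty_of_subN1_eq_top (L : Triple 𝒞 R) (σ1 : L.P1) (h : subN1 L σ1 = ⊤) :
    GenAtInfty L σ1 := by
  intro q
  have hq : q ∈ subN1 L σ1 := by rw [h]; trivial
  exact hq

/-- `P1 = (finitely generated R-module) + z1 P1`, from `Proj1`. -/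
theorem exists_fg_sup_z1 (L : Triple 𝒞 R) (hP : L.toData.Proj1) (σ1 : L.P1) :
    ∃ N' : Submodule R L.P1, N'.FG ∧ ⊤ ≤ subN1 L σ1 ⊔ N' := by
  obtain ⟨r, i0, p0, hpi0, -, hpX0⟩ := hP
  let p : (Fin r → R[X]) →ₗ[R] L.P1 := p0
  let i : L.P1 →ₗ[R] (Fin r → R[X]) := i0
  have hpi : ∀ n : L.P1, p (i n) = n := hpi0
  have hpX : ∀ v, p ((X : R[X]) • v) = ((1 : R) ⊗ₜ[k] 𝒞.z1 : R ⊗[k] 𝒞.B1) • p v := hpX0
  refine ⟨Submodule.span R (Set.range (fun j : Fin r => p (Pi.single j (1 : R[X])))),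
    Submodule.fg_span (Set.finite_range _), ?_⟩
  intro n _
  set v := i n with hv
  have hn : n = p v := (hpi n).symm
  let v0 : Fin r → R[X] := fun j => C ((v j).coeff 0)
  let v' : Fin r → R[X] := fun j => (v j).divX
  have hdec : v = v0 + (X : R[X]) • v' := by
    funext j
    simp only [Pi.add_apply, Pi.smul_apply, smul_eq_mul, v0, v']
    rw [add_comm]; exact (Polynomial.X_mul_divX_add (v j)).symm
  have hv0 : v0 = ∑ j : Fin r, ((v j).coeff 0) • (Pi.single j (1 : R[X]) : Fin r → R[X]) := by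
    funext j'
    simp only [v0, Finset.sum_apply, Pi.smul_apply, Pi.single_apply]
    rw [Finset.sum_eq_single j']
    · simp [Polynomial.smul_eq_C_mul]
    · intro b _ hb
      simp only [smul_ite, smul_zero, ite_eq_right_iff]
      intro h; exact absurd h.symm hb
    · intro h; exact absurd (Finset.mem_univ j') h
  rw [hn, hdec, map_add, hpX, add_comm]
  refine Submodule.add_mem_sup ?_ ?_
  · exact ⟨0, p v', by rw [zero_smul, zero_add]⟩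
  · rw [hv0, map_sum]
    refine Submodule.sum_mem _ (fun j _ => ?_)
    rw [map_smul]
    exact Submodule.smul_mem _ _ (Submodule.subset_span ⟨j, rfl⟩)

theorem genAtInfty_lift [IsLocalRing R] (hVB : LB.Stmt_VB.{u}) (hX : Stmt_BCDATAX.{u})
    (h𝒞 : 𝒞.IsGood) (t : R →ₐ[k] k) (L : Triple 𝒞 R) (Lt : Triple 𝒞 k) (β : BC t L Lt)
    (σ1 : L.P1) (h : GenAtInfty Lt (β.b1 σ1)) : GenAtInfty L σ1 := by
  apply genAtInfty_of_subN1_eq_top
  obtain ⟨N', hN', h1⟩ := exists_fg_sup_z1 L (hVB k 𝒞 h𝒞 R L).proj1 σ1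
  refine nak_sup (subN1 L σ1) N' hN' h1 ?_
  intro q _
  obtain ⟨c', q'', hq⟩ := h (β.b1 q)
  obtain ⟨c, rfl⟩ := tmap_surj t 𝒞.B1 c'
  obtain ⟨qq, rfl⟩ := b1_surj t L Lt β q''
  have hz : ((1 : k) ⊗ₜ[k] 𝒞.z1 : k ⊗[k] 𝒞.B1) = tmap t 𝒞.B1 ((1 : R) ⊗ₜ[k] 𝒞.z1) := by
    simp [tmap]
  have h3 : β.b1 (q - (c • σ1 + ((1 : R) ⊗ₜ[k] 𝒞.z1 : R ⊗[k] 𝒞.B1) • qq)) = 0 := by
    rw [map_sub, map_add, β.semi1, β.semi1, ← hz, ← hq, sub_self]
  have h4 := ker_b1 hX h𝒞 t L Lt β _ h3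
  rw [ker_eq_maximalIdeal t] at h4
  have h5 : q = (c • σ1 + ((1 : R) ⊗ₜ[k] 𝒞.z1 : R ⊗[k] 𝒞.B1) • qq) +
      (q - (c • σ1 + ((1 : R) ⊗ₜ[k] 𝒞.z1 : R ⊗[k] 𝒞.B1) • qq)) := by abel
  have h6 : (c • σ1 + ((1 : R) ⊗ₜ[k] 𝒞.z1 : R ⊗[k] 𝒞.B1) • qq) ∈ subN1 L σ1 := ⟨c, qq, rfl⟩
  rw [h5]
  exact Submodule.add_mem_sup h6 h4

/-! ### Step 5: the map `Φ` -/

theorem phiMap_eq {g : ℕ} (L : Triple 𝒞 R) (σ0 q : L.P0) (a : Fin g → R) (c : R ⊗[k] 𝒞.B0) :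
    phiMap2 L σ0 q a c = uOf 𝒞 a • q + c • σ0 := rfl

theorem uOf_add {g : ℕ} (a a' : Fin g → R) : uOf 𝒞 (a + a') = uOf 𝒞 a + uOf 𝒞 a' := by
  unfold uOf
  rw [← Finset.sum_add_distrib]
  refine Finset.sum_congr rfl (fun i _ => ?_)
  rw [Pi.add_apply, TensorProduct.add_tmul]

theorem uOf_smul {g : ℕ} (r : R) (a : Fin g → R) :
    uOf 𝒞 (r • a) = algebraMap R (R ⊗[k] 𝒞.B0) r * uOf 𝒞 a := by
  unfold uOf
  rw [Finset.mul_sum]
  refine Finset.sum_congr rfl (fun i _ => ?_)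
  rw [Pi.smul_apply, smul_eq_mul, Algebra.TensorProduct.algebraMap_apply,
    Algebra.TensorProduct.tmul_mul_tmul, one_mul]
  rfl

theorem uOf_zero {g : ℕ} : uOf 𝒞 (0 : Fin g → R) = 0 := by
  simp [uOf]

theorem tmap_uOf {g : ℕ} (t : R →ₐ[k] k) (a : Fin g → R) :
    tmap t 𝒞.B0 (uOf 𝒞 a) = uOf 𝒞 (fun i => t (a i)) := by
  unfold uOf
  rw [map_sum]
  refine Finset.sum_congr rfl (fun i _ => ?_)
  simp [tmap]

/-- `Φ` as an `R`-linear map. -/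
noncomputable def phiLin {g : ℕ} (L : Triple 𝒞 R) (σ0 q : L.P0) :
    ((Fin g → R) × (R ⊗[k] 𝒞.B0)) →ₗ[R] L.P0 where
  toFun ac := phiMap2 L σ0 q ac.1 ac.2
  map_add' := by
    rintro ⟨a, c⟩ ⟨a', c'⟩
    simp only [Prod.mk_add_mk, phiMap_eq, uOf_add, add_smul]
    abel
  map_smul' := by
    rintro r ⟨a, c⟩
    simp only [Prod.smul_mk, phiMap_eq, uOf_smul, RingHom.id_apply]
    rw [smul0_def, smul_add, smul_smul, smul_smul, Algebra.smul_def]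

theorem phiLin_apply {g : ℕ} (L : Triple 𝒞 R) (σ0 q : L.P0) (a : Fin g → R) (c : R ⊗[k] 𝒞.B0) :
    phiLin L σ0 q (a, c) = uOf 𝒞 a • q + c • σ0 := rfl

theorem b0_phi {g : ℕ} (t : R →ₐ[k] k) (L : Triple 𝒞 R) (Lt : Triple 𝒞 k) (β : BC t L Lt)
    (σ0 q : L.P0) (a : Fin g → R) (c : R ⊗[k] 𝒞.B0) :
    β.b0 (uOf 𝒞 a • q + c • σ0) =
      phiMap2 Lt (β.b0 σ0) (β.b0 q) (fun i => t (a i)) (tmap t 𝒞.B0 c) := by
  rw [phiMap_eq, map_add, β.semi0, β.semi0, tmap_uOf]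

theorem b0_smul_top_eq_zero (t : R →ₐ[k] k) (L : Triple 𝒞 R) (Lt : Triple 𝒞 k) (β : BC t L Lt)
    (n : L.P0) (hn : n ∈ (RingHom.ker t.toRingHom) • (⊤ : Submodule R L.P0)) :
    β.b0 n = 0 := by
  refine Submodule.smul_induction_on hn ?_ ?_
  · intro m hm n _
    rw [smul0_def, β.semi0]
    have : tmap t 𝒞.B0 (algebraMap R (R ⊗[k] 𝒞.B0) m) = 0 := by
      have hm' : t m = 0 := hm
      simp [tmap, Algebra.TensorProduct.algebraMap_apply, hm']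
    rw [this, zero_smul]
  · intro x y hx hy
    rw [map_add, hx, hy, add_zero]

/-- `Φ` is onto (Nakayama), given that `P0 / S0 σ0` is finitely generated over `R` and `Φ` is onto on the
fibre. -/
theorem phiLin_surj [IsLocalRing R] {g : ℕ} (hX : Stmt_BCDATAX.{u}) (h𝒞 : 𝒞.IsGood)
    (t : R →ₐ[k] k) (L : Triple 𝒞 R) (Lt : Triple 𝒞 k) (β : BC t L Lt) (σ0 q : L.P0)
    (hfin : ∃ (n : ℕ) (v : Fin n → L.P0), ∀ q' : L.P0, ∃ (a : Fin n → R) (c : R ⊗[k] 𝒞.B0),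
      q' = (∑ i : Fin n, ((a i ⊗ₜ[k] (1 : 𝒞.B0) : R ⊗[k] 𝒞.B0) • v i)) + c • σ0)
    (hfib : Function.Surjective (fun ac : (Fin g → k) × (k ⊗[k] 𝒞.B0) =>
        phiMap2 Lt (β.b0 σ0) (β.b0 q) ac.1 ac.2)) :
    Function.Surjective (phiLin (g := g) L σ0 q) := by
  obtain ⟨n, v, hv⟩ := hfin
  have hN' : (Submodule.span R (Set.range v)).FG := Submodule.fg_span (Set.finite_range _)
  have h1 : ⊤ ≤ LinearMap.range (phiLin (g := g) L σ0 q) ⊔ Submodule.span R (Set.range v) := by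
    intro q' _
    obtain ⟨a, c, hq'⟩ := hv q'
    have e1 : c • σ0 ∈ LinearMap.range (phiLin (g := g) L σ0 q) := by
      refine ⟨(0, c), ?_⟩
      rw [phiLin_apply, uOf_zero, zero_smul, zero_add]
    have e2 : (∑ i : Fin n, ((a i ⊗ₜ[k] (1 : 𝒞.B0) : R ⊗[k] 𝒞.B0) • v i)) ∈
        Submodule.span R (Set.range v) := by
      refine Submodule.sum_mem _ (fun i _ => ?_)
      have : ((a i ⊗ₜ[k] (1 : 𝒞.B0) : R ⊗[k] 𝒞.B0) • v i) = a i • v i := by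
        rw [smul0_def, Algebra.TensorProduct.algebraMap_apply]; rfl
      rw [this]
      exact Submodule.smul_mem _ (a i) (Submodule.subset_span ⟨i, rfl⟩)
    rw [hq', add_comm]
    exact Submodule.add_mem_sup e1 e2
  have h2 : ⊤ ≤ LinearMap.range (phiLin (g := g) L σ0 q) ⊔
      (IsLocalRing.maximalIdeal R) • (⊤ : Submodule R L.P0) := by
    intro q' _
    obtain ⟨⟨a', c'⟩, hac⟩ := hfib (β.b0 q')
    obtain ⟨c, rfl⟩ := tmap_surj t 𝒞.B0 c'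
    have ha : ∃ a : Fin g → R, (fun i => t (a i)) = a' :=
      ⟨fun i => (t_surj t (a' i)).choose, funext fun i => (t_surj t (a' i)).choose_spec⟩
    obtain ⟨a, rfl⟩ := ha
    have h3 : β.b0 (q' - (uOf 𝒞 a • q + c • σ0)) = 0 := by
      rw [map_sub, b0_phi, sub_eq_zero]
      exact hac.symm
    have h4 := ker_b0 hX h𝒞 t L Lt β _ h3
    rw [ker_eq_maximalIdeal t] at h4
    have e1 : (uOf 𝒞 a • q + c • σ0) ∈ LinearMap.range (phiLin (g := g) L σ0 q) :=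
      ⟨(a, c), phiLin_apply L σ0 q a c⟩
    have e4 : q' = (uOf 𝒞 a • q + c • σ0) + (q' - (uOf 𝒞 a • q + c • σ0)) := by abel
    rw [e4]
    exact Submodule.add_mem_sup e1 h4
  have h3 := nak_sup _ _ hN' h1 h2
  exact LinearMap.range_eq_top.mp h3

theorem pair_mem_smul_top {g : ℕ} (I : Ideal R) (a : Fin g → R) (c : R ⊗[k] 𝒞.B0)
    (ha : ∀ i, a i ∈ I) (hc : c ∈ I • (⊤ : Submodule R (R ⊗[k] 𝒞.B0))) :
    ((a, c) : (Fin g → R) × (R ⊗[k] 𝒞.B0)) ∈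
      I • (⊤ : Submodule R ((Fin g → R) × (R ⊗[k] 𝒞.B0))) := by
  have h1 : ((a, c) : (Fin g → R) × (R ⊗[k] 𝒞.B0)) =
      (∑ i : Fin g, a i • ((Pi.single i (1 : R), (0 : R ⊗[k] 𝒞.B0)) :
        (Fin g → R) × (R ⊗[k] 𝒞.B0))) + LinearMap.inr R (Fin g → R) (R ⊗[k] 𝒞.B0) c := by
    ext i
    · simp only [Prod.fst_add, Prod.fst_sum, Prod.smul_fst, LinearMap.inr_apply, add_zero,
        Finset.sum_apply, Pi.smul_apply, Pi.single_apply, smul_eq_mul, mul_ite, mul_one,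
        mul_zero]
      rw [Finset.sum_eq_single i]
      · simp
      · intro b _ hb; rw [if_neg (Ne.symm hb)]
      · intro h; exact absurd (Finset.mem_univ i) h
    · simp only [Prod.snd_add, Prod.snd_sum, Prod.smul_snd, smul_zero, Finset.sum_const_zero,
        LinearMap.inr_apply, zero_add]
  rw [h1]
  refine Submodule.add_mem _ (Submodule.sum_mem _ (fun i _ => ?_)) ?_
  · exact Submodule.smul_mem_smul (ha i) trivial
  · have h2 : LinearMap.inr R (Fin g → R) (R ⊗[k] 𝒞.B0) c ∈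
        (I • (⊤ : Submodule R (R ⊗[k] 𝒞.B0))).map (LinearMap.inr R (Fin g → R) (R ⊗[k] 𝒞.B0)) :=
      Submodule.mem_map_of_mem hc
    rw [Submodule.map_smul''] at h2
    exact Submodule.smul_mono le_rfl le_top h2

theorem phiLin_inj_mod {g : ℕ} (t : R →ₐ[k] k) (L : Triple 𝒞 R) (Lt : Triple 𝒞 k)
    (β : BC t L Lt) (σ0 q : L.P0)
    (hfib : Function.Injective (fun ac : (Fin g → k) × (k ⊗[k] 𝒞.B0) =>
        phiMap2 Lt (β.b0 σ0) (β.b0 q) ac.1 ac.2))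
    (v : (Fin g → R) × (R ⊗[k] 𝒞.B0))
    (hv : phiLin L σ0 q v ∈ (RingHom.ker t.toRingHom) • (⊤ : Submodule R L.P0)) :
    v ∈ (RingHom.ker t.toRingHom) • (⊤ : Submodule R ((Fin g → R) × (R ⊗[k] 𝒞.B0))) := by
  obtain ⟨a, c⟩ := v
  have h1 := b0_smul_top_eq_zero t L Lt β _ hv
  rw [phiLin_apply, b0_phi] at h1
  have h2 : (fun ac : (Fin g → k) × (k ⊗[k] 𝒞.B0) =>
      phiMap2 Lt (β.b0 σ0) (β.b0 q) ac.1 ac.2) ((fun i => t (a i)), tmap t 𝒞.B0 c) =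
      (fun ac : (Fin g → k) × (k ⊗[k] 𝒞.B0) =>
      phiMap2 Lt (β.b0 σ0) (β.b0 q) ac.1 ac.2) (0, 0) := by
    simp only []
    rw [h1, phiMap_eq, uOf_zero, zero_smul, zero_smul, add_zero]
  have h3 := hfib h2
  have ha : ∀ i, a i ∈ RingHom.ker t.toRingHom := fun i => by
    have := congrFun (congrArg Prod.fst h3) i
    exact this
  have hc : tmap t 𝒞.B0 c = 0 := congrArg Prod.snd h3
  exact pair_mem_smul_top _ a c ha (ker_tmap t 𝒞.B0 c hc)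

theorem projective0 (L : Triple 𝒞 R) (hP : L.toData.Proj0) : Module.Projective R L.P0 := by
  obtain ⟨r, i0, p0, hpi0, -, -⟩ := hP
  let p : (Fin r → R[X]) →ₗ[R] L.P0 := p0
  let i : L.P0 →ₗ[R] (Fin r → R[X]) := i0
  have hpi : ∀ n : L.P0, p (i n) = n := hpi0
  exact Module.Projective.of_split i p (LinearMap.ext hpi)

/-- `Φ` is bijective. -/
theorem phiLin_bij [IsLocalRing R] [IsNoetherianRing R] {g : ℕ} (hLS : Stmt_LOCSPLIT.{u})
    (hVB : LB.Stmt_VB.{u}) (hX : Stmt_BCDATAX.{u}) (h𝒞 : 𝒞.IsGood)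
    (t : R →ₐ[k] k) (L : Triple 𝒞 R) (Lt : Triple 𝒞 k) (β : BC t L Lt) (σ0 q : L.P0)
    (hfin : ∃ (n : ℕ) (v : Fin n → L.P0), ∀ q' : L.P0, ∃ (a : Fin n → R) (c : R ⊗[k] 𝒞.B0),
      q' = (∑ i : Fin n, ((a i ⊗ₜ[k] (1 : 𝒞.B0) : R ⊗[k] 𝒞.B0) • v i)) + c • σ0)
    (hfib : Function.Bijective (fun ac : (Fin g → k) × (k ⊗[k] 𝒞.B0) =>
        phiMap2 Lt (β.b0 σ0) (β.b0 q) ac.1 ac.2)) :
    Function.Bijective (phiLin (g := g) L σ0 q) := by
  have hs := phiLin_surj hX h𝒞 t L Lt β σ0 q hfin hfib.2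
  haveI : Module.Projective R L.P0 := projective0 L (hVB k 𝒞 h𝒞 R L).proj0
  refine ⟨hLS R ((Fin g → R) × (R ⊗[k] 𝒞.B0)) L.P0 (phiLin L σ0 q) hs ?_, hs⟩
  intro v hv
  rw [← ker_eq_maximalIdeal t] at hv ⊢
  exact phiLin_inj_mod t L Lt β σ0 q hfib.1 v hv

/-! ### Step 6: the chart point -/

/-- The colon ideal `(S0 σ0 : P0)`. -/
def colon (L : Triple 𝒞 R) (σ0 : L.P0) : Ideal (R ⊗[k] 𝒞.B0) where
  carrier := {c | ∀ q' : L.P0, ∃ d : R ⊗[k] 𝒞.B0, c • q' = d • σ0}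
  zero_mem' := fun q' => ⟨0, by rw [zero_smul, zero_smul]⟩
  add_mem' := by
    intro c c' hc hc' q'
    obtain ⟨d, hd⟩ := hc q'
    obtain ⟨d', hd'⟩ := hc' q'
    exact ⟨d + d', by rw [add_smul, add_smul, hd, hd']⟩
  smul_mem' := by
    intro c' c hc q'
    obtain ⟨d, hd⟩ := hc q'
    exact ⟨c' * d, by rw [smul_eq_mul, mul_smul, hd, mul_smul]⟩

theorem mem_colon (L : Triple 𝒞 R) (σ0 : L.P0) (c : R ⊗[k] 𝒞.B0) :
    c ∈ colon L σ0 ↔ ∀ q' : L.P0, ∃ d : R ⊗[k] 𝒞.B0, c • q' = d • σ0 := Iff.rfl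

/-- `a ↦ u_a` as a linear map. -/
noncomputable def uLin (𝒞 : CurveDatum k) (R : Type u) [CommRing R] [Algebra k R] (g : ℕ) :
    (Fin g → R) →ₗ[R] (R ⊗[k] 𝒞.B0) where
  toFun a := uOf 𝒞 a
  map_add' := uOf_add
  map_smul' := fun r a => by rw [uOf_smul, RingHom.id_apply, Algebra.smul_def]

theorem uOf_single {g : ℕ} (i : Fin g) :
    uOf 𝒞 (Pi.single i (1 : R)) = ((1 : R) ⊗ₜ[k] 𝒞.x0) ^ (i : ℕ) := by
  unfold uOf
  rw [Finset.sum_eq_single i]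
  · rw [Pi.single_eq_same, Algebra.TensorProduct.tmul_pow, one_pow]
  · intro b _ hb; rw [Pi.single_eq_of_ne hb, TensorProduct.zero_tmul]
  · intro h; exact absurd (Finset.mem_univ i) h

/-- The map `k^g → S0 / (S0 σ0 : P0)`, `a ↦ [u_a]`. -/
noncomputable def qLin (L : Triple 𝒞 R) (σ0 : L.P0) (g : ℕ) :
    (Fin g → R) →ₗ[R] ((R ⊗[k] 𝒞.B0) ⧸ colon L σ0) :=
  (Ideal.Quotient.mkₐ R (colon L σ0)).toLinearMap ∘ₗ uLin 𝒞 R g

theorem qLin_apply (L : Triple 𝒞 R) (σ0 : L.P0) (g : ℕ) (a : Fin g → R) :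
    qLin L σ0 g a = Ideal.Quotient.mk (colon L σ0) (uOf 𝒞 a) := rfl

theorem qLin_bij {g : ℕ} (L : Triple 𝒞 R) (σ0 q : L.P0)
    (hΦ : Function.Bijective (phiLin (g := g) L σ0 q)) : Function.Bijective (qLin L σ0 g) := by
  constructor
  · rw [← LinearMap.ker_eq_bot, LinearMap.ker_eq_bot']
    intro a ha
    rw [qLin_apply, Ideal.Quotient.eq_zero_iff_mem] at ha
    obtain ⟨d, hd⟩ := ha q
    have h1 : phiLin L σ0 q (a, -d) = phiLin (g := g) L σ0 q (0, 0) := by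
      rw [phiLin_apply, phiLin_apply, hd, neg_smul, add_neg_cancel, uOf_zero, zero_smul,
        zero_smul, add_zero]
    exact congrArg Prod.fst (hΦ.1 h1)
  · intro y
    obtain ⟨c, rfl⟩ := Ideal.Quotient.mk_surjective y
    obtain ⟨⟨a, d⟩, had⟩ := hΦ.2 (c • q)
    rw [phiLin_apply] at had
    refine ⟨a, ?_⟩
    rw [qLin_apply]
    apply Ideal.Quotient.eq.mpr
    intro q'
    obtain ⟨⟨a', d'⟩, had'⟩ := hΦ.2 q'
    rw [phiLin_apply] at had'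
    refine ⟨-(uOf 𝒞 a' * d) + (uOf 𝒞 a - c) * d', ?_⟩
    have h2 : (uOf 𝒞 a - c) • q = -(d • σ0) := by
      rw [sub_smul, ← had]; abel
    rw [← had', smul_add, smul_smul, mul_comm, ← smul_smul, h2, smul_neg, smul_smul, smul_smul,
      add_smul, neg_smul]

/-- The chart point of a section with `Φ` bijective. -/
theorem exists_pt {g : ℕ} (hIDEAL : Stmt_IDEAL.{u}) (L : Triple 𝒞 R) (σ0 q : L.P0)
    (hΦ : Function.Bijective (phiLin (g := g) L σ0 q)) :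
    ∃ p : Pt k 𝒞.B0 𝒞.x0 g R, p.ideal = colon L σ0 := by
  refine (hIDEAL k 𝒞.B0 𝒞.x0 g R).2 (colon L σ0) ?_
  let e : (Fin g → R) ≃ₗ[R] ((R ⊗[k] 𝒞.B0) ⧸ colon L σ0) :=
    LinearEquiv.ofBijective (qLin L σ0 g) (qLin_bij L σ0 q hΦ)
  refine ⟨Module.Basis.ofEquivFun e.symm, fun i => ?_⟩
  have h1 : Module.Basis.ofEquivFun e.symm i = e (Pi.single i 1) := by
    rw [Module.Basis.coe_ofEquivFun]
    rfl
  rw [h1]
  change qLin L σ0 g (Pi.single i 1) = _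
  rw [qLin_apply, uOf_single]

/-! ### The assembly -/

/-- The identity isomorphism of a triple. -/
def isoRefl (L : Triple 𝒞 R) : Triple.Iso L L where
  e0 := LinearEquiv.refl _ _
  e1 := LinearEquiv.refl _ _
  e01 := LinearEquiv.refl _ _
  comm0 := fun _ => rfl
  comm1 := fun _ => rfl

/-- **SPREADLOC** from the leaves. -/
theorem stmt_SPREADLOC_of (hSPLA : Stmt_SPLA.{u}) (hZ1 : Stmt_DIVZ1.{u}) (hQF : Stmt_QFINGEN.{u})
    (hCYC : Stmt_DIVCYC2.{u}) (hLS : Stmt_LOCSPLIT.{u}) (hVB : LB.Stmt_VB.{u})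
    (hX : Stmt_BCDATAX.{u}) (hIDEAL : Stmt_IDEAL.{u}) (hD1 : Stmt_DIV1GEN.{u})
    (hMONO : Stmt_MONO.{u}) (hDIVBC : Stmt_DIVBC.{u}) (hDIVH0 : Stmt_DIVH0.{u}) :
    Stmt_SPREADLOC.{u} := by
  intro k _ _ 𝒞 h𝒞 h _ g hg R _ _ _ _ L t Lt β pt s0 s1 hdiv hunit hH1
  obtain ⟨hH1L, hlift⟩ := hSPLA k 𝒞 h𝒞 R L t Lt β hH1
  obtain ⟨σ0, σ1, hglue, hb0, hb1⟩ := hlift s0 s1 hdiv.glue
  have hgen_t : GenAtInfty Lt (β.b1 σ1) := by
    rw [hb1]; exact hZ1 k 𝒞 h𝒞 g k pt Lt s0 s1 hdiv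
  have hgen : GenAtInfty L σ1 := genAtInfty_lift hVB hX h𝒞 t L Lt β σ1 hgen_t
  have hfin := hQF k 𝒞 h𝒞 R L σ0 σ1 hglue hgen
  obtain ⟨qt, hqt⟩ := hCYC k 𝒞 h𝒞 g pt Lt s0 s1 hdiv
  obtain ⟨q, rfl⟩ := b0_surj t L Lt β qt
  have hΦ : Function.Bijective (phiLin (g := g) L σ0 q) :=
    phiLin_bij hLS hVB hX h𝒞 t L Lt β σ0 q hfin (by rw [hb0]; exact hqt)
  obtain ⟨p, hp⟩ := exists_pt hIDEAL L σ0 q hΦ
  have hreg0 : ∀ c : R ⊗[k] 𝒞.B0, c • σ0 = 0 → c = 0 := by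
    intro c hc
    have h1 : phiLin (g := g) L σ0 q (0, c) = phiLin (g := g) L σ0 q (0, 0) := by
      rw [phiLin_apply, phiLin_apply, hc, zero_smul, add_zero]
    exact congrArg Prod.snd (hΦ.1 h1)
  have hdiv0 : ∀ c : R ⊗[k] 𝒞.B0, c ∈ p.ideal ↔
      ∀ q' : L.P0, ∃ d : R ⊗[k] 𝒞.B0, c • q' = d • σ0 := by
    intro c; rw [hp]; exact mem_colon L σ0 c
  have hD := hD1 k 𝒞 h𝒞 g R p L σ0 σ1 hglue hreg0 hdiv0 hgen
  refine ⟨p, σ0, σ1, hD, ?_, hH1L⟩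
  have hDt := hDIVBC k 𝒞 h𝒞 g R k t p L Lt β σ0 σ1 hD
  rw [hb0, hb1] at hDt
  have hG := hDIVH0 k 𝒞 h𝒞 g hg k pt Lt s0 s1 hdiv hH1
  have hpt : pt = p.map t := hMONO k 𝒞 h𝒞 g k pt (p.map t) Lt Lt s0 s1 s0 s1 hdiv hDt hG
    ⟨isoRefl Lt⟩
  have hdet : t ((p.ρ h).det) = (pt.ρ h).det := by
    rw [hpt, Pt.map_ρ_apply, AlgHom.map_det]
  have hne : t ((p.ρ h).det) ≠ 0 := by rw [hdet]; exact hunit.ne_zero
  have hnm : (p.ρ h).det ∉ IsLocalRing.maximalIdeal R := by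
    rw [← ker_eq_maximalIdeal t]
    exact hne
  exact (IsLocalRing.notMem_maximalIdeal).mp hnm

end Fermat.Agent.S25.Chart.H4
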