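/-
helper59, S25 (Jacobian exists), chart side, leaf DIV-EX: INTERFACE between the two halves
  (C) CART   : a chart point in the étale locus gives "Cartier data" on both charts   (helper59)
  (T) TRIPLE : Cartier data on both charts give the triple `O(Z_p)`, `IsDiv`, `IsRigid` (helper85)

`IsCart I f ε` : `f ∈ I` is a non-zero-divisor, `1 - ε ∈ I`, `ε * I ⊆ (f)`.
Then `I * (f, ε) = (f)`: the ideal `J = (f, ε)` is the module `O(Z)` (as `f • I⁻¹`), the element `f ∈ J`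
is the canonical section, and `c ∈ I ↔ c * J ⊆ (f)`.
Geometrically: `ε mod f` is the idempotent of `O(V(f))` which is `1` on `Z` and `0` on `V(f) \ Z`.
-/
import Fermat.Agent.S25.Chart.Defs2

set_option autoImplicit false

universe u

open Polynomial TensorProduct

namespace Fermat.Agent.S25.Chart.H59

open Fermat.Agent.S25.LB Fermat.Agent.S25.Chart

/-- Cartier data for an ideal `I` of a ring `S`. -/
structure IsCart {S : Type u} [CommRing S] (I : Ideal S) (f ε : S) : Prop where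
  f_mem : f ∈ I
  reg : ∀ c : S, f * c = 0 → c = 0
  one_sub_mem : 1 - ε ∈ I
  mul_mem : ∀ y ∈ I, ∃ w : S, ε * y = f * w

variable {k : Type u} [Field k]

/-- **DIV-EX, half (C)**: Cartier data of a chart point on the two charts, compatible on the overlap.
`f0 = f(x0)`, `f = charpoly (ρ x0)`; `f1 = f^rev(z1) = 1 + z1 * w`; on the overlap `f0 = x0^g * f1`. -/
def Stmt_DIVEX_CART : Prop :=
  ∀ (k : Type u) [Field k] (𝒞 : CurveDatum k), 𝒞.IsGood → ∀ h : 𝒞.B0, IsEtAt 𝒞 h →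
    ∀ (g : ℕ) (R : Type u) [CommRing R] [Algebra k R] (p : Pt k 𝒞.B0 𝒞.x0 g R),
      IsUnit (p.ρ h).det →
      ∃ (f0 ε0 : R ⊗[k] 𝒞.B0) (f1 ε1 w : R ⊗[k] 𝒞.B1),
        IsCart p.ideal f0 ε0 ∧ IsCart p.ideal1 f1 ε1 ∧
        f1 = 1 + ((1 : R) ⊗ₜ[k] 𝒞.z1) * w ∧
        𝒞.ι0 R f0 = ((1 : R) ⊗ₜ[k] 𝒞.i0 𝒞.x0 : R ⊗[k] 𝒞.B01) ^ g * 𝒞.ι1 R f1 ∧
        Ideal.map (𝒞.ι0 R) (Ideal.span {f0, ε0}) = Ideal.map (𝒞.ι1 R) (Ideal.span {f1, ε1})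

/-- **DIV-EX, half (T)**: the triple from Cartier data.  Suggested construction (all inside the rings, no `Hom`):
`P0 = (f0, ε0) ⊆ R ⊗ B0`, `P1 = (f1, ε1) ⊆ R ⊗ B1`, `P01 = (f0, ε0) (R ⊗ B01)`, `r0 = ι0`, `r1 = x0^g * ι1`,
`s0 = f0`, `s1 = f1`; invertibility from `IsCart.invertible`, `div0`/`div1` from `IsCart.mem_iff`;
rigid with generator `f1`: `q - q • f1 = -(z1 * w) * q` and `z1 ∈ ker eR`. -/
def Stmt_DIVEX_TRIPLE : Prop :=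
  ∀ (k : Type u) [Field k] (𝒞 : CurveDatum k), 𝒞.IsGood →
    ∀ (g : ℕ) (R : Type u) [CommRing R] [Algebra k R] (p : Pt k 𝒞.B0 𝒞.x0 g R)
      (f0 ε0 : R ⊗[k] 𝒞.B0) (f1 ε1 w : R ⊗[k] 𝒞.B1),
      IsCart p.ideal f0 ε0 → IsCart p.ideal1 f1 ε1 →
      f1 = 1 + ((1 : R) ⊗ₜ[k] 𝒞.z1) * w →
      𝒞.ι0 R f0 = ((1 : R) ⊗ₜ[k] 𝒞.i0 𝒞.x0 : R ⊗[k] 𝒞.B01) ^ g * 𝒞.ι1 R f1 →
      Ideal.map (𝒞.ι0 R) (Ideal.span {f0, ε0}) = Ideal.map (𝒞.ι1 R) (Ideal.span {f1, ε1}) →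
      ∃ (L : Triple 𝒞 R) (s0 : L.P0) (s1 : L.P1), IsDiv L s0 s1 p ∧ L.IsRigid

/-- The two halves give DIV-EX. -/
theorem stmt_DIVEX_of (hC : Stmt_DIVEX_CART.{u}) (hT : Stmt_DIVEX_TRIPLE.{u}) : Stmt_DIVEX.{u} := by
  intro k _ 𝒞 hgood h hEt g R _ _ p hdet
  obtain ⟨f0, ε0, f1, ε1, w, h0, h1, hw, hf, hJ⟩ := hC k 𝒞 hgood h hEt g R p hdet
  exact hT k 𝒞 hgood g R p f0 ε0 f1 ε1 w h0 h1 hw hf hJ

end Fermat.Agent.S25.Chart.H59
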