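/-
helper59, S25 (Jacobian exists), chart side, leaf DIV-EX, half (C) = `H59.Stmt_DIVEX_CART`: the cuts.

  (U) `Stmt_CART_U`  : the universal "separability element" of the étale locus `D(h)` of `x0 : V0 → A^1`
                       (from `Algebra.FormallyUnramified.elem k[X] B0[1/h]`, denominators cleared):
                       `t0 = ∑ a ⊗ b ∈ B0 ⊗_{k[X]} B0` with `(s ⊗ 1 - 1 ⊗ s) t0 = 0` and `∑ a b = h^K`;
                       stated through its universal property (no tensor product over `k[X]`).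
  (V) `Stmt_CART_V`  : (U)-data + a chart point with `det ρ(h)` a unit give `ε0` with
                       `IsCart p.ideal f0 ε0`, `f0 = f(1 ⊗ x0)`, `f = charpoly (ρ x0)`.
  (0) `Stmt_CART0`   : = (U) + (V).
  (1) `Stmt_CART1`   : `Stmt_CART0 → Stmt_DIVEX_CART` (the chart `V1`: `f1 = f^rev(z1)`, `ε1`, and the overlap).
-/
import Fermat.Agent.S25.Chart.H59_CartDefs

set_option autoImplicit false

universe u

open Polynomial TensorProduct

namespace Fermat.Agent.S25.Chart.H59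

open Fermat.Agent.S25.LB Fermat.Agent.S25.Chart

/-- `F` is a separability element of `(B, x)` with "discriminant" `h^K`:
`∑ a b = h^K` and `(∑ α a * β b) * (α s - β s) = 0` for all `α β : B → C` which agree on `x`. -/
def IsSepElem (k : Type u) [Field k] (B : Type u) [CommRing B] [Algebra k B] (x h : B)
    (F : Finset (B × B)) (K : ℕ) : Prop :=
  ∑ i ∈ F, i.1 * i.2 = h ^ K ∧
  ∀ (C : Type u) [CommRing C] [Algebra k C] (α β : B →ₐ[k] C), α x = β x →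
    ∀ s : B, (∑ i ∈ F, α i.1 * β i.2) * (α s - β s) = 0

/-- **(U)** the étale locus has a separability element. -/
def Stmt_CART_U : Prop :=
  ∀ (k : Type u) [Field k] (𝒞 : CurveDatum k), 𝒞.IsGood → ∀ h : 𝒞.B0, IsEtAt 𝒞 h →
    ∃ (F : Finset (𝒞.B0 × 𝒞.B0)) (K : ℕ), IsSepElem k 𝒞.B0 𝒞.x0 h F K

/-- **(V)** a separability element gives the idempotent `ε0` of a chart point inside `D(h)`. -/
def Stmt_CART_V : Prop :=
  ∀ (k : Type u) [Field k] (𝒞 : CurveDatum k), 𝒞.IsGood → ∀ (h : 𝒞.B0)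
    (F : Finset (𝒞.B0 × 𝒞.B0)) (K : ℕ), IsSepElem k 𝒞.B0 𝒞.x0 h F K →
    ∀ (g : ℕ) (R : Type u) [CommRing R] [Algebra k R] (p : Pt k 𝒞.B0 𝒞.x0 g R),
      IsUnit (p.ρ h).det →
      ∃ ε0 : R ⊗[k] 𝒞.B0,
        IsCart p.ideal (Polynomial.aeval ((1 : R) ⊗ₜ[k] 𝒞.x0) (p.ρ 𝒞.x0).charpoly) ε0

/-- **(0)** Cartier data on the chart `V0`. -/
def Stmt_CART0 : Prop :=
  ∀ (k : Type u) [Field k] (𝒞 : CurveDatum k), 𝒞.IsGood → ∀ h : 𝒞.B0, IsEtAt 𝒞 h →
    ∀ (g : ℕ) (R : Type u) [CommRing R] [Algebra k R] (p : Pt k 𝒞.B0 𝒞.x0 g R),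
      IsUnit (p.ρ h).det →
      ∃ ε0 : R ⊗[k] 𝒞.B0,
        IsCart p.ideal (Polynomial.aeval ((1 : R) ⊗ₜ[k] 𝒞.x0) (p.ρ 𝒞.x0).charpoly) ε0

theorem stmt_CART0_of (hU : Stmt_CART_U.{u}) (hV : Stmt_CART_V.{u}) : Stmt_CART0.{u} := by
  intro k _ 𝒞 hgood h hEt g R _ _ p hdet
  obtain ⟨F, K, hF⟩ := hU k 𝒞 hgood h hEt
  exact hV k 𝒞 hgood h F K hF g R p hdet

/-- **(1)** from the chart `V0` to both charts (formal: `ι0`, `ι1` are injective localisations, `x0 * z1 = 1`).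
With `f = charpoly (ρ x0)` (monic; of degree `g` if `R` is nontrivial), `f0 = f(1 ⊗ x0)`:
`f1 = f^rev(1 ⊗ z1)`, `w = (divX f^rev)(1 ⊗ z1)`, `ι0 f0 = x0^g ι1 f1` (`Polynomial.eval₂_reverse_mul_pow`);
`f1` is regular since `ι1` is injective and `ι0 f0` is regular (`H46r.monic_aeval_regular` for `B01`, `i0 x0`);
`z1^n ι0 ε0 = ι1 e'` (`H60.surj1_unit`), `ε1 = (-w)^n e'`, so `ι1 ε1 = (1 - ι1 f1)^n ι0 ε0`;
`z1` is a unit modulo `f1` (inverse `-w`), which gives `ε1 * I1 ⊆ (f1)` from `ε0 * I ⊆ (f0)`. -/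
def Stmt_CART1 : Prop := Stmt_CART0.{u} → Stmt_DIVEX_CART.{u}

theorem stmt_DIVEX_CART_of (hU : Stmt_CART_U.{u}) (hV : Stmt_CART_V.{u}) (h1 : Stmt_CART1.{u}) :
    Stmt_DIVEX_CART.{u} :=
  h1 (stmt_CART0_of hU hV)

end Fermat.Agent.S25.Chart.H59
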