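/-
helper46, S25 (Jacobian exists), package CHART, leaf DIVEX, cut (U) = `H59.Stmt_CART_U`:
the separability element of the etale locus `D(h)` of `x0 : V0 → A^1`.

`P = k[X]`, `B0` a `P`-algebra by `x0`, `A = B0[1/h]` formally unramified and of finite type over `P`.
`t = Algebra.FormallyUnramified.elem P A ∈ A ⊗[P] A`; clear denominators: `(h ⊗ h)^M * t = φ t0`,
`φ : B0 ⊗[P] B0 → A ⊗[P] A` injective (both are flat over the PID `P`); then
`(1 ⊗ s - s ⊗ 1) * t0 = 0`, `lmul' t0 = h^(2M)`; write `t0 = ∑ a ⊗ b` and apply `productMap α β`.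
-/
import Fermat.Agent.S25.Chart.H59_CartDefs2
import Fermat.Agent.S25.Chart.H46_Reg

set_option autoImplicit false

universe u

open Polynomial TensorProduct

namespace Fermat.Agent.S25.Chart.H46u

section abs

variable {P B A : Type u} [CommRing P] [CommRing B] [CommRing A] [Algebra P B] [Algebra P A]
  [Algebra B A] [IsScalarTower P B A]

variable (P B A) in
/-- The map `B ⊗[P] B → A ⊗[P] A`. -/
noncomputable def phi : (B ⊗[P] B) →ₐ[P] (A ⊗[P] A) :=
  Algebra.TensorProduct.map (IsScalarTower.toAlgHom P B A) (IsScalarTower.toAlgHom P B A)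

theorem phi_tmul (a b : B) :
    phi P B A (a ⊗ₜ[P] b) = algebraMap B A a ⊗ₜ[P] algebraMap B A b := rfl

theorem phi_injective [Module.Flat P B] [Module.Flat P A]
    (hinj : Function.Injective (algebraMap B A)) : Function.Injective (phi P B A) := by
  have h := TensorProduct.map_injective_of_flat_flat
    (IsScalarTower.toAlgHom P B A).toLinearMap (IsScalarTower.toAlgHom P B A).toLinearMap hinj hinj
  intro x y hxy
  apply h
  exact hxy

/-- Clearing denominators in `A ⊗[P] A`, `A = B[1/h]`. -/
theorem exists_clear (h : B) [IsLocalization.Away h A] (t : A ⊗[P] A) :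
    ∃ (M : ℕ) (t0 : B ⊗[P] B),
      (algebraMap B A h ⊗ₜ[P] algebraMap B A h) ^ M * t = phi P B A t0 := by
  induction t using TensorProduct.induction_on with
  | zero => exact ⟨0, 0, by simp⟩
  | tmul a b =>
    obtain ⟨m, a0, ha⟩ := IsLocalization.Away.surj h a
    obtain ⟨n, b0, hb⟩ := IsLocalization.Away.surj h b
    refine ⟨m + n, (h ^ n * a0) ⊗ₜ[P] (h ^ m * b0), ?_⟩
    rw [phi_tmul, Algebra.TensorProduct.tmul_pow, Algebra.TensorProduct.tmul_mul_tmul, map_mul,
      map_mul, ← ha, ← hb, map_pow, map_pow]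
    congr 1 <;> ring
  | add x y hx hy =>
    obtain ⟨M1, t1, h1⟩ := hx
    obtain ⟨M2, t2, h2⟩ := hy
    refine ⟨M1 + M2, (h ⊗ₜ[P] h) ^ M2 * t1 + (h ⊗ₜ[P] h) ^ M1 * t2, ?_⟩
    rw [map_add, map_mul, map_mul, map_pow, map_pow, phi_tmul, ← h1, ← h2]
    ring

theorem lmul_phi (t0 : B ⊗[P] B) :
    Algebra.TensorProduct.lmul' P (phi P B A t0) =
      algebraMap B A (Algebra.TensorProduct.lmul' P t0) := by
  induction t0 using TensorProduct.induction_on with
  | zero => simp
  | tmul a b => simp [phi_tmul]
  | add x y hx hy => simp only [map_add, hx, hy]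

/-- The separability element with denominators cleared. -/
theorem exists_sep_tensor (h : B) [IsLocalization.Away h A] [Module.Flat P B] [Module.Flat P A]
    (hinj : Function.Injective (algebraMap B A))
    [Algebra.FormallyUnramified P A] [Algebra.EssFiniteType P A] :
    ∃ (t0 : B ⊗[P] B) (K : ℕ), Algebra.TensorProduct.lmul' P t0 = h ^ K ∧
      ∀ s : B, ((1 : B) ⊗ₜ[P] s - s ⊗ₜ[P] (1 : B)) * t0 = 0 := by
  obtain ⟨M, t0, ht0⟩ := exists_clear (P := P) h (Algebra.FormallyUnramified.elem P A)
  refine ⟨t0, 2 * M, ?_, ?_⟩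
  · apply hinj
    rw [← lmul_phi, ← ht0, map_mul, Algebra.FormallyUnramified.lmul_elem, mul_one, map_pow,
      Algebra.TensorProduct.lmul'_apply_tmul, map_pow, pow_mul]
    ring
  · intro s
    apply phi_injective (P := P) hinj
    rw [map_mul, ← ht0, map_zero, map_sub, phi_tmul, phi_tmul, map_one]
    have := Algebra.FormallyUnramified.one_tmul_sub_tmul_one_mul_elem (R := P) (S := A)
      (algebraMap B A s)
    calc ((1 : A) ⊗ₜ[P] algebraMap B A s - algebraMap B A s ⊗ₜ[P] (1 : A)) *
          ((algebraMap B A h ⊗ₜ[P] algebraMap B A h) ^ M * Algebra.FormallyUnramified.elem P A)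
        = (algebraMap B A h ⊗ₜ[P] algebraMap B A h) ^ M *
          (((1 : A) ⊗ₜ[P] algebraMap B A s - algebraMap B A s ⊗ₜ[P] (1 : A)) *
            Algebra.FormallyUnramified.elem P A) := by ring
      _ = 0 := by rw [this, mul_zero]

/-- The universal property of the separability tensor. -/
theorem sep_universal (F : Finset (B × B)) (s : B)
    (hs : ((1 : B) ⊗ₜ[P] s - s ⊗ₜ[P] (1 : B)) * (∑ i ∈ F, i.1 ⊗ₜ[P] i.2) = 0)
    {C : Type u} [CommRing C] [Algebra P C] (α β : B →ₐ[P] C) :
    (∑ i ∈ F, α i.1 * β i.2) * (α s - β s) = 0 := by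
  have h1 := congrArg (Algebra.TensorProduct.productMap α β) hs
  rw [map_mul, map_sub, map_zero, map_sum] at h1
  simp only [Algebra.TensorProduct.productMap_apply_tmul, map_one, one_mul, mul_one] at h1
  have h2 : (∑ i ∈ F, α i.1 * β i.2) * (α s - β s) =
      -((β s - α s) * ∑ i ∈ F, α i.1 * β i.2) := by ring
  rw [h2, h1, neg_zero]

end abs

section concrete

open Fermat.Agent.S25.LB Fermat.Agent.S25.Chart

/-- The separability element for a domain `B`, finite and torsion-free over `k[x]`, with `B[1/h]` formally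
etale over `k[x]`; `A` is any model of `B[1/h]`. -/
theorem exists_isSepElem {k : Type u} [Field k] {B : Type u} [CommRing B] [Algebra k B] [IsDomain B]
    (x h : B) (hx : Function.Injective (Polynomial.aeval (R := k) x))
    (hfin : (Polynomial.aeval (R := k) x).toRingHom.Finite)
    (A : Type u) [CommRing A] [Algebra B A] [IsLocalization.Away h A] (h0 : h ≠ 0)
    (hEt : ((algebraMap B A).comp (Polynomial.aeval (R := k) x).toRingHom).FormallyEtale) :
    ∃ (F : Finset (B × B)) (K : ℕ), H59.IsSepElem k B x h F K := by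
  letI algB : Algebra k[X] B := H46r.algX (k := k) x
  haveI := H46r.tower_algX (k := k) x
  haveI := H46r.torsionFree_algX (k := k) x hx
  haveI : Module.Flat k[X] B := inferInstance
  letI algA : Algebra k[X] A :=
    ((algebraMap B A).comp (Polynomial.aeval (R := k) x).toRingHom).toAlgebra
  haveI : IsScalarTower k[X] B A := IsScalarTower.of_algebraMap_eq (fun r => rfl)
  haveI hfe : Algebra.FormallyEtale k[X] A := hEt
  haveI : Algebra.FormallyUnramified k[X] A := inferInstance
  haveI : Module.Finite k[X] B := hfin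
  haveI hft0 : Algebra.FiniteType k[X] B := inferInstance
  haveI hft1 : Algebra.FiniteType B A :=
    IsLocalization.finiteType_of_monoid_fg (Submonoid.powers h) _
  haveI : Algebra.FiniteType k[X] A := Algebra.FiniteType.trans hft0 hft1
  haveI : Module.Flat B A := IsLocalization.flat A (Submonoid.powers h)
  haveI : Module.Flat k[X] A := Module.Flat.trans k[X] B A
  have hinj : Function.Injective (algebraMap B A) :=
    IsLocalization.injective A (powers_le_nonZeroDivisors_of_noZeroDivisors h0)
  obtain ⟨t0, K, hK, hs⟩ := exists_sep_tensor (P := k[X]) (A := A) h hinj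
  obtain ⟨F, hF⟩ := TensorProduct.exists_finset t0
  refine ⟨F, K, ?_, ?_⟩
  · rw [← hK, hF, map_sum]
    simp
  · intro C _ _ α β hαβ s
    letI algC : Algebra k[X] C :=
      (α.toRingHom.comp (Polynomial.aeval (R := k) x).toRingHom).toAlgebra
    let α' : B →ₐ[k[X]] C := { α.toRingHom with commutes' := fun r => rfl }
    let β' : B →ₐ[k[X]] C :=
      { β.toRingHom with
        commutes' := fun r => by
          show β (Polynomial.aeval x r) = α (Polynomial.aeval x r)
          rw [← Polynomial.aeval_algHom_apply, ← Polynomial.aeval_algHom_apply, hαβ] }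
    have hs' := hs s
    rw [hF] at hs'
    exact sep_universal (P := k[X]) F s hs' α' β'

/-- **(U)** the etale locus has a separability element. -/
theorem stmt_CART_U : H59.Stmt_CART_U.{u} := by
  intro k _ 𝒞 hgood h hEt
  haveI := hgood.dom0
  exact exists_isSepElem 𝒞.x0 h hgood.trans0 hgood.fin0 (Localization.Away h) hEt.1 hEt.2

end concrete

end Fermat.Agent.S25.Chart.H46u
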