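import Fermat.Agent.S25.Chart.Defs

/-!
# S25, package CHART, leaf CH-CYC (helper46): the cyclic vector lemma

For a chart point `p` (matrix form, `ρ x` a companion matrix):

* `pow_mulVec_e0`   : `(ρ x) ^ i e₀ = e_i` for `i < g`;
* `quot_tmul_pow`   : `quot (1 ⊗ x ^ i) = e_i`;
* `quot_surjective` : `quot` is onto;
* `rho_apply`       : `(ρ b)_{ij} = (quot (b * (1 ⊗ x ^ j)))_i`;
* `mem_ideal_iff`   : `b ∈ ideal ↔ ρ b = 0`;
* `stmt_CYC : Stmt_CYC`.
-/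

set_option autoImplicit false

universe u

open Polynomial TensorProduct

namespace Fermat.Agent.S25.Chart.H46

variable {k : Type u} [CommRing k] {A : Type u} [CommRing A] [Algebra k A] {x : A} {g : ℕ}
  {R : Type u} [CommRing R] [Algebra k R]

/-- `e₀` is the first vector of the standard basis. -/
theorem e0_eq_single (h : 0 < g) : e0 g R = Pi.single (⟨0, h⟩ : Fin g) 1 := by
  funext i
  by_cases hi : (i : ℕ) = 0
  · have e : i = ⟨0, h⟩ := Fin.ext hi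
    rw [e, Pi.single_eq_same]
    simp [e0]
  · have e : i ≠ ⟨0, h⟩ := fun h' => hi (by rw [h'])
    rw [Pi.single_eq_of_ne e]
    simp [e0, hi]

/-- A companion matrix maps `e_i` to `e_(i+1)`. -/
theorem mulVec_single_of_isCompanion {M : Matrix (Fin g) (Fin g) R} (hM : IsCompanion M)
    (i : Fin g) (hi : (i : ℕ) + 1 < g) :
    M.mulVec (Pi.single i 1) = Pi.single (⟨(i : ℕ) + 1, hi⟩ : Fin g) 1 := by
  rw [Matrix.mulVec_single_one]
  funext j
  show M j i = _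
  rw [hM i j hi]
  by_cases hj : (j : ℕ) = (i : ℕ) + 1
  · have e : j = ⟨(i : ℕ) + 1, hi⟩ := Fin.ext hj
    rw [if_pos hj, e, Pi.single_eq_same]
  · have e : j ≠ ⟨(i : ℕ) + 1, hi⟩ := fun h' => hj (by rw [h'])
    rw [if_neg hj, Pi.single_eq_of_ne e]

/-- The powers of a companion matrix map `e₀` to the standard basis. -/
theorem pow_mulVec_e0 {M : Matrix (Fin g) (Fin g) R} (hM : IsCompanion M) :
    ∀ (i : ℕ) (hi : i < g), (M ^ i).mulVec (e0 g R) = Pi.single (⟨i, hi⟩ : Fin g) 1 := by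
  intro i
  induction i with
  | zero =>
    intro hi
    rw [pow_zero, Matrix.one_mulVec]
    exact e0_eq_single hi
  | succ i ih =>
    intro hi
    have hi' : i < g := Nat.lt_of_succ_lt hi
    rw [pow_succ', ← Matrix.mulVec_mulVec, ih hi']
    exact mulVec_single_of_isCompanion hM ⟨i, hi'⟩ hi

variable (p : Pt k A x g R)

theorem rho_one_tmul (a : A) : p.rho ((1 : R) ⊗ₜ[k] a) = p.ρ a := by
  rw [Pt.rho_tmul, one_smul]

/-- CAUTION: `1 ⊗ₜ[k] x ^ i` is parsed as `(1 ⊗ₜ[k] x) ^ i` (as in `Chart/Defs.lean`). -/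
theorem rho_tmul_pow (i : ℕ) : p.rho ((1 : R) ⊗ₜ[k] x ^ i) = p.ρ x ^ i := by
  rw [map_pow, rho_one_tmul]

/-- `quot (1 ⊗ x ^ i) = e_i`. -/
theorem quot_tmul_pow (i : Fin g) :
    p.quot ((1 : R) ⊗ₜ[k] x ^ (i : ℕ)) = Pi.single i 1 := by
  show (p.rho ((1 : R) ⊗ₜ[k] x ^ (i : ℕ))).mulVec (e0 g R) = _
  rw [rho_tmul_pow]
  exact pow_mulVec_e0 p.comp (i : ℕ) i.2

/-- `quot (b * (1 ⊗ x ^ j))` is the `j`-th column of `ρ b`. -/
theorem quot_mul_tmul_pow (b : R ⊗[k] A) (j : Fin g) :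
    p.quot (b * (1 : R) ⊗ₜ[k] x ^ (j : ℕ)) = (p.rho b).mulVec (Pi.single j 1) := by
  show (p.rho (b * (1 : R) ⊗ₜ[k] x ^ (j : ℕ))).mulVec (e0 g R) = _
  rw [map_mul, ← Matrix.mulVec_mulVec]
  have h := quot_tmul_pow p j
  have h' : (p.rho ((1 : R) ⊗ₜ[k] x ^ (j : ℕ))).mulVec (e0 g R) = Pi.single j 1 := h
  rw [h']

/-- `(ρ b)_{ij} = (quot (b * (1 ⊗ x ^ j)))_i`. -/
theorem rho_apply (b : R ⊗[k] A) (i j : Fin g) :
    p.rho b i j = p.quot (b * (1 : R) ⊗ₜ[k] x ^ (j : ℕ)) i := by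
  rw [quot_mul_tmul_pow, Matrix.mulVec_single_one]
  rfl

/-- `quot` is onto. -/
theorem quot_surjective : Function.Surjective p.quot := by
  intro v
  refine ⟨∑ i : Fin g, v i • ((1 : R) ⊗ₜ[k] x ^ (i : ℕ)), ?_⟩
  rw [map_sum]
  have h : ∀ i : Fin g, p.quot (v i • ((1 : R) ⊗ₜ[k] x ^ (i : ℕ))) = v i • Pi.single i 1 := by
    intro i
    rw [map_smul, quot_tmul_pow]
  rw [Finset.sum_congr rfl (fun i _ => h i)]
  funext j
  rw [Finset.sum_apply]
  simp only [Pi.smul_apply, smul_eq_mul]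
  rw [Finset.sum_eq_single j]
  · rw [Pi.single_eq_same, mul_one]
  · intro i _ hij
    rw [Pi.single_eq_of_ne (Ne.symm hij), mul_zero]
  · intro hj
    exact absurd (Finset.mem_univ j) hj

/-- `b ∈ ideal ↔ ρ b = 0`. -/
theorem mem_ideal_iff (b : R ⊗[k] A) : b ∈ p.ideal ↔ p.rho b = 0 := by
  constructor
  · intro hb
    ext i j
    rw [rho_apply, Matrix.zero_apply]
    have h1 : b * (1 : R) ⊗ₜ[k] x ^ (j : ℕ) ∈ p.ideal := p.ideal.mul_mem_right _ hb
    have h2 : p.quot (b * (1 : R) ⊗ₜ[k] x ^ (j : ℕ)) = 0 := h1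
    rw [h2]
    rfl
  · intro hb
    rw [Pt.mem_ideal, hb, Matrix.zero_mulVec]

/-- **CH-CYC**: the cyclic vector lemma. -/
theorem stmt_CYC : Stmt_CYC.{u} := by
  intro k _ A _ _ x g R _ _ p
  exact ⟨quot_tmul_pow p, quot_surjective p, rho_apply p, mem_ideal_iff p⟩

end Fermat.Agent.S25.Chart.H46
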