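import Mathlib
import Fermat.Agent.S25.Chart.Defs

/-!
# S25, chart side: the cyclic vector lemma for companion matrices (helper98)

`N` a companion matrix (`N e_i = e_(i+1)` for `i + 1 < g`), `e₀` the first basis vector.

* `pow_mulVec_e0` : `N ^ n e₀ = e_n` for `n < g`;
* `eq_sum_of_commute` : a matrix `Y` commuting with `N` is `∑ i, (Y e₀)_i • N ^ i`;
* `mem_adjoin_of_commute` : hence `Y ∈ R[N]`;
* `liftCompanion` : a companion matrix over `R ⧸ I` lifts to a companion matrix over `R`.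

Mathlib only (+ the definitions of `Chart/Defs.lean`).
-/

set_option autoImplicit false

universe u

open Matrix

namespace Fermat.Agent.S25.Chart.H98

variable {R : Type u} [CommRing R] {g : ℕ}

theorem e0_eq_single (h : 0 < g) : e0 g R = Pi.single (⟨0, h⟩ : Fin g) 1 := by
  funext i
  by_cases hi : (i : ℕ) = 0
  · have : i = ⟨0, h⟩ := Fin.ext hi
    simp [e0, this]
  · have : i ≠ ⟨0, h⟩ := fun hh => hi (by rw [hh])
    simp [e0, hi, this]

/-- a companion matrix moves `e_i` to `e_(i+1)` -/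
theorem isCompanion_mulVec_single {N : Matrix (Fin g) (Fin g) R} (hN : IsCompanion N)
    (i : ℕ) (hi : i + 1 < g) :
    N *ᵥ Pi.single (⟨i, Nat.lt_of_succ_lt hi⟩ : Fin g) 1 = Pi.single (⟨i + 1, hi⟩ : Fin g) 1 := by
  rw [Matrix.mulVec_single_one]
  funext j
  have := hN ⟨i, Nat.lt_of_succ_lt hi⟩ j hi
  simp only [Matrix.col_apply, this]
  by_cases hj : (j : ℕ) = i + 1
  · have : j = ⟨i + 1, hi⟩ := Fin.ext hj
    simp [this]
  · have : j ≠ ⟨i + 1, hi⟩ := fun hh => hj (by rw [hh])
    simp [hj, this]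

/-- `N ^ n e₀ = e_n` for `n < g`. -/
theorem pow_mulVec_e0 {N : Matrix (Fin g) (Fin g) R} (hN : IsCompanion N) :
    ∀ (n : ℕ) (hn : n < g), (N ^ n) *ᵥ e0 g R = Pi.single (⟨n, hn⟩ : Fin g) 1
  | 0, hn => by rw [pow_zero, Matrix.one_mulVec, e0_eq_single hn]
  | n + 1, hn => by
    rw [pow_succ', ← Matrix.mulVec_mulVec, pow_mulVec_e0 hN n (Nat.lt_of_succ_lt hn)]
    exact isCompanion_mulVec_single hN n hn

/-- The cyclic vector lemma: a matrix commuting with a companion matrix `N` is the polynomial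
`∑ i, (Y e₀)_i • N ^ i` in `N`. -/
theorem eq_sum_of_commute {N : Matrix (Fin g) (Fin g) R} (hN : IsCompanion N)
    (Y : Matrix (Fin g) (Fin g) R) (hY : Commute Y N) :
    Y = ∑ i : Fin g, (Y *ᵥ e0 g R) i • N ^ (i : ℕ) := by
  set Z : Matrix (Fin g) (Fin g) R := ∑ i : Fin g, (Y *ᵥ e0 g R) i • N ^ (i : ℕ) with hZ
  have hZN : Commute Z N := by
    rw [hZ]
    refine Commute.sum_left _ _ _ fun i _ => ?_
    exact ((Commute.refl N).pow_left _).smul_left _
  have hZ0 : Z *ᵥ e0 g R = Y *ᵥ e0 g R := by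
    rw [hZ, Matrix.sum_mulVec]
    have : ∀ i : Fin g, ((Y *ᵥ e0 g R) i • N ^ (i : ℕ)) *ᵥ e0 g R =
        (Y *ᵥ e0 g R) i • Pi.single i 1 := by
      intro i
      rw [Matrix.smul_mulVec, pow_mulVec_e0 hN i i.2]
    simp_rw [this]
    funext j
    simp [Finset.sum_apply, Pi.single_apply]
  apply Matrix.ext_of_mulVec_single
  intro j
  rw [← pow_mulVec_e0 hN j j.2, Matrix.mulVec_mulVec, Matrix.mulVec_mulVec,
    (hY.pow_right _).eq, (hZN.pow_right _).eq, ← Matrix.mulVec_mulVec, ← Matrix.mulVec_mulVec, hZ0]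

/-- a matrix commuting with a companion matrix `N` lies in `R[N]` -/
theorem mem_adjoin_of_commute {N : Matrix (Fin g) (Fin g) R} (hN : IsCompanion N)
    (Y : Matrix (Fin g) (Fin g) R) (hY : Commute Y N) :
    Y ∈ Algebra.adjoin R ({N} : Set (Matrix (Fin g) (Fin g) R)) := by
  rw [eq_sum_of_commute hN Y hY]
  refine Subalgebra.sum_mem _ fun i _ => ?_
  exact Subalgebra.smul_mem _ (Subalgebra.pow_mem _ (Algebra.self_mem_adjoin_singleton R N) _) _

/-- a lift of a companion matrix over `R ⧸ I` to a companion matrix over `R` -/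
noncomputable def liftCompanion (I : Ideal R) (M : Matrix (Fin g) (Fin g) (R ⧸ I)) :
    Matrix (Fin g) (Fin g) R :=
  fun j i => if (i : ℕ) + 1 < g then (if (j : ℕ) = (i : ℕ) + 1 then 1 else 0)
    else Function.surjInv Ideal.Quotient.mk_surjective (M j i)

theorem isCompanion_liftCompanion (I : Ideal R) (M : Matrix (Fin g) (Fin g) (R ⧸ I)) :
    IsCompanion (liftCompanion I M) := by
  intro i j hi
  simp [liftCompanion, hi]

theorem map_liftCompanion (I : Ideal R) {M : Matrix (Fin g) (Fin g) (R ⧸ I)}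
    (hM : IsCompanion M) :
    (liftCompanion I M).map (Ideal.Quotient.mk I) = M := by
  ext j i
  simp only [Matrix.map_apply, liftCompanion]
  by_cases hi : (i : ℕ) + 1 < g
  · rw [if_pos hi, hM i j hi]
    split_ifs <;> simp
  · rw [if_neg hi]
    exact Function.surjInv_eq _ _

end Fermat.Agent.S25.Chart.H98
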