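/-
helper59, S25 (Jacobian exists), chart side: companion matrices, `R[X]/(f) ≅ R[N]`.

`N` a companion matrix over `R`, `f = charpoly N`.
* `exists_aeval_eq_of_commute` : a matrix commuting with `N` is `Q(N)` for a polynomial `Q`;
* `charpoly_dvd_of_aeval_eq_zero` : `Q(N) = 0 → f ∣ Q`.
-/
import Fermat.Agent.S25.Chart.H98_Cyc

set_option autoImplicit false

universe u

open Polynomial Matrix

namespace Fermat.Agent.S25.Chart.H59c

variable {R : Type u} [CommRing R] {g : ℕ}

/-- A matrix commuting with a companion matrix `N` is a polynomial in `N`. -/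
theorem exists_aeval_eq_of_commute {N : Matrix (Fin g) (Fin g) R} (hN : IsCompanion N)
    (Y : Matrix (Fin g) (Fin g) R) (hY : Commute Y N) :
    ∃ Q : R[X], Polynomial.aeval N Q = Y := by
  refine ⟨∑ i : Fin g, Polynomial.C ((Y *ᵥ e0 g R) i) * Polynomial.X ^ (i : ℕ), ?_⟩
  conv_rhs => rw [H98.eq_sum_of_commute hN Y hY]
  rw [map_sum]
  refine Finset.sum_congr rfl fun i _ => ?_
  rw [map_mul, Polynomial.aeval_C, map_pow, Polynomial.aeval_X, Algebra.algebraMap_eq_smul_one,
    smul_mul_assoc, one_mul]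

/-- `Q(N) e₀` is the coefficient vector of `Q` when `deg Q < g`. -/
theorem aeval_mulVec_e0 {N : Matrix (Fin g) (Fin g) R} (hN : IsCompanion N) (Q : R[X])
    (hQ : Q.natDegree < g) (i : Fin g) :
    ((Polynomial.aeval N Q) *ᵥ e0 g R) i = Q.coeff (i : ℕ) := by
  rw [Polynomial.aeval_eq_sum_range' hQ, Matrix.sum_mulVec, Finset.sum_apply]
  rw [Finset.sum_eq_single (i : ℕ)]
  · rw [Matrix.smul_mulVec, H98.pow_mulVec_e0 hN i i.2]
    simp
  · intro j hj hji
    rw [Matrix.smul_mulVec, H98.pow_mulVec_e0 hN j (Finset.mem_range.1 hj)]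
    have : (⟨j, Finset.mem_range.1 hj⟩ : Fin g) ≠ i := fun h => hji (by rw [← h])
    simp [Pi.single_apply, this.symm]
  · intro hi
    exact absurd (Finset.mem_range.2 i.2) hi

/-- A polynomial killing a companion matrix is divisible by its characteristic polynomial. -/
theorem charpoly_dvd_of_aeval_eq_zero {N : Matrix (Fin g) (Fin g) R} (hN : IsCompanion N)
    (Q : R[X]) (hQ : Polynomial.aeval N Q = 0) : N.charpoly ∣ Q := by
  rcases subsingleton_or_nontrivial R with hR | hR
  · exact ⟨0, Subsingleton.elim _ _⟩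
  have hf : N.charpoly.Monic := Matrix.charpoly_monic N
  rw [← Polynomial.modByMonic_eq_zero_iff_dvd hf]
  set r := Q %ₘ N.charpoly with hr
  have hdeg : r.degree < (g : WithBot ℕ) := by
    have h1 := Polynomial.degree_modByMonic_lt Q hf
    have h2 : N.charpoly.degree = (g : WithBot ℕ) := by
      rw [Matrix.charpoly_degree_eq_dim, Fintype.card_fin]
    rw [← h2]
    exact h1
  have hr0 : Polynomial.aeval N r = 0 := by
    have h1 := Polynomial.modByMonic_add_div Q N.charpoly
    have h2 : r = Q - N.charpoly * (Q /ₘ N.charpoly) := by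
      rw [hr]; exact eq_sub_of_add_eq h1
    rw [h2, map_sub, map_mul, hQ, Matrix.aeval_self_charpoly, zero_mul, sub_zero]
  by_contra hne
  have hnat : r.natDegree < g := (Polynomial.natDegree_lt_iff_degree_lt hne).2 hdeg
  apply hne
  ext n
  rw [Polynomial.coeff_zero]
  by_cases hn : n < g
  · have := aeval_mulVec_e0 hN r hnat ⟨n, hn⟩
    rw [hr0, Matrix.zero_mulVec] at this
    exact this.symm
  · exact Polynomial.coeff_eq_zero_of_natDegree_lt (lt_of_lt_of_le hnat (not_lt.1 hn))

end Fermat.Agent.S25.Chart.H59c
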