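/-
helper59, S25 (Jacobian exists), chart side, leaf DIV-EX, half (C), cut (V): `H59.Stmt_CART_V`.

`p` a chart point, `N = ρ x` (companion), `f = charpoly N`, `f0 = f(1 ⊗ x) ∈ S = R ⊗ B`, `I = p.ideal`.
`D = R[X]/(f)`, `evN : D → M_g(R)`, `X ↦ N`, is injective with image the centraliser of `N`;
`ψ : S → D` with `evN ∘ ψ = rho`;  `C = S/(f0)`, `struct : D → C`, `σ = struct ∘ ψ`, `π : C → M_g(R)`.
`α = mk`, `β = σ` on `B` agree on `x`; a separability element gives `e = ∑ α a * β b` with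
`e * (mk y - σ y) = 0` for all `y`, `π e = ρ(h)^K`; `σ y = 0` for `y ∈ I`.
`ε0` = a lift of `e * struct(ρ(h)⁻¹)^K`.
-/
import Fermat.Agent.S25.Chart.H59_Companion
import Fermat.Agent.S25.Chart.H59_CartDefs2
import Fermat.Agent.S25.Chart.H46_Cyc
import Fermat.Agent.S25.Chart.H46_Reg

set_option autoImplicit false

universe u

open Polynomial TensorProduct

namespace Fermat.Agent.S25.Chart.H59v

open Fermat.Agent.S25.Chart

variable {k : Type u} [Field k] {B : Type u} [CommRing B] [Algebra k B] {x : B} {g : ℕ}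
  {R : Type u} [CommRing R] [Algebra k R] (p : Pt k B x g R)

/-- `f0 = f(1 ⊗ x)`, `f` the characteristic polynomial of `ρ x`. -/
noncomputable def f0 : R ⊗[k] B := Polynomial.aeval ((1 : R) ⊗ₜ[k] x) (p.ρ x).charpoly

theorem rho_aeval (Q : R[X]) :
    p.rho (Polynomial.aeval ((1 : R) ⊗ₜ[k] x) Q) = Polynomial.aeval (p.ρ x) Q := by
  rw [← Polynomial.aeval_algHom_apply, H46.rho_one_tmul]

theorem rho_f0 : p.rho (f0 p) = 0 := by
  rw [f0, rho_aeval, Matrix.aeval_self_charpoly]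

theorem f0_mem : f0 p ∈ p.ideal := (H46.mem_ideal_iff p _).2 (rho_f0 p)

/-- `D = R[X]/(f)`. -/
abbrev D : Type u := R[X] ⧸ (Ideal.span {(p.ρ x).charpoly} : Ideal R[X])

/-- `C = S/(f0)`. -/
abbrev C : Type u := (R ⊗[k] B) ⧸ (Ideal.span {f0 p} : Ideal (R ⊗[k] B))

/-- `D → M_g(R)`, `X ↦ N`. -/
noncomputable def evN : D p →ₐ[R] Matrix (Fin g) (Fin g) R :=
  Ideal.Quotient.liftₐ _ (Polynomial.aeval (p.ρ x)) (by
    intro a ha
    obtain ⟨c, rfl⟩ := Ideal.mem_span_singleton'.1 ha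
    rw [map_mul, Matrix.aeval_self_charpoly, mul_zero])

theorem evN_mk (Q : R[X]) :
    evN p (Ideal.Quotient.mk _ Q) = Polynomial.aeval (p.ρ x) Q := rfl

theorem evN_injective : Function.Injective (evN p) := by
  rw [injective_iff_map_eq_zero]
  intro d hd
  obtain ⟨Q, rfl⟩ := Ideal.Quotient.mk_surjective d
  rw [evN_mk] at hd
  rw [Ideal.Quotient.eq_zero_iff_mem, Ideal.mem_span_singleton]
  exact H59c.charpoly_dvd_of_aeval_eq_zero p.comp Q hd

theorem exists_evN_eq (Y : Matrix (Fin g) (Fin g) R) (hY : Commute Y (p.ρ x)) :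
    ∃ d, evN p d = Y := by
  obtain ⟨Q, hQ⟩ := H59c.exists_aeval_eq_of_commute p.comp Y hY
  exact ⟨Ideal.Quotient.mk _ Q, hQ⟩

theorem rho_commute (y : R ⊗[k] B) : Commute (p.rho y) (p.ρ x) := by
  rw [← H46.rho_one_tmul p x]
  show p.rho y * p.rho _ = p.rho _ * p.rho y
  rw [← map_mul, ← map_mul, mul_comm]

/-- `ψ : S → D`, the Mumford coordinates of the chart point. -/
noncomputable def psi : (R ⊗[k] B) →ₐ[R] D p :=
  ((AlgEquiv.ofInjective (evN p) (evN_injective p)).symm : (evN p).range →ₐ[R] D p).comp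
    (p.rho.codRestrict (evN p).range (fun y => exists_evN_eq p _ (rho_commute p y)))

theorem evN_psi (y : R ⊗[k] B) : evN p (psi p y) = p.rho y := by
  have h := (AlgEquiv.ofInjective (evN p) (evN_injective p)).apply_symm_apply
    (p.rho.codRestrict (evN p).range (fun y => exists_evN_eq p _ (rho_commute p y)) y)
  have h2 := congrArg Subtype.val h
  exact h2

theorem psi_eq_zero {y : R ⊗[k] B} (hy : y ∈ p.ideal) : psi p y = 0 := by
  apply evN_injective p
  rw [evN_psi, map_zero]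
  exact (H46.mem_ideal_iff p y).1 hy

theorem psi_x : psi p ((1 : R) ⊗ₜ[k] x) = Ideal.Quotient.mk _ Polynomial.X := by
  apply evN_injective p
  rw [evN_psi, evN_mk, Polynomial.aeval_X, H46.rho_one_tmul]

/-- `D → C`, `X ↦ 1 ⊗ x`. -/
noncomputable def struct : D p →ₐ[R] C p :=
  Ideal.Quotient.liftₐ _
    ((Ideal.Quotient.mkₐ R (Ideal.span {f0 p})).comp (Polynomial.aeval ((1 : R) ⊗ₜ[k] x))) (by
    intro a ha
    obtain ⟨c, rfl⟩ := Ideal.mem_span_singleton'.1 ha
    rw [map_mul]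
    have : ((Ideal.Quotient.mkₐ R (Ideal.span {f0 p})).comp
        (Polynomial.aeval ((1 : R) ⊗ₜ[k] x))) (p.ρ x).charpoly = 0 := by
      show Ideal.Quotient.mk _ (f0 p) = 0
      exact Ideal.Quotient.eq_zero_iff_mem.2 (Ideal.mem_span_singleton_self _)
    rw [this, mul_zero])

theorem struct_mk (Q : R[X]) :
    struct p (Ideal.Quotient.mk _ Q) =
      Ideal.Quotient.mk _ (Polynomial.aeval ((1 : R) ⊗ₜ[k] x) Q) := rfl

/-- `C → M_g(R)`. -/
noncomputable def piC : C p →ₐ[R] Matrix (Fin g) (Fin g) R :=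
  Ideal.Quotient.liftₐ _ p.rho (by
    intro a ha
    obtain ⟨c, rfl⟩ := Ideal.mem_span_singleton'.1 ha
    rw [map_mul, rho_f0, mul_zero])

theorem piC_mk (y : R ⊗[k] B) : piC p (Ideal.Quotient.mk _ y) = p.rho y := rfl

theorem piC_struct (d : D p) : piC p (struct p d) = evN p d := by
  obtain ⟨Q, rfl⟩ := Ideal.Quotient.mk_surjective d
  rw [struct_mk, piC_mk, evN_mk, rho_aeval]

/-- `σ = struct ∘ ψ : S → C`. -/
noncomputable def sigma : (R ⊗[k] B) →ₐ[R] C p := (struct p).comp (psi p)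

theorem piC_sigma (y : R ⊗[k] B) : piC p (sigma p y) = p.rho y := by
  show piC p (struct p (psi p y)) = _
  rw [piC_struct, evN_psi]

theorem sigma_eq_zero {y : R ⊗[k] B} (hy : y ∈ p.ideal) : sigma p y = 0 := by
  show struct p (psi p y) = 0
  rw [psi_eq_zero p hy, map_zero]

/-- `α : B → C`. -/
noncomputable def alpha : B →ₐ[k] C p :=
  ((Ideal.Quotient.mkₐ R (Ideal.span {f0 p})).restrictScalars k).comp
    Algebra.TensorProduct.includeRight

/-- `β : B → C`. -/
noncomputable def beta : B →ₐ[k] C p :=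
  ((sigma p).restrictScalars k).comp Algebra.TensorProduct.includeRight

theorem alpha_apply (b : B) : alpha p b = Ideal.Quotient.mk _ ((1 : R) ⊗ₜ[k] b) := rfl

theorem beta_apply (b : B) : beta p b = sigma p ((1 : R) ⊗ₜ[k] b) := rfl

theorem alpha_x_eq : alpha p x = beta p x := by
  rw [alpha_apply, beta_apply]
  show _ = struct p (psi p _)
  rw [psi_x, struct_mk, Polynomial.aeval_X]

theorem piC_alpha (b : B) : piC p (alpha p b) = p.ρ b := by
  rw [alpha_apply, piC_mk, H46.rho_one_tmul]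

theorem piC_beta (b : B) : piC p (beta p b) = p.ρ b := by
  rw [beta_apply, piC_sigma, H46.rho_one_tmul]

section Sep

variable {h : B} {F : Finset (B × B)} {K : ℕ}

/-- The element `e`. -/
noncomputable def eElem (F : Finset (B × B)) : C p := ∑ i ∈ F, alpha p i.1 * beta p i.2

theorem piC_eElem (hF : H59.IsSepElem k B x h F K) : piC p (eElem p F) = p.ρ h ^ K := by
  rw [eElem, map_sum]
  have : ∀ i ∈ F, piC p (alpha p i.1 * beta p i.2) = p.ρ (i.1 * i.2) := by
    intro i _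
    rw [map_mul, piC_alpha, piC_beta, map_mul]
  rw [Finset.sum_congr rfl this, ← map_sum, hF.1, map_pow]

theorem eElem_mul_sub (hF : H59.IsSepElem k B x h F K) (y : R ⊗[k] B) :
    eElem p F * (Ideal.Quotient.mk _ y - sigma p y) = 0 := by
  induction y using TensorProduct.induction_on with
  | zero => rw [map_zero, map_zero, sub_zero, mul_zero]
  | add y y' hy hy' =>
    rw [map_add, map_add, add_sub_add_comm, mul_add, hy, hy', add_zero]
  | tmul r b =>
    have h1 : (r ⊗ₜ[k] b : R ⊗[k] B) = r • ((1 : R) ⊗ₜ[k] b) := by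
      rw [TensorProduct.smul_tmul', smul_eq_mul, mul_one]
    have h2 : (Ideal.Quotient.mk (Ideal.span {f0 p})) (r ⊗ₜ[k] b) - sigma p (r ⊗ₜ[k] b)
        = r • (alpha p b - beta p b) := by
      have e1 : (Ideal.Quotient.mk (Ideal.span {f0 p})) (r • ((1 : R) ⊗ₜ[k] b))
          = r • (Ideal.Quotient.mk (Ideal.span {f0 p})) ((1 : R) ⊗ₜ[k] b) := rfl
      rw [h1, e1, map_smul (sigma p), smul_sub, alpha_apply, beta_apply]
    have h3 := hF.2 (C p) (alpha p) (beta p) (alpha_x_eq p) b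
    rw [h2, mul_smul_comm, eElem, h3, smul_zero]

theorem eElem_mul_mk (hF : H59.IsSepElem k B x h F K) {y : R ⊗[k] B} (hy : y ∈ p.ideal) :
    eElem p F * Ideal.Quotient.mk _ y = 0 := by
  have := eElem_mul_sub p hF y
  rwa [sigma_eq_zero p hy, sub_zero] at this

/-- The element `ε0` exists. -/
theorem exists_eps (hF : H59.IsSepElem k B x h F K) (hdet : IsUnit (p.ρ h).det) :
    ∃ ε0 : R ⊗[k] B, 1 - ε0 ∈ p.ideal ∧ ∀ y ∈ p.ideal, ∃ w : R ⊗[k] B, ε0 * y = f0 p * w := by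
  have hu : IsUnit (p.ρ h) := (Matrix.isUnit_iff_isUnit_det _).2 hdet
  obtain ⟨u, hu'⟩ := hu
  have h1 : p.ρ h * (↑u⁻¹ : Matrix (Fin g) (Fin g) R) = 1 := by rw [← hu']; exact u.mul_inv
  have h2 : (↑u⁻¹ : Matrix (Fin g) (Fin g) R) * p.ρ h = 1 := by rw [← hu']; exact u.inv_mul
  have hc : Commute (p.ρ h) (p.ρ x) := by
    show p.ρ h * p.ρ x = p.ρ x * p.ρ h
    rw [← map_mul, ← map_mul, mul_comm]
  have hc' : Commute (↑u⁻¹ : Matrix (Fin g) (Fin g) R) (p.ρ x) := by
    have : Commute (↑u : Matrix (Fin g) (Fin g) R) (p.ρ x) := by rw [hu']; exact hc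
    exact this.units_inv_left
  obtain ⟨d', hd'⟩ := exists_evN_eq p _ hc'
  obtain ⟨ε0, hε0⟩ := Ideal.Quotient.mk_surjective (eElem p F * struct p d' ^ K)
  refine ⟨ε0, ?_, ?_⟩
  · rw [H46.mem_ideal_iff, map_sub, map_one, sub_eq_zero]
    have : p.rho ε0 = piC p (Ideal.Quotient.mk _ ε0) := rfl
    have hcm : Commute (p.ρ h) (↑u⁻¹ : Matrix (Fin g) (Fin g) R) := by
      show _ * _ = _ * _
      rw [h1, h2]
    rw [this, hε0, map_mul, map_pow, piC_eElem p hF, piC_struct, hd', ← hcm.mul_pow, h1, one_pow]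
  · intro y hy
    have : Ideal.Quotient.mk (Ideal.span {f0 p}) (ε0 * y) = 0 := by
      rw [map_mul, hε0, mul_right_comm, eElem_mul_mk p hF hy, zero_mul]
    rw [Ideal.Quotient.eq_zero_iff_mem, Ideal.mem_span_singleton'] at this
    obtain ⟨w, hw⟩ := this
    exact ⟨w, by rw [← hw, mul_comm]⟩

end Sep

end Fermat.Agent.S25.Chart.H59v

namespace Fermat.Agent.S25.Chart.H59

open Fermat.Agent.S25.LB Fermat.Agent.S25.Chart

/-- **(V)**: a separability element gives the Cartier data `(f0, ε0)` of a chart point inside `D(h)`. -/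
theorem stmt_CART_V : Stmt_CART_V.{u} := by
  intro k _ 𝒞 hgood h F K hF g R _ _ p hdet
  haveI : IsDomain 𝒞.B0 := hgood.dom0
  obtain ⟨ε0, h1, h2⟩ := H59v.exists_eps p hF hdet
  refine ⟨ε0, ⟨H59v.f0_mem p, ?_, h1, h2⟩⟩
  intro c hc
  exact H46r.monic_aeval_regular 𝒞.x0 hgood.trans0 _ (Matrix.charpoly_monic _) c hc

end Fermat.Agent.S25.Chart.H59
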