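import Fermat.Agent.S25.Chart.H85_DivTriple
import Fermat.Agent.S25.LB.H7_VBCore
import Fermat.Agent.S25.Chart.H59_CartDefs2

/-!
# S25, package CHART, leaf CH-DIVEX, half (C), leaf CART1 (helper85)

`stmt_CART1 : H59.Stmt_CART1` (`Stmt_CART0 → Stmt_DIVEX_CART`): from Cartier data `(f0, ε0)` of a chart
point on the chart `V0`, `f0 = f(x0)`, `f = charpoly (ρ x0)`, to Cartier data on both charts.

* `cartF0 p = f(1 ⊗ x0)`, `cartW p`, `cartF1 p = 1 + z1 * cartW p = z1^g f(1/z1)`;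
* `cartF0_mem` (Cayley-Hamilton), `cartF0_reg` (`R ⊗ B0 ≃ R[X]^d`, `f` monic), `cartF_glue`,
  `cartF1_mem`, `cartF1_reg`;
* `cart1_abs`: the abstract transport of Cartier data along `S0 → S01 ← S1`
  (`ε1 = (-w)^n e'` with `z^n ε0 = e'` on the overlap).
-/

set_option autoImplicit false
universe u
open Polynomial TensorProduct

namespace Fermat.Agent.S25.Chart.H85

open Fermat.Agent.S25.LB

variable {k : Type u} [Field k] {𝒞 : CurveDatum k} {R : Type u} [CommRing R] [Algebra k R]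
  {g : ℕ}

/-- the characteristic polynomial of `x0` on `O(Z)` -/
noncomputable def cartPoly (p : Pt k 𝒞.B0 𝒞.x0 g R) : R[X] := (p.ρ 𝒞.x0).charpoly

/-- `f0 = f(x0)` -/
noncomputable def cartF0 (p : Pt k 𝒞.B0 𝒞.x0 g R) : R ⊗[k] 𝒞.B0 :=
  Polynomial.aeval ((1 : R) ⊗ₜ[k] 𝒞.x0 : R ⊗[k] 𝒞.B0) (cartPoly p)

/-- `w`, with `f1 = 1 + z1 w` -/
noncomputable def cartW (p : Pt k 𝒞.B0 𝒞.x0 g R) : R ⊗[k] 𝒞.B1 :=
  ∑ i ∈ Finset.range g, ((cartPoly p).coeff i) ⊗ₜ[k] (𝒞.z1 ^ (g - 1 - i))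

/-- `f1 = z1^g f(1/z1)` -/
noncomputable def cartF1 (p : Pt k 𝒞.B0 𝒞.x0 g R) : R ⊗[k] 𝒞.B1 :=
  1 + ((1 : R) ⊗ₜ[k] 𝒞.z1) * cartW p

theorem cartPoly_monic (p : Pt k 𝒞.B0 𝒞.x0 g R) : (cartPoly p).Monic :=
  Matrix.charpoly_monic _

theorem cartPoly_natDegree_le (p : Pt k 𝒞.B0 𝒞.x0 g R) : (cartPoly p).natDegree ≤ g := by
  rcases subsingleton_or_nontrivial R with h | h
  · rw [Subsingleton.elim (cartPoly p) 0, natDegree_zero]
    exact Nat.zero_le _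
  · unfold cartPoly
    rw [Matrix.charpoly_natDegree_eq_dim, Fintype.card_fin]

theorem cartPoly_coeff_g (p : Pt k 𝒞.B0 𝒞.x0 g R) : (cartPoly p).coeff g = 1 := by
  rcases subsingleton_or_nontrivial R with h | h
  · exact Subsingleton.elim _ _
  · have h1 : (cartPoly p).natDegree = g := by
      unfold cartPoly
      rw [Matrix.charpoly_natDegree_eq_dim, Fintype.card_fin]
    have := (cartPoly_monic p).coeff_natDegree
    rwa [h1] at this

theorem rho_one_tmul (p : Pt k 𝒞.B0 𝒞.x0 g R) (a : 𝒞.B0) :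
    p.rho ((1 : R) ⊗ₜ[k] a) = p.ρ a := by
  rw [Pt.rho_tmul, one_smul]

theorem cartF0_mem (p : Pt k 𝒞.B0 𝒞.x0 g R) : cartF0 p ∈ p.ideal := by
  rw [Pt.mem_ideal]
  have : p.rho (cartF0 p) = 0 := by
    unfold cartF0
    rw [← Polynomial.aeval_algHom_apply, rho_one_tmul]
    exact Matrix.aeval_self_charpoly _
  rw [this, Matrix.zero_mulVec]

/-- multiplication by `P(x)` corresponds to multiplication by `P` under an `X`-equivariant
`R`-linear map -/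
theorem xequiv_aeval {B : Type u} [CommRing B] [Algebra k B] (x : B) {d : ℕ}
    (e : (R ⊗[k] B) ≃ₗ[R] (Fin d → R[X]))
    (he : ∀ s : R ⊗[k] B, e (((1 : R) ⊗ₜ[k] x) * s) = (X : R[X]) • e s)
    (P : R[X]) (s : R ⊗[k] B) :
    e (Polynomial.aeval ((1 : R) ⊗ₜ[k] x : R ⊗[k] B) P * s) = P • e s := by
  have hpow : ∀ (n : ℕ) (s : R ⊗[k] B),
      e (((1 : R) ⊗ₜ[k] x : R ⊗[k] B) ^ n * s) = (X : R[X]) ^ n • e s := by
    intro n
    induction n with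
    | zero => intro s; rw [pow_zero, pow_zero, one_mul, one_smul]
    | succ n ih => intro s; rw [pow_succ, mul_assoc, ih, he, smul_smul, ← pow_succ]
  induction P using Polynomial.induction_on' with
  | add P Q hP hQ => rw [map_add, add_mul, map_add, hP, hQ, add_smul]
  | monomial n r =>
    rw [Polynomial.aeval_monomial, ← Algebra.smul_def, smul_mul_assoc, map_smul, hpow,
      ← Polynomial.C_mul_X_pow_eq_monomial, mul_smul]
    ext i : 1
    simp only [Pi.smul_apply, smul_eq_mul]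
    rw [← Polynomial.C_mul', ← Polynomial.smul_eq_C_mul]

/-- `f0` is a non-zero-divisor -/
theorem cartF0_reg (hG : 𝒞.IsGood) (p : Pt k 𝒞.B0 𝒞.x0 g R) (c : R ⊗[k] 𝒞.B0)
    (hc : cartF0 p * c = 0) : c = 0 := by
  have := hG.dom0
  obtain ⟨d, e, he⟩ := H7.h7_exists_xequiv 𝒞.B0 𝒞.x0 R hG.fin0 hG.trans0
  have h1 := xequiv_aeval 𝒞.x0 e he (cartPoly p) c
  have h2 : e (cartF0 p * c) = 0 := by rw [hc, map_zero]
  unfold cartF0 at h2
  rw [h1] at h2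
  have h3 : e c = 0 := by
    ext i : 1
    have := congrFun h2 i
    simp only [Pi.smul_apply, smul_eq_mul, Pi.zero_apply] at this
    exact (cartPoly_monic p).mul_right_eq_zero_iff.mp this
  exact e.map_eq_zero_iff.mp h3

theorem cartF0_eq_sum (p : Pt k 𝒞.B0 𝒞.x0 g R) :
    cartF0 p = ∑ i ∈ Finset.range (g + 1), ((cartPoly p).coeff i) ⊗ₜ[k] (𝒞.x0 ^ i) := by
  unfold cartF0
  rw [Polynomial.aeval_eq_sum_range' (Nat.lt_succ_of_le (cartPoly_natDegree_le p))]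
  refine Finset.sum_congr rfl (fun i _ => ?_)
  rw [Algebra.TensorProduct.tmul_pow, one_pow, TensorProduct.smul_tmul', smul_eq_mul, mul_one]

theorem pow_mul_pow_sub_aux {C : Type*} [CommRing C] {X Z : C} (h : X * Z = 1) {i g : ℕ}
    (hi : i < g) : X ^ g * (Z * Z ^ (g - 1 - i)) = X ^ i := by
  have h1 : Z * Z ^ (g - 1 - i) = Z ^ (g - i) := by
    rw [← pow_succ']
    congr 1
    omega
  have h2 : X ^ g = X ^ i * X ^ (g - i) := by
    rw [← pow_add]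
    congr 1
    omega
  rw [h1, h2, mul_assoc, ← mul_pow, h, one_pow, mul_one]

/-- on the overlap `f0 = x0^g f1` -/
theorem cartF_glue (p : Pt k 𝒞.B0 𝒞.x0 g R) :
    𝒞.ι0 R (cartF0 p) =
      ((1 : R) ⊗ₜ[k] 𝒞.i0 𝒞.x0 : R ⊗[k] 𝒞.B01) ^ g * 𝒞.ι1 R (cartF1 p) := by
  rw [cartF0_eq_sum, Finset.sum_range_succ, cartPoly_coeff_g]
  unfold cartF1 cartW
  rw [map_add, map_sum, map_add, map_one, map_mul, map_sum, mul_add, mul_one, Finset.mul_sum,
    Finset.mul_sum, H60.ι0_tmul, map_pow, Algebra.TensorProduct.tmul_pow, one_pow, add_comm]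
  congr 1
  refine Finset.sum_congr rfl (fun i hi => ?_)
  rw [H60.ι0_tmul, H60.ι1_tmul, H60.ι1_tmul, Algebra.TensorProduct.tmul_mul_tmul,
    Algebra.TensorProduct.tmul_mul_tmul, one_mul, one_mul, map_pow, map_pow,
    pow_mul_pow_sub_aux 𝒞.hxz (Finset.mem_range.mp hi)]

/-- `f1` lies in the ideal of `Z` on the second chart -/
theorem cartF1_mem (p : Pt k 𝒞.B0 𝒞.x0 g R) : cartF1 p ∈ p.ideal1 := by
  unfold Pt.ideal1
  rw [Ideal.mem_comap]
  have h1 : 𝒞.ι1 R (cartF1 p) =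
      ((1 : R) ⊗ₜ[k] 𝒞.i1 𝒞.z1 : R ⊗[k] 𝒞.B01) ^ g * 𝒞.ι0 R (cartF0 p) := by
    rw [cartF_glue, ← mul_assoc, ← mul_pow, mul_comm ((1 : R) ⊗ₜ[k] 𝒞.i1 𝒞.z1),
      Triple.unit_mul_unit, one_pow, one_mul]
  rw [h1]
  exact Ideal.mul_mem_left _ _ (Ideal.mem_map_of_mem _ (cartF0_mem p))

/-- `f1` is a non-zero-divisor -/
theorem cartF1_reg (hG : 𝒞.IsGood) (p : Pt k 𝒞.B0 𝒞.x0 g R) (c : R ⊗[k] 𝒞.B1)
    (hc : cartF1 p * c = 0) : c = 0 := by
  have h1 : 𝒞.ι0 R (cartF0 p) * 𝒞.ι1 R c = 0 := by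
    rw [cartF_glue, mul_assoc, ← map_mul, hc, map_zero, mul_zero]
  have h2 : 𝒞.ι1 R c = 0 :=
    (isGlue_of_isGood hG).nzd0 (F := cartF0 p)
      (fun c hc => cartF0_reg hG p c ((mul_comm _ _).trans hc)) h1
  exact H60.ι1_injective R hG (h2.trans (map_zero _).symm)

theorem cartF1_eq (p : Pt k 𝒞.B0 𝒞.x0 g R) :
    cartF1 p = 1 + ((1 : R) ⊗ₜ[k] 𝒞.z1) * cartW p := rfl

section Abs

variable {S0 S1 S01 : Type u} [CommRing S0] [CommRing S1] [CommRing S01]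
  {ι0 : S0 →+* S01} {ι1 : S1 →+* S01} {x : S0} {z : S1}

theorem one_sub_one_sub_pow {S : Type*} [CommRing S] (a : S) (n : ℕ) :
    ∃ q : S, 1 - (1 - a) ^ n = a * q := by
  refine ⟨∑ i ∈ Finset.range n, (1 - a) ^ i, ?_⟩
  have := mul_neg_geom_sum (1 - a) n
  rw [sub_sub_cancel] at this
  exact this.symm

/-- `E * I01 ⊆ (f0)` on the overlap -/
theorem cart_mul_map {I0 : Ideal S0} {f0 ε0 : S0} (h0 : H59.IsCart I0 f0 ε0) {t : S01}
    (ht : t ∈ I0.map ι0) : ∃ c : S01, ι0 ε0 * t = ι0 f0 * c := by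
  unfold Ideal.map at ht
  induction ht using Submodule.span_induction with
  | mem t ht =>
    obtain ⟨j, hj, rfl⟩ := ht
    obtain ⟨w, hw⟩ := h0.mul_mem j hj
    exact ⟨ι0 w, by rw [← map_mul, hw, map_mul]⟩
  | zero => exact ⟨0, by rw [mul_zero, mul_zero]⟩
  | add t t' _ _ ht ht' =>
    obtain ⟨c, e⟩ := ht
    obtain ⟨c', e'⟩ := ht'
    exact ⟨c + c', by rw [mul_add, e, e', mul_add]⟩
  | smul s t _ ht =>
    obtain ⟨c, e⟩ := ht
    exact ⟨s * c, by rw [smul_eq_mul, mul_left_comm, e, mul_left_comm]⟩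

/-- **CART1, abstract form**: Cartier data on the first chart give Cartier data on the second. -/
theorem cart1_abs (hG : IsGlue ι0 ι1 x z) (I0 : Ideal S0) {f0 ε0 : S0} {f1 w : S1} {g : ℕ}
    (h0 : H59.IsCart I0 f0 ε0) (hw : f1 = 1 + z * w) (hgl : ι0 f0 = ι0 x ^ g * ι1 f1) :
    ∃ ε1 : S1, H59.IsCart ((I0.map ι0).comap ι1) f1 ε1 ∧
      Ideal.map ι0 (Ideal.span {f0, ε0}) = Ideal.map ι1 (Ideal.span {f1, ε1}) := by
  -- notation
  have hF : ι1 f1 = ι1 z ^ g * ι0 f0 := by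
    rw [hgl, ← mul_assoc, hG.zx_pow, one_mul]
  have hFmem : ι1 f1 ∈ I0.map ι0 := by
    rw [hF]
    exact Ideal.mul_mem_left _ _ (Ideal.mem_map_of_mem _ h0.f_mem)
  have hzw : z * (-w) = 1 - f1 := by rw [hw]; ring
  obtain ⟨n, e', he'⟩ := hG.sur1 (ι0 ε0)
  have hε1 : ι1 ((-w) ^ n * e') = (1 - ι1 f1) ^ n * ι0 ε0 := by
    rw [map_mul, ← he', ← mul_assoc, map_pow, ← mul_pow, ← map_mul, mul_comm (-w), hzw, map_sub,
      map_one]
  obtain ⟨q, hq⟩ := one_sub_one_sub_pow (ι1 f1) n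
  have hreg1 : ∀ c : S1, f1 * c = 0 → c = 0 := by
    intro c hc
    have h1 : ι0 f0 * ι1 c = 0 := by
      rw [hgl, mul_assoc, ← map_mul, hc, map_zero, mul_zero]
    have h2 : ι1 c = 0 :=
      hG.nzd0 (F := f0) (fun c hc => h0.reg c ((mul_comm _ _).trans hc)) h1
    exact hG.inj1 (h2.trans (map_zero _).symm)
  refine ⟨(-w) ^ n * e', ⟨?_, hreg1, ?_, ?_⟩, ?_⟩
  · rw [Ideal.mem_comap]
    exact hFmem
  · -- `1 - ε1 ∈ I1`
    rw [Ideal.mem_comap, map_sub, map_one, hε1]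
    have : 1 - (1 - ι1 f1) ^ n * ι0 ε0 = ι0 (1 - ε0) + (ι0 ε0 * q) * ι1 f1 := by
      rw [map_sub, map_one]
      linear_combination (ι0 ε0) * hq
    rw [this]
    exact Ideal.add_mem _ (Ideal.mem_map_of_mem _ h0.one_sub_mem) (Ideal.mul_mem_left _ _ hFmem)
  · -- `ε1 * I1 ⊆ (f1)`
    intro y hy
    rw [Ideal.mem_comap] at hy
    obtain ⟨c0, hc0⟩ := cart_mul_map h0 hy
    obtain ⟨m, c', hc'⟩ := hG.sur1 ((1 - ι1 f1) ^ n * ι0 x ^ g * c0)
    have h1 : z ^ m * ((-w) ^ n * e' * y) = f1 * c' := by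
      apply hG.inj1
      rw [map_mul, map_mul (ι1) _ y, hε1, map_mul, ← hc', map_pow]
      linear_combination ((1 - ι1 f1) ^ n * ι1 z ^ m) * hc0 +
        ((1 - ι1 f1) ^ n * ι1 z ^ m * c0) * hgl
    obtain ⟨q', hq'⟩ := one_sub_one_sub_pow f1 m
    have h2 : (1 - f1) ^ m = (-w) ^ m * z ^ m := by
      rw [← mul_pow, mul_comm (-w), hzw]
    refine ⟨(-w) ^ m * c' + q' * ((-w) ^ n * e' * y), ?_⟩
    linear_combination ((-w) ^ m) * h1 + ((-w) ^ n * e' * y) * hq' + ((-w) ^ n * e' * y) * h2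
  · -- the two extended ideals agree
    rw [Ideal.map_span, Ideal.map_span, Set.image_pair, Set.image_pair, hε1]
    apply le_antisymm
    · rw [Ideal.span_le, Set.insert_subset_iff, Set.singleton_subset_iff]
      constructor
      · exact Ideal.mem_span_pair.mpr ⟨ι0 x ^ g, 0, by rw [hgl]; ring⟩
      · exact Ideal.mem_span_pair.mpr ⟨q * ι0 ε0, 1, by linear_combination (-(ι0 ε0)) * hq⟩
    · rw [Ideal.span_le, Set.insert_subset_iff, Set.singleton_subset_iff]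
      constructor
      · exact Ideal.mem_span_pair.mpr ⟨ι1 z ^ g, 0, by rw [hF]; ring⟩
      · exact Ideal.mem_span_pair.mpr ⟨0, (1 - ι1 f1) ^ n, by ring⟩

end Abs

/-- **DIV-EX, half (C), leaf CART1**. -/
theorem stmt_CART1 : H59.Stmt_CART1.{u} := by
  intro hC0 k _ 𝒞 hG h hEt g R _ _ p hdet
  obtain ⟨ε0, h0⟩ := hC0 k 𝒞 hG h hEt g R p hdet
  have h0' : H59.IsCart p.ideal (cartF0 p) ε0 := h0
  obtain ⟨ε1, h1, hJ⟩ := cart1_abs (isGlue_of_isGood hG) p.ideal h0' (cartF1_eq p) (cartF_glue p)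
  exact ⟨cartF0 p, ε0, cartF1 p, ε1, cartW p, h0', h1, cartF1_eq p, cartF_glue p, hJ⟩

end Fermat.Agent.S25.Chart.H85
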