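/-
helper59, S25 (Jacobian exists), chart side, leaf DIV-EX: ASSEMBLY.

  Stmt_DIVEX  ⇐  Stmt_CART_U (helper46)  +  stmt_CART_V (helper59)  +  stmt_CART1 (helper85)
                 +  stmt_DIVEX_TRIPLE (helper85).
-/
import Fermat.Agent.S25.Chart.H59_CartV
import Fermat.Agent.S25.Chart.H85_Cart1

set_option autoImplicit false

universe u

namespace Fermat.Agent.S25.Chart.H59

open Fermat.Agent.S25.LB Fermat.Agent.S25.Chart

/-- DIV-EX half (C) from the separability element. -/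
theorem stmt_DIVEX_CART_of_U (hU : Stmt_CART_U.{u}) : Stmt_DIVEX_CART.{u} :=
  stmt_DIVEX_CART_of hU stmt_CART_V H85.stmt_CART1

/-- DIV-EX from the separability element. -/
theorem stmt_DIVEX_of_U (hU : Stmt_CART_U.{u}) : Stmt_DIVEX.{u} :=
  stmt_DIVEX_of (stmt_DIVEX_CART_of_U hU) H85.stmt_DIVEX_TRIPLE

end Fermat.Agent.S25.Chart.H59
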