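/-
helper59, S25 (Jacobian exists), chart side, leaf DIV-EX: FINAL.

  `stmt_DIVEX : Chart.Stmt_DIVEX`   (unconditional)
  = CART_U (helper46, `H46_CartU`) + CART_V (helper59, `H59_CartV`) + CART1 + TRIPLE (helper85).
-/
import Fermat.Agent.S25.Chart.H59_DivEx
import Fermat.Agent.S25.Chart.H46_CartU

set_option autoImplicit false

universe u

namespace Fermat.Agent.S25.Chart.H59

open Fermat.Agent.S25.LB Fermat.Agent.S25.Chart

/-- **DIV-EX, half (C)**: Cartier data of a chart point on both charts. -/
theorem stmt_DIVEX_CART : Stmt_DIVEX_CART.{u} :=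
  stmt_DIVEX_CART_of_U H46u.stmt_CART_U

/-- **DIV-EX**: every chart point in the étale locus is the divisor of a regular section of a rigid triple. -/
theorem stmt_DIVEX : Stmt_DIVEX.{u} :=
  stmt_DIVEX_of_U H46u.stmt_CART_U

end Fermat.Agent.S25.Chart.H59
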