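/-
helper92, S25 (Jacobian exists), package CHART, leaf **CH-IDEAL** (`Chart.Stmt_IDEAL`), Mathlib only.

Chart points `p : Pt k A x g R` = ideals `I ⊂ R ⊗ A` such that the classes of `1, x, …, x^(g-1)` are an
`R`-basis of `(R ⊗ A) / I`.

* `quot_pow`, `quot_mul`, `rho_entry`, `sub_sum_mem_ideal` : the cyclic vector facts used here
  (`ρ(x^i) e₀ = e_i`, `(ρ b)_{ij} = (quot (b x^j))_i`, normal form modulo the ideal);
  NB: in `Chart/Defs.lean` the term `(1 : R) ⊗ₜ[k] x ^ (i : ℕ)` parses as `((1 : R) ⊗ₜ[k] x) ^ (i : ℕ)`;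
* `pt_ext_of_ideal` : a chart point is determined by its ideal;
* `ofBasis`, `ofBasis_ideal` : the chart point of an ideal with basis `1, x, …, x^(g-1)`;
* `stmt_IDEAL : Stmt_IDEAL`.
-/
import Fermat.Agent.S25.Chart.Defs

set_option autoImplicit false

universe u

open Polynomial TensorProduct

namespace Fermat.Agent.S25.Chart.H92

open Fermat.Agent.S25.Chart

section Cyc

variable {k : Type u} [CommRing k] {A : Type u} [CommRing A] [Algebra k A] {x : A} {g : ℕ}
  {R : Type u} [CommRing R] [Algebra k R]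

theorem e0_eq_single (h : 0 < g) : e0 g R = Pi.single (⟨0, h⟩ : Fin g) (1 : R) := by
  funext i
  unfold e0
  by_cases hi : (i : ℕ) = 0
  · have : i = ⟨0, h⟩ := Fin.ext hi
    rw [if_pos hi, this, Pi.single_eq_same]
  · have : i ≠ ⟨0, h⟩ := fun e => hi (by rw [e])
    rw [if_neg hi, Pi.single_eq_of_ne this]

/-- the columns `i`, `i + 1 < g`, of a companion matrix. -/
theorem companion_mulVec_single {M : Matrix (Fin g) (Fin g) R} (hM : IsCompanion M)
    (n : ℕ) (hn : n + 1 < g) :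
    M.mulVec (Pi.single (⟨n, Nat.lt_of_succ_lt hn⟩ : Fin g) (1 : R))
      = Pi.single (⟨n + 1, hn⟩ : Fin g) (1 : R) := by
  rw [Matrix.mulVec_single_one]
  funext j
  rw [Matrix.col_apply, hM ⟨n, Nat.lt_of_succ_lt hn⟩ j hn]
  by_cases hj : (j : ℕ) = n + 1
  · have : j = ⟨n + 1, hn⟩ := Fin.ext hj
    rw [if_pos hj, this, Pi.single_eq_same]
  · have : j ≠ ⟨n + 1, hn⟩ := fun e => hj (by rw [e])
    rw [if_neg hj, Pi.single_eq_of_ne this]

theorem companion_pow_mulVec {M : Matrix (Fin g) (Fin g) R} (hM : IsCompanion M) :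
    ∀ (n : ℕ) (hn : n < g), (M ^ n).mulVec (e0 g R) = Pi.single (⟨n, hn⟩ : Fin g) (1 : R)
  | 0, hn => by rw [pow_zero, Matrix.one_mulVec, e0_eq_single hn]
  | n + 1, hn => by
      rw [pow_succ', ← Matrix.mulVec_mulVec, companion_pow_mulVec hM n (Nat.lt_of_succ_lt hn),
        companion_mulVec_single hM n hn]

theorem rho_one_tmul (p : Pt k A x g R) (a : A) : p.rho ((1 : R) ⊗ₜ[k] a) = p.ρ a := by
  rw [Pt.rho_tmul, one_smul]

/-- `ρ(x^i) e₀ = e_i`. -/
theorem quot_pow (p : Pt k A x g R) (i : Fin g) :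
    p.quot ((1 : R) ⊗ₜ[k] x ^ (i : ℕ)) = Pi.single i 1 := by
  change (p.rho (((1 : R) ⊗ₜ[k] x) ^ (i : ℕ))).mulVec (e0 g R) = _
  rw [map_pow, rho_one_tmul, companion_pow_mulVec p.comp (i : ℕ) i.2]

theorem quot_apply (p : Pt k A x g R) (b : R ⊗[k] A) :
    p.quot b = (p.rho b).mulVec (e0 g R) := rfl

/-- `quot (c b) = ρ(c) (quot b)`. -/
theorem quot_mul (p : Pt k A x g R) (c b : R ⊗[k] A) :
    p.quot (c * b) = (p.rho c).mulVec (p.quot b) := by
  rw [quot_apply, quot_apply, map_mul, Matrix.mulVec_mulVec]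

/-- `(ρ b) e_j = quot (b x^j)`. -/
theorem rho_mulVec_single (p : Pt k A x g R) (b : R ⊗[k] A) (j : Fin g) :
    (p.rho b).mulVec (Pi.single j 1) = p.quot (b * (1 : R) ⊗ₜ[k] x ^ (j : ℕ)) := by
  rw [quot_mul, quot_pow]

/-- `(ρ b)_{ij} = (quot (b x^j))_i`. -/
theorem rho_entry (p : Pt k A x g R) (b : R ⊗[k] A) (i j : Fin g) :
    p.rho b i j = p.quot (b * (1 : R) ⊗ₜ[k] x ^ (j : ℕ)) i := by
  rw [← rho_mulVec_single, Matrix.mulVec_single_one, Matrix.col_apply]

/-- the normal form of an element modulo the ideal of a chart point. -/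
theorem sub_sum_mem_ideal (p : Pt k A x g R) (b : R ⊗[k] A) :
    b - ∑ i : Fin g, (p.quot b i) • ((1 : R) ⊗ₜ[k] x ^ (i : ℕ)) ∈ p.ideal := by
  change p.quot _ = 0
  rw [map_sub, map_sum, sub_eq_zero]
  funext l
  rw [Finset.sum_apply]
  have h : ∀ i : Fin g, (p.quot ((p.quot b i) • ((1 : R) ⊗ₜ[k] x ^ (i : ℕ)))) l
      = if i = l then p.quot b i else 0 := by
    intro i
    rw [map_smul, quot_pow, Pi.smul_apply, Pi.single_apply, smul_eq_mul]
    by_cases hil : l = i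
    · rw [if_pos hil, if_pos hil.symm, mul_one]
    · rw [if_neg hil, if_neg (fun e => hil e.symm), mul_zero]
  rw [Finset.sum_congr rfl (fun i _ => h i), Finset.sum_ite_eq' Finset.univ l]
  simp

/-- `quot` of a second chart point with the same ideal. -/
theorem quot_eq_of_ideal (p p' : Pt k A x g R) (h : p.ideal = p'.ideal) (b : R ⊗[k] A) :
    p'.quot b = p.quot b := by
  have h1 : b - ∑ i : Fin g, (p.quot b i) • ((1 : R) ⊗ₜ[k] x ^ (i : ℕ)) ∈ p'.ideal := by
    rw [← h]; exact sub_sum_mem_ideal p b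
  have h2 : p'.quot (b - ∑ i : Fin g, (p.quot b i) • ((1 : R) ⊗ₜ[k] x ^ (i : ℕ))) = 0 := h1
  rw [map_sub, map_sum, sub_eq_zero] at h2
  rw [h2]
  funext l
  rw [Finset.sum_apply]
  have h3 : ∀ i : Fin g, (p'.quot ((p.quot b i) • ((1 : R) ⊗ₜ[k] x ^ (i : ℕ)))) l
      = if i = l then p.quot b i else 0 := by
    intro i
    rw [map_smul, quot_pow, Pi.smul_apply, Pi.single_apply, smul_eq_mul]
    by_cases hil : l = i
    · rw [if_pos hil, if_pos hil.symm, mul_one]
    · rw [if_neg hil, if_neg (fun e => hil e.symm), mul_zero]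
  rw [Finset.sum_congr rfl (fun i _ => h3 i), Finset.sum_ite_eq' Finset.univ l]
  simp

/-- **A chart point is determined by its ideal.** -/
theorem pt_ext_of_ideal (p p' : Pt k A x g R) (h : p.ideal = p'.ideal) : p = p' := by
  apply Pt.ext
  apply AlgHom.ext
  intro a
  ext i j
  rw [← rho_one_tmul p a, ← rho_one_tmul p' a, rho_entry, rho_entry,
    quot_eq_of_ideal p p' h]

end Cyc

section OfBasis

variable {k : Type u} [CommRing k] {A : Type u} [CommRing A] [Algebra k A] (x : A) {g : ℕ}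
  {R : Type u} [CommRing R] [Algebra k R]

/-- the map `A → (R ⊗ A) / I → M_g(R)` of an ideal with a basis of the quotient. -/
noncomputable def rhoOfBasis (I : Ideal (R ⊗[k] A))
    (b : Module.Basis (Fin g) R ((R ⊗[k] A) ⧸ I)) : A →ₐ[k] Matrix (Fin g) (Fin g) R where
  toFun a := Algebra.leftMulMatrix b (Ideal.Quotient.mk I ((1 : R) ⊗ₜ[k] a))
  map_one' := by
    have h : ((1 : R) ⊗ₜ[k] (1 : A) : R ⊗[k] A) = 1 := rfl
    rw [h, map_one, map_one]
  map_mul' a a' := by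
    have h : ((1 : R) ⊗ₜ[k] (a * a') : R ⊗[k] A) = (1 ⊗ₜ[k] a) * (1 ⊗ₜ[k] a') := by
      rw [Algebra.TensorProduct.tmul_mul_tmul, one_mul]
    rw [h, map_mul, map_mul]
  map_zero' := by
    rw [TensorProduct.tmul_zero, map_zero, map_zero]
  map_add' a a' := by
    rw [TensorProduct.tmul_add, map_add, map_add]
  commutes' c := by
    have h : ((1 : R) ⊗ₜ[k] (algebraMap k A c) : R ⊗[k] A)
        = algebraMap R (R ⊗[k] A) (algebraMap k R c) := by
      rw [Algebra.TensorProduct.algebraMap_apply, Algebra.algebraMap_self_apply,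
        Algebra.algebraMap_eq_smul_one c, Algebra.algebraMap_eq_smul_one c,
        TensorProduct.tmul_smul, TensorProduct.smul_tmul']
    have h2 : Ideal.Quotient.mk I (algebraMap R (R ⊗[k] A) (algebraMap k R c))
        = algebraMap R ((R ⊗[k] A) ⧸ I) (algebraMap k R c) := rfl
    rw [h, h2, AlgHom.commutes]
    rfl

theorem rhoOfBasis_apply (I : Ideal (R ⊗[k] A))
    (b : Module.Basis (Fin g) R ((R ⊗[k] A) ⧸ I)) (a : A) :
    rhoOfBasis I b a = Algebra.leftMulMatrix b (Ideal.Quotient.mk I ((1 : R) ⊗ₜ[k] a)) := rfl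

/-- **The chart point of an ideal** such that `1, x, …, x^(g-1)` is a basis of the quotient. -/
noncomputable def ofBasis (I : Ideal (R ⊗[k] A))
    (b : Module.Basis (Fin g) R ((R ⊗[k] A) ⧸ I))
    (hb : ∀ i : Fin g, b i = Ideal.Quotient.mk I ((1 : R) ⊗ₜ[k] x ^ (i : ℕ))) :
    Pt k A x g R where
  ρ := rhoOfBasis I b
  comp := by
    intro i j hi
    rw [rhoOfBasis_apply, Algebra.leftMulMatrix_eq_repr_mul, hb i, ← map_mul, ← pow_succ']
    have h1 : Ideal.Quotient.mk I (((1 : R) ⊗ₜ[k] x) ^ ((i : ℕ) + 1)) = b ⟨(i : ℕ) + 1, hi⟩ :=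
      (hb ⟨(i : ℕ) + 1, hi⟩).symm
    rw [h1, Module.Basis.repr_self, Finsupp.single_apply]
    by_cases hj : (j : ℕ) = (i : ℕ) + 1
    · have : (⟨(i : ℕ) + 1, hi⟩ : Fin g) = j := Fin.ext hj.symm
      rw [if_pos this, if_pos hj]
    · have : (⟨(i : ℕ) + 1, hi⟩ : Fin g) ≠ j := fun e => hj (by rw [← e])
      rw [if_neg this, if_neg hj]

theorem ofBasis_rho (I : Ideal (R ⊗[k] A))
    (b : Module.Basis (Fin g) R ((R ⊗[k] A) ⧸ I))
    (hb : ∀ i : Fin g, b i = Ideal.Quotient.mk I ((1 : R) ⊗ₜ[k] x ^ (i : ℕ)))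
    (c : R ⊗[k] A) :
    (ofBasis x I b hb).rho c = Algebra.leftMulMatrix b (Ideal.Quotient.mk I c) := by
  induction c using TensorProduct.induction_on with
  | zero => rw [map_zero, map_zero, map_zero]
  | tmul r a =>
    rw [Pt.rho_tmul]
    have h : (r ⊗ₜ[k] a : R ⊗[k] A) = r • ((1 : R) ⊗ₜ[k] a) := by
      rw [TensorProduct.smul_tmul', smul_eq_mul, mul_one]
    have h2 : Ideal.Quotient.mk I (r • ((1 : R) ⊗ₜ[k] a))
        = r • Ideal.Quotient.mk I ((1 : R) ⊗ₜ[k] a) := rfl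
    rw [h, h2, map_smul]
    rfl
  | add c c' hc hc' => rw [map_add, map_add, map_add, hc, hc']

theorem e0_eq_repr_one (I : Ideal (R ⊗[k] A))
    (b : Module.Basis (Fin g) R ((R ⊗[k] A) ⧸ I))
    (hb : ∀ i : Fin g, b i = Ideal.Quotient.mk I ((1 : R) ⊗ₜ[k] x ^ (i : ℕ))) :
    e0 g R = ⇑(b.repr (1 : (R ⊗[k] A) ⧸ I)) := by
  rcases Nat.eq_zero_or_pos g with h0 | hpos
  · subst h0
    funext i
    exact i.elim0
  · have h1 : (1 : (R ⊗[k] A) ⧸ I) = b ⟨0, hpos⟩ := by
      rw [hb ⟨0, hpos⟩]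
      change _ = Ideal.Quotient.mk I (((1 : R) ⊗ₜ[k] x) ^ 0)
      rw [pow_zero, map_one]
    rw [h1, Module.Basis.repr_self, e0_eq_single hpos]
    funext i
    rw [Finsupp.single_apply, Pi.single_apply]
    by_cases hi : i = ⟨0, hpos⟩
    · rw [if_pos hi, if_pos hi.symm]
    · rw [if_neg hi, if_neg (fun e => hi e.symm)]

theorem ofBasis_quot (I : Ideal (R ⊗[k] A))
    (b : Module.Basis (Fin g) R ((R ⊗[k] A) ⧸ I))
    (hb : ∀ i : Fin g, b i = Ideal.Quotient.mk I ((1 : R) ⊗ₜ[k] x ^ (i : ℕ)))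
    (c : R ⊗[k] A) :
    (ofBasis x I b hb).quot c = ⇑(b.repr (Ideal.Quotient.mk I c)) := by
  change ((ofBasis x I b hb).rho c).mulVec (e0 g R) = _
  rw [ofBasis_rho, e0_eq_repr_one x I b hb, Algebra.leftMulMatrix_mulVec_repr, mul_one]

/-- the ideal of `ofBasis` is the given ideal. -/
theorem ofBasis_ideal (I : Ideal (R ⊗[k] A))
    (b : Module.Basis (Fin g) R ((R ⊗[k] A) ⧸ I))
    (hb : ∀ i : Fin g, b i = Ideal.Quotient.mk I ((1 : R) ⊗ₜ[k] x ^ (i : ℕ))) :
    (ofBasis x I b hb).ideal = I := by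
  ext c
  change (ofBasis x I b hb).quot c = 0 ↔ c ∈ I
  rw [ofBasis_quot]
  constructor
  · intro h
    have h1 : b.repr (Ideal.Quotient.mk I c) = 0 := by
      apply Finsupp.ext
      intro i
      exact congrFun h i
    have h2 : Ideal.Quotient.mk I c = 0 := by
      have := congrArg b.repr.symm h1
      rwa [LinearEquiv.symm_apply_apply, map_zero] at this
    exact Ideal.Quotient.eq_zero_iff_mem.1 h2
  · intro h
    rw [Ideal.Quotient.eq_zero_iff_mem.2 h, map_zero]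
    rfl

end OfBasis

/-- **CH-IDEAL.** -/
theorem stmt_IDEAL : Stmt_IDEAL.{u} := by
  intro k _ A _ _ x g R _ _
  refine ⟨fun p p' h => pt_ext_of_ideal p p' h, ?_⟩
  rintro I ⟨b, hb⟩
  exact ⟨ofBasis x I b hb, ofBasis_ideal x I b hb⟩

end Fermat.Agent.S25.Chart.H92
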