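/-
helper92, S25 (Jacobian exists): **invertible modules have rank one** (Mathlib only).

For an invertible module `M` over a commutative ring `R`:
* `rankOne`        : `φ m • m' = φ m' • m` for every functional `φ : M →ₗ[R] R`;
* `exists_dualBasis` : there are finitely many `φ i`, `m i` with `∑ φ i (m i) = 1`;
* `sum_dualBasis`  : then `∑ φ i q • m i = q` for every `q`.
-/
import Mathlib

set_option autoImplicit false

open TensorProduct

namespace Fermat.Agent.S25.Chart.H92R

section Free

variable {R : Type*} [CommRing R] {M : Type*} [AddCommGroup M] [Module R M]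

/-- the rank one identity for a module isomorphic to the ring. -/
theorem rankOne_of_equiv (e : M ≃ₗ[R] R) (φ : M →ₗ[R] R) (a b : M) : φ a • b = φ b • a := by
  have ha : a = e a • e.symm 1 := by
    rw [← map_smul, smul_eq_mul, mul_one, e.symm_apply_apply]
  have hb : b = e b • e.symm 1 := by
    rw [← map_smul, smul_eq_mul, mul_one, e.symm_apply_apply]
  rw [ha, hb, map_smul, map_smul, smul_smul, smul_smul, smul_eq_mul, smul_eq_mul]
  congr 1
  ring

end Free

section Inv

variable {R : Type*} [CommRing R] {M : Type*} [AddCommGroup M] [Module R M]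
  [Module.Invertible R M]

/-- the rank one identity holds after localising at each member of a suitable cover. -/
theorem rankOne_local (r : R)
    (hfree : Module.Free (Localization.Away r) (LocalizedModule.Away r M))
    (φ : M →ₗ[R] R) (m m' : M) : ∃ n : ℕ, r ^ n • (φ m • m' - φ m' • m) = 0 := by
  obtain ⟨e⟩ := (Module.Invertible.free_iff_linearEquiv
    (R := Localization.Away r) (M := LocalizedModule.Away r M)).1 hfree
  let φ' : LocalizedModule.Away r M →ₗ[Localization.Away r] Localization.Away r :=
    LinearMap.extendScalarsOfIsLocalization (.powers r) _ <| IsLocalizedModule.map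
      (.powers r) (LocalizedModule.mkLinearMap _ M) (Algebra.linearMap R _) φ
  have hφ' : ∀ x : M, φ' (LocalizedModule.mkLinearMap (.powers r) M x)
      = algebraMap R (Localization.Away r) (φ x) := fun x =>
    IsLocalizedModule.map_apply (.powers r) (LocalizedModule.mkLinearMap _ M)
      (Algebra.linearMap R _) φ x
  have h := rankOne_of_equiv e φ' (LocalizedModule.mkLinearMap (.powers r) M m)
    (LocalizedModule.mkLinearMap (.powers r) M m')
  rw [hφ', hφ', algebraMap_smul, algebraMap_smul, ← map_smul, ← map_smul, ← sub_eq_zero,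
    ← map_sub] at h
  obtain ⟨⟨c, n, rfl⟩, hc⟩ :=
    (IsLocalizedModule.eq_zero_iff (.powers r) (LocalizedModule.mkLinearMap (.powers r) M)).1 h
  exact ⟨n, hc⟩

/-- **The rank one identity**: `φ m • m' = φ m' • m`. -/
theorem rankOne (φ : M →ₗ[R] R) (m m' : M) : φ m • m' = φ m' • m := by
  classical
  obtain ⟨s, hs, hfree⟩ := Module.Invertible.exists_finset_free_localization (R := R) (M := M)
  rw [← sub_eq_zero]
  set x := φ m • m' - φ m' • m with hx
  have hloc : ∀ r ∈ s, ∃ n : ℕ, r ^ n • x = 0 := fun r hr => rankOne_local r (hfree r hr) φ m m'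
  choose! n hn using hloc
  -- a uniform exponent
  have hN : ∀ r ∈ s, r ^ (s.sup n) • x = 0 := by
    intro r hr
    have hle : n r ≤ s.sup n := Finset.le_sup hr
    obtain ⟨d, hd⟩ := Nat.exists_eq_add_of_le hle
    rw [hd, pow_add, mul_comm, mul_smul, hn r hr, smul_zero]
  have htop := Ideal.span_pow_eq_top (s : Set R) hs (s.sup n)
  have hann : Ideal.span ((fun y : R => y ^ (s.sup n)) '' (s : Set R))
      ≤ LinearMap.ker (LinearMap.toSpanSingleton R M x) := by
    rw [Ideal.span_le]
    rintro _ ⟨r, hr, rfl⟩
    change (LinearMap.toSpanSingleton R M x) (r ^ (s.sup n)) = 0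
    rw [LinearMap.toSpanSingleton_apply]
    exact hN r hr
  rw [htop] at hann
  have h1 : (1 : R) ∈ LinearMap.ker (LinearMap.toSpanSingleton R M x) := hann trivial
  have h2 : (LinearMap.toSpanSingleton R M x) 1 = 0 := h1
  rwa [LinearMap.toSpanSingleton_apply, one_smul] at h2

/-- a finite "dual basis" of an invertible module. -/
theorem exists_dualBasis :
    ∃ (ι : Type) (_ : Fintype ι) (φ : ι → (M →ₗ[R] R)) (b : ι → M), ∑ i, φ i (b i) = 1 := by
  classical
  obtain ⟨S, hS⟩ := ((Module.Invertible.linearEquiv R M).symm 1).exists_finset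
  have h1 : (Module.Invertible.linearEquiv R M)
      (∑ i ∈ S, (i.1 : Module.Dual R M) ⊗ₜ[R] (i.2 : M)) = 1 := by
    rw [← hS, LinearEquiv.apply_symm_apply]
  rw [map_sum] at h1
  have h2 : ∀ i : Module.Dual R M × M,
      (Module.Invertible.linearEquiv R M) ((i.1 : Module.Dual R M) ⊗ₜ[R] (i.2 : M))
        = i.1 i.2 := fun i => rfl
  rw [Finset.sum_congr rfl (fun i _ => h2 i)] at h1
  refine ⟨Fin S.card, inferInstance, fun j => (S.equivFin.symm j).1.1,
    fun j => (S.equivFin.symm j).1.2, ?_⟩
  rw [← h1]
  rw [← Finset.sum_coe_sort S]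
  exact Fintype.sum_equiv S.equivFin.symm _ _ (fun j => rfl)

/-- `∑ φ i q • b i = q` for a dual basis. -/
theorem sum_dualBasis {ι : Type} [Fintype ι] (φ : ι → (M →ₗ[R] R)) (b : ι → M)
    (h : ∑ i, φ i (b i) = 1) (q : M) : ∑ i, φ i q • b i = q := by
  have h1 : ∀ i, φ i q • b i = φ i (b i) • q := fun i => rankOne (φ i) q (b i)
  rw [Finset.sum_congr rfl (fun i _ => h1 i), ← Finset.sum_smul, h, one_smul]

end Inv

end Fermat.Agent.S25.Chart.H92R
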