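/-
helper92, S25 (Jacobian exists), package CHART, leaf **CH-DIVCYC** (`Chart.Stmt_DIVCYC2` of `Chart/Defs3b.lean`,
the corrected form of `Stmt_DIVCYC`).

Over the field `k`: `p` a chart point, `L` a triple, `(s0, s1)` a regular section with divisor `Z_p`.
Then there is `q : L.P0` such that `Φ : k^g ⊕ S0 → P0`, `(a, c) ↦ Σ a_i x0^i q + c s0`, is bijective.

PROOF.  `S = k ⊗ B0`, `P = L.P0` (invertible), `I = p.ideal = (S s0 : P)`.
* `S s0 = I P` (`⊇` is `div0`; `s0 = Σ φ_i(s0) b_i` for a dual basis, and `φ_i(s0) ∈ I` by the rank one identity).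
* `S ⧸ I` is a finite `k`-module (spanned by `1, x0, …, x0^(g-1)`), hence artinian, hence semilocal, so the invertible
  `S ⧸ I`-module `(S ⧸ I) ⊗ P` is free of rank one (Mathlib: `Pic` of a semilocal ring is trivial); a generator is
  `1 ⊗ q`.
* `Φ` is onto: `m ≡ c q` modulo `I P = S s0`, and `c ≡ Σ a_i x0^i` modulo `I`.
* `Φ` is injective: `b q ∈ I P` implies `b ∈ I`, and `b = Σ a_i x0^i ∈ I` implies `a = 0`; `s0` is regular.
-/
import Fermat.Agent.S25.Chart.Defs3b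
import Fermat.Agent.S25.Chart.H92_Ideal
import Fermat.Agent.S25.Chart.H92_InvRankOne

set_option autoImplicit false

universe u

open Polynomial TensorProduct

namespace Fermat.Agent.S25.Chart.H92C

open Fermat.Agent.S25.Chart Fermat.Agent.S25.LB Fermat.Agent.S25.Chart.H92R

/-! ## Part A: an invertible module modulo an ideal with semilocal quotient -/

section Abs

variable {S : Type u} [CommRing S] {P : Type u} [AddCommGroup P] [Module S P]

/-- every element of `(S ⧸ I) ⊗ P` is of the form `1 ⊗ q`. -/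
theorem exists_one_tmul (I : Ideal S) (w : (S ⧸ I) ⊗[S] P) :
    ∃ q : P, w = (1 : S ⧸ I) ⊗ₜ[S] q := by
  induction w using TensorProduct.induction_on with
  | zero => exact ⟨0, (TensorProduct.tmul_zero _ _).symm⟩
  | tmul a q =>
    obtain ⟨s, rfl⟩ := Ideal.Quotient.mk_surjective a
    refine ⟨s • q, ?_⟩
    rw [TensorProduct.tmul_smul, TensorProduct.smul_tmul']
    congr 1
    rw [Algebra.smul_def, mul_one]
    rfl
  | add x y hx hy =>
    obtain ⟨q, rfl⟩ := hx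
    obtain ⟨q', rfl⟩ := hy
    exact ⟨q + q', (TensorProduct.tmul_add _ _ _).symm⟩

/-- `1 ⊗ m = 0` in `(S ⧸ I) ⊗ P` iff `m ∈ I P`. -/
theorem one_tmul_eq_zero_iff (I : Ideal S) (m : P) :
    (1 : S ⧸ I) ⊗ₜ[S] m = 0 ↔ m ∈ (I • ⊤ : Submodule S P) := by
  have h := TensorProduct.quotTensorEquivQuotSMul_mk_tmul (M := P) I 1 m
  rw [one_smul, map_one] at h
  rw [← (TensorProduct.quotTensorEquivQuotSMul P I).map_eq_zero_iff, h,
    Submodule.Quotient.mk_eq_zero]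

/-- **a generator modulo `I`** of an invertible module, when `S ⧸ I` is semilocal. -/
theorem exists_gen_mod [Module.Invertible S P] (I : Ideal S) [Finite (MaximalSpectrum (S ⧸ I))] :
    ∃ q : P, (∀ m : P, ∃ c : S, m - c • q ∈ (I • ⊤ : Submodule S P)) ∧
      ∀ b : S, b • q ∈ (I • ⊤ : Submodule S P) → b ∈ I := by
  have hfree : Module.Free (S ⧸ I) ((S ⧸ I) ⊗[S] P) := inferInstance
  obtain ⟨e⟩ := Module.Invertible.free_iff_linearEquiv.mp hfree
  obtain ⟨q, hq⟩ := exists_one_tmul I (e.symm 1)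
  have key : ∀ c : S, (1 : S ⧸ I) ⊗ₜ[S] (c • q) = e.symm (Ideal.Quotient.mk I c) := by
    intro c
    have h1 : (Ideal.Quotient.mk I c) = (Ideal.Quotient.mk I c) • (1 : S ⧸ I) := by
      rw [smul_eq_mul, mul_one]
    rw [h1, map_smul, hq, TensorProduct.smul_tmul', smul_eq_mul, mul_one]
    rw [TensorProduct.tmul_smul, TensorProduct.smul_tmul']
    congr 1
    rw [Algebra.smul_def, mul_one]
    rfl
  refine ⟨q, ?_, ?_⟩
  · intro m
    obtain ⟨c, hc⟩ := Ideal.Quotient.mk_surjective (e ((1 : S ⧸ I) ⊗ₜ[S] m))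
    refine ⟨c, ?_⟩
    rw [← one_tmul_eq_zero_iff, TensorProduct.tmul_sub, key, hc, LinearEquiv.symm_apply_apply,
      sub_self]
  · intro b hb
    rw [← one_tmul_eq_zero_iff, key] at hb
    have h2 : Ideal.Quotient.mk I b = 0 := by
      have := congrArg e hb
      rwa [LinearEquiv.apply_symm_apply, map_zero] at this
    exact Ideal.Quotient.eq_zero_iff_mem.1 h2

/-- **`S s = I P`** for the colon ideal `I = (S s : P)` of an element of an invertible module. -/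
theorem mem_smul_top_of_colon [Module.Invertible S P] (I : Ideal S) (s : P)
    (hI : ∀ c : S, (∀ q : P, ∃ d : S, c • q = d • s) → c ∈ I) :
    s ∈ (I • ⊤ : Submodule S P) := by
  obtain ⟨ι, _, φ, b, h1⟩ := exists_dualBasis (R := S) (M := P)
  rw [← sum_dualBasis φ b h1 s]
  refine Submodule.sum_mem _ (fun i _ => ?_)
  refine Submodule.smul_mem_smul (hI _ (fun q => ⟨φ i q, rankOne (φ i) s q⟩)) trivial

theorem exists_smul_of_mem_smul_top (I : Ideal S) (s : P)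
    (hI : ∀ c : S, c ∈ I → ∀ q : P, ∃ d : S, c • q = d • s) (m : P)
    (hm : m ∈ (I • ⊤ : Submodule S P)) : ∃ d : S, m = d • s := by
  refine Submodule.smul_induction_on hm (fun c hc q _ => hI c hc q) ?_
  rintro x y ⟨d, rfl⟩ ⟨d', rfl⟩
  exact ⟨d + d', (add_smul _ _ _).symm⟩

end Abs

/-! ## Part B: the quotient by the ideal of a chart point -/

section Quot

variable {k : Type u} [CommRing k] {A : Type u} [CommRing A] [Algebra k A] {x : A} {g : ℕ}
  {R : Type u} [CommRing R] [Algebra k R]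

/-- `quot (Σ a_i ⊗ x^i) = a`. -/
theorem quot_sum_tmul (p : Pt k A x g R) (a : Fin g → R) :
    p.quot (∑ i : Fin g, (a i ⊗ₜ[k] (x ^ (i : ℕ)) : R ⊗[k] A)) = a := by
  have h0 : ∀ i : Fin g, (a i ⊗ₜ[k] (x ^ (i : ℕ)) : R ⊗[k] A)
      = a i • ((1 : R) ⊗ₜ[k] x ^ (i : ℕ)) := by
    intro i
    rw [Algebra.TensorProduct.tmul_pow, one_pow]
    change _ = (a i • (1 : R)) ⊗ₜ[k] (x ^ (i : ℕ))
    rw [smul_eq_mul, mul_one]
  rw [Finset.sum_congr rfl (fun i _ => h0 i), map_sum]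
  funext l
  rw [Finset.sum_apply]
  have h : ∀ i : Fin g, (p.quot ((a i) • ((1 : R) ⊗ₜ[k] x ^ (i : ℕ)))) l
      = if i = l then a i else 0 := by
    intro i
    rw [map_smul, H92.quot_pow, Pi.smul_apply, Pi.single_apply, smul_eq_mul]
    by_cases hil : l = i
    · rw [if_pos hil, if_pos hil.symm, mul_one]
    · rw [if_neg hil, if_neg (fun e => hil e.symm), mul_zero]
  rw [Finset.sum_congr rfl (fun i _ => h i), Finset.sum_ite_eq' Finset.univ l]
  simp

/-- the normal form modulo the ideal, with pure tensors. -/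
theorem sub_sum_tmul_mem_ideal (p : Pt k A x g R) (b : R ⊗[k] A) :
    b - ∑ i : Fin g, (p.quot b i ⊗ₜ[k] (x ^ (i : ℕ)) : R ⊗[k] A) ∈ p.ideal := by
  change p.quot _ = 0
  rw [map_sub, quot_sum_tmul, sub_self]

/-- `(R ⊗ A) ⧸ p.ideal` is a finite `R`-module. -/
theorem finite_quot (p : Pt k A x g R) : Module.Finite R ((R ⊗[k] A) ⧸ p.ideal) := by
  refine Module.Finite.of_surjective
    (Fintype.linearCombination R
      (fun i : Fin g => Ideal.Quotient.mkₐ R p.ideal ((1 : R) ⊗ₜ[k] x ^ (i : ℕ)))) ?_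
  intro y
  obtain ⟨c, rfl⟩ := Ideal.Quotient.mk_surjective y
  refine ⟨p.quot c, ?_⟩
  rw [Fintype.linearCombination_apply]
  have h1 : ∀ i : Fin g, p.quot c i • Ideal.Quotient.mkₐ R p.ideal ((1 : R) ⊗ₜ[k] x ^ (i : ℕ))
      = Ideal.Quotient.mkₐ R p.ideal (p.quot c i • ((1 : R) ⊗ₜ[k] x ^ (i : ℕ))) :=
    fun i => (map_smul _ _ _).symm
  rw [Finset.sum_congr rfl (fun i _ => h1 i), ← map_sum]
  symm
  exact Ideal.Quotient.eq.2 (H92.sub_sum_mem_ideal p c)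

end Quot

/-! ## Part C: DIVCYC -/

section Main

variable {k : Type u} [Field k] {𝒞 : CurveDatum k} {g : ℕ}

theorem quot_uOf (p : Pt k 𝒞.B0 𝒞.x0 g k) (a : Fin g → k) : p.quot (uOf 𝒞 a) = a :=
  quot_sum_tmul p a

theorem sub_uOf_mem_ideal (p : Pt k 𝒞.B0 𝒞.x0 g k) (b : k ⊗[k] 𝒞.B0) :
    b - uOf 𝒞 (p.quot b) ∈ p.ideal :=
  sub_sum_tmul_mem_ideal p b

/-- **DIVCYC**, explicit form. -/
theorem divcyc (p : Pt k 𝒞.B0 𝒞.x0 g k) (L : Triple 𝒞 k) (s0 : L.P0) (s1 : L.P1)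
    (hdiv : IsDiv L s0 s1 p) :
    ∃ q : L.P0, Function.Bijective (fun ac : (Fin g → k) × (k ⊗[k] 𝒞.B0) =>
      uOf 𝒞 ac.1 • q + ac.2 • s0) := by
  have := L.inv0
  have hfin : Module.Finite k ((k ⊗[k] 𝒞.B0) ⧸ p.ideal) := finite_quot p
  have : IsArtinianRing ((k ⊗[k] 𝒞.B0) ⧸ p.ideal) := IsArtinianRing.of_finite k _
  obtain ⟨q, hq1, hq2⟩ := exists_gen_mod (S := k ⊗[k] 𝒞.B0) (P := L.P0) p.ideal
  have hs0 : s0 ∈ (p.ideal • ⊤ : Submodule (k ⊗[k] 𝒞.B0) L.P0) :=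
    mem_smul_top_of_colon p.ideal s0 (fun c hc => (hdiv.div0 c).2 hc)
  have hIP : ∀ m : L.P0, m ∈ (p.ideal • ⊤ : Submodule (k ⊗[k] 𝒞.B0) L.P0) →
      ∃ d : k ⊗[k] 𝒞.B0, m = d • s0 :=
    exists_smul_of_mem_smul_top p.ideal s0 (fun c hc => (hdiv.div0 c).1 hc)
  refine ⟨q, ?_, ?_⟩
  · -- injective
    rintro ⟨a, c⟩ ⟨a', c'⟩ h
    change uOf 𝒞 a • q + c • s0 = uOf 𝒞 a' • q + c' • s0 at h
    have h1 : (uOf 𝒞 a - uOf 𝒞 a') • q = (c' - c) • s0 := by
      rw [sub_smul, sub_smul, sub_eq_sub_iff_add_eq_add, h, add_comm]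
    have h2 : (uOf 𝒞 a - uOf 𝒞 a') • q ∈ (p.ideal • ⊤ : Submodule (k ⊗[k] 𝒞.B0) L.P0) := by
      rw [h1]
      exact Submodule.smul_mem _ _ hs0
    have h3 : p.quot (uOf 𝒞 a - uOf 𝒞 a') = 0 := hq2 _ h2
    rw [map_sub, quot_uOf, quot_uOf, sub_eq_zero] at h3
    have h4 : (c' - c) • s0 = 0 := by
      have h40 : uOf 𝒞 a - uOf 𝒞 a' = 0 := by rw [h3, sub_self]
      rw [← h1, h40]
      exact zero_smul (k ⊗[k] 𝒞.B0) q
    have h5 := hdiv.reg0 _ h4
    rw [sub_eq_zero] at h5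
    rw [h3, h5]
  · -- surjective
    intro m
    obtain ⟨c, hc⟩ := hq1 m
    obtain ⟨d, hd⟩ := hIP _ hc
    obtain ⟨d', hd'⟩ := (hdiv.div0 _).1 (sub_uOf_mem_ideal p c) q
    refine ⟨(p.quot c, d' + d), ?_⟩
    change uOf 𝒞 (p.quot c) • q + (d' + d) • s0 = m
    rw [add_smul, ← hd, ← hd', sub_smul]
    abel

theorem stmt_DIVCYC2 : Stmt_DIVCYC2.{u} := by
  intro k _ 𝒞 _ g p L s0 s1 hdiv
  exact divcyc p L s0 s1 hdiv

end Main

end Fermat.Agent.S25.Chart.H92C
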