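/-
helper92, S25 (Jacobian exists), package CHART, leaf **DIV-UNIQ** (`Chart.Stmt_DIVUNIQ`).

The triple of a chart point is unique up to isomorphism: if `(s0, s1)` is a regular section of `L` and
`(s0', s1')` a regular section of `L'`, both with divisor `Z_p`, then `L ≅ L'`.

* `exists_coeff`          : the coefficient functional `λ_c` of an element `c` of the colon ideal `(S s : P)`;
* `exists_hom_of_colon`   : a linear map `P → P'` with `s ↦ s'` (dual basis of `P'`);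
* `exists_equiv_of_colon` : **invertible modules with regular sections with the same colon ideal are isomorphic**,
                            by an isomorphism with `s ↦ s'`;
* `locS0`                 : `R ⊗ B01` is the localisation of `R ⊗ B0` at `x0` (element form);
* `exists_locMap`, `locMap_unique` : extension of a map on the chart `V0` to the overlap;
* `eq_zero_of_colon_smul` : the annihilator argument on the overlap;
* `stmt_DIVUNIQ : Stmt_DIVUNIQ`.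
-/
import Fermat.Agent.S25.Chart.Defs2
import Fermat.Agent.S25.Chart.H92_InvRankOne

set_option autoImplicit false
set_option linter.style.haveILetI false

universe u

open Polynomial TensorProduct

namespace Fermat.Agent.S25.Chart.H92U

open Fermat.Agent.S25.Chart Fermat.Agent.S25.LB Fermat.Agent.S25.Chart.H92R

/-! ## Part A: invertible modules with a regular section -/

section Abs

variable {S : Type*} [CommRing S] {P : Type*} [AddCommGroup P] [Module S P]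
  {P' : Type*} [AddCommGroup P'] [Module S P']

/-- the coefficient functional of an element of the colon ideal `(S s : P)`. -/
theorem exists_coeff (s : P) (hs : ∀ c : S, c • s = 0 → c = 0) (c : S)
    (hc : ∀ q : P, ∃ d : S, c • q = d • s) : ∃ l : P →ₗ[S] S, ∀ q, c • q = l q • s := by
  choose d hd using hc
  have huniq : ∀ a b : S, a • s = b • s → a = b := by
    intro a b h
    have : (a - b) • s = 0 := by rw [sub_smul, h, sub_self]
    exact sub_eq_zero.1 (hs _ this)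
  refine ⟨{ toFun := d, map_add' := ?_, map_smul' := ?_ }, hd⟩
  · intro q q'
    apply huniq
    rw [← hd, add_smul, ← hd, ← hd, smul_add]
  · intro a q
    apply huniq
    rw [← hd, RingHom.id_apply, smul_eq_mul, mul_smul, ← hd, smul_comm]

variable [Module.Invertible S P']

/-- elements of the form `φ' s'` lie in the colon ideal `(S s' : P')`. -/
theorem dual_mem_colon (s' : P') (φ : P' →ₗ[S] S) (q' : P') : ∃ d : S, φ s' • q' = d • s' :=
  ⟨φ q', rankOne φ s' q'⟩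

/-- **a linear map `P → P'` with `s ↦ s'`**, if the colon ideal of `s'` is contained in that of `s`. -/
theorem exists_hom_of_colon (s : P) (s' : P') (hs : ∀ c : S, c • s = 0 → c = 0)
    (hI : ∀ c : S, (∀ q' : P', ∃ d : S, c • q' = d • s') → (∀ q : P, ∃ d : S, c • q = d • s)) :
    ∃ f : P →ₗ[S] P', f s = s' := by
  classical
  obtain ⟨ι, _, φ, b, hφ⟩ := exists_dualBasis (R := S) (M := P')
  have hcol : ∀ i, ∃ l : P →ₗ[S] S, ∀ q, φ i s' • q = l q • s := fun i =>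
    exists_coeff s hs (φ i s') (hI _ (fun q' => dual_mem_colon s' (φ i) q'))
  choose l hl using hcol
  refine ⟨∑ i, (l i).smulRight (b i), ?_⟩
  rw [LinearMap.sum_apply]
  have h1 : ∀ i, ((l i).smulRight (b i)) s = φ i s' • b i := by
    intro i
    rw [LinearMap.smulRight_apply]
    congr 1
    have h2 := hl i s
    have h3 : (φ i s' - l i s) • s = 0 := by rw [sub_smul, h2, sub_self]
    exact (sub_eq_zero.1 (hs _ h3)).symm
  rw [Finset.sum_congr rfl (fun i _ => h1 i)]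
  exact sum_dualBasis φ b hφ s'

variable [Module.Invertible S P]

/-- an endomorphism of an invertible module fixing a regular section is the identity. -/
theorem end_eq_id_of_fix (s : P) (hs : ∀ c : S, c • s = 0 → c = 0) (u : P →ₗ[S] P)
    (hu : u s = s) (q : P) : u q = q := by
  obtain ⟨r, hr⟩ := (Module.Invertible.toModuleEnd_bijective S P).2 u
  have h1 : ∀ y : P, u y = r • y := fun y => by rw [← hr]; rfl
  have h2 : (r - 1) • s = 0 := by rw [sub_smul, one_smul, ← h1, hu, sub_self]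
  have h3 : r = 1 := sub_eq_zero.1 (hs _ h2)
  rw [h1, h3, one_smul]

/-- **Invertible modules with regular sections with the same colon ideal are isomorphic.** -/
theorem exists_equiv_of_colon (s : P) (s' : P') (hs : ∀ c : S, c • s = 0 → c = 0)
    (hs' : ∀ c : S, c • s' = 0 → c = 0)
    (hI : ∀ c : S, (∀ q : P, ∃ d : S, c • q = d • s) ↔ (∀ q' : P', ∃ d : S, c • q' = d • s')) :
    ∃ e : P ≃ₗ[S] P', e s = s' := by
  obtain ⟨f, hf⟩ := exists_hom_of_colon s s' hs (fun c h => (hI c).2 h)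
  obtain ⟨g, hg⟩ := exists_hom_of_colon s' s hs' (fun c h => (hI c).1 h)
  have hgf : ∀ q, g (f q) = q := fun q =>
    end_eq_id_of_fix s hs (g.comp f) (by rw [LinearMap.comp_apply, hf, hg]) q
  have hfg : ∀ q', f (g q') = q' := fun q' =>
    end_eq_id_of_fix s' hs' (f.comp g) (by rw [LinearMap.comp_apply, hg, hf]) q'
  exact ⟨LinearEquiv.ofLinearMap f g (LinearMap.ext hfg) (LinearMap.ext hgf), hf⟩

/-- if the finitely many elements `φ' s'` of the colon ideal kill `q'`, then `q' = 0`. -/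
theorem eq_zero_of_dual_smul (s' : P') (hs' : ∀ c : S, c • s' = 0 → c = 0) (q' : P')
    (h : ∀ φ : P' →ₗ[S] S, φ s' • q' = 0) : q' = 0 := by
  classical
  obtain ⟨ι, _, φ, b, hφ⟩ := exists_dualBasis (R := S) (M := P')
  rw [← sum_dualBasis φ b hφ q']
  refine Finset.sum_eq_zero (fun i _ => ?_)
  have h1 : φ i q' • s' = 0 := by rw [← rankOne (φ i) s' q']; exact h (φ i)
  rw [hs' _ h1, zero_smul]

end Abs

/-! ## Part B: the overlap -/

section Loc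

variable {k : Type u} [Field k] {𝒞 : CurveDatum k} {R : Type u} [CommRing R] [Algebra k R]

/-- `x0` on the chart `V0`. -/
noncomputable abbrev xx (𝒞 : CurveDatum k) (R : Type u) [CommRing R] [Algebra k R] :
    R ⊗[k] 𝒞.B0 := (1 : R) ⊗ₜ[k] 𝒞.x0

/-- `x0` on the overlap. -/
noncomputable abbrev XX (𝒞 : CurveDatum k) (R : Type u) [CommRing R] [Algebra k R] :
    R ⊗[k] 𝒞.B01 := (1 : R) ⊗ₜ[k] 𝒞.i0 𝒞.x0

/-- `1 / x0` on the chart `V1`. -/
noncomputable abbrev zz (𝒞 : CurveDatum k) (R : Type u) [CommRing R] [Algebra k R] :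
    R ⊗[k] 𝒞.B1 := (1 : R) ⊗ₜ[k] 𝒞.z1

/-- `1 / x0` on the overlap. -/
noncomputable abbrev ZZ (𝒞 : CurveDatum k) (R : Type u) [CommRing R] [Algebra k R] :
    R ⊗[k] 𝒞.B01 := (1 : R) ⊗ₜ[k] 𝒞.i1 𝒞.z1

theorem XX_mul_ZZ : XX 𝒞 R * ZZ 𝒞 R = 1 := Triple.unit_mul_unit 𝒞 R

theorem ZZ_mul_XX : ZZ 𝒞 R * XX 𝒞 R = 1 := by rw [mul_comm]; exact XX_mul_ZZ

theorem ι0_xx : 𝒞.ι0 R (xx 𝒞 R) = XX 𝒞 R := rfl

theorem ι1_zz : 𝒞.ι1 R (zz 𝒞 R) = ZZ 𝒞 R := rfl

theorem XX_pow_mul_ZZ_pow (n : ℕ) : XX 𝒞 R ^ n * ZZ 𝒞 R ^ n = 1 := by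
  rw [← mul_pow, XX_mul_ZZ, one_pow]

theorem ZZ_pow_mul_XX_pow (n : ℕ) : ZZ 𝒞 R ^ n * XX 𝒞 R ^ n = 1 := by
  rw [← mul_pow, ZZ_mul_XX, one_pow]

section Mod

variable {Q : Type*} [AddCommGroup Q] [Module (R ⊗[k] 𝒞.B01) Q]

theorem XX_pow_cancel (n : ℕ) {a b : Q} (h : XX 𝒞 R ^ n • a = XX 𝒞 R ^ n • b) : a = b := by
  have := congrArg (fun y => ZZ 𝒞 R ^ n • y) h
  simpa only [smul_smul, ZZ_pow_mul_XX_pow, one_smul] using this

theorem ZZ_pow_cancel (n : ℕ) {a b : Q} (h : ZZ 𝒞 R ^ n • a = ZZ 𝒞 R ^ n • b) : a = b := by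
  have := congrArg (fun y => XX 𝒞 R ^ n • y) h
  simpa only [smul_smul, XX_pow_mul_ZZ_pow, one_smul] using this

end Mod

/-- **`R ⊗ B01` is the localisation of `R ⊗ B0` at `x0`** (element form). -/
theorem locS0 (h𝒞 : 𝒞.IsGood) (a : R ⊗[k] 𝒞.B01) :
    ∃ (n : ℕ) (c : R ⊗[k] 𝒞.B0), XX 𝒞 R ^ n * a = 𝒞.ι0 R c := by
  induction a using TensorProduct.induction_on with
  | zero => exact ⟨0, 0, by rw [mul_zero, map_zero]⟩
  | tmul r b =>
    letI : Algebra 𝒞.B0 𝒞.B01 := 𝒞.i0.toRingHom.toAlgebra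
    haveI : IsLocalization.Away 𝒞.x0 𝒞.B01 := h𝒞.loc0
    obtain ⟨⟨b0, ⟨_, n, rfl⟩⟩, hb⟩ := IsLocalization.surj (Submonoid.powers 𝒞.x0) b
    have hb' : b * 𝒞.i0 (𝒞.x0 ^ n) = 𝒞.i0 b0 := hb
    refine ⟨n, r ⊗ₜ[k] b0, ?_⟩
    have h1 : XX 𝒞 R ^ n = (1 : R) ⊗ₜ[k] ((𝒞.i0 𝒞.x0) ^ n) := by
      rw [Algebra.TensorProduct.tmul_pow, one_pow]
    have h2 : 𝒞.ι0 R (r ⊗ₜ[k] b0) = r ⊗ₜ[k] 𝒞.i0 b0 := rfl
    rw [h1, h2, Algebra.TensorProduct.tmul_mul_tmul, one_mul, ← hb', map_pow, mul_comm]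
  | add a a' ha ha' =>
    obtain ⟨n, c, hc⟩ := ha
    obtain ⟨n', c', hc'⟩ := ha'
    refine ⟨n + n', xx 𝒞 R ^ n' * c + xx 𝒞 R ^ n * c', ?_⟩
    rw [map_add, map_mul, map_mul, map_pow, map_pow, ι0_xx, ← hc, ← hc', mul_add, pow_add]
    ring

variable (L L' : Triple 𝒞 R)

theorem r0_smul (c : R ⊗[k] 𝒞.B0) (p : L.P0) : L.r0 (c • p) = 𝒞.ι0 R c • L.r0 p :=
  L.r0.map_smulₛₗ c p

theorem r1_smul (c : R ⊗[k] 𝒞.B1) (p : L.P1) : L.r1 (c • p) = 𝒞.ι1 R c • L.r1 p :=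
  L.r1.map_smulₛₗ c p

theorem r0_xx_pow (n : ℕ) (p : L.P0) : L.r0 (xx 𝒞 R ^ n • p) = XX 𝒞 R ^ n • L.r0 p := by
  rw [r0_smul, map_pow, ι0_xx]

theorem r1_zz_pow (n : ℕ) (p : L.P1) : L.r1 (zz 𝒞 R ^ n • p) = ZZ 𝒞 R ^ n • L.r1 p := by
  rw [r1_smul, map_pow, ι1_zz]

variable {L L'}

/-- the key compatibility: a map on `V0` respects the relation `x0^n m = r0 p`. -/
theorem loc_compat (f : L.P0 →ₗ[R ⊗[k] 𝒞.B0] L'.P0) {n n' : ℕ} {p p' : L.P0}
    (h : XX 𝒞 R ^ n' • L.r0 p = XX 𝒞 R ^ n • L.r0 p') :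
    XX 𝒞 R ^ n' • L'.r0 (f p) = XX 𝒞 R ^ n • L'.r0 (f p') := by
  have h1 : L.r0 (xx 𝒞 R ^ n' • p - xx 𝒞 R ^ n • p') = 0 := by
    rw [map_sub, r0_xx_pow L, r0_xx_pow L, h, sub_self]
  obtain ⟨l, hl⟩ := L.ker0 _ h1
  have h2 : xx 𝒞 R ^ l • (xx 𝒞 R ^ n' • f p - xx 𝒞 R ^ n • f p') = 0 := by
    rw [← map_smul, ← map_smul, ← map_sub, ← map_smul]
    have : xx 𝒞 R ^ l • (xx 𝒞 R ^ n' • p - xx 𝒞 R ^ n • p') = 0 := hl
    rw [this, map_zero]
  have h3 := congrArg L'.r0 h2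
  rw [r0_xx_pow L', map_sub, r0_xx_pow L', r0_xx_pow L', map_zero] at h3
  have h4 : XX 𝒞 R ^ l • (XX 𝒞 R ^ n' • L'.r0 (f p) - XX 𝒞 R ^ n • L'.r0 (f p'))
      = XX 𝒞 R ^ l • (0 : L'.P01) := by rw [h3, smul_zero]
  exact sub_eq_zero.1 (XX_pow_cancel (𝒞 := 𝒞) (R := R) l h4)

/-- **extension of a map on the chart `V0` to the overlap.** -/
theorem exists_locMap (h𝒞 : 𝒞.IsGood) (f : L.P0 →ₗ[R ⊗[k] 𝒞.B0] L'.P0) :
    ∃ F : L.P01 →ₗ[R ⊗[k] 𝒞.B01] L'.P01, ∀ p, F (L.r0 p) = L'.r0 (f p) := by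
  choose n p hnp using L.surj0
  have hnp' : ∀ m, XX 𝒞 R ^ n m • m = L.r0 (p m) := hnp
  -- the value
  obtain ⟨F0, hF0⟩ : ∃ F0 : L.P01 → L'.P01, ∀ m, F0 m = ZZ 𝒞 R ^ n m • L'.r0 (f (p m)) :=
    ⟨fun m => ZZ 𝒞 R ^ n m • L'.r0 (f (p m)), fun _ => rfl⟩
  -- the characteristic property
  have key : ∀ (m : L.P01) (n' : ℕ) (p' : L.P0), XX 𝒞 R ^ n' • m = L.r0 p' →
      XX 𝒞 R ^ n' • F0 m = L'.r0 (f p') := by
    intro m n' p' h
    have h1 : XX 𝒞 R ^ n' • L.r0 (p m) = XX 𝒞 R ^ n m • L.r0 p' := by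
      rw [← hnp', ← h, smul_smul, smul_smul, mul_comm]
    have h2 := loc_compat f h1
    calc XX 𝒞 R ^ n' • F0 m
        = ZZ 𝒞 R ^ n m • (XX 𝒞 R ^ n' • L'.r0 (f (p m))) := by
          rw [hF0, smul_smul, smul_smul, mul_comm]
      _ = L'.r0 (f p') := by
          rw [h2, smul_smul, ZZ_pow_mul_XX_pow, one_smul]
  have key0 : ∀ m : L.P01, L'.r0 (f (p m)) = XX 𝒞 R ^ n m • F0 m := fun m =>
    (key m (n m) (p m) (hnp' m)).symm
  have hadd : ∀ m m', F0 (m + m') = F0 m + F0 m' := by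
    intro m m'
    apply XX_pow_cancel (𝒞 := 𝒞) (R := R) (n m + n m')
    have h1 : XX 𝒞 R ^ (n m + n m') • (m + m')
        = L.r0 (xx 𝒞 R ^ n m' • p m + xx 𝒞 R ^ n m • p m') := by
      rw [map_add, r0_xx_pow L, r0_xx_pow L, ← hnp', ← hnp', smul_add, smul_smul, smul_smul,
        pow_add, mul_comm]
    calc XX 𝒞 R ^ (n m + n m') • F0 (m + m')
        = L'.r0 (f (xx 𝒞 R ^ n m' • p m + xx 𝒞 R ^ n m • p m')) := key _ _ _ h1
      _ = XX 𝒞 R ^ n m' • L'.r0 (f (p m)) + XX 𝒞 R ^ n m • L'.r0 (f (p m')) := by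
          rw [map_add, map_smul, map_smul, map_add, r0_xx_pow L', r0_xx_pow L']
      _ = XX 𝒞 R ^ (n m + n m') • (F0 m + F0 m') := by
          rw [key0 m, key0 m', smul_add, smul_smul, smul_smul, pow_add, mul_comm]
  have hsmul : ∀ (a : R ⊗[k] 𝒞.B01) (m : L.P01), F0 (a • m) = a • F0 m := by
    intro a m
    obtain ⟨l, c, hc⟩ := locS0 h𝒞 a
    apply XX_pow_cancel (𝒞 := 𝒞) (R := R) (l + n m)
    have h1 : XX 𝒞 R ^ (l + n m) • (a • m) = L.r0 (c • p m) := by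
      calc XX 𝒞 R ^ (l + n m) • (a • m)
          = (XX 𝒞 R ^ l * a) • (XX 𝒞 R ^ n m • m) := by
            rw [smul_smul, smul_smul, pow_add]
            congr 1
            ring
        _ = L.r0 (c • p m) := by rw [hc, hnp', r0_smul L]
    calc XX 𝒞 R ^ (l + n m) • F0 (a • m) = L'.r0 (f (c • p m)) := key _ _ _ h1
      _ = (XX 𝒞 R ^ l * a) • (XX 𝒞 R ^ n m • F0 m) := by
          rw [map_smul, r0_smul L', ← hc, key0 m]
      _ = XX 𝒞 R ^ (l + n m) • (a • F0 m) := by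
          rw [smul_smul, smul_smul, pow_add]
          congr 1
          ring
  refine ⟨{ toFun := F0, map_add' := hadd, map_smul' := hsmul }, fun q => ?_⟩
  have h0 : XX 𝒞 R ^ 0 • L.r0 q = L.r0 q := by rw [pow_zero, one_smul]
  have := key (L.r0 q) 0 q h0
  rwa [pow_zero, one_smul] at this

/-- a linear map on the overlap is determined by its values on the chart `V0`. -/
theorem locMap_unique (F G : L.P01 →ₗ[R ⊗[k] 𝒞.B01] L'.P01)
    (h : ∀ p, F (L.r0 p) = G (L.r0 p)) (m : L.P01) : F m = G m := by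
  obtain ⟨n, p, hp⟩ := L.surj0 m
  have hp' : XX 𝒞 R ^ n • m = L.r0 p := hp
  apply XX_pow_cancel (𝒞 := 𝒞) (R := R) n
  have hF : XX 𝒞 R ^ n • F m = F (L.r0 p) := by rw [← hp', map_smul]
  have hG : XX 𝒞 R ^ n • G m = G (L.r0 p) := by rw [← hp', map_smul]
  rw [hF, hG, h]

/-- **extension of an isomorphism on the chart `V0` to the overlap.** -/
theorem exists_locEquiv (h𝒞 : 𝒞.IsGood) (e : L.P0 ≃ₗ[R ⊗[k] 𝒞.B0] L'.P0) :
    ∃ E : L.P01 ≃ₗ[R ⊗[k] 𝒞.B01] L'.P01, ∀ p, E (L.r0 p) = L'.r0 (e p) := by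
  obtain ⟨F, hF⟩ := exists_locMap h𝒞 (e : L.P0 →ₗ[R ⊗[k] 𝒞.B0] L'.P0)
  obtain ⟨G, hG⟩ := exists_locMap h𝒞 (e.symm : L'.P0 →ₗ[R ⊗[k] 𝒞.B0] L.P0)
  have hFG : ∀ m', F (G m') = m' := fun m' =>
    locMap_unique (F.comp G) LinearMap.id (fun p' => by
      rw [LinearMap.comp_apply, hG, hF, LinearMap.id_apply]
      congr 1
      exact e.apply_symm_apply p') m'
  have hGF : ∀ m, G (F m) = m := fun m =>
    locMap_unique (G.comp F) LinearMap.id (fun p => by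
      rw [LinearMap.comp_apply, hF, hG, LinearMap.id_apply]
      congr 1
      exact e.symm_apply_apply p) m
  exact ⟨LinearEquiv.ofLinearMap F G (LinearMap.ext hFG) (LinearMap.ext hGF), hF⟩

/-- **the annihilator argument on the overlap**: an element of `P01` killed by the colon ideal of a regular
section of `P1` is zero. -/
theorem eq_zero_of_colon_smul (s1 : L.P1) (hs1 : ∀ c : R ⊗[k] 𝒞.B1, c • s1 = 0 → c = 0)
    (y : L.P01)
    (hy : ∀ c : R ⊗[k] 𝒞.B1, (∀ q : L.P1, ∃ d : R ⊗[k] 𝒞.B1, c • q = d • s1) →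
      𝒞.ι1 R c • y = 0) : y = 0 := by
  haveI := L.inv1
  obtain ⟨n, q, hq⟩ := L.surj1 y
  have hq' : ZZ 𝒞 R ^ n • y = L.r1 q := hq
  -- `r1 q` is killed by the elements `φ s1`
  have h1 : ∀ φ : L.P1 →ₗ[R ⊗[k] 𝒞.B1] (R ⊗[k] 𝒞.B1), L.r1 (φ s1 • q) = 0 := by
    intro φ
    rw [r1_smul L, ← hq', smul_comm, hy _ (fun q' => dual_mem_colon s1 φ q'), smul_zero]
  classical
  obtain ⟨ι, _, φ, b, hφ⟩ := exists_dualBasis (R := R ⊗[k] 𝒞.B1) (M := L.P1)
  have h2 : ∀ i, ∃ l : ℕ, zz 𝒞 R ^ l • (φ i s1 • q) = 0 := fun i => L.ker1 _ (h1 (φ i))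
  choose l hl using h2
  -- a uniform exponent
  have h3 : ∀ i, φ i s1 • (zz 𝒞 R ^ (Finset.univ.sup l) • q) = 0 := by
    intro i
    have hle : l i ≤ Finset.univ.sup l := Finset.le_sup (Finset.mem_univ i)
    obtain ⟨d, hd⟩ := Nat.exists_eq_add_of_le hle
    rw [smul_comm, hd, pow_add, mul_comm, mul_smul, hl i, smul_zero]
  have h4 : zz 𝒞 R ^ (Finset.univ.sup l) • q = 0 := by
    rw [← sum_dualBasis φ b hφ (zz 𝒞 R ^ (Finset.univ.sup l) • q)]
    refine Finset.sum_eq_zero (fun i _ => ?_)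
    have h5 : φ i (zz 𝒞 R ^ (Finset.univ.sup l) • q) • s1 = 0 := by
      rw [← rankOne (φ i) s1 _]; exact h3 i
    rw [hs1 _ h5, zero_smul]
  have h6 : ZZ 𝒞 R ^ (Finset.univ.sup l) • L.r1 q = 0 := by
    rw [← r1_zz_pow L, h4, map_zero]
  have h7 : L.r1 q = 0 := by
    have : ZZ 𝒞 R ^ (Finset.univ.sup l) • L.r1 q
        = ZZ 𝒞 R ^ (Finset.univ.sup l) • (0 : L.P01) := by rw [h6, smul_zero]
    exact ZZ_pow_cancel (𝒞 := 𝒞) (R := R) _ this
  have h8 : ZZ 𝒞 R ^ n • y = ZZ 𝒞 R ^ n • (0 : L.P01) := by rw [hq', h7, smul_zero]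
  exact ZZ_pow_cancel (𝒞 := 𝒞) (R := R) _ h8

end Loc

/-! ## The leaf -/

/-- **DIV-UNIQ.** -/
theorem stmt_DIVUNIQ : Stmt_DIVUNIQ.{u} := by
  intro k _ 𝒞 h𝒞 g R _ _ p L L' s0 s1 s0' s1' hD hD'
  haveI := L.inv0
  haveI := L.inv1
  haveI := L'.inv0
  haveI := L'.inv1
  obtain ⟨e0, he0⟩ := exists_equiv_of_colon s0 s0' hD.reg0 hD'.reg0
    (fun c => (hD.div0 c).symm.trans (hD'.div0 c))
  obtain ⟨e1, he1⟩ := exists_equiv_of_colon s1 s1' hD.reg1 hD'.reg1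
    (fun c => (hD.div1 c).symm.trans (hD'.div1 c))
  obtain ⟨e01, he01⟩ := exists_locEquiv h𝒞 e0
  refine ⟨⟨e0, e1, e01, he01, fun p1 => ?_⟩⟩
  -- the second compatibility
  rw [← sub_eq_zero]
  refine eq_zero_of_colon_smul (L := L') s1' hD'.reg1 _ (fun c hc => ?_)
  have hc1 : ∀ q : L.P1, ∃ d : R ⊗[k] 𝒞.B1, c • q = d • s1 :=
    (hD.div1 c).1 ((hD'.div1 c).2 hc)
  obtain ⟨d, hd⟩ := hc1 p1
  have hA : 𝒞.ι1 R c • e01 (L.r1 p1) = 𝒞.ι1 R d • L'.r0 s0' := by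
    rw [← map_smul, ← r1_smul L, hd, r1_smul L, map_smul, ← hD.glue, he01, he0]
  have hB : 𝒞.ι1 R c • L'.r1 (e1 p1) = 𝒞.ι1 R d • L'.r0 s0' := by
    rw [← r1_smul L', ← map_smul, hd, map_smul, he1, r1_smul L', ← hD'.glue]
  rw [smul_sub, hA, hB, sub_self]

end Fermat.Agent.S25.Chart.H92U
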