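/-
helper93, S25 (Jacobian exists), package CHART, leaf DIVZ1.

`stmt_DIVZ1 : Stmt_DIVZ1`: the divisor of a chart point does not meet `x0 = ∞`.

Proof.  Let `f = charpoly (ρ x0)`, monic of degree `g`.  By Cayley–Hamilton `f(x0) ∈ p.ideal`.  On the overlap
`Z^g f(X) = (reverse f)(Z)` (`X Z = 1`), and `reverse f = 1 + T w`.  Hence `u = 1 + z1 w(z1) ∈ p.ideal1`, so
`u • q = d • s1` for every `q : P1` (`div1`), i.e. `q = d • s1 + z1 • (- w(z1) • q)`.
-/
import Fermat.Agent.S25.Chart.Defs3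

set_option autoImplicit false

universe u

open Polynomial TensorProduct

namespace Fermat.Agent.S25.Chart.H93Z

open Fermat.Agent.S25.Chart Fermat.Agent.S25.LB

section Chart

variable {k : Type u} [CommRing k] {A : Type u} [CommRing A] [Algebra k A] {x : A} {g : ℕ}
  {R : Type u} [CommRing R] [Algebra k R]

/-- Cayley–Hamilton: the characteristic polynomial of `ρ x`, evaluated at `x`, lies in the ideal of the
chart point. -/
theorem aeval_charpoly_mem_ideal (p : Pt k A x g R) :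
    Polynomial.aeval ((1 : R) ⊗ₜ[k] x : R ⊗[k] A) (p.ρ x).charpoly ∈ p.ideal := by
  rw [Pt.mem_ideal, ← Polynomial.aeval_algHom_apply, Pt.rho_tmul, one_smul,
    Matrix.aeval_self_charpoly, Matrix.zero_mulVec]

end Chart

section Rev

variable {R : Type u} [CommRing R] {S : Type u} [CommRing S] [Algebra R S]

/-- `(reverse f)(Z) = Z^(deg f) f(X)` when `X Z = 1`. -/
theorem aeval_reverse_eq (f : R[X]) (X Z : S) (h : X * Z = 1) :
    Polynomial.aeval Z f.reverse = Z ^ f.natDegree * Polynomial.aeval X f := by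
  let _ : Invertible X := ⟨Z, by rw [mul_comm]; exact h, h⟩
  have h1 := Polynomial.eval₂_reverse_mul_pow (algebraMap R S) X f
  have h2 : (⅟X : S) = Z := rfl
  rw [h2] at h1
  rw [Polynomial.aeval_def, Polynomial.aeval_def, ← h1, mul_comm, mul_assoc, ← mul_pow, h, one_pow,
    mul_one]

/-- A monic polynomial has `reverse f = 1 + T w`. -/
theorem reverse_eq_one_add (f : R[X]) (hf : f.Monic) (z : S) :
    Polynomial.aeval z f.reverse = 1 + z * Polynomial.aeval z f.reverse.divX := by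
  conv_lhs => rw [← Polynomial.divX_mul_X_add f.reverse]
  rw [Polynomial.coeff_zero_reverse, hf.leadingCoeff, map_add, map_mul, Polynomial.aeval_X,
    Polynomial.aeval_C, map_one, add_comm, mul_comm]

end Rev

section Div

variable {k : Type u} [Field k] {𝒞 : CurveDatum k} {g : ℕ} {R : Type u} [CommRing R] [Algebra k R]

/-- `ι1` is `R`-linear. -/
theorem ι1_algebraMap (r : R) :
    𝒞.ι1 R (algebraMap R (R ⊗[k] 𝒞.B1) r) = algebraMap R (R ⊗[k] 𝒞.B01) r :=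
  (Algebra.TensorProduct.map (AlgHom.id R R) 𝒞.i1).commutes r

/-- `ι0` is `R`-linear. -/
theorem ι0_algebraMap (r : R) :
    𝒞.ι0 R (algebraMap R (R ⊗[k] 𝒞.B0) r) = algebraMap R (R ⊗[k] 𝒞.B01) r :=
  (Algebra.TensorProduct.map (AlgHom.id R R) 𝒞.i0).commutes r

theorem ι1_aeval (f : R[X]) (z : R ⊗[k] 𝒞.B1) :
    𝒞.ι1 R (Polynomial.aeval z f) = Polynomial.aeval (𝒞.ι1 R z) f :=
  (Polynomial.aeval_algHom_apply (Algebra.TensorProduct.map (AlgHom.id R R) 𝒞.i1) z f).symm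

theorem ι0_aeval (f : R[X]) (z : R ⊗[k] 𝒞.B0) :
    𝒞.ι0 R (Polynomial.aeval z f) = Polynomial.aeval (𝒞.ι0 R z) f :=
  (Polynomial.aeval_algHom_apply (Algebra.TensorProduct.map (AlgHom.id R R) 𝒞.i0) z f).symm

/-- The element `u = (reverse f)(z1)` of `p.ideal1`, `f = charpoly (ρ x0)`. -/
theorem aeval_reverse_mem_ideal1 (p : Pt k 𝒞.B0 𝒞.x0 g R) :
    Polynomial.aeval ((1 : R) ⊗ₜ[k] 𝒞.z1 : R ⊗[k] 𝒞.B1) (p.ρ 𝒞.x0).charpoly.reverse ∈ p.ideal1 := by
  rw [Pt.ideal1, Ideal.mem_comap, ι1_aeval]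
  have hXZ : (𝒞.ι0 R ((1 : R) ⊗ₜ[k] 𝒞.x0)) * (𝒞.ι1 R ((1 : R) ⊗ₜ[k] 𝒞.z1)) = 1 :=
    Triple.unit_mul_unit 𝒞 R
  rw [aeval_reverse_eq _ _ _ hXZ, ← ι0_aeval]
  exact Ideal.mul_mem_left _ _ (Ideal.mem_map_of_mem _ (aeval_charpoly_mem_ideal p))

/-- The divisor of a chart point does not meet `x0 = ∞`. -/
theorem genAtInfty_of_isDiv (p : Pt k 𝒞.B0 𝒞.x0 g R) (L : Triple 𝒞 R) (s0 : L.P0) (s1 : L.P1)
    (h : IsDiv L s0 s1 p) : GenAtInfty L s1 := by
  intro q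
  obtain ⟨d, hd⟩ := (h.div1 _).1 (aeval_reverse_mem_ideal1 p) q
  rw [reverse_eq_one_add _ (Matrix.charpoly_monic _), add_smul, one_smul, mul_smul] at hd
  refine ⟨d, -(Polynomial.aeval ((1 : R) ⊗ₜ[k] 𝒞.z1 : R ⊗[k] 𝒞.B1)
    (p.ρ 𝒞.x0).charpoly.reverse.divX • q), ?_⟩
  rw [← hd, smul_neg]
  abel

end Div

/-- **DIVZ1**. -/
theorem stmt_DIVZ1 : Stmt_DIVZ1.{u} := by
  intro k _ 𝒞 _ g R _ _ p L s0 s1 h
  exact genAtInfty_of_isDiv p L s0 s1 h

end Fermat.Agent.S25.Chart.H93Z
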