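/-
helper93, S25 (Jacobian exists), package CHART, leaf DIV-MONO.

`stmt_MONO : Stmt_MONO`: a triple whose `H0` is generated by a section with divisor `Z_p` determines `p`.

Proof.  Let `e : L ≅ L'`.  The pair `(e0⁻¹ s0', e1⁻¹ s1')` is a global section of `L`, so by `GenH0` it is
`(r ⊗ 1) • (s0, s1)` for some `r : R`, i.e. `s0' = (r ⊗ 1) • e0 s0`.  Hence `c • L'.P0 ⊂ (s0')` implies
`c • L.P0 ⊂ (s0)`: `p'.ideal ≤ p.ideal`.  An inclusion of ideals of two chart points of the same degree `g` is an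
equality (both quotients have the basis `1, x, …, x^(g-1)`), and a chart point is determined by its ideal
(helper92, `H92.pt_ext_of_ideal`).
-/
import Fermat.Agent.S25.Chart.Defs2
import Fermat.Agent.S25.Chart.H92_Ideal

set_option autoImplicit false

universe u

open Polynomial TensorProduct

namespace Fermat.Agent.S25.Chart.H93

open Fermat.Agent.S25.Chart Fermat.Agent.S25.LB

section Incl

variable {k : Type u} [CommRing k] {A : Type u} [CommRing A] [Algebra k A] {x : A} {g : ℕ}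
  {R : Type u} [CommRing R] [Algebra k R]

/-- If `p'.ideal ≤ p.ideal` then the two quotient maps agree. -/
theorem quot_eq_of_ideal_le (p p' : Pt k A x g R) (h : p'.ideal ≤ p.ideal) (b : R ⊗[k] A) :
    p.quot b = p'.quot b := by
  have h1 : b - ∑ i : Fin g, (p'.quot b i) • ((1 : R) ⊗ₜ[k] x ^ (i : ℕ)) ∈ p.ideal :=
    h (H92.sub_sum_mem_ideal p' b)
  have h2 : p.quot (b - ∑ i : Fin g, (p'.quot b i) • ((1 : R) ⊗ₜ[k] x ^ (i : ℕ))) = 0 := h1
  rw [map_sub, map_sum, sub_eq_zero] at h2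
  rw [h2]
  funext l
  rw [Finset.sum_apply]
  have h3 : ∀ i : Fin g, (p.quot ((p'.quot b i) • ((1 : R) ⊗ₜ[k] x ^ (i : ℕ)))) l
      = if i = l then p'.quot b i else 0 := by
    intro i
    rw [map_smul, H92.quot_pow, Pi.smul_apply, Pi.single_apply, smul_eq_mul]
    by_cases hil : l = i
    · rw [if_pos hil, if_pos hil.symm, mul_one]
    · rw [if_neg hil, if_neg (fun e => hil e.symm), mul_zero]
  rw [Finset.sum_congr rfl (fun i _ => h3 i), Finset.sum_ite_eq' Finset.univ l]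
  simp

/-- An inclusion of the ideals of two chart points (of the same degree) is an equality. -/
theorem ideal_eq_of_le (p p' : Pt k A x g R) (h : p'.ideal ≤ p.ideal) : p.ideal = p'.ideal := by
  ext b
  change p.quot b = 0 ↔ p'.quot b = 0
  rw [quot_eq_of_ideal_le p p' h b]

/-- Two chart points with `p'.ideal ≤ p.ideal` are equal. -/
theorem pt_eq_of_ideal_le (p p' : Pt k A x g R) (h : p'.ideal ≤ p.ideal) : p = p' :=
  H92.pt_ext_of_ideal p p' (ideal_eq_of_le p p' h)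

end Incl

section Mono

variable {k : Type u} [Field k] {𝒞 : CurveDatum k} {g : ℕ} {R : Type u} [CommRing R] [Algebra k R]

/-- The transport of a global section of `L'` along the inverse of an isomorphism `L ≅ L'` is a global section. -/
theorem iso_symm_glue {L L' : Triple 𝒞 R} (e : Triple.Iso L L') (s0' : L'.P0) (s1' : L'.P1)
    (h : L'.r0 s0' = L'.r1 s1') : L.r0 (e.e0.symm s0') = L.r1 (e.e1.symm s1') := by
  apply e.e01.injective
  rw [e.comm0, e.comm1, LinearEquiv.apply_symm_apply, LinearEquiv.apply_symm_apply, h]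

/-- The inclusion of ideals behind DIV-MONO. -/
theorem ideal_le_of_iso (p p' : Pt k 𝒞.B0 𝒞.x0 g R) (L L' : Triple 𝒞 R) (s0 : L.P0) (s1 : L.P1)
    (s0' : L'.P0) (s1' : L'.P1) (hD : IsDiv L s0 s1 p) (hD' : IsDiv L' s0' s1' p')
    (hG : GenH0 L s0 s1) (e : Triple.Iso L L') : p'.ideal ≤ p.ideal := by
  obtain ⟨r, hr0, -⟩ := hG (e.e0.symm s0') (e.e1.symm s1') (iso_symm_glue e s0' s1' hD'.glue)
  have hs0' : s0' = e.e0 (((r ⊗ₜ[k] (1 : 𝒞.B0)) : R ⊗[k] 𝒞.B0) • s0) := by
    rw [← hr0, LinearEquiv.apply_symm_apply]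
  intro c hc
  rw [hD.div0]
  intro q
  obtain ⟨d, hd⟩ := (hD'.div0 c).1 hc (e.e0 q)
  refine ⟨d * ((r ⊗ₜ[k] (1 : 𝒞.B0)) : R ⊗[k] 𝒞.B0), ?_⟩
  apply e.e0.injective
  rw [map_smul, hd, hs0', ← map_smul, smul_smul]

end Mono

/-- **DIV-MONO**. -/
theorem stmt_MONO : Stmt_MONO.{u} := by
  intro k _ 𝒞 _ g R _ _ p p' L L' s0 s1 s0' s1' hD hD' hG ⟨e⟩
  exact pt_eq_of_ideal_le p p' (ideal_le_of_iso p p' L L' s0 s1 s0' s1' hD hD' hG e)

end Fermat.Agent.S25.Chart.H93
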