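/-
helper94, S25 (Jacobian exists), package CHART, leaf CH-DIV1GEN.

`stmt_DIV1GEN : Stmt_DIV1GEN` : for a good curve datum, a glued section `(σ0, σ1)` of a triple `L` which is regular on
the chart `V0`, has divisor `Z_p` on `V0` and generates `P1` modulo `z1` (`GenAtInfty`), is a regular section
with divisor `Z_p` on both charts.

Proof.  `Q1 = P1 / S1 σ1` is a finitely generated `S1`-module with `Q1 = z1 Q1`; by Nakayama some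
`r ∈ 1 + z1 S1` kills `Q1`, so `z1` is injective on `Q1` (`mem_of_pow_smul_mem`).  Everything else is the
calculus of the two localisations `P0 → P01 ← P1` (common denominators).
-/
import Fermat.Agent.S25.Chart.Defs3
import Fermat.Agent.S25.LB.H60_Unit

set_option autoImplicit false

universe u

open Polynomial TensorProduct

namespace Fermat.Agent.S25.Chart.H94

open Fermat.Agent.S25.LB Fermat.Agent.S25.Chart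

/-! ### Nakayama -/

/-- If `M` is a finitely generated module, `N` a submodule and `M = N + z M`, then multiplication by `z` is
injective on `M / N`. -/
theorem mem_of_pow_smul_mem {S : Type u} [CommRing S] {M : Type u} [AddCommGroup M] [Module S M]
    [Module.Finite S M] (N : Submodule S M) (z : S)
    (hgen : ∀ q : M, ∃ q' : M, q - z • q' ∈ N) (n : ℕ) (q : M) (hq : z ^ n • q ∈ N) : q ∈ N := by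
  have hfg : (⊤ : Submodule S (M ⧸ N)).FG := Module.Finite.fg_top
  have hle : (⊤ : Submodule S (M ⧸ N)) ≤ Ideal.span {z} • (⊤ : Submodule S (M ⧸ N)) := by
    intro x _
    obtain ⟨q, rfl⟩ := Submodule.Quotient.mk_surjective N x
    obtain ⟨q', hq'⟩ := hgen q
    have h1 : (Submodule.Quotient.mk q : M ⧸ N) = z • Submodule.Quotient.mk q' := by
      rw [← Submodule.Quotient.mk_smul, Submodule.Quotient.eq]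
      exact hq'
    rw [h1]
    exact Submodule.smul_mem_smul (Ideal.subset_span rfl) Submodule.mem_top
  obtain ⟨r, hr1, hr0⟩ :=
    Submodule.exists_sub_one_mem_and_smul_eq_zero_of_fg_of_le_smul _ _ hfg hle
  obtain ⟨s, hs⟩ := Ideal.mem_span_singleton'.mp hr1
  have hz : ∀ x : M ⧸ N, z • x = 0 → x = 0 := by
    intro x hx
    have h1 : r • x = 0 := hr0 x Submodule.mem_top
    have h2 : (r - 1) • x = 0 := by rw [← hs, mul_smul, hx, smul_zero]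
    have h3 : x = r • x - (r - 1) • x := by rw [sub_smul, one_smul]; abel
    rw [h3, h1, h2, sub_zero]
  have hzn : ∀ n : ℕ, ∀ x : M ⧸ N, z ^ n • x = 0 → x = 0 := by
    intro n
    induction n with
    | zero => intro x hx; simpa using hx
    | succ n ih =>
      intro x hx
      apply hz
      apply ih
      rw [smul_smul, ← pow_succ]
      exact hx
  have h0 : (Submodule.Quotient.mk q : M ⧸ N) = 0 := by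
    apply hzn n
    rw [← Submodule.Quotient.mk_smul]
    exact (Submodule.Quotient.mk_eq_zero N).mpr hq
  exact (Submodule.Quotient.mk_eq_zero N).mp h0

/-- A finite family of thresholds has a common bound. -/
theorem exists_uniform_of_finite {S : Type u} [CommRing S] {M : Type u} [AddCommGroup M] [Module S M]
    [Module.Finite S M] (N : Submodule S M) (x c : S)
    (h : ∀ q : M, ∃ n : ℕ, (x ^ n * c) • q ∈ N) : ∃ n : ℕ, ∀ q : M, (x ^ n * c) • q ∈ N := by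
  obtain ⟨s, hs⟩ := (Module.Finite.fg_top : (⊤ : Submodule S M).FG)
  choose f hf using h
  refine ⟨s.sup f, fun q => ?_⟩
  have hmem : ∀ y ∈ s, (x ^ s.sup f * c) • y ∈ N := by
    intro y hy
    have hle : f y ≤ s.sup f := Finset.le_sup hy
    obtain ⟨d, hd⟩ := Nat.exists_eq_add_of_le hle
    have e : (x ^ s.sup f * c) • y = x ^ d • ((x ^ f y * c) • y) := by
      rw [smul_smul, hd, pow_add]
      congr 1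
      ring
    rw [e]
    exact N.smul_mem _ (hf y)
  have hq : q ∈ Submodule.span S (s : Set M) := by rw [hs]; exact Submodule.mem_top
  induction hq using Submodule.span_induction with
  | mem y hy => exact hmem y hy
  | zero => rw [smul_zero]; exact N.zero_mem
  | add y y' _ _ hy hy' => rw [smul_add]; exact N.add_mem hy hy'
  | smul a y _ hy =>
    rw [smul_comm]
    exact N.smul_mem _ hy

/-! ### The calculus of the two localisations -/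

section Calc

variable {k : Type u} [Field k] {𝒞 : CurveDatum k} {R : Type u} [CommRing R] [Algebra k R]

theorem x_pow_mul_z_pow (n : ℕ) :
    ((1 : R) ⊗ₜ[k] 𝒞.i0 𝒞.x0 : R ⊗[k] 𝒞.B01) ^ n * ((1 : R) ⊗ₜ[k] 𝒞.i1 𝒞.z1) ^ n = 1 := by
  rw [← mul_pow, Triple.unit_mul_unit, one_pow]

theorem z_pow_mul_x_pow (n : ℕ) :
    ((1 : R) ⊗ₜ[k] 𝒞.i1 𝒞.z1 : R ⊗[k] 𝒞.B01) ^ n * ((1 : R) ⊗ₜ[k] 𝒞.i0 𝒞.x0) ^ n = 1 := by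
  rw [mul_comm, x_pow_mul_z_pow]

theorem ι0_x_pow (n : ℕ) :
    𝒞.ι0 R (((1 : R) ⊗ₜ[k] 𝒞.x0 : R ⊗[k] 𝒞.B0) ^ n) = ((1 : R) ⊗ₜ[k] 𝒞.i0 𝒞.x0) ^ n := by
  rw [map_pow]
  rfl

theorem ι1_z_pow (n : ℕ) :
    𝒞.ι1 R (((1 : R) ⊗ₜ[k] 𝒞.z1 : R ⊗[k] 𝒞.B1) ^ n) = ((1 : R) ⊗ₜ[k] 𝒞.i1 𝒞.z1) ^ n := by
  rw [map_pow]
  rfl

/-- Cancel a power of `x0` on `P01`. -/
theorem smul_x_cancel (L : Triple 𝒞 R) (n : ℕ) (m m' : L.P01)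
    (h : ((1 : R) ⊗ₜ[k] 𝒞.i0 𝒞.x0 : R ⊗[k] 𝒞.B01) ^ n • m =
      ((1 : R) ⊗ₜ[k] 𝒞.i0 𝒞.x0 : R ⊗[k] 𝒞.B01) ^ n • m') : m = m' := by
  have h1 := congrArg (fun y => ((1 : R) ⊗ₜ[k] 𝒞.i1 𝒞.z1 : R ⊗[k] 𝒞.B01) ^ n • y) h
  simp only [smul_smul, z_pow_mul_x_pow, one_smul] at h1
  exact h1

/-- Cancel a power of `x0` in `R ⊗ B01`. -/
theorem mul_x_cancel (n : ℕ) (m m' : R ⊗[k] 𝒞.B01)
    (h : ((1 : R) ⊗ₜ[k] 𝒞.i0 𝒞.x0 : R ⊗[k] 𝒞.B01) ^ n * m =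
      ((1 : R) ⊗ₜ[k] 𝒞.i0 𝒞.x0 : R ⊗[k] 𝒞.B01) ^ n * m') : m = m' := by
  have h1 := congrArg (fun y => ((1 : R) ⊗ₜ[k] 𝒞.i1 𝒞.z1 : R ⊗[k] 𝒞.B01) ^ n * y) h
  simp only [← mul_assoc, z_pow_mul_x_pow, one_mul] at h1
  exact h1

/-- Elements of the extended ideal have a common denominator. -/
theorem exists_num_of_mem_map (hG : 𝒞.IsGood) (I : Ideal (R ⊗[k] 𝒞.B0)) (u : R ⊗[k] 𝒞.B01)
    (hu : u ∈ Ideal.map (𝒞.ι0 R) I) :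
    ∃ (N : ℕ) (c : R ⊗[k] 𝒞.B0), c ∈ I ∧
      ((1 : R) ⊗ₜ[k] 𝒞.i0 𝒞.x0 : R ⊗[k] 𝒞.B01) ^ N * u = 𝒞.ι0 R c := by
  have hu' : u ∈ Submodule.span (R ⊗[k] 𝒞.B01) ((𝒞.ι0 R) '' (I : Set (R ⊗[k] 𝒞.B0))) := hu
  clear hu
  induction hu' using Submodule.span_induction with
  | mem y hy =>
    obtain ⟨c, hc, rfl⟩ := hy
    exact ⟨0, c, hc, by rw [pow_zero, one_mul]⟩
  | zero => exact ⟨0, 0, I.zero_mem, by rw [mul_zero, map_zero]⟩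
  | add y y' _ _ hy hy' =>
    obtain ⟨N, c, hc, e⟩ := hy
    obtain ⟨N', c', hc', e'⟩ := hy'
    refine ⟨N + N', ((1 : R) ⊗ₜ[k] 𝒞.x0) ^ N' * c + ((1 : R) ⊗ₜ[k] 𝒞.x0) ^ N * c',
      I.add_mem (I.mul_mem_left _ hc) (I.mul_mem_left _ hc'), ?_⟩
    rw [map_add, map_mul, map_mul, ι0_x_pow, ι0_x_pow, ← e, ← e', pow_add]
    ring
  | smul a y _ hy =>
    obtain ⟨N, c, hc, e⟩ := hy
    obtain ⟨N', a0, ea⟩ := H60.surj0_unit R hG a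
    refine ⟨N' + N, a0 * c, I.mul_mem_left _ hc, ?_⟩
    rw [map_mul, ← e, ← ea, smul_eq_mul, pow_add]
    ring

end Calc

/-! ### The leaf -/

section Leaf

variable {k : Type u} [Field k] {𝒞 : CurveDatum k} {R : Type u} [CommRing R] [Algebra k R]

/-- `σ1` is regular. -/
theorem reg1_of (hG : 𝒞.IsGood) (L : Triple 𝒞 R) (σ0 : L.P0) (σ1 : L.P1)
    (hglue : L.r0 σ0 = L.r1 σ1)
    (hreg0 : ∀ c : R ⊗[k] 𝒞.B0, c • σ0 = 0 → c = 0)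
    (c : R ⊗[k] 𝒞.B1) (hc : c • σ1 = 0) : c = 0 := by
  have h1 : (𝒞.ι1 R c) • L.r0 σ0 = 0 := by
    rw [hglue, ← L.r1.map_smulₛₗ, hc, map_zero]
  obtain ⟨N, c0, hc0⟩ := H60.surj0_unit R hG (𝒞.ι1 R c)
  have h2 : L.r0 (c0 • σ0) = 0 := by
    rw [L.r0.map_smulₛₗ, ← hc0, mul_smul, h1, smul_zero]
  obtain ⟨n, hn⟩ := L.ker0 _ h2
  have h3 : ((1 : R) ⊗ₜ[k] 𝒞.x0 : R ⊗[k] 𝒞.B0) ^ n * c0 = 0 :=
    hreg0 _ (by rw [mul_smul]; exact hn)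
  have h4 : ((1 : R) ⊗ₜ[k] 𝒞.i0 𝒞.x0 : R ⊗[k] 𝒞.B01) ^ (n + N) * 𝒞.ι1 R c =
      ((1 : R) ⊗ₜ[k] 𝒞.i0 𝒞.x0 : R ⊗[k] 𝒞.B01) ^ (n + N) * 0 := by
    have h5 := congrArg (𝒞.ι0 R) h3
    rw [map_mul, ι0_x_pow, ← hc0, map_zero, ← mul_assoc, ← pow_add] at h5
    rw [h5, mul_zero]
  have h6 : 𝒞.ι1 R c = 0 := mul_x_cancel _ _ _ h4
  exact H60.ι1_injective R hG (h6.trans (map_zero _).symm)

/-- The colon ideal of `σ1` is contained in `p.ideal1`; only the chart `V0` is used. -/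
theorem mem_ideal1_of_colon (hG : 𝒞.IsGood) {g : ℕ} (p : Pt k 𝒞.B0 𝒞.x0 g R) (L : Triple 𝒞 R)
    (σ0 : L.P0) (σ1 : L.P1) (hglue : L.r0 σ0 = L.r1 σ1)
    (hdiv0 : ∀ c : R ⊗[k] 𝒞.B0, c ∈ p.ideal ↔ ∀ q : L.P0, ∃ d : R ⊗[k] 𝒞.B0, c • q = d • σ0)
    (c : R ⊗[k] 𝒞.B1) (hc : ∀ q : L.P1, ∃ d : R ⊗[k] 𝒞.B1, c • q = d • σ1) :
    c ∈ p.ideal1 := by
  have _i0 : Module.Invertible (R ⊗[k] 𝒞.B0) L.P0 := L.inv0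
  obtain ⟨N, c0, hc0⟩ := H60.surj0_unit R hG (𝒞.ι1 R c)
  -- pointwise
  have hpt : ∀ q : L.P0, ∃ n : ℕ,
      (((1 : R) ⊗ₜ[k] 𝒞.x0 : R ⊗[k] 𝒞.B0) ^ n * c0) • q ∈
        Submodule.span (R ⊗[k] 𝒞.B0) {σ0} := by
    intro q
    obtain ⟨n, p1, hp1⟩ := L.surj1 (L.r0 q)
    obtain ⟨d, hd⟩ := hc p1
    obtain ⟨N', d0, hd0⟩ := H60.surj0_unit R hG (𝒞.ι1 R d)
    -- r0 q = x^n r1 p1
    have e1 : L.r0 q = ((1 : R) ⊗ₜ[k] 𝒞.i0 𝒞.x0 : R ⊗[k] 𝒞.B01) ^ n • L.r1 p1 := by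
      rw [← hp1, smul_smul, x_pow_mul_z_pow, one_smul]
    have e0 : 𝒞.ι1 R c • L.r1 p1 = 𝒞.ι1 R d • L.r1 σ1 := by
      rw [← L.r1.map_smulₛₗ, ← L.r1.map_smulₛₗ, hd]
    have e2 : L.r0 ((((1 : R) ⊗ₜ[k] 𝒞.x0 : R ⊗[k] 𝒞.B0) ^ N' * c0) • q) =
        L.r0 ((((1 : R) ⊗ₜ[k] 𝒞.x0 : R ⊗[k] 𝒞.B0) ^ (N + n) * d0) • σ0) := by
      have e3 : 𝒞.ι0 R (((1 : R) ⊗ₜ[k] 𝒞.x0 : R ⊗[k] 𝒞.B0) ^ N' * c0) *
          ((1 : R) ⊗ₜ[k] 𝒞.i0 𝒞.x0 : R ⊗[k] 𝒞.B01) ^ n =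
          (((1 : R) ⊗ₜ[k] 𝒞.i0 𝒞.x0 : R ⊗[k] 𝒞.B01) ^ N' *
            ((1 : R) ⊗ₜ[k] 𝒞.i0 𝒞.x0 : R ⊗[k] 𝒞.B01) ^ (N + n)) * 𝒞.ι1 R c := by
        rw [map_mul, ι0_x_pow, ← hc0, pow_add]; ring
      have e4 : 𝒞.ι0 R (((1 : R) ⊗ₜ[k] 𝒞.x0 : R ⊗[k] 𝒞.B0) ^ (N + n) * d0) =
          (((1 : R) ⊗ₜ[k] 𝒞.i0 𝒞.x0 : R ⊗[k] 𝒞.B01) ^ N' *
            ((1 : R) ⊗ₜ[k] 𝒞.i0 𝒞.x0 : R ⊗[k] 𝒞.B01) ^ (N + n)) * 𝒞.ι1 R d := by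
        rw [map_mul, ι0_x_pow, ← hd0]; ring
      calc L.r0 ((((1 : R) ⊗ₜ[k] 𝒞.x0 : R ⊗[k] 𝒞.B0) ^ N' * c0) • q)
          = (𝒞.ι0 R (((1 : R) ⊗ₜ[k] 𝒞.x0 : R ⊗[k] 𝒞.B0) ^ N' * c0) *
              ((1 : R) ⊗ₜ[k] 𝒞.i0 𝒞.x0 : R ⊗[k] 𝒞.B01) ^ n) • L.r1 p1 := by
            rw [L.r0.map_smulₛₗ, e1, smul_smul]
        _ = (((1 : R) ⊗ₜ[k] 𝒞.i0 𝒞.x0 : R ⊗[k] 𝒞.B01) ^ N' *
              ((1 : R) ⊗ₜ[k] 𝒞.i0 𝒞.x0 : R ⊗[k] 𝒞.B01) ^ (N + n)) • (𝒞.ι1 R c • L.r1 p1) := by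
            rw [e3, mul_smul]
        _ = (((1 : R) ⊗ₜ[k] 𝒞.i0 𝒞.x0 : R ⊗[k] 𝒞.B01) ^ N' *
              ((1 : R) ⊗ₜ[k] 𝒞.i0 𝒞.x0 : R ⊗[k] 𝒞.B01) ^ (N + n)) • (𝒞.ι1 R d • L.r1 σ1) := by
            rw [e0]
        _ = L.r0 ((((1 : R) ⊗ₜ[k] 𝒞.x0 : R ⊗[k] 𝒞.B0) ^ (N + n) * d0) • σ0) := by
            rw [L.r0.map_smulₛₗ, e4, hglue, smul_smul]
    have e5 : L.r0 ((((1 : R) ⊗ₜ[k] 𝒞.x0 : R ⊗[k] 𝒞.B0) ^ N' * c0) • q -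
        (((1 : R) ⊗ₜ[k] 𝒞.x0 : R ⊗[k] 𝒞.B0) ^ (N + n) * d0) • σ0) = 0 := by
      rw [map_sub, e2, sub_self]
    obtain ⟨n', hn'⟩ := L.ker0 _ e5
    refine ⟨n' + N', ?_⟩
    rw [smul_sub, sub_eq_zero] at hn'
    have e6 : (((1 : R) ⊗ₜ[k] 𝒞.x0 : R ⊗[k] 𝒞.B0) ^ (n' + N') * c0) • q =
        (((1 : R) ⊗ₜ[k] 𝒞.x0 : R ⊗[k] 𝒞.B0) ^ n' *
          (((1 : R) ⊗ₜ[k] 𝒞.x0 : R ⊗[k] 𝒞.B0) ^ (N + n) * d0)) • σ0 := by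
      rw [mul_smul _ _ σ0, ← hn', smul_smul, pow_add, mul_assoc]
    rw [e6]
    exact Submodule.smul_mem _ _ (Submodule.mem_span_singleton_self σ0)
  obtain ⟨M, hM⟩ := exists_uniform_of_finite (Submodule.span (R ⊗[k] 𝒞.B0) {σ0}) _ c0 hpt
  have hmem : ((1 : R) ⊗ₜ[k] 𝒞.x0 : R ⊗[k] 𝒞.B0) ^ M * c0 ∈ p.ideal := by
    rw [hdiv0]
    intro q
    obtain ⟨d, hd⟩ := Submodule.mem_span_singleton.mp (hM q)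
    exact ⟨d, hd.symm⟩
  -- back to `S01`
  have h1 : 𝒞.ι0 R (((1 : R) ⊗ₜ[k] 𝒞.x0 : R ⊗[k] 𝒞.B0) ^ M * c0) ∈ Ideal.map (𝒞.ι0 R) p.ideal :=
    Ideal.mem_map_of_mem _ hmem
  rw [map_mul, ι0_x_pow, ← hc0, ← mul_assoc, ← pow_add] at h1
  have h2 : 𝒞.ι1 R c = ((1 : R) ⊗ₜ[k] 𝒞.i1 𝒞.z1 : R ⊗[k] 𝒞.B01) ^ (M + N) *
      (((1 : R) ⊗ₜ[k] 𝒞.i0 𝒞.x0 : R ⊗[k] 𝒞.B01) ^ (M + N) * 𝒞.ι1 R c) := by
    rw [← mul_assoc, z_pow_mul_x_pow, one_mul]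
  change 𝒞.ι1 R c ∈ Ideal.map (𝒞.ι0 R) p.ideal
  rw [h2]
  exact Ideal.mul_mem_left _ _ h1

/-- `p.ideal1` is contained in the colon ideal of `σ1`. -/
theorem colon_of_mem_ideal1 (hG : 𝒞.IsGood) {g : ℕ} (p : Pt k 𝒞.B0 𝒞.x0 g R) (L : Triple 𝒞 R)
    (σ0 : L.P0) (σ1 : L.P1) (hglue : L.r0 σ0 = L.r1 σ1)
    (hdiv0 : ∀ c : R ⊗[k] 𝒞.B0, c ∈ p.ideal ↔ ∀ q : L.P0, ∃ d : R ⊗[k] 𝒞.B0, c • q = d • σ0)
    (hgen : GenAtInfty L σ1)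
    (c : R ⊗[k] 𝒞.B1) (hc : c ∈ p.ideal1) (q : L.P1) :
    ∃ d : R ⊗[k] 𝒞.B1, c • q = d • σ1 := by
  have _i1 : Module.Invertible (R ⊗[k] 𝒞.B1) L.P1 := L.inv1
  have hc' : 𝒞.ι1 R c ∈ Ideal.map (𝒞.ι0 R) p.ideal := hc
  obtain ⟨N, c', hc'I, hc'e⟩ := exists_num_of_mem_map hG p.ideal _ hc'
  obtain ⟨n, q0, hq0⟩ := L.surj0 (L.r1 q)
  obtain ⟨d, hd⟩ := (hdiv0 c').mp hc'I q0
  obtain ⟨N1, d1, hd1⟩ := H60.surj1_unit R hG (𝒞.ι0 R d)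
  -- x^(N+n) r1 (c q) = ι0 d r1 σ1
  have e1 : ((1 : R) ⊗ₜ[k] 𝒞.i0 𝒞.x0 : R ⊗[k] 𝒞.B01) ^ (N + n) • L.r1 (c • q) =
      𝒞.ι0 R d • L.r1 σ1 := by
    rw [← hglue, ← L.r0.map_smulₛₗ, ← hd, L.r0.map_smulₛₗ, ← hq0, ← hc'e, L.r1.map_smulₛₗ,
      smul_smul, smul_smul, pow_add]
    congr 1
    ring
  -- z^N1 r1 (c q) = z^(N+n) ι1 d1 r1 σ1
  have e2 : L.r1 (((1 : R) ⊗ₜ[k] 𝒞.z1 : R ⊗[k] 𝒞.B1) ^ N1 • (c • q)) =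
      L.r1 ((((1 : R) ⊗ₜ[k] 𝒞.z1 : R ⊗[k] 𝒞.B1) ^ (N + n) * d1) • σ1) := by
    apply smul_x_cancel L (N + n)
    have l1 : ((1 : R) ⊗ₜ[k] 𝒞.i0 𝒞.x0 : R ⊗[k] 𝒞.B01) ^ (N + n) •
        L.r1 (((1 : R) ⊗ₜ[k] 𝒞.z1 : R ⊗[k] 𝒞.B1) ^ N1 • (c • q)) = 𝒞.ι1 R d1 • L.r1 σ1 := by
      rw [L.r1.map_smulₛₗ _ (c • q), ι1_z_pow, smul_comm, e1, smul_smul, hd1]
    have l2 : ((1 : R) ⊗ₜ[k] 𝒞.i0 𝒞.x0 : R ⊗[k] 𝒞.B01) ^ (N + n) •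
        L.r1 ((((1 : R) ⊗ₜ[k] 𝒞.z1 : R ⊗[k] 𝒞.B1) ^ (N + n) * d1) • σ1) =
        𝒞.ι1 R d1 • L.r1 σ1 := by
      rw [L.r1.map_smulₛₗ, map_mul, ι1_z_pow, smul_smul, ← mul_assoc, x_pow_mul_z_pow, one_mul]
    rw [l1, l2]
  have e4 : L.r1 (((1 : R) ⊗ₜ[k] 𝒞.z1 : R ⊗[k] 𝒞.B1) ^ N1 • (c • q) -
      (((1 : R) ⊗ₜ[k] 𝒞.z1 : R ⊗[k] 𝒞.B1) ^ (N + n) * d1) • σ1) = 0 := by
    rw [map_sub, e2, sub_self]
  obtain ⟨n1, hn1⟩ := L.ker1 _ e4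
  rw [smul_sub, sub_eq_zero] at hn1
  have e5 : ((1 : R) ⊗ₜ[k] 𝒞.z1 : R ⊗[k] 𝒞.B1) ^ (n1 + N1) • (c • q) ∈
      Submodule.span (R ⊗[k] 𝒞.B1) {σ1} := by
    rw [pow_add, mul_smul, hn1, smul_smul]
    exact Submodule.smul_mem _ _ (Submodule.mem_span_singleton_self σ1)
  have e6 : c • q ∈ Submodule.span (R ⊗[k] 𝒞.B1) {σ1} := by
    refine mem_of_pow_smul_mem (Submodule.span (R ⊗[k] 𝒞.B1) {σ1})
      ((1 : R) ⊗ₜ[k] 𝒞.z1 : R ⊗[k] 𝒞.B1) ?_ (n1 + N1) _ e5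
    intro y
    obtain ⟨a, y', hy⟩ := hgen y
    refine ⟨y', ?_⟩
    rw [hy, add_sub_cancel_right]
    exact Submodule.smul_mem _ _ (Submodule.mem_span_singleton_self σ1)
  obtain ⟨d', hd'⟩ := Submodule.mem_span_singleton.mp e6
  exact ⟨d', hd'.symm⟩

/-- **CH-DIV1GEN**. -/
theorem stmt_DIV1GEN : Stmt_DIV1GEN.{u} := by
  intro k _ 𝒞 hG g R _ _ p L σ0 σ1 hglue hreg0 hdiv0 hgen
  exact
    { glue := hglue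
      reg0 := hreg0
      reg1 := fun c hc => reg1_of hG L σ0 σ1 hglue hreg0 c hc
      div0 := hdiv0
      div1 := fun c =>
        ⟨fun hc q => colon_of_mem_ideal1 hG p L σ0 σ1 hglue hdiv0 hgen c hc q,
          fun hc => mem_ideal1_of_colon hG p L σ0 σ1 hglue hdiv0 c hc⟩ }

end Leaf

end Fermat.Agent.S25.Chart.H94
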