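import Fermat.Agent.S25.Chart.H92_DivUniq
import Fermat.Agent.S25.Chart.H93_DivZ1
import Fermat.Agent.S25.LB.H60_Unit

/-!
# S25, leaf CH-DIVH0 (helper98), part C: the quotient `O(Z)`-module on the two charts

For a triple `L` with a regular section `(s0, s1)` whose divisor is a chart point `p`:
* `reg01`      : `s01 = r0 s0` is regular on the overlap;
* `exists_r1_add` : `P1 / S1 s1 → P01 / S01 s01` is onto;
* `exists_smul_of_r1` : `P1 / S1 s1 → P01 / S01 s01` is injective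
  (`z1` is invertible on `P1 / S1 s1`: the divisor does not meet `x0 = ∞`).
-/

set_option autoImplicit false
set_option linter.style.haveILetI false

universe u

open Polynomial TensorProduct

namespace Fermat.Agent.S25.Chart.H98d

open Fermat.Agent.S25.Chart Fermat.Agent.S25.LB Fermat.Agent.S25.Chart.H92U

variable {k : Type u} [Field k] {𝒞 : CurveDatum k} {g : ℕ} {R : Type u} [CommRing R] [Algebra k R]
  {L : Triple 𝒞 R}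

/-- a regular section is regular on the overlap -/
theorem reg01 (h𝒞 : 𝒞.IsGood) {s0 : L.P0} (hreg0 : ∀ c : R ⊗[k] 𝒞.B0, c • s0 = 0 → c = 0)
    (c : R ⊗[k] 𝒞.B01) (hc : c • L.r0 s0 = 0) : c = 0 := by
  obtain ⟨n, a, ha⟩ := locS0 h𝒞 c
  have h1 : L.r0 (a • s0) = 0 := by rw [r0_smul, ← ha, mul_smul, hc, smul_zero]
  obtain ⟨m, hm⟩ := L.ker0 _ h1
  have hm' : (xx 𝒞 R ^ m * a) • s0 = 0 := by rw [mul_smul]; exact hm
  have h2 : xx 𝒞 R ^ m * a = 0 := hreg0 _ hm'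
  have h3 : XX 𝒞 R ^ m * (XX 𝒞 R ^ n * c) = 0 := by
    rw [ha, ← ι0_xx, ← map_pow, ← map_mul, h2, map_zero]
  have h4 : ZZ 𝒞 R ^ n * (ZZ 𝒞 R ^ m * (XX 𝒞 R ^ m * (XX 𝒞 R ^ n * c))) = 0 := by
    rw [h3, mul_zero, mul_zero]
  rw [← mul_assoc (ZZ 𝒞 R ^ m), ZZ_pow_mul_XX_pow, one_mul, ← mul_assoc, ZZ_pow_mul_XX_pow,
    one_mul] at h4
  exact h4

/-- iterate `GenAtInfty` -/
theorem genAtInfty_pow {s1 : L.P1} (hgen : GenAtInfty L s1) (n : ℕ) (q : L.P1) :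
    ∃ (c : R ⊗[k] 𝒞.B1) (q' : L.P1), q = c • s1 + zz 𝒞 R ^ n • q' := by
  induction n with
  | zero => exact ⟨0, q, by rw [zero_smul, zero_add, pow_zero, one_smul]⟩
  | succ n ih =>
    obtain ⟨c, q', hq⟩ := ih
    obtain ⟨c', q'', hq'⟩ := hgen q'
    refine ⟨c + zz 𝒞 R ^ n * c', q'', ?_⟩
    have e : ((1 : R) ⊗ₜ[k] 𝒞.z1 : R ⊗[k] 𝒞.B1) = zz 𝒞 R := rfl
    rw [hq, hq', e, smul_add, add_smul, mul_smul, pow_succ, mul_smul, add_assoc]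

/-- `P1 / S1 s1 → P01 / S01 s01` is onto -/
theorem exists_r1_add {s0 : L.P0} {s1 : L.P1} (hglue : L.r0 s0 = L.r1 s1)
    (hgen : GenAtInfty L s1) (m : L.P01) :
    ∃ (q1 : L.P1) (c : R ⊗[k] 𝒞.B01), m = L.r1 q1 + c • L.r0 s0 := by
  obtain ⟨n, q, hq⟩ := L.surj1 m
  have hq' : ZZ 𝒞 R ^ n • m = L.r1 q := hq
  obtain ⟨c, q', hcq⟩ := genAtInfty_pow hgen n q
  refine ⟨q', XX 𝒞 R ^ n * 𝒞.ι1 R c, ?_⟩
  have h1 : ZZ 𝒞 R ^ n • m = ZZ 𝒞 R ^ n • (L.r1 q' + (XX 𝒞 R ^ n * 𝒞.ι1 R c) • L.r0 s0) := by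
    rw [hq', hcq, map_add, r1_smul, r1_zz_pow, smul_add, smul_smul, ← mul_assoc,
      ZZ_pow_mul_XX_pow, one_mul, hglue, add_comm]
  exact ZZ_pow_cancel (𝒞 := 𝒞) (R := R) n h1

/-- if `z1^N q ∈ S1 s1` then `q ∈ S1 s1` -/
theorem exists_smul_of_pow_smul {s1 : L.P1} (w : R ⊗[k] 𝒞.B1)
    (hu : ∀ q : L.P1, ∃ d : R ⊗[k] 𝒞.B1, (1 + zz 𝒞 R * w) • q = d • s1) (N : ℕ) :
    ∀ (q : L.P1) (d : R ⊗[k] 𝒞.B1), zz 𝒞 R ^ N • q = d • s1 → ∃ d' : R ⊗[k] 𝒞.B1, q = d' • s1 := by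
  induction N with
  | zero =>
    intro q d hq
    exact ⟨d, by rw [← hq, pow_zero, one_smul]⟩
  | succ N ih =>
    intro q d hq
    have h1 : zz 𝒞 R ^ N • (zz 𝒞 R • q) = d • s1 := by
      rw [smul_smul, ← pow_succ]; exact hq
    obtain ⟨d1, hd1⟩ := ih _ _ h1
    obtain ⟨d2, hd2⟩ := hu q
    refine ⟨d2 - w * d1, ?_⟩
    rw [sub_smul, ← hd2, mul_smul, ← hd1, add_smul, one_smul, smul_smul, mul_comm w,
      add_sub_cancel_right]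

/-- `P1 / S1 s1 → P01 / S01 s01` is injective -/
theorem exists_smul_of_r1 (h𝒞 : 𝒞.IsGood) {p : Pt k 𝒞.B0 𝒞.x0 g R} {s0 : L.P0} {s1 : L.P1}
    (h : IsDiv L s0 s1 p) (q1 : L.P1) (c : R ⊗[k] 𝒞.B01) (hq : L.r1 q1 = c • L.r0 s0) :
    ∃ d : R ⊗[k] 𝒞.B1, q1 = d • s1 := by
  obtain ⟨n, c1, hc1⟩ := H60.surj1_unit R h𝒞 c
  have hc1' : ZZ 𝒞 R ^ n * c = 𝒞.ι1 R c1 := hc1
  have h1 : L.r1 (zz 𝒞 R ^ n • q1 - c1 • s1) = 0 := by
    rw [map_sub, r1_zz_pow, r1_smul, hq, smul_smul, hc1', h.glue, sub_self]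
  obtain ⟨m, hm⟩ := L.ker1 _ h1
  have hm' : zz 𝒞 R ^ m • (zz 𝒞 R ^ n • q1 - c1 • s1) = 0 := hm
  have h2 : zz 𝒞 R ^ (m + n) • q1 = (zz 𝒞 R ^ m * c1) • s1 := by
    rw [smul_sub, sub_eq_zero] at hm'
    rw [pow_add, mul_smul, hm', mul_smul]
  have hu : ∀ q : L.P1, ∃ d : R ⊗[k] 𝒞.B1,
      (1 + zz 𝒞 R * Polynomial.aeval (zz 𝒞 R) (p.ρ 𝒞.x0).charpoly.reverse.divX) • q = d • s1 := by
    intro q
    obtain ⟨d, hd⟩ := (h.div1 _).1 (H93Z.aeval_reverse_mem_ideal1 p) q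
    rw [H93Z.reverse_eq_one_add _ (Matrix.charpoly_monic _)] at hd
    exact ⟨d, hd⟩
  exact exists_smul_of_pow_smul _ hu (m + n) q1 _ h2

end Fermat.Agent.S25.Chart.H98d
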