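import Fermat.Agent.S25.Chart.Defs2
import Fermat.Agent.S25.LB.H60_Unit
import Fermat.Agent.S25.LB.H7_VB
import Fermat.Agent.S25.P1.H22_FG
import Fermat.Agent.S25.P1.H83_H1FP

/-!
# S25, leaf CH-DIVH0 (helper98), part D: the cohomology of the structure sheaf over `R`

* `h0_unit` : `H0(O_R) = R`: if `ι0 a = ι1 b` then `a = r ⊗ 1`, `b = r ⊗ 1` (flatness of `R` over the field `k`);
* `H1k 𝒞 = B01 ⧸ (i0 B0 + i1 B1)`, `h1kEquiv : H1k 𝒞 ≃ₗ[k] (unitTriple 𝒞 k).H1`, finite of dimension `g`;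
* `nuR : R ⊗ B01 →ₗ[R] R ⊗ H1k 𝒞`, onto, killing `ι0 a + ι1 b`; `h1REquiv : R ⊗ H1k 𝒞 ≃ₗ[R] (Fin g → R)`.
-/

set_option autoImplicit false
set_option linter.style.haveILetI false

universe u

open Polynomial TensorProduct

namespace Fermat.Agent.S25.Chart.H98d

open Fermat.Agent.S25.Chart Fermat.Agent.S25.LB

variable {k : Type u} [Field k] {𝒞 : CurveDatum k}

section H0

/-- the diagonal `k → B0 × B1` -/
noncomputable def diagK (𝒞 : CurveDatum k) : k →ₗ[k] 𝒞.B0 × 𝒞.B1 :=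
  (Algebra.linearMap k 𝒞.B0).prod (Algebra.linearMap k 𝒞.B1)

/-- the Cech differential `B0 × B1 → B01` -/
noncomputable def cechK (𝒞 : CurveDatum k) : 𝒞.B0 × 𝒞.B1 →ₗ[k] 𝒞.B01 :=
  𝒞.i0.toLinearMap ∘ₗ LinearMap.fst k 𝒞.B0 𝒞.B1 - 𝒞.i1.toLinearMap ∘ₗ LinearMap.snd k 𝒞.B0 𝒞.B1

theorem cechK_apply (y : 𝒞.B0 × 𝒞.B1) : cechK 𝒞 y = 𝒞.i0 y.1 - 𝒞.i1 y.2 := rfl

theorem diagK_apply (c : k) : diagK 𝒞 c = (algebraMap k 𝒞.B0 c, algebraMap k 𝒞.B1 c) := rfl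

theorem exact_diag_cech (h : 𝒞.IsGood) : Function.Exact (diagK 𝒞) (cechK 𝒞) := by
  intro y
  constructor
  · intro hy
    obtain ⟨b0, b1⟩ := y
    have h1 : 𝒞.i0 b0 = 𝒞.i1 b1 := sub_eq_zero.mp hy
    obtain ⟨c, hc⟩ := h.h0 b0 b1 h1
    refine ⟨c, ?_⟩
    rw [diagK_apply]
    refine Prod.ext hc.symm ?_
    apply H60.i1_injective h
    change 𝒞.i1 (algebraMap k 𝒞.B1 c) = 𝒞.i1 b1
    rw [← h1, hc, AlgHom.commutes, AlgHom.commutes]
  · rintro ⟨c, rfl⟩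
    rw [cechK_apply, diagK_apply]
    change 𝒞.i0 (algebraMap k 𝒞.B0 c) - 𝒞.i1 (algebraMap k 𝒞.B1 c) = 0
    rw [AlgHom.commutes, AlgHom.commutes, sub_self]

variable (R : Type u) [CommRing R] [Algebra k R]

theorem lTensor_cech (y : R ⊗[k] (𝒞.B0 × 𝒞.B1)) :
    (cechK 𝒞).lTensor R y =
      𝒞.ι0 R (TensorProduct.prodRight k k R 𝒞.B0 𝒞.B1 y).1 -
        𝒞.ι1 R (TensorProduct.prodRight k k R 𝒞.B0 𝒞.B1 y).2 := by
  induction y using TensorProduct.induction_on with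
  | zero => simp
  | tmul r b =>
    rw [LinearMap.lTensor_tmul, cechK_apply, tmul_sub, TensorProduct.prodRight_tmul]
    rfl
  | add x y hx hy =>
    rw [map_add, map_add, Prod.fst_add, Prod.snd_add, map_add, map_add, hx, hy]
    abel

/-- **`H0(O_R) = R`.** -/
theorem h0_unit (h : 𝒞.IsGood) (a : R ⊗[k] 𝒞.B0) (b : R ⊗[k] 𝒞.B1)
    (hab : 𝒞.ι0 R a = 𝒞.ι1 R b) :
    ∃ r : R, a = r ⊗ₜ[k] (1 : 𝒞.B0) ∧ b = r ⊗ₜ[k] (1 : 𝒞.B1) := by
  have hex : Function.Exact ((diagK 𝒞).lTensor R) ((cechK 𝒞).lTensor R) :=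
    Module.Flat.lTensor_exact R (exact_diag_cech h)
  have hy : (cechK 𝒞).lTensor R ((TensorProduct.prodRight k k R 𝒞.B0 𝒞.B1).symm (a, b)) = 0 := by
    rw [lTensor_cech, LinearEquiv.apply_symm_apply]
    exact sub_eq_zero.mpr hab
  obtain ⟨z, hz⟩ := (hex _).1 hy
  refine ⟨TensorProduct.rid k R z, ?_⟩
  have hz' : z = (TensorProduct.rid k R z) ⊗ₜ[k] (1 : k) := by
    conv_lhs => rw [← (TensorProduct.rid k R).symm_apply_apply z]
    rfl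
  have h2 : (a, b) = TensorProduct.prodRight k k R 𝒞.B0 𝒞.B1 ((diagK 𝒞).lTensor R z) := by
    rw [hz, LinearEquiv.apply_symm_apply]
  rw [hz', LinearMap.lTensor_tmul, diagK_apply, TensorProduct.prodRight_tmul, map_one, map_one]
    at h2
  exact ⟨congrArg Prod.fst h2, congrArg Prod.snd h2⟩

end H0

section H1

/-- `H1(C, O)` over the base field, as a quotient of `B01`. -/
abbrev H1k (𝒞 : CurveDatum k) : Type u :=
  𝒞.B01 ⧸ (LinearMap.range 𝒞.i0.toLinearMap ⊔ LinearMap.range 𝒞.i1.toLinearMap)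

theorem lid_ι0 (a : k ⊗[k] 𝒞.B0) :
    TensorProduct.lid k 𝒞.B01 (𝒞.ι0 k a) = 𝒞.i0 (TensorProduct.lid k 𝒞.B0 a) := by
  induction a using TensorProduct.induction_on with
  | zero => simp
  | tmul c b =>
    change TensorProduct.lid k 𝒞.B01 (c ⊗ₜ[k] 𝒞.i0 b) = _
    rw [TensorProduct.lid_tmul, TensorProduct.lid_tmul, map_smul]
  | add x y hx hy => rw [map_add, map_add, map_add, map_add, hx, hy]

theorem lid_ι1 (a : k ⊗[k] 𝒞.B1) :
    TensorProduct.lid k 𝒞.B01 (𝒞.ι1 k a) = 𝒞.i1 (TensorProduct.lid k 𝒞.B1 a) := by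
  induction a using TensorProduct.induction_on with
  | zero => simp
  | tmul c b =>
    change TensorProduct.lid k 𝒞.B01 (c ⊗ₜ[k] 𝒞.i1 b) = _
    rw [TensorProduct.lid_tmul, TensorProduct.lid_tmul, map_smul]
  | add x y hx hy => rw [map_add, map_add, map_add, map_add, hx, hy]

/-- membership in the coboundaries of the unit triple -/
theorem mem_B1_unit (h : 𝒞.IsGood) (m : (H60.unitTriple 𝒞 k h).toData.N01) :
    m ∈ (H60.unitTriple 𝒞 k h).toData.B1 ↔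
      ∃ (a : k ⊗[k] 𝒞.B0) (b : k ⊗[k] 𝒞.B1), (m : k ⊗[k] 𝒞.B01) = 𝒞.ι0 k a + 𝒞.ι1 k b := by
  constructor
  · intro hm
    obtain ⟨y, ⟨a, rfl⟩, z, ⟨b, rfl⟩, rfl⟩ := Submodule.mem_sup.mp hm
    exact ⟨a, b, rfl⟩
  · rintro ⟨a, b, hab⟩
    have h1 : m = (H60.unitTriple 𝒞 k h).toData.j0 a + (H60.unitTriple 𝒞 k h).toData.j1 b := hab
    rw [h1]
    exact Submodule.add_mem _ (Submodule.mem_sup_left ⟨a, rfl⟩) (Submodule.mem_sup_right ⟨b, rfl⟩)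

/-- `b ↦ 1 ⊗ b`, `B01 → k ⊗ B01` (with the module structure of the unit triple) -/
noncomputable def incK (h : 𝒞.IsGood) : 𝒞.B01 →ₗ[k] (H60.unitTriple 𝒞 k h).toData.N01 where
  toFun b := ((1 : k) ⊗ₜ[k] b : k ⊗[k] 𝒞.B01)
  map_add' b b' := tmul_add _ _ _
  map_smul' c b := by
    change (1 : k) ⊗ₜ[k] (c • b) = algebraMap k (k ⊗[k] 𝒞.B01) c * ((1 : k) ⊗ₜ[k] b)
    rw [Algebra.TensorProduct.algebraMap_apply, Algebra.TensorProduct.tmul_mul_tmul, one_mul,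
      mul_one, TensorProduct.tmul_smul, TensorProduct.smul_tmul']
    simp

theorem incK_apply (h : 𝒞.IsGood) (b : 𝒞.B01) :
    (incK h b : k ⊗[k] 𝒞.B01) = (1 : k) ⊗ₜ[k] b := rfl

/-- `b ↦ [1 ⊗ b]`, `B01 → H1 (unit triple over k)` -/
noncomputable def toH1 (h : 𝒞.IsGood) : 𝒞.B01 →ₗ[k] (H60.unitTriple 𝒞 k h).H1 :=
  (Submodule.mkQ (H60.unitTriple 𝒞 k h).toData.B1) ∘ₗ incK h

theorem toH1_eq_zero_iff (h : 𝒞.IsGood) (b : 𝒞.B01) :
    toH1 h b = 0 ↔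
      b ∈ (LinearMap.range 𝒞.i0.toLinearMap ⊔ LinearMap.range 𝒞.i1.toLinearMap) := by
  have h0 : toH1 h b = 0 ↔ incK h b ∈ (H60.unitTriple 𝒞 k h).toData.B1 :=
    Submodule.Quotient.mk_eq_zero _
  rw [h0, mem_B1_unit]
  constructor
  · rintro ⟨a, a', ha⟩
    rw [incK_apply] at ha
    have h1 := congrArg (TensorProduct.lid k 𝒞.B01) ha
    rw [TensorProduct.lid_tmul, one_smul, map_add, lid_ι0, lid_ι1] at h1
    rw [h1]
    exact Submodule.add_mem _ (Submodule.mem_sup_left ⟨_, rfl⟩) (Submodule.mem_sup_right ⟨_, rfl⟩)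
  · intro hb
    obtain ⟨y, ⟨b0, rfl⟩, z, ⟨b1, rfl⟩, rfl⟩ := Submodule.mem_sup.mp hb
    refine ⟨(1 : k) ⊗ₜ[k] b0, (1 : k) ⊗ₜ[k] b1, ?_⟩
    rw [incK_apply, tmul_add]
    rfl

theorem toH1_surjective (h : 𝒞.IsGood) : Function.Surjective (toH1 h) := by
  intro y
  obtain ⟨m, rfl⟩ := Submodule.Quotient.mk_surjective _ y
  refine ⟨TensorProduct.lid k 𝒞.B01 m, ?_⟩
  have h1 : incK h (TensorProduct.lid k 𝒞.B01 m) = m := by
    have : (TensorProduct.lid k 𝒞.B01).symm (TensorProduct.lid k 𝒞.B01 m) = m :=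
      (TensorProduct.lid k 𝒞.B01).symm_apply_apply m
    rw [TensorProduct.lid_symm_apply] at this
    exact this
  change Submodule.Quotient.mk (incK h (TensorProduct.lid k 𝒞.B01 m)) = _
  rw [h1]

/-- `H1k 𝒞 ≅ H1 (unit triple over k)` -/
noncomputable def h1kEquiv (h : 𝒞.IsGood) : H1k 𝒞 ≃ₗ[k] (H60.unitTriple 𝒞 k h).H1 :=
  LinearEquiv.ofBijective
    (Submodule.liftQ _ (toH1 h) (fun b hb => (toH1_eq_zero_iff h b).2 hb))
    ⟨by
      rw [← LinearMap.ker_eq_bot, Submodule.ker_liftQ_eq_bot']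
      ext b
      rw [LinearMap.mem_ker, toH1_eq_zero_iff], by
      intro y
      obtain ⟨b, rfl⟩ := toH1_surjective h y
      exact ⟨Submodule.Quotient.mk b, rfl⟩⟩

theorem finite_H1k (h : 𝒞.IsGood) : Module.Finite k (H1k 𝒞) := by
  have hVB := H7.stmt_VB k 𝒞 h k (H60.unitTriple 𝒞 k h)
  haveI : Module.Finite k (H60.unitTriple 𝒞 k h).H1 :=
    P1.H22.stmt_FG k _ hVB.loc (P1.H83.fg0_of_proj0 _ hVB.proj0)
  exact Module.Finite.equiv (h1kEquiv h).symm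

theorem finrank_H1k (h : 𝒞.IsGood) {g : ℕ} (hg : IsGenus 𝒞 g) : Module.finrank k (H1k 𝒞) = g := by
  rw [(h1kEquiv h).finrank_eq]
  exact hg (H60.unitTriple 𝒞 k h) (LinearEquiv.refl _ _) (LinearEquiv.refl _ _)
    (LinearEquiv.refl _ _) (fun _ => rfl) (fun _ => rfl)

variable (R : Type u) [CommRing R] [Algebra k R]

/-- the quotient map `R ⊗ B01 → R ⊗ H1k` -/
noncomputable def nuR (𝒞 : CurveDatum k) : R ⊗[k] 𝒞.B01 →ₗ[R] R ⊗[k] H1k 𝒞 :=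
  LinearMap.baseChange R
    (Submodule.mkQ (LinearMap.range 𝒞.i0.toLinearMap ⊔ LinearMap.range 𝒞.i1.toLinearMap))

theorem nuR_surjective : Function.Surjective (nuR R 𝒞) :=
  LinearMap.lTensor_surjective R (Submodule.mkQ_surjective _)

theorem nuR_ι0 (a : R ⊗[k] 𝒞.B0) : nuR R 𝒞 (𝒞.ι0 R a) = 0 := by
  induction a using TensorProduct.induction_on with
  | zero => simp
  | tmul r b =>
    change nuR R 𝒞 (r ⊗ₜ[k] 𝒞.i0 b) = 0
    rw [nuR, LinearMap.baseChange_tmul]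
    have : Submodule.mkQ (LinearMap.range 𝒞.i0.toLinearMap ⊔ LinearMap.range 𝒞.i1.toLinearMap)
        (𝒞.i0 b) = 0 := by
      rw [Submodule.mkQ_apply, Submodule.Quotient.mk_eq_zero]
      exact Submodule.mem_sup_left ⟨b, rfl⟩
    rw [this, tmul_zero]
  | add x y hx hy => rw [map_add, map_add, hx, hy, add_zero]

theorem nuR_ι1 (a : R ⊗[k] 𝒞.B1) : nuR R 𝒞 (𝒞.ι1 R a) = 0 := by
  induction a using TensorProduct.induction_on with
  | zero => simp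
  | tmul r b =>
    change nuR R 𝒞 (r ⊗ₜ[k] 𝒞.i1 b) = 0
    rw [nuR, LinearMap.baseChange_tmul]
    have : Submodule.mkQ (LinearMap.range 𝒞.i0.toLinearMap ⊔ LinearMap.range 𝒞.i1.toLinearMap)
        (𝒞.i1 b) = 0 := by
      rw [Submodule.mkQ_apply, Submodule.Quotient.mk_eq_zero]
      exact Submodule.mem_sup_right ⟨b, rfl⟩
    rw [this, tmul_zero]
  | add x y hx hy => rw [map_add, map_add, hx, hy, add_zero]

/-- `R ⊗ H1k ≅ R^g` -/
noncomputable def h1REquiv (h : 𝒞.IsGood) {g : ℕ} (hg : IsGenus 𝒞 g) :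
    R ⊗[k] H1k 𝒞 ≃ₗ[R] (Fin g → R) :=
  haveI := finite_H1k h
  (TensorProduct.AlgebraTensorModule.congr (LinearEquiv.refl R R)
    (LinearEquiv.ofFinrankEq (H1k 𝒞) (Fin g → k)
      (by rw [finrank_H1k h hg, Module.finrank_fin_fun]))).trans
    (TensorProduct.piScalarRight k R R (Fin g))

end H1

end Fermat.Agent.S25.Chart.H98d
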