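import Fermat.Agent.S25.Chart.H98_DivH0Core
import Fermat.Agent.S25.Chart.H98_DivH0Q
import Fermat.Agent.S25.Chart.H98_DivH0Unit
import Fermat.Agent.S25.Chart.H46_Cyc

/-!
# S25, leaf CH-DIVH0 (helper98): `stmt_DIVH0 : Stmt_DIVH0`

On the non-special locus (`H1 L = 0`) the canonical section of `L = O(Z_p)` generates `H0 L`:
`0 → O → O(Z) → O(Z)|Z → 0`, and the connecting map `O(Z)|Z → H1(O) ≅ R^g` is a surjection from an invertible
`O_Z`-module (`O_Z ≅ R^g`), hence bijective, so `H0(O) = R → H0(O(Z))` is onto.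

Parts: `H98_DivH0Alg` (rank count), `H98_DivH0Core` (abstract core), `H98_DivH0Q` (the two charts of `O(Z)|Z`),
`H98_DivH0Unit` (`H0`, `H1` of the structure sheaf over `R`).
-/

set_option autoImplicit false
set_option linter.style.haveILetI false

universe u

open Polynomial TensorProduct

namespace Fermat.Agent.S25.Chart.H98d

open Fermat.Agent.S25.Chart Fermat.Agent.S25.LB

section Quot

variable {k : Type u} [CommRing k] {A : Type u} [CommRing A] [Algebra k A] {x : A} {g : ℕ}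
  {R : Type u} [CommRing R] [Algebra k R]

/-- `(R ⊗ A) ⧸ p.ideal ≅ R^g` -/
noncomputable def quotIdealEquiv (p : Pt k A x g R) : ((R ⊗[k] A) ⧸ p.ideal) ≃ₗ[R] (Fin g → R) :=
  ((Submodule.Quotient.restrictScalarsEquiv R p.ideal).symm.trans
    (Submodule.quotEquivOfEq (p.ideal.restrictScalars R) (LinearMap.ker p.quot)
      (by ext b; rfl))).trans
    (p.quot.quotKerEquivOfSurjective (H46.quot_surjective p))

end Quot

/-- **CH-DIVH0**. -/
theorem stmt_DIVH0 : Stmt_DIVH0.{u} := by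
  intro k _ 𝒞 h𝒞 g hg R _ _ p L s0 s1 hdiv hH1 t0 t1 ht
  haveI : Module.Invertible (R ⊗[k] 𝒞.B0) L.P0 := L.inv0
  have hgen : GenAtInfty L s1 := H93Z.genAtInfty_of_isDiv p L s0 s1 hdiv
  have hH1L : ∀ m : L.P01, ∃ (q : L.P0) (q1 : L.P1), m = L.r0 q + L.r1 q1 := by
    intro m
    have htop : L.toData.B1 = ⊤ := Submodule.Quotient.subsingleton_iff.mp hH1
    have hm : ∀ m' : L.toData.N01, m' ∈ L.toData.B1 := fun m' => by
      rw [htop]; exact Submodule.mem_top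
    obtain ⟨y, ⟨q, rfl⟩, z, ⟨q1, rfl⟩, hyz⟩ := Submodule.mem_sup.mp (hm m)
    exact ⟨q, q1, hyz.symm⟩
  obtain ⟨a, b, ha, hb, hab⟩ := core
    (Algebra.TensorProduct.map (AlgHom.id R R) 𝒞.i0)
    (Algebra.TensorProduct.map (AlgHom.id R R) 𝒞.i1)
    L.r0.toAddMonoidHom L.r1.toAddMonoidHom
    (fun c q => L.r0.map_smulₛₗ c q) (fun c q => L.r1.map_smulₛₗ c q)
    s0 s1 hdiv.glue p.ideal (quotIdealEquiv p)
    (fun c hc q => (hdiv.div0 c).1 hc q)
    (fun m => exists_r1_add hdiv.glue hgen m)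
    (fun q1 c hq => exists_smul_of_r1 h𝒞 hdiv q1 c hq)
    (fun c hc => reg01 h𝒞 hdiv.reg0 c hc)
    hH1L
    (nuR R 𝒞) (nuR_surjective R)
    (fun a b => by
      rw [map_add]
      have h0 : nuR R 𝒞 (𝒞.ι0 R a) = 0 := nuR_ι0 R a
      have h1 : nuR R 𝒞 (𝒞.ι1 R b) = 0 := nuR_ι1 R b
      exact (congrArg₂ (· + ·) h0 h1).trans (add_zero 0))
    (h1REquiv R h𝒞 hg) t0 t1 ht
  have hab' : 𝒞.ι0 R a = 𝒞.ι1 R b := hab
  obtain ⟨r, har, hbr⟩ := h0_unit R h𝒞 a b hab'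
  exact ⟨r, by rw [ha, har], by rw [hb, hbr]⟩

end Fermat.Agent.S25.Chart.H98d
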