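/-
helper4, S25 package CHART: CLOSING file.  The assemblies with all their landed inputs instantiated.

* `stmt_SPREADLOC : Stmt_SPREADLOC` (unconditional).
* `stmt_SPREADN_of2`, `stmt_SPREAD_of2` : what is left for `Stmt_SPREADN` / `Stmt_SPREAD` is
  `Stmt_LIMLOC` and `LB.Stmt_BCCOMP`.
-/
import Fermat.Agent.S25.Chart.H4_SpreadLoc
import Fermat.Agent.S25.Chart.H26_SplaClose
import Fermat.Agent.S25.Chart.H93_DivZ1
import Fermat.Agent.S25.Chart.H51_QFinGen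
import Fermat.Agent.S25.Chart.H92_DivCyc
import Fermat.Agent.S25.Chart.H17_LocSplit
import Fermat.Agent.S25.Chart.H92_Ideal
import Fermat.Agent.S25.Chart.H94_Div1Gen
import Fermat.Agent.S25.Chart.H93_Mono
import Fermat.Agent.S25.Chart.H46_DivBC
import Fermat.Agent.S25.Chart.H98_DivH0
import Fermat.Agent.S25.Chart.H17_PtLoc
import Fermat.Agent.S25.Chart.H59_DivExFinal
import Fermat.Agent.S25.Chart.H92_DivUniq
import Fermat.Agent.S25.Chart.H93_IsoDiv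
import Fermat.Agent.S25.Chart.H43_SpreadN
import Fermat.Agent.S25.LB.H7_VB
import Fermat.Agent.S25.LB.H36_BCDataX
import Fermat.Agent.S25.LB.H44_FibKClose
import Fermat.Agent.S25.LB.H36_BC
import Fermat.Agent.S25.LB.H73_BCUniq

set_option autoImplicit false

universe u

namespace Fermat.Agent.S25.Chart.H4

open Fermat.Agent.S25.LB

/-- **SPREADLOC**, unconditional. -/
theorem stmt_SPREADLOC : Stmt_SPREADLOC.{u} :=
  stmt_SPREADLOC_of H26.stmt_SPLA H93Z.stmt_DIVZ1 H51.stmt_QFINGEN H92C.stmt_DIVCYC2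
    H17.stmt_LOCSPLIT LB.H7.stmt_VB LB.H36.stmt_BCDATAX H92.stmt_IDEAL H94.stmt_DIV1GEN
    H93.stmt_MONO H46b.stmt_DIVBC H98d.stmt_DIVH0

/-- **SPREADN** from the two leaves that are still open. -/
theorem stmt_SPREADN_of2 (hLL : Stmt_LIMLOC.{u}) (hBC : LB.Stmt_BCCOMP.{u}) : Stmt_SPREADN.{u} :=
  H43.stmt_SPREADN_of stmt_SPREADLOC H17.stmt_PTLOC hLL LB.H44.stmt_FIBK H59.stmt_DIVEX
    H46b.stmt_DIVBC H92U.stmt_DIVUNIQ H93I.stmt_ISODIV LB.H36.stmt_BCEX LB.H73.stmt_BCUNIQ hBC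

/-- **SPREAD** from the two leaves that are still open. -/
theorem stmt_SPREAD_of2 (hLL : Stmt_LIMLOC.{u}) (hBC : LB.Stmt_BCCOMP.{u}) : Stmt_SPREAD.{u} :=
  H43.stmt_SPREAD_of stmt_SPREADLOC H17.stmt_PTLOC hLL LB.H44.stmt_FIBK H59.stmt_DIVEX
    H46b.stmt_DIVBC H92U.stmt_DIVUNIQ H93I.stmt_ISODIV LB.H36.stmt_BCEX LB.H73.stmt_BCUNIQ hBC

end Fermat.Agent.S25.Chart.H4
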