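/-
helper76, S25 (Jacobian exists), package CHART, leaf CH-LIMLOC, part 1: abstract chart lemmas.

For a ring map `σ : S → S'` which is the localisation at a submonoid `T`, and `σ`-semilinear generating maps
`bP : P → P'`, `bQ : Q → Q'` between invertible modules:
* `isLocalizedModule_of_gen` : `bP` is a localisation of modules;
* `chart_lift` : an isomorphism `P' ≃ Q'` lifts, up to an element of `T`, to a map `F : P → Q`
  which has a right inverse up to an element of `T`;
* `chart_ker` : the kernel of `bP` is `T`-torsion;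
* `chart_map_exists` : every `F : P → Q` has a base change `F' : P' → Q'` (no localisation needed);
* `surj_of_unit` : the base change of a map with a right inverse up to `c` is onto when `σ c` is a unit.
For a localisation `ι : S → S01` at one element `x` and localisations `rP : P → P01`, `rQ : Q → Q01`:
* `loc_map_exists`, `loc_map_unique`, `loc_map_bijective`.
* `exists_common_ann` : a finiteness argument.
Mathlib only (through `H60_BCMod`).
-/
import Fermat.Agent.S25.LB.H60_BCMod

set_option autoImplicit false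
set_option linter.style.haveILetI false
set_option linter.unusedSectionVars false

universe u

open TensorProduct

noncomputable section

namespace Fermat.Agent.S25.Chart.H76L

open Fermat.Agent.S25.LB.H60

section Chart

variable {S S' : Type u} [CommRing S] [CommRing S'] {σ : S →+* S'}
  {P Q : Type u} [AddCommGroup P] [Module S P] [AddCommGroup Q] [Module S Q]
  {P' Q' : Type u} [AddCommGroup P'] [Module S' P'] [AddCommGroup Q'] [Module S' Q']

/-- A generating semilinear map between invertible modules along a localisation is a localisation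
of modules. -/
theorem isLocalizedModule_of_gen (T : Submonoid S)
    (hloc : @IsLocalization S _ T S' _ σ.toAlgebra)
    [Module.Invertible S P] [Module.Invertible S' P'] {b : P →ₛₗ[σ] P'}
    (hb : Submodule.span S' (Set.range b) = ⊤) :
    letI : Module S P' := Module.compHom P' σ
    IsLocalizedModule T (linOf b) := by
  letI : Algebra S S' := σ.toAlgebra
  letI : Module S P' := Module.compHom P' σ
  haveI : IsScalarTower S S' P' := ⟨fun s s' p => by
    show (σ s * s') • p = σ s • (s' • p)
    rw [mul_smul]⟩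
  haveI : IsLocalization T S' := hloc
  exact (isLocalizedModule_iff_isBaseChange T S' (linOf b)).mpr (isBaseChange_of_gen hb)

/-- The typeclass form of `chart_lift`. -/
theorem chart_lift_aux {S : Type u} [CommRing S] (T : Submonoid S)
    {P Q P' Q' : Type u} [AddCommGroup P] [Module S P] [AddCommGroup Q] [Module S Q]
    [AddCommGroup P'] [Module S P'] [AddCommGroup Q'] [Module S Q']
    [Module.FinitePresentation S P] [Module.FinitePresentation S Q]
    (bP : P →ₗ[S] P') (bQ : Q →ₗ[S] Q') [IsLocalizedModule T bP] [IsLocalizedModule T bQ]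
    (e : P' ≃ₗ[S] Q') :
    ∃ (F : P →ₗ[S] Q) (G : Q →ₗ[S] P) (s c : S), s ∈ T ∧ c ∈ T ∧
      (∀ p, bQ (F p) = s • e (bP p)) ∧ (∀ q, F (G q) = c • q) := by
  obtain ⟨F, s, hF⟩ :=
    Module.FinitePresentation.exists_lift_of_isLocalizedModule T bQ (e.toLinearMap ∘ₗ bP)
  obtain ⟨G, s', hG⟩ :=
    Module.FinitePresentation.exists_lift_of_isLocalizedModule T bP (e.symm.toLinearMap ∘ₗ bQ)
  have hF' : ∀ p, bQ (F p) = (s : S) • e (bP p) := fun p => LinearMap.congr_fun hF p
  have hG' : ∀ q, bP (G q) = (s' : S) • e.symm (bQ q) := fun q => LinearMap.congr_fun hG q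
  have h1 : bQ ∘ₗ (F ∘ₗ G) = bQ ∘ₗ (((s : S) * (s' : S)) • LinearMap.id) := by
    ext q
    simp only [LinearMap.coe_comp, Function.comp_apply, LinearMap.smul_apply, LinearMap.id_coe,
      id_eq]
    rw [hF', hG', map_smul, LinearEquiv.apply_symm_apply, smul_smul, map_smul]
  obtain ⟨s'', h2⟩ := Module.Finite.exists_smul_of_comp_eq_of_isLocalizedModule T bQ _ _ h1
  refine ⟨F, (s'' : S) • G, s, (s'' : S) * ((s : S) * (s' : S)), s.2,
    T.mul_mem s''.2 (T.mul_mem s.2 s'.2), hF', fun q => ?_⟩
  have h3 := LinearMap.congr_fun h2 q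
  simp only [LinearMap.smul_apply, LinearMap.coe_comp, Function.comp_apply, LinearMap.id_coe,
    id_eq] at h3
  rw [LinearMap.smul_apply, map_smul, mul_smul]
  exact h3

/-- An isomorphism of the localisations lifts, up to an element of `T`, to a map with a right
inverse up to an element of `T`. -/
theorem chart_lift (T : Submonoid S) (hloc : @IsLocalization S _ T S' _ σ.toAlgebra)
    [Module.Invertible S P] [Module.Invertible S' P'] [Module.Invertible S Q]
    [Module.Invertible S' Q']
    {bP : P →ₛₗ[σ] P'} (hbP : Submodule.span S' (Set.range bP) = ⊤)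
    {bQ : Q →ₛₗ[σ] Q'} (hbQ : Submodule.span S' (Set.range bQ) = ⊤)
    (e : P' ≃ₗ[S'] Q') :
    ∃ (F : P →ₗ[S] Q) (G : Q →ₗ[S] P) (s c : S), s ∈ T ∧ c ∈ T ∧
      (∀ p, bQ (F p) = σ s • e (bP p)) ∧ (∀ q, F (G q) = c • q) := by
  letI : Module S P' := Module.compHom P' σ
  letI : Module S Q' := Module.compHom Q' σ
  haveI := isLocalizedModule_of_gen T hloc hbP
  haveI := isLocalizedModule_of_gen T hloc hbQ
  haveI : Module.FinitePresentation S P := Module.finitePresentation_of_projective S P
  haveI : Module.FinitePresentation S Q := Module.finitePresentation_of_projective S Q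
  let eS : P' ≃ₗ[S] Q' :=
    { toFun := e
      map_add' := e.map_add
      map_smul' := fun c x => e.map_smul (σ c) x
      invFun := e.symm
      left_inv := e.left_inv
      right_inv := e.right_inv }
  exact chart_lift_aux T (linOf bP) (linOf bQ) eS

/-- The kernel of a localisation is torsion. -/
theorem chart_ker (T : Submonoid S) (hloc : @IsLocalization S _ T S' _ σ.toAlgebra)
    [Module.Invertible S P] [Module.Invertible S' P'] {b : P →ₛₗ[σ] P'}
    (hb : Submodule.span S' (Set.range b) = ⊤) (q : P) (hq : b q = 0) :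
    ∃ s ∈ T, s • q = 0 := by
  letI : Module S P' := Module.compHom P' σ
  haveI := isLocalizedModule_of_gen T hloc hb
  have h1 : linOf b q = linOf b 0 := by
    rw [map_zero]
    exact hq
  obtain ⟨c, hc⟩ := IsLocalizedModule.exists_of_eq (S := T) (f := linOf b) h1
  refine ⟨c, c.2, ?_⟩
  rw [smul_zero] at hc
  exact hc

/-- Base change of a linear map along generating maps of invertible modules. -/
theorem chart_map_exists [Module.Invertible S P] [Module.Invertible S' P']
    {bP : P →ₛₗ[σ] P'} (hbP : Submodule.span S' (Set.range bP) = ⊤)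
    (bQ : Q →ₛₗ[σ] Q') (F : P →ₗ[S] Q) :
    ∃ F' : P' →ₗ[S'] Q', ∀ p, F' (bP p) = bQ (F p) := by
  letI : Algebra S S' := σ.toAlgebra
  letI : Module S P' := Module.compHom P' σ
  letI : Module S Q' := Module.compHom Q' σ
  haveI : IsScalarTower S S' P' := ⟨fun s s' p => by
    show (σ s * s') • p = σ s • (s' • p)
    rw [mul_smul]⟩
  haveI : IsScalarTower S S' Q' := ⟨fun s s' p => by
    show (σ s * s') • p = σ s • (s' • p)
    rw [mul_smul]⟩
  have hbc : IsBaseChange S' (linOf bP) := isBaseChange_of_gen hbP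
  refine ⟨hbc.lift ((linOf bQ) ∘ₗ F), fun p => ?_⟩
  exact hbc.lift_eq ((linOf bQ) ∘ₗ F) p

/-- The base change of a map with a right inverse up to `c` is onto when `σ c` is a unit. -/
theorem surj_of_unit {bP : P →ₛₗ[σ] P'} {bQ : Q →ₛₗ[σ] Q'}
    (hbQ : Submodule.span S' (Set.range bQ) = ⊤)
    (F : P →ₗ[S] Q) (G : Q → P) (c : S) (hFG : ∀ q, F (G q) = c • q) (hc : IsUnit (σ c))
    (F' : P' →ₗ[S'] Q') (hF' : ∀ p, F' (bP p) = bQ (F p)) : Function.Surjective F' := by
  rw [← LinearMap.range_eq_top, eq_top_iff, ← hbQ, Submodule.span_le]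
  rintro _ ⟨q, rfl⟩
  obtain ⟨u, hu⟩ := hc
  refine ⟨(↑u⁻¹ : S') • bP (G q), ?_⟩
  rw [map_smul, hF', hFG, bQ.map_smulₛₗ, ← hu, smul_smul, Units.inv_mul, one_smul]

end Chart

section Loc

variable {S S01 : Type u} [CommRing S] [CommRing S01] {ι : S →+* S01} {x : S}
  {P Q : Type u} [AddCommGroup P] [Module S P] [AddCommGroup Q] [Module S Q]
  {P01 Q01 : Type u} [AddCommGroup P01] [Module S01 P01] [AddCommGroup Q01] [Module S01 Q01]

/-- The localisation of a linear map at one element. -/
theorem loc_map_exists (hS : IsLocRing ι x) {rP : P →ₛₗ[ι] P01} {rQ : Q →ₛₗ[ι] Q01}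
    (hP : IsLocMod ι x rP) (hQ : IsLocMod ι x rQ) (F : P →ₗ[S] Q) :
    ∃ F01 : P01 →ₗ[S01] Q01, ∀ p, F01 (rP p) = rQ (F p) := by
  letI : Algebra S S01 := ι.toAlgebra
  letI : Module S P01 := Module.compHom P01 ι
  letI : Module S Q01 := Module.compHom Q01 ι
  haveI : IsScalarTower S S01 P01 := ⟨fun s s' p => by
    show (ι s * s') • p = ι s • (s' • p)
    rw [mul_smul]⟩
  haveI : IsScalarTower S S01 Q01 := ⟨fun s s' p => by
    show (ι s * s') • p = ι s • (s' • p)
    rw [mul_smul]⟩
  haveI : IsLocalization (Submonoid.powers x) S01 := hS.isLocalization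
  haveI := hP.isLocalizedModule hS
  haveI := hQ.isLocalizedModule hS
  refine ⟨(IsLocalizedModule.map (Submonoid.powers x) (linOf rP) (linOf rQ)
    F).extendScalarsOfIsLocalization (Submonoid.powers x) S01, fun p => ?_⟩
  exact IsLocalizedModule.map_apply (Submonoid.powers x) (linOf rP) (linOf rQ) F p

/-- Semilinear maps out of a localisation are determined on the image. -/
theorem loc_map_unique (hS : IsLocRing ι x) {rP : P →ₛₗ[ι] P01} (hP : IsLocMod ι x rP)
    {S' : Type u} [CommRing S'] (τ : S01 →+* S') {N : Type u} [AddCommGroup N] [Module S' N]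
    (f g : P01 → N) (hf : ∀ (c : S01) (m : P01), f (c • m) = τ c • f m)
    (hg : ∀ (c : S01) (m : P01), g (c • m) = τ c • g m)
    (h : ∀ p, f (rP p) = g (rP p)) (m : P01) : f m = g m := by
  obtain ⟨n, p, hp⟩ := hP.surj m
  have h1 : τ (ι x ^ n) • f m = τ (ι x ^ n) • g m := by
    rw [← hf, ← hg, hp, h]
  have hu : IsUnit (τ (ι x ^ n)) := (hS.unit.pow n).map τ
  exact hu.smul_left_cancel.mp h1

/-- The localisation of a bijective map is bijective. -/
theorem loc_map_bijective (hS : IsLocRing ι x) {rP : P →ₛₗ[ι] P01} {rQ : Q →ₛₗ[ι] Q01}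
    (hP : IsLocMod ι x rP) (hQ : IsLocMod ι x rQ) (F : P →ₗ[S] Q) (hF : Function.Bijective F)
    (F01 : P01 →ₗ[S01] Q01) (h : ∀ p, F01 (rP p) = rQ (F p)) : Function.Bijective F01 := by
  constructor
  · rw [injective_iff_map_eq_zero]
    intro m hm
    obtain ⟨n, p, hp⟩ := hP.surj m
    have h1 : rQ (F p) = 0 := by
      rw [← h, ← hp, map_smul, hm, smul_zero]
    obtain ⟨n', hn'⟩ := hQ.ker _ h1
    have h2 : x ^ n' • p = 0 := by
      apply hF.1
      rw [map_smul, hn', map_zero]
    have h3 : ι x ^ (n' + n) • m = 0 := by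
      rw [pow_add, mul_smul, hp, ← map_pow, ← rP.map_smulₛₗ, h2, map_zero]
    exact (hS.unit.pow (n' + n)).smul_left_cancel.mp (h3.trans (smul_zero _).symm)
  · intro y
    obtain ⟨n, q, hq⟩ := hQ.surj y
    obtain ⟨p, rfl⟩ := hF.2 q
    obtain ⟨u, hu⟩ := hS.unit.pow n
    refine ⟨(↑u⁻¹ : S01) • rP p, ?_⟩
    rw [map_smul, h, ← hq, ← hu, smul_smul, Units.inv_mul, one_smul]

end Loc

section Fin

variable {S1 S01 : Type u} [CommRing S1] [CommRing S01] (ι1 : S1 →+* S01)
  {P1 N : Type u} [AddCommGroup P1] [Module S1 P1] [AddCommGroup N] [Module S01 N]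

/-- A semilinear map from a finite module all of whose values are killed by elements of the image of a
multiplicative map `τ : Γ → S01` is killed by one element. -/
theorem exists_common_ann [Module.Finite S1 P1] {Γ : Type u} [CommMonoid Γ] (τ : Γ →* S01)
    (D : P1 → N) (hadd : ∀ y y', D (y + y') = D y + D y')
    (hsmul : ∀ (c : S1) (y : P1), D (c • y) = ι1 c • D y)
    (h : ∀ y, ∃ a : Γ, τ a • D y = 0) : ∃ a : Γ, ∀ y, τ a • D y = 0 := by
  classical
  obtain ⟨gens, hgens⟩ := (Module.Finite.fg_top : (⊤ : Submodule S1 P1).FG)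
  choose a ha using h
  refine ⟨∏ y ∈ gens, a y, fun y => ?_⟩
  have hD0 : D 0 = 0 := by
    have h0 := hsmul 0 0
    rw [zero_smul, map_zero, zero_smul] at h0
    exact h0
  have hy : y ∈ Submodule.span S1 (gens : Set P1) := by
    rw [hgens]
    exact Submodule.mem_top
  induction hy using Submodule.span_induction with
  | mem z hz =>
    rw [← Finset.mul_prod_erase gens a hz, mul_comm, map_mul, mul_smul, ha, smul_zero]
  | zero => rw [hD0, smul_zero]
  | add z w _ _ hz hw => rw [hadd, smul_add, hz, hw, add_zero]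
  | smul c z _ hz => rw [hsmul, smul_comm, hz, smul_zero]

end Fin

end Fermat.Agent.S25.Chart.H76L
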