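/-
helper76, S25 (Jacobian exists), package CHART, leaf CH-LIMLOC, part 2: the statement.

`stmt_LIMLOC : Stmt_LIMLOC`: an isomorphism over the local ring `R_𝔪` between the base changes of two triples
over `R_r` is defined over `R_ρ` for all sufficiently divisible `ρ`.

Route: (I) `exists_hom`: the isomorphism over `R_𝔪` lifts, up to elements `a` with `t a ≠ 0`, to a morphism of
triples `F : L₁ → L₂` over `R_r` which has right inverses on the two charts up to such elements;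
(II) `iso_of_hom`: the base change of such a morphism along any `φ` which inverts these elements is an isomorphism.
-/
import Fermat.Agent.S25.Chart.H76_LimLocAbs
import Fermat.Agent.S25.LB.H60_TensBC
import Fermat.Agent.S25.Chart.Defs3

set_option autoImplicit false
set_option linter.style.haveILetI false
set_option linter.unusedSectionVars false

universe u

open Polynomial TensorProduct

noncomputable section

namespace Fermat.Agent.S25.Chart.H76L

open Fermat.Agent.S25.LB Fermat.Agent.S25.LB.H60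

variable {k : Type u} [Field k] {𝒞 : CurveDatum k}

/-! ### Step II: base change of a morphism which is invertible up to units -/

section StepII

variable {A A' : Type u} [CommRing A] [Algebra k A] [CommRing A'] [Algebra k A'] {φ : A →ₐ[k] A'}
  {L₁ L₂ : Triple 𝒞 A} {N₁ N₂ : Triple 𝒞 A'}

theorem isUnit_sig_tmul (B : Type u) [CommRing B] [Algebra k B] (c : A) (hc : IsUnit (φ c)) :
    IsUnit (sig φ B (c ⊗ₜ[k] (1 : B))) := by
  rw [sig_tmul]
  exact hc.map (Algebra.TensorProduct.includeLeftRingHom : A' →+* A' ⊗[k] B)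

theorem iso_of_hom (h : 𝒞.IsGood) (γ₁ : BC φ L₁ N₁) (γ₂ : BC φ L₂ N₂) (F : Triple.Hom L₁ L₂)
    (G0 : L₂.P0 → L₁.P0) (G1 : L₂.P1 → L₁.P1) (c0 c1 : A) (hc0 : IsUnit (φ c0))
    (hc1 : IsUnit (φ c1))
    (h0 : ∀ q, F.f0 (G0 q) = (c0 ⊗ₜ[k] (1 : 𝒞.B0) : A ⊗[k] 𝒞.B0) • q)
    (h1 : ∀ q, F.f1 (G1 q) = (c1 ⊗ₜ[k] (1 : 𝒞.B1) : A ⊗[k] 𝒞.B1) • q) :
    Nonempty (Triple.Iso N₁ N₂) := by
  haveI := L₁.inv0
  haveI := L₁.inv1
  haveI := L₂.inv0
  haveI := L₂.inv1
  haveI := N₁.inv0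
  haveI := N₁.inv1
  haveI := N₂.inv0
  haveI := N₂.inv1
  obtain ⟨F0', hF0'⟩ := chart_map_exists (bcSemi0_gen γ₁) (bcSemi0 γ₂) F.f0
  obtain ⟨F1', hF1'⟩ := chart_map_exists (bcSemi1_gen γ₁) (bcSemi1 γ₂) F.f1
  have hs0 : Function.Surjective F0' :=
    surj_of_unit (bcSemi0_gen γ₂) F.f0 G0 _ h0 (isUnit_sig_tmul 𝒞.B0 c0 hc0) F0' hF0'
  have hs1 : Function.Surjective F1' :=
    surj_of_unit (bcSemi1_gen γ₂) F.f1 G1 _ h1 (isUnit_sig_tmul 𝒞.B1 c1 hc1) F1' hF1'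
  have hb0 : Function.Bijective F0' := Module.Invertible.bijective_of_surjective hs0
  have hb1 : Function.Bijective F1' := Module.Invertible.bijective_of_surjective hs1
  obtain ⟨F01', hF01'⟩ := loc_map_exists (isLocRing0 A' h) (isLocMod0 N₁) (isLocMod0 N₂) F0'
  have hb01 : Function.Bijective F01' :=
    loc_map_bijective (isLocRing0 A' h) (isLocMod0 N₁) (isLocMod0 N₂) F0' hb0 F01' hF01'
  have hcomp : ∀ m, F01' (γ₁.b01 m) = γ₂.b01 (F.f01 m) :=
    loc_map_unique (isLocRing0 A h) (isLocMod0 L₁) (sig φ 𝒞.B01)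
      (fun m => F01' (γ₁.b01 m)) (fun m => γ₂.b01 (F.f01 m))
      (fun c m => by
        show F01' (γ₁.b01 (c • m)) = sig φ 𝒞.B01 c • F01' (γ₁.b01 m)
        rw [γ₁.semi01, map_smul]
        rfl)
      (fun c m => by
        show γ₂.b01 (F.f01 (c • m)) = sig φ 𝒞.B01 c • γ₂.b01 (F.f01 m)
        rw [map_smul, γ₂.semi01]
        rfl)
      (fun p => by
        show F01' (γ₁.b01 (L₁.r0 p)) = γ₂.b01 (F.f01 (L₁.r0 p))
        rw [γ₁.comm0, hF01', F.comm0, γ₂.comm0]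
        congr 1
        exact hF0' p)
  have hcomm1 : ∀ y, F01' (N₁.r1 y) = N₂.r1 (F1' y) := by
    intro y
    have hy : y ∈ Submodule.span (A' ⊗[k] 𝒞.B1) (Set.range (bcSemi1 γ₁)) := by
      rw [bcSemi1_gen]
      exact Submodule.mem_top
    induction hy using Submodule.span_induction with
    | mem z hz =>
      obtain ⟨q, rfl⟩ := hz
      rw [hF1']
      show F01' (N₁.r1 (γ₁.b1 q)) = N₂.r1 (γ₂.b1 (F.f1 q))
      rw [← γ₁.comm1, hcomp, F.comm1, γ₂.comm1]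
    | zero => rw [map_zero, map_zero, map_zero, map_zero]
    | add z w _ _ hz hw => rw [map_add, map_add, map_add, map_add, hz, hw]
    | smul c z _ hz =>
      rw [N₁.r1.map_smulₛₗ, map_smul, map_smul, N₂.r1.map_smulₛₗ, hz]
  exact ⟨{ e0 := LinearEquiv.ofBijective F0' hb0
           e1 := LinearEquiv.ofBijective F1' hb1
           e01 := LinearEquiv.ofBijective F01' hb01
           comm0 := hF01'
           comm1 := hcomm1 }⟩

end StepII

/-! ### The ring-level localisation -/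

section Ring

variable {R : Type u} [CommRing R] [Algebra k R] (t : R →ₐ[k] k) (r : R) (hr : t r ≠ 0)

variable (k) in
/-- `a ↦ a ⊗ 1 : R → R_r ⊗ B`. -/
def incl (B : Type u) [CommRing B] [Algebra k B] : R →+* (Localization.Away r ⊗[k] B) :=
  (Algebra.TensorProduct.includeLeftRingHom :
    Localization.Away r →+* Localization.Away r ⊗[k] B).comp (algebraMap R (Localization.Away r))

theorem incl_apply (B : Type u) [CommRing B] [Algebra k B] (a : R) :
    incl k r B a = (algebraMap R (Localization.Away r) a) ⊗ₜ[k] (1 : B) := rfl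

theorem ι0_incl (a : R) :
    𝒞.ι0 (Localization.Away r) (incl k r 𝒞.B0 a) = incl k r 𝒞.B01 a := by
  rw [incl_apply, incl_apply, ι0_tmul, map_one]

theorem ι1_incl (a : R) :
    𝒞.ι1 (Localization.Away r) (incl k r 𝒞.B1 a) = incl k r 𝒞.B01 a := by
  rw [incl_apply, incl_apply, ι1_tmul, map_one]

/-- The submonoid of `R_r ⊗ B` of the `a ⊗ 1`, `t a ≠ 0`. -/
def TB (B : Type u) [CommRing B] [Algebra k B] : Submonoid (Localization.Away r ⊗[k] B) :=
  Algebra.algebraMapSubmonoid (Localization.Away r ⊗[k] B)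
    ((ptIdeal t).primeCompl.map (algebraMap R (Localization.Away r)))

theorem mem_TB {B : Type u} [CommRing B] [Algebra k B] {s : Localization.Away r ⊗[k] B}
    (hs : s ∈ TB t r B) : ∃ a : R, t a ≠ 0 ∧ incl k r B a = s := by
  obtain ⟨_, ⟨a, ha, rfl⟩, rfl⟩ := hs
  exact ⟨a, fun h0 => ha h0, rfl⟩

theorem isLoc_sig (B : Type u) [CommRing B] [Algebra k B] :
    @IsLocalization _ _ (TB t r B) (LocAt t ⊗[k] B) _ (sig (awayToLoc t r hr) B).toAlgebra := by
  letI : Algebra (Localization.Away r) (LocAt t) := (awayToLoc t r hr).toRingHom.toAlgebra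
  haveI : IsScalarTower R (Localization.Away r) (LocAt t) :=
    IsScalarTower.of_algebraMap_eq (fun a =>
      (IsLocalization.Away.lift_eq r (isUnit_locMap t r hr) a).symm)
  haveI : IsScalarTower k (Localization.Away r) (LocAt t) :=
    IsScalarTower.of_algebraMap_eq (fun c => ((awayToLoc t r hr).commutes c).symm)
  have hle : Submonoid.powers r ≤ (ptIdeal t).primeCompl := by
    rw [Submonoid.powers_le]
    exact fun h0 => hr h0
  haveI : IsLocalization ((ptIdeal t).primeCompl.map (algebraMap R (Localization.Away r)))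
      (LocAt t) :=
    IsLocalization.isLocalization_of_submonoid_le (Localization.Away r) (LocAt t)
      (Submonoid.powers r) (ptIdeal t).primeCompl hle
  letI : Algebra (Localization.Away r ⊗[k] B) (LocAt t ⊗[k] B) :=
    (sig (awayToLoc t r hr) B).toAlgebra
  haveI : IsScalarTower (Localization.Away r) (Localization.Away r ⊗[k] B) (LocAt t ⊗[k] B) := by
    refine @IsScalarTower.of_algebraMap_eq (Localization.Away r) (Localization.Away r ⊗[k] B)
      (LocAt t ⊗[k] B) _ _ _ _ _ _ (fun a => ?_)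
    rfl
  exact IsLocalization.tensorProduct_tensorProduct k B
    ((ptIdeal t).primeCompl.map (algebraMap R (Localization.Away r))) (LocAt t) (by
      ext b
      show sig (awayToLoc t r hr) B ((1 : Localization.Away r) ⊗ₜ[k] b) = (1 : LocAt t) ⊗ₜ[k] b
      rw [sig_tmul, map_one])

end Ring

/-! ### Step I: lifting the isomorphism to a morphism over `R_r` -/

section StepI

variable {R : Type u} [CommRing R] [Algebra k R] (t : R →ₐ[k] k) (r : R) (hr : t r ≠ 0)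
  {L₁ L₂ : Triple 𝒞 (Localization.Away r)} {M₁ M₂ : Triple 𝒞 (LocAt t)}

theorem exists_hom (h : 𝒞.IsGood) (β₁ : BC (awayToLoc t r hr) L₁ M₁)
    (β₂ : BC (awayToLoc t r hr) L₂ M₂) (E : Triple.Iso M₁ M₂) :
    ∃ (F : Triple.Hom L₁ L₂) (G0 : L₂.P0 → L₁.P0) (G1 : L₂.P1 → L₁.P1) (c0 c1 : R),
      t c0 ≠ 0 ∧ t c1 ≠ 0 ∧
      (∀ q, F.f0 (G0 q) = (algebraMap R (Localization.Away r) c0 ⊗ₜ[k] (1 : 𝒞.B0) :
        Localization.Away r ⊗[k] 𝒞.B0) • q) ∧
      (∀ q, F.f1 (G1 q) = (algebraMap R (Localization.Away r) c1 ⊗ₜ[k] (1 : 𝒞.B1) :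
        Localization.Away r ⊗[k] 𝒞.B1) • q) := by
  haveI := L₁.inv0
  haveI := L₁.inv1
  haveI := L₂.inv0
  haveI := L₂.inv1
  haveI := M₁.inv0
  haveI := M₁.inv1
  haveI := M₂.inv0
  haveI := M₂.inv1
  haveI := inv01 L₂ h
  haveI := inv01 M₂ h
  -- the two charts
  obtain ⟨F0, G0, s0, d0, hs0, hd0, hF0, hFG0⟩ :=
    chart_lift (TB t r 𝒞.B0) (isLoc_sig t r hr 𝒞.B0) (bcSemi0_gen β₁) (bcSemi0_gen β₂) E.e0
  obtain ⟨a0, ha0, rfl⟩ := mem_TB t r hs0
  obtain ⟨c0, hc0, rfl⟩ := mem_TB t r hd0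
  obtain ⟨F1, G1, s1, d1, hs1, hd1, hF1, hFG1⟩ :=
    chart_lift (TB t r 𝒞.B1) (isLoc_sig t r hr 𝒞.B1) (bcSemi1_gen β₁) (bcSemi1_gen β₂) E.e1
  obtain ⟨a1, ha1, rfl⟩ := mem_TB t r hs1
  obtain ⟨c1, hc1, rfl⟩ := mem_TB t r hd1
  have hF0' : ∀ p, β₂.b0 (F0 p) =
      sig (awayToLoc t r hr) 𝒞.B0 (incl k r 𝒞.B0 a0) • E.e0 (β₁.b0 p) := hF0
  have hF1' : ∀ p, β₂.b1 (F1 p) =
      sig (awayToLoc t r hr) 𝒞.B1 (incl k r 𝒞.B1 a1) • E.e1 (β₁.b1 p) := hF1
  -- the overlap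
  obtain ⟨F01, hF01⟩ := loc_map_exists (isLocRing0 (Localization.Away r) h) (isLocMod0 L₁)
    (isLocMod0 L₂) F0
  have key : ∀ m, β₂.b01 (F01 m) =
      sig (awayToLoc t r hr) 𝒞.B01 (incl k r 𝒞.B01 a0) • E.e01 (β₁.b01 m) :=
    loc_map_unique (isLocRing0 (Localization.Away r) h) (isLocMod0 L₁)
      (sig (awayToLoc t r hr) 𝒞.B01)
      (fun m => β₂.b01 (F01 m))
      (fun m => sig (awayToLoc t r hr) 𝒞.B01 (incl k r 𝒞.B01 a0) • E.e01 (β₁.b01 m))
      (fun c m => by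
        show β₂.b01 (F01 (c • m)) = sig (awayToLoc t r hr) 𝒞.B01 c • β₂.b01 (F01 m)
        rw [map_smul, β₂.semi01]
        rfl)
      (fun c m => by
        show sig (awayToLoc t r hr) 𝒞.B01 (incl k r 𝒞.B01 a0) • E.e01 (β₁.b01 (c • m)) =
          sig (awayToLoc t r hr) 𝒞.B01 c •
            (sig (awayToLoc t r hr) 𝒞.B01 (incl k r 𝒞.B01 a0) • E.e01 (β₁.b01 m))
        rw [β₁.semi01, map_smul, smul_comm]
        rfl)
      (fun p => by
        show β₂.b01 (F01 (L₁.r0 p)) =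
          sig (awayToLoc t r hr) 𝒞.B01 (incl k r 𝒞.B01 a0) • E.e01 (β₁.b01 (L₁.r0 p))
        rw [hF01, β₂.comm0, hF0', M₂.r0.map_smulₛₗ, β₁.comm0, E.comm0, ← sig_ι0, ι0_incl])
  -- the defect on the chart 1
  have hD : ∀ y : L₁.P1, β₂.b01 (incl k r 𝒞.B01 a1 • F01 (L₁.r1 y) -
      incl k r 𝒞.B01 a0 • L₂.r1 (F1 y)) = 0 := by
    intro y
    rw [map_sub, β₂.semi01, β₂.semi01, key, β₂.comm1, hF1', M₂.r1.map_smulₛₗ, β₁.comm1,
      E.comm1, ← sig_ι1, ι1_incl, sub_eq_zero, smul_comm]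
    rfl
  have hDker : ∀ y : L₁.P1, ∃ a : (ptIdeal t).primeCompl,
      ((incl k r 𝒞.B01).toMonoidHom.comp (ptIdeal t).primeCompl.subtype) a •
        (incl k r 𝒞.B01 a1 • F01 (L₁.r1 y) - incl k r 𝒞.B01 a0 • L₂.r1 (F1 y)) = 0 := by
    intro y
    obtain ⟨s, hs, hs0⟩ := chart_ker (TB t r 𝒞.B01) (isLoc_sig t r hr 𝒞.B01)
      (bcSemi01_gen h β₂) _ (hD y)
    obtain ⟨a, ha, rfl⟩ := mem_TB t r hs
    exact ⟨⟨a, fun h0 => ha h0⟩, hs0⟩
  obtain ⟨a', ha'⟩ := exists_common_ann (𝒞.ι1 (Localization.Away r))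
    ((incl k r 𝒞.B01).toMonoidHom.comp (ptIdeal t).primeCompl.subtype)
    (fun y : L₁.P1 => incl k r 𝒞.B01 a1 • F01 (L₁.r1 y) - incl k r 𝒞.B01 a0 • L₂.r1 (F1 y))
    (fun y y' => by
      simp only [map_add, smul_add]
      abel)
    (fun c y => by
      simp only [map_smul, L₁.r1.map_smulₛₗ, L₂.r1.map_smulₛₗ, smul_sub]
      rw [smul_comm, smul_comm (incl k r 𝒞.B01 a0)])
    hDker
  have ha'' : ∀ y : L₁.P1, incl k r 𝒞.B01 (a' : R) • (incl k r 𝒞.B01 a1 • F01 (L₁.r1 y)) =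
      incl k r 𝒞.B01 (a' : R) • (incl k r 𝒞.B01 a0 • L₂.r1 (F1 y)) := by
    intro y
    have h1 := ha' y
    rw [smul_sub, sub_eq_zero] at h1
    exact h1
  have hta' : t (a' : R) ≠ 0 := fun h0 => a'.2 h0
  refine ⟨{ f0 := incl k r 𝒞.B0 ((a' : R) * a1) • F0
            f1 := incl k r 𝒞.B1 ((a' : R) * a0) • F1
            f01 := incl k r 𝒞.B01 ((a' : R) * a1) • F01
            comm0 := fun p => ?_
            comm1 := fun y => ?_ }, G0, G1, (a' : R) * a1 * c0, (a' : R) * a0 * c1, ?_, ?_,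
    fun q => ?_, fun q => ?_⟩
  · rw [LinearMap.smul_apply, LinearMap.smul_apply, hF01, L₂.r0.map_smulₛₗ, ι0_incl]
  · rw [LinearMap.smul_apply, LinearMap.smul_apply, L₂.r1.map_smulₛₗ, ι1_incl, map_mul,
      map_mul, mul_smul, mul_smul]
    exact ha'' y
  · rw [map_mul, map_mul]
    exact mul_ne_zero (mul_ne_zero hta' ha1) hc0
  · rw [map_mul, map_mul]
    exact mul_ne_zero (mul_ne_zero hta' ha0) hc1
  · show (incl k r 𝒞.B0 ((a' : R) * a1) • F0) (G0 q) = incl k r 𝒞.B0 ((a' : R) * a1 * c0) • q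
    rw [LinearMap.smul_apply, hFG0, smul_smul, ← map_mul]
  · show (incl k r 𝒞.B1 ((a' : R) * a0) • F1) (G1 q) = incl k r 𝒞.B1 ((a' : R) * a0 * c1) • q
    rw [LinearMap.smul_apply, hFG1, smul_smul, ← map_mul]

end StepI

/-! ### The statement -/

theorem awayDvd_algebraMap {R : Type u} [CommRing R] [Algebra k R] (r ρ : R) (hdvd : r ∣ ρ)
    (a : R) : awayDvd (k := k) r ρ hdvd (algebraMap R (Localization.Away r) a) =
      awayMap (k := k) ρ a :=
  IsLocalization.Away.lift_eq r (isUnit_awayMap_of_dvd (k := k) r ρ hdvd) a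

/-- **CH-LIMLOC**. -/
theorem stmt_LIMLOC : Stmt_LIMLOC.{u} := by
  intro k _ 𝒞 h R _ _ t r hr L₁ L₂ M₁ M₂ β₁ β₂ hE
  obtain ⟨E⟩ := hE
  obtain ⟨F, G0, G1, c0, c1, hc0, hc1, h0, h1⟩ := exists_hom t r hr h β₁ β₂ E
  refine ⟨r * c0 * c1, ?_, ⟨c0 * c1, by ring⟩, fun ρ hρ hdvd _ N₁ N₂ γ₁ γ₂ => ?_⟩
  · rw [map_mul, map_mul]
    exact mul_ne_zero (mul_ne_zero hr hc0) hc1
  · refine iso_of_hom h γ₁ γ₂ F G0 G1 _ _ ?_ ?_ h0 h1
    · rw [awayDvd_algebraMap]
      exact isUnit_awayMap_of_dvd c0 ρ (dvd_trans ⟨r * c1, by ring⟩ hρ)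
    · rw [awayDvd_algebraMap]
      exact isUnit_awayMap_of_dvd c1 ρ (dvd_trans ⟨r * c0, by ring⟩ hρ)

end Fermat.Agent.S25.Chart.H76L
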