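/-
helper4, S25 package CHART: CLOSING file, part 2: `Stmt_SPREADN` and `Stmt_SPREAD`, unconditional.
-/
import Fermat.Agent.S25.Chart.H4_Close
import Fermat.Agent.S25.Chart.H76_LimLoc
import Fermat.Agent.S25.Trip.H92_OpenGenClose

set_option autoImplicit false

universe u

namespace Fermat.Agent.S25.Chart.H4

/-- **SPREADN**, unconditional. -/
theorem stmt_SPREADN : Stmt_SPREADN.{u} :=
  stmt_SPREADN_of2 H76L.stmt_LIMLOC Fermat.Agent.S25.Trip.H92.stmt_BCCOMP

/-- **SPREAD** (the chart is open), unconditional. -/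
theorem stmt_SPREAD : Stmt_SPREAD.{u} :=
  stmt_SPREAD_of2 H76L.stmt_LIMLOC Fermat.Agent.S25.Trip.H92.stmt_BCCOMP

end Fermat.Agent.S25.Chart.H4
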