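/-
helper93, S25 (Jacobian exists), package CHART, leaf ISODIV.

`stmt_ISODIV : Stmt_ISODIV`: `IsDiv` is invariant under isomorphisms of triples (transport of structure).
-/
import Fermat.Agent.S25.Chart.Defs3

set_option autoImplicit false

universe u

open Polynomial TensorProduct

namespace Fermat.Agent.S25.Chart.H93I

open Fermat.Agent.S25.Chart Fermat.Agent.S25.LB

variable {k : Type u} [Field k] {𝒞 : CurveDatum k} {g : ℕ} {R : Type u} [CommRing R] [Algebra k R]

/-- Transport of `IsDiv` along an isomorphism of triples. -/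
theorem isDiv_of_iso (p : Pt k 𝒞.B0 𝒞.x0 g R) {L L' : Triple 𝒞 R} (e : Triple.Iso L L')
    (s0 : L.P0) (s1 : L.P1) (h : IsDiv L s0 s1 p) : IsDiv L' (e.e0 s0) (e.e1 s1) p where
  glue := by rw [← e.comm0, ← e.comm1, h.glue]
  reg0 c hc := by
    apply h.reg0 c
    apply e.e0.injective
    rw [map_smul, hc, map_zero]
  reg1 c hc := by
    apply h.reg1 c
    apply e.e1.injective
    rw [map_smul, hc, map_zero]
  div0 c := by
    rw [h.div0 c]
    constructor
    · intro hq q'
      obtain ⟨d, hd⟩ := hq (e.e0.symm q')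
      refine ⟨d, ?_⟩
      have h2 := congrArg e.e0 hd
      rwa [map_smul, map_smul, LinearEquiv.apply_symm_apply] at h2
    · intro hq q
      obtain ⟨d, hd⟩ := hq (e.e0 q)
      refine ⟨d, ?_⟩
      apply e.e0.injective
      rw [map_smul, map_smul, hd]
  div1 c := by
    rw [h.div1 c]
    constructor
    · intro hq q'
      obtain ⟨d, hd⟩ := hq (e.e1.symm q')
      refine ⟨d, ?_⟩
      have h2 := congrArg e.e1 hd
      rwa [map_smul, map_smul, LinearEquiv.apply_symm_apply] at h2
    · intro hq q
      obtain ⟨d, hd⟩ := hq (e.e1 q)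
      refine ⟨d, ?_⟩
      apply e.e1.injective
      rw [map_smul, map_smul, hd]

/-- **ISODIV**. -/
theorem stmt_ISODIV : Stmt_ISODIV.{u} := by
  intro k _ 𝒞 g R _ _ p L L' e s0 s1 h
  exact isDiv_of_iso p e s0 s1 h

end Fermat.Agent.S25.Chart.H93I
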