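import Mathlib

/-!
# S25, chart side: the infinitesimal lifting property of the chart (helper98)

`k` a ring, `A` a `k`-algebra, `x : A` such that `k[X] → A`, `X ↦ x`, is formally smooth
(resp. formally étale).  For a `k`-algebra `R` the points of the chart are the pairs `(P, ψ)`,
`P : R[X]`, `ψ : A →ₐ[k] AdjoinRoot P` with `ψ x = root P` (Mumford coordinates).

* `exists_lift_of_formallySmooth` : abstract lifting along a surjection with nilpotent kernel;
  `lift_unique_of_formallyUnramified` : uniqueness;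
* `red k I P : AdjoinRoot P →ₐ[k] AdjoinRoot (P mod I)`, surjective (`red_surjective`), with
  kernel inside `I · AdjoinRoot P` (`ker_red_le`), of square zero if `I ^ 2 = 0` (`ker_red_sq`);
* `chart_lift` : for `I` nilpotent, every `ψ'` over `R ⧸ I` lifts to `ψ` over `R`
  (for EVERY lift `P` of the polynomial);
* `chart_lift_unique` : the lift is unique if `X ↦ x` is formally unramified.

Mathlib only.
-/

set_option autoImplicit false
set_option linter.style.haveILetI false

open Polynomial

namespace Fermat.Agent.S25.Chart.H98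

section Abstract

/-- Lifting along a surjection with nilpotent kernel, for a formally smooth ring homomorphism
(ring-hom form of `Algebra.FormallySmooth.liftOfSurjective`). -/
theorem exists_lift_of_formallySmooth {T A B C : Type*} [CommRing T] [CommRing A] [CommRing B]
    [CommRing C] (a : T →+* A) (ha : a.FormallySmooth) (b : T →+* B) (π : B →+* C)
    (hπ : Function.Surjective π) (hker : IsNilpotent (RingHom.ker π))
    (ψ' : A →+* C) (hψ' : ψ'.comp a = π.comp b) :
    ∃ ψ : A →+* B, ψ.comp a = b ∧ π.comp ψ = ψ' := by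
  letI := a.toAlgebra
  letI := b.toAlgebra
  letI : Algebra T C := (π.comp b).toAlgebra
  haveI : Algebra.FormallySmooth T A := ha
  let f : A →ₐ[T] C :=
    { ψ' with
      commutes' := fun t => by
        have := congrArg (fun h : T →+* C => h t) hψ'
        simpa [RingHom.algebraMap_toAlgebra] using this }
  let g : B →ₐ[T] C :=
    { π with
      commutes' := fun t => by simp [RingHom.algebraMap_toAlgebra] }
  have hg : Function.Surjective g := hπ
  have hg' : IsNilpotent (RingHom.ker (g : B →+* C)) := hker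
  refine ⟨(Algebra.FormallySmooth.liftOfSurjective f g hg hg').toRingHom, ?_, ?_⟩
  · ext t
    have := (Algebra.FormallySmooth.liftOfSurjective f g hg hg').commutes t
    simpa [RingHom.algebraMap_toAlgebra] using this
  · ext y
    exact Algebra.FormallySmooth.liftOfSurjective_apply f g hg hg' y

/-- Uniqueness of lifts along a ring homomorphism with nilpotent kernel, for a formally unramified
ring homomorphism. -/
theorem lift_unique_of_formallyUnramified {T A B C : Type*} [CommRing T] [CommRing A]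
    [CommRing B] [CommRing C] (a : T →+* A) (ha : a.FormallyUnramified) (π : B →+* C)
    (hker : IsNilpotent (RingHom.ker π))
    (ψ₁ ψ₂ : A →+* B) (h12 : ψ₁.comp a = ψ₂.comp a) (hπ : π.comp ψ₁ = π.comp ψ₂) :
    ψ₁ = ψ₂ := by
  letI := a.toAlgebra
  letI : Algebra T B := (ψ₁.comp a).toAlgebra
  haveI : Algebra.FormallyUnramified T A := ha
  let g₁ : A →ₐ[T] B :=
    { ψ₁ with commutes' := fun t => by simp [RingHom.algebraMap_toAlgebra] }
  let g₂ : A →ₐ[T] B :=
    { ψ₂ with
      commutes' := fun t => by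
        have := congrArg (fun h : T →+* B => h t) h12
        simpa [RingHom.algebraMap_toAlgebra] using this.symm }
  have h : g₁ = g₂ :=
    Algebra.FormallyUnramified.lift_unique_of_ringHom π hker g₁ g₂ hπ
  ext y
  exact congrArg (fun e : A →ₐ[T] B => e y) h

end Abstract

section Red

variable {R : Type*} [CommRing R]

/-- The reduction `AdjoinRoot P → AdjoinRoot (P mod I)` as a ring homomorphism. -/
noncomputable def redRing (I : Ideal R) (P : R[X]) :
    AdjoinRoot P →+* AdjoinRoot (P.map (Ideal.Quotient.mk I)) :=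
  AdjoinRoot.map (Ideal.Quotient.mk I) P (P.map (Ideal.Quotient.mk I)) (dvd_refl _)

@[simp] theorem redRing_root (I : Ideal R) (P : R[X]) :
    redRing I P (AdjoinRoot.root P) = AdjoinRoot.root _ := by
  simp [redRing]

@[simp] theorem redRing_of (I : Ideal R) (P : R[X]) (r : R) :
    redRing I P (AdjoinRoot.of P r) = AdjoinRoot.of _ (Ideal.Quotient.mk I r) := by
  simp [redRing]

theorem redRing_mk (I : Ideal R) (P q : R[X]) :
    redRing I P (AdjoinRoot.mk P q) = AdjoinRoot.mk _ (q.map (Ideal.Quotient.mk I)) := by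
  induction q using Polynomial.induction_on' with
  | add p q hp hq => simp only [map_add, Polynomial.map_add, hp, hq]
  | monomial n a =>
    rw [← C_mul_X_pow_eq_monomial]
    simp only [map_mul, map_pow, Polynomial.map_mul, Polynomial.map_pow, Polynomial.map_C,
      Polynomial.map_X, AdjoinRoot.mk_C, AdjoinRoot.mk_X, redRing_of, redRing_root]

theorem redRing_surjective (I : Ideal R) (P : R[X]) : Function.Surjective (redRing I P) := by
  intro z
  obtain ⟨q', rfl⟩ := AdjoinRoot.mk_surjective z
  obtain ⟨q, rfl⟩ := Polynomial.map_surjective _ Ideal.Quotient.mk_surjective q'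
  exact ⟨AdjoinRoot.mk P q, redRing_mk I P q⟩

theorem ker_redRing_le (I : Ideal R) (P : R[X]) :
    RingHom.ker (redRing I P) ≤ I.map (AdjoinRoot.of P) := by
  intro z hz
  obtain ⟨q, rfl⟩ := AdjoinRoot.mk_surjective z
  rw [RingHom.mem_ker, redRing_mk, AdjoinRoot.mk_eq_zero] at hz
  obtain ⟨s', hs'⟩ := hz
  obtain ⟨s, rfl⟩ := Polynomial.map_surjective _ Ideal.Quotient.mk_surjective s'
  have hmem : q - P * s ∈ I.map (C : R →+* R[X]) := by
    have : q - P * s ∈ RingHom.ker (Polynomial.mapRingHom (Ideal.Quotient.mk I)) := by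
      rw [RingHom.mem_ker, coe_mapRingHom, Polynomial.map_sub, Polynomial.map_mul, hs', sub_self]
    rwa [Polynomial.ker_mapRingHom, Ideal.mk_ker] at this
  have h1 : AdjoinRoot.mk P q = AdjoinRoot.mk P (q - P * s) := by
    rw [map_sub, map_mul, AdjoinRoot.mk_self, zero_mul, sub_zero]
  rw [h1]
  have h2 : (I.map (C : R →+* R[X])).map (AdjoinRoot.mk P) = I.map (AdjoinRoot.of P) := by
    rw [Ideal.map_map]; rfl
  rw [← h2]
  exact Ideal.mem_map_of_mem _ hmem

theorem ker_redRing_isNilpotent (I : Ideal R) (hI : IsNilpotent I) (P : R[X]) :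
    IsNilpotent (RingHom.ker (redRing I P)) := by
  obtain ⟨n, hn⟩ := hI
  refine ⟨n, ?_⟩
  have h1 : RingHom.ker (redRing I P) ^ n ≤ (I.map (AdjoinRoot.of P)) ^ n :=
    Ideal.pow_right_mono (ker_redRing_le I P) n
  have h2 : (I.map (AdjoinRoot.of P)) ^ n = ⊥ := by
    rw [← Ideal.map_pow, hn]; exact Ideal.map_bot
  rw [Ideal.zero_eq_bot]
  exact le_bot_iff.mp (h2 ▸ h1)

theorem ker_redRing_sq (I : Ideal R) (hI : I ^ 2 = ⊥) (P : R[X]) :
    RingHom.ker (redRing I P) ^ 2 = ⊥ := by
  have h1 : RingHom.ker (redRing I P) ^ 2 ≤ (I.map (AdjoinRoot.of P)) ^ 2 :=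
    Ideal.pow_right_mono (ker_redRing_le I P) 2
  have h2 : (I.map (AdjoinRoot.of P)) ^ 2 = ⊥ := by
    rw [← Ideal.map_pow, hI]; exact Ideal.map_bot
  exact le_bot_iff.mp (h2 ▸ h1)

variable (k : Type*) [CommRing k] [Algebra k R]

/-- The reduction `AdjoinRoot P → AdjoinRoot (P mod I)` as a `k`-algebra homomorphism. -/
noncomputable def red (I : Ideal R) (P : R[X]) :
    AdjoinRoot P →ₐ[k] AdjoinRoot (P.map (Ideal.Quotient.mk I)) :=
  AdjoinRoot.mapAlgHom (Ideal.Quotient.mkₐ k I) P (P.map (Ideal.Quotient.mk I)) (dvd_refl _)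

variable {k}

theorem red_apply (I : Ideal R) (P : R[X]) (z : AdjoinRoot P) :
    red k I P z = redRing I P z := rfl

theorem coe_red (I : Ideal R) (P : R[X]) :
    ((red k I P : AdjoinRoot P →ₐ[k] AdjoinRoot (P.map (Ideal.Quotient.mk I))) :
      AdjoinRoot P →+* AdjoinRoot (P.map (Ideal.Quotient.mk I))) = redRing I P := rfl

@[simp] theorem red_root (I : Ideal R) (P : R[X]) :
    red k I P (AdjoinRoot.root P) = AdjoinRoot.root _ := redRing_root I P

theorem red_mk (I : Ideal R) (P q : R[X]) :
    red k I P (AdjoinRoot.mk P q) = AdjoinRoot.mk _ (q.map (Ideal.Quotient.mk I)) :=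
  redRing_mk I P q

theorem red_surjective (I : Ideal R) (P : R[X]) : Function.Surjective (red k I P) :=
  redRing_surjective I P

end Red

section Chart

variable {k : Type*} [CommRing k] {A : Type*} [CommRing A] [Algebra k A]
  {R : Type*} [CommRing R] [Algebra k R]

/-- a `k`-algebra map `ψ : A → B` with `ψ x = b` is a map of `k[X]`-algebras -/
theorem comp_aeval_eq {B : Type*} [CommRing B] [Algebra k B] (x : A) (b : B) (ψ : A →ₐ[k] B)
    (h : ψ x = b) :
    (ψ : A →+* B).comp (Polynomial.aeval (R := k) x : k[X] →+* A) =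
      (Polynomial.aeval (R := k) b : k[X] →+* B) := by
  have : ψ.comp (Polynomial.aeval (R := k) x) = Polynomial.aeval (R := k) b := by
    apply Polynomial.algHom_ext
    simp [h]
  exact congrArg (fun e : k[X] →ₐ[k] B => (e : k[X] →+* B)) this

/-- **The lifting property of the chart**: `I` nilpotent, `P : R[X]` arbitrary,
`ψ' : A → AdjoinRoot (P mod I)` with `ψ' x = root`; then `ψ'` lifts to `ψ : A → AdjoinRoot P`
with `ψ x = root P`. -/
theorem chart_lift (x : A)
    (hx : (Polynomial.aeval (R := k) x : k[X] →+* A).FormallySmooth)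
    (I : Ideal R) (hI : IsNilpotent I) (P : R[X])
    (ψ' : A →ₐ[k] AdjoinRoot (P.map (Ideal.Quotient.mk I)))
    (hψ' : ψ' x = AdjoinRoot.root _) :
    ∃ ψ : A →ₐ[k] AdjoinRoot P, ψ x = AdjoinRoot.root P ∧ (red k I P).comp ψ = ψ' := by
  have hcomp : (ψ' : A →+* AdjoinRoot (P.map (Ideal.Quotient.mk I))).comp
        (Polynomial.aeval (R := k) x : k[X] →+* A) =
      (redRing I P).comp
        (Polynomial.aeval (R := k) (AdjoinRoot.root P) : k[X] →+* AdjoinRoot P) := by
    rw [comp_aeval_eq x _ ψ' hψ', ← coe_red (k := k)]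
    exact (comp_aeval_eq (AdjoinRoot.root P) _ (red k I P) (red_root I P)).symm
  obtain ⟨ψ, hψa, hψπ⟩ := exists_lift_of_formallySmooth
    (Polynomial.aeval (R := k) x : k[X] →+* A) hx
    (Polynomial.aeval (R := k) (AdjoinRoot.root P) : k[X] →+* AdjoinRoot P)
    (redRing I P) (redRing_surjective I P) (ker_redRing_isNilpotent I hI P)
    (ψ' : A →+* AdjoinRoot (P.map (Ideal.Quotient.mk I))) hcomp
  have hcomm : ∀ c : k, ψ (algebraMap k A c) = algebraMap k (AdjoinRoot P) c := by
    intro c
    have := congrArg (fun h : k[X] →+* AdjoinRoot P => h (Polynomial.C c)) hψa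
    simpa using this
  refine ⟨{ ψ with commutes' := hcomm }, ?_, ?_⟩
  · have := congrArg (fun h : k[X] →+* AdjoinRoot P => h Polynomial.X) hψa
    simpa using this
  · ext y
    exact congrArg (fun h : A →+* AdjoinRoot (P.map (Ideal.Quotient.mk I)) => h y) hψπ

/-- **Uniqueness of the lift** if `X ↦ x` is formally unramified. -/
theorem chart_lift_unique (x : A)
    (hx : (Polynomial.aeval (R := k) x : k[X] →+* A).FormallyUnramified)
    (I : Ideal R) (hI : IsNilpotent I) (P : R[X])
    (ψ₁ ψ₂ : A →ₐ[k] AdjoinRoot P) (h₁ : ψ₁ x = AdjoinRoot.root P)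
    (h₂ : ψ₂ x = AdjoinRoot.root P) (h : (red k I P).comp ψ₁ = (red k I P).comp ψ₂) :
    ψ₁ = ψ₂ := by
  have h12 : (ψ₁ : A →+* AdjoinRoot P).comp (Polynomial.aeval (R := k) x : k[X] →+* A) =
      (ψ₂ : A →+* AdjoinRoot P).comp (Polynomial.aeval (R := k) x : k[X] →+* A) := by
    rw [comp_aeval_eq x _ ψ₁ h₁, comp_aeval_eq x _ ψ₂ h₂]
  have hπ : (redRing I P).comp (ψ₁ : A →+* AdjoinRoot P) =
      (redRing I P).comp (ψ₂ : A →+* AdjoinRoot P) := by
    ext y
    exact congrArg (fun e : A →ₐ[k] _ => e y) h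
  have := lift_unique_of_formallyUnramified
    (Polynomial.aeval (R := k) x : k[X] →+* A) hx (redRing I P)
    (ker_redRing_isNilpotent I hI P) (ψ₁ : A →+* AdjoinRoot P) (ψ₂ : A →+* AdjoinRoot P) h12 hπ
  ext y
  exact congrArg (fun e : A →+* AdjoinRoot P => e y) this

end Chart

end Fermat.Agent.S25.Chart.H98
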