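import Mathlib
import Fermat.Agent.S25.Chart.Defs
import Fermat.Agent.S25.Chart.H98_Lift
import Fermat.Agent.S25.Chart.H98_Cyc

/-!
# S25, chart side: CH-LIFT and CH-SMOOTH in the matrix form (helper98)

* `redAdjoin I N N' : R[N] →+* (R ⧸ I)[N']` (for `N mod I = N'`), surjective, kernel of square zero
  if `I ^ 2 = 0`;
* `stmt_LIFT : Stmt_LIFT` : if `k[X] → A`, `X ↦ x`, is formally étale (formally smooth suffices),
  chart points lift along square-zero extensions;
* `stmt_SMOOTH : Stmt_SMOOTH` : the representing algebra of the chart is smooth.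

Proof of LIFT: lift the companion matrix `ρ̄ x` to a companion matrix `N` over `R`.  The
commutative rings `R[N] ⊂ M_g(R)` and `(R ⧸ I)[N̄] ⊂ M_g(R ⧸ I)`; `ρ̄` lands in `(R ⧸ I)[N̄]`
by the cyclic vector lemma (`mem_adjoin_of_commute`), `R[N] → (R ⧸ I)[N̄]` is onto with
square-zero kernel, and formal smoothness of `k[X] → A` lifts `ρ̄` to `A → R[N]` over `X ↦ N`.
-/

set_option autoImplicit false
set_option linter.style.haveILetI false

universe u

open Matrix
open scoped IsMulCommutative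

namespace Fermat.Agent.S25.Chart.H98

section RedAdjoin

variable {R : Type u} [CommRing R] {g : ℕ}

theorem mapMatrix_algebraMap (I : Ideal R) (r : R) :
    (Ideal.Quotient.mk I).mapMatrix (algebraMap R (Matrix (Fin g) (Fin g) R) r) =
      algebraMap (R ⧸ I) (Matrix (Fin g) (Fin g) (R ⧸ I)) (Ideal.Quotient.mk I r) := by
  ext i j
  simp only [RingHom.mapMatrix_apply, Matrix.map_apply, Matrix.algebraMap_matrix_apply]
  split_ifs <;> simp

theorem mapMatrix_mem_adjoin (I : Ideal R) (N : Matrix (Fin g) (Fin g) R)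
    (N' : Matrix (Fin g) (Fin g) (R ⧸ I)) (hN : N.map (Ideal.Quotient.mk I) = N')
    (y : Matrix (Fin g) (Fin g) R)
    (hy : y ∈ Algebra.adjoin R ({N} : Set (Matrix (Fin g) (Fin g) R))) :
    (Ideal.Quotient.mk I).mapMatrix y ∈
      Algebra.adjoin (R ⧸ I) ({N'} : Set (Matrix (Fin g) (Fin g) (R ⧸ I))) := by
  induction hy using Algebra.adjoin_induction with
  | mem a ha =>
    rw [Set.mem_singleton_iff] at ha
    subst ha
    rw [RingHom.mapMatrix_apply, hN]
    exact Algebra.self_mem_adjoin_singleton _ _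
  | algebraMap r =>
    rw [mapMatrix_algebraMap]
    exact Subalgebra.algebraMap_mem _ _
  | add a b _ _ ha hb => rw [map_add]; exact Subalgebra.add_mem _ ha hb
  | mul a b _ _ ha hb => rw [map_mul]; exact Subalgebra.mul_mem _ ha hb

theorem exists_mem_adjoin_mapMatrix_eq (I : Ideal R) (N : Matrix (Fin g) (Fin g) R)
    (N' : Matrix (Fin g) (Fin g) (R ⧸ I)) (hN : N.map (Ideal.Quotient.mk I) = N')
    (z : Matrix (Fin g) (Fin g) (R ⧸ I))
    (hz : z ∈ Algebra.adjoin (R ⧸ I) ({N'} : Set (Matrix (Fin g) (Fin g) (R ⧸ I)))) :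
    ∃ y ∈ Algebra.adjoin R ({N} : Set (Matrix (Fin g) (Fin g) R)),
      (Ideal.Quotient.mk I).mapMatrix y = z := by
  induction hz using Algebra.adjoin_induction with
  | mem a ha =>
    rw [Set.mem_singleton_iff] at ha
    subst ha
    exact ⟨N, Algebra.self_mem_adjoin_singleton _ _, by rw [RingHom.mapMatrix_apply, hN]⟩
  | algebraMap r =>
    obtain ⟨r, rfl⟩ := Ideal.Quotient.mk_surjective r
    exact ⟨algebraMap R _ r, Subalgebra.algebraMap_mem _ _, mapMatrix_algebraMap I r⟩
  | add a b _ _ ha hb =>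
    obtain ⟨ya, hya, rfl⟩ := ha
    obtain ⟨yb, hyb, rfl⟩ := hb
    exact ⟨ya + yb, Subalgebra.add_mem _ hya hyb, map_add _ _ _⟩
  | mul a b _ _ ha hb =>
    obtain ⟨ya, hya, rfl⟩ := ha
    obtain ⟨yb, hyb, rfl⟩ := hb
    exact ⟨ya * yb, Subalgebra.mul_mem _ hya hyb, map_mul _ _ _⟩

/-- the reduction `R[N] → (R ⧸ I)[N']`, for `N mod I = N'` -/
noncomputable def redAdjoin (I : Ideal R) (N : Matrix (Fin g) (Fin g) R)
    (N' : Matrix (Fin g) (Fin g) (R ⧸ I)) (hN : N.map (Ideal.Quotient.mk I) = N') :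
    ↥(Algebra.adjoin R ({N} : Set (Matrix (Fin g) (Fin g) R))) →+*
      ↥(Algebra.adjoin (R ⧸ I) ({N'} : Set (Matrix (Fin g) (Fin g) (R ⧸ I)))) where
  toFun y := ⟨(Ideal.Quotient.mk I).mapMatrix (y : Matrix (Fin g) (Fin g) R),
    mapMatrix_mem_adjoin I N N' hN _ y.2⟩
  map_one' := Subtype.ext (by simp)
  map_mul' a b := Subtype.ext (by simp)
  map_zero' := Subtype.ext (by simp)
  map_add' a b := Subtype.ext
    (map_add (Ideal.Quotient.mk I).mapMatrix (a : Matrix (Fin g) (Fin g) R)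
      (b : Matrix (Fin g) (Fin g) R))

@[simp] theorem coe_redAdjoin (I : Ideal R) (N : Matrix (Fin g) (Fin g) R)
    (N' : Matrix (Fin g) (Fin g) (R ⧸ I)) (hN : N.map (Ideal.Quotient.mk I) = N')
    (y : ↥(Algebra.adjoin R ({N} : Set (Matrix (Fin g) (Fin g) R)))) :
    ((redAdjoin I N N' hN y : ↥(Algebra.adjoin (R ⧸ I) ({N'} : Set _))) :
        Matrix (Fin g) (Fin g) (R ⧸ I)) =
      (Ideal.Quotient.mk I).mapMatrix (y : Matrix (Fin g) (Fin g) R) := rfl

theorem redAdjoin_surjective (I : Ideal R) (N : Matrix (Fin g) (Fin g) R)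
    (N' : Matrix (Fin g) (Fin g) (R ⧸ I)) (hN : N.map (Ideal.Quotient.mk I) = N') :
    Function.Surjective (redAdjoin I N N' hN) := by
  rintro ⟨z, hz⟩
  obtain ⟨y, hy, rfl⟩ := exists_mem_adjoin_mapMatrix_eq I N N' hN z hz
  exact ⟨⟨y, hy⟩, Subtype.ext rfl⟩

theorem redAdjoin_mul_eq_zero (I : Ideal R) (hI : I ^ 2 = ⊥) (N : Matrix (Fin g) (Fin g) R)
    (N' : Matrix (Fin g) (Fin g) (R ⧸ I)) (hN : N.map (Ideal.Quotient.mk I) = N')
    (a b : ↥(Algebra.adjoin R ({N} : Set (Matrix (Fin g) (Fin g) R))))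
    (ha : redAdjoin I N N' hN a = 0) (hb : redAdjoin I N N' hN b = 0) : a * b = 0 := by
  have key : ∀ c : ↥(Algebra.adjoin R ({N} : Set (Matrix (Fin g) (Fin g) R))),
      redAdjoin I N N' hN c = 0 → ∀ i j, (c : Matrix (Fin g) (Fin g) R) i j ∈ I := by
    intro c hc i j
    have h1 := congrArg (fun z : ↥(Algebra.adjoin (R ⧸ I) ({N'} : Set _)) =>
      (z : Matrix (Fin g) (Fin g) (R ⧸ I)) i j) hc
    simp only [coe_redAdjoin, RingHom.mapMatrix_apply, Matrix.map_apply, ZeroMemClass.coe_zero,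
      Matrix.zero_apply] at h1
    exact Ideal.Quotient.eq_zero_iff_mem.mp h1
  apply Subtype.ext
  ext i j
  simp only [MulMemClass.coe_mul, Matrix.mul_apply, ZeroMemClass.coe_zero, Matrix.zero_apply]
  refine Finset.sum_eq_zero fun l _ => ?_
  have h2 : (a : Matrix (Fin g) (Fin g) R) i l * (b : Matrix (Fin g) (Fin g) R) l j ∈ I ^ 2 := by
    rw [sq]; exact Ideal.mul_mem_mul (key a ha i l) (key b hb l j)
  rw [hI] at h2
  exact h2

theorem ker_redAdjoin_sq (I : Ideal R) (hI : I ^ 2 = ⊥) (N : Matrix (Fin g) (Fin g) R)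
    (N' : Matrix (Fin g) (Fin g) (R ⧸ I)) (hN : N.map (Ideal.Quotient.mk I) = N') :
    RingHom.ker (redAdjoin I N N' hN) ^ 2 = ⊥ := by
  rw [sq, eq_bot_iff, Ideal.mul_le]
  intro a ha b hb
  rw [RingHom.mem_ker] at ha hb
  rw [Ideal.mem_bot]
  exact redAdjoin_mul_eq_zero I hI N N' hN a b ha hb

theorem ker_redAdjoin_isNilpotent (I : Ideal R) (hI : I ^ 2 = ⊥) (N : Matrix (Fin g) (Fin g) R)
    (N' : Matrix (Fin g) (Fin g) (R ⧸ I)) (hN : N.map (Ideal.Quotient.mk I) = N') :
    IsNilpotent (RingHom.ker (redAdjoin I N N' hN)) :=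
  ⟨2, ker_redAdjoin_sq I hI N N' hN⟩

end RedAdjoin

section Lift

variable {k : Type u} [CommRing k] {A : Type u} [CommRing A] [Algebra k A] {x : A} {g : ℕ}
  {R : Type u} [CommRing R] [Algebra k R]

/-- the structure map `k[X] → R[N]`, `X ↦ N` -/
noncomputable def polyToAdjoin (k : Type u) [CommRing k] {R : Type u} [CommRing R] [Algebra k R]
    {g : ℕ} (N : Matrix (Fin g) (Fin g) R) :
    Polynomial k →+* ↥(Algebra.adjoin R ({N} : Set (Matrix (Fin g) (Fin g) R))) :=
  Polynomial.eval₂RingHom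
    ((algebraMap R ↥(Algebra.adjoin R ({N} : Set (Matrix (Fin g) (Fin g) R)))).comp
      (algebraMap k R))
    ⟨N, Algebra.self_mem_adjoin_singleton R N⟩

theorem coe_polyToAdjoin_X (N : Matrix (Fin g) (Fin g) R) :
    ((polyToAdjoin k N Polynomial.X : ↥(Algebra.adjoin R ({N} : Set _))) :
      Matrix (Fin g) (Fin g) R) = N := by
  simp [polyToAdjoin]

theorem coe_polyToAdjoin_C (N : Matrix (Fin g) (Fin g) R) (c : k) :
    ((polyToAdjoin k N (Polynomial.C c) : ↥(Algebra.adjoin R ({N} : Set _))) :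
      Matrix (Fin g) (Fin g) R) = algebraMap R (Matrix (Fin g) (Fin g) R) (algebraMap k R c) := by
  simp [polyToAdjoin]

/-- **CH-LIFT**, with formal smoothness only. -/
theorem lift_of_formallySmooth
    (hx : ((Polynomial.aeval (R := k) x).toRingHom).FormallySmooth)
    (I : Ideal R) (hI : I ^ 2 = ⊥) (p' : Pt k A x g (R ⧸ I)) :
    ∃ p : Pt k A x g R, p.map (Ideal.Quotient.mkₐ k I) = p' := by
  set N : Matrix (Fin g) (Fin g) R := liftCompanion I (p'.ρ x) with hNdef
  have hNc : IsCompanion N := isCompanion_liftCompanion I _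
  have hNmap : N.map (Ideal.Quotient.mk I) = p'.ρ x := map_liftCompanion I p'.comp
  -- the map `A → (R/I)[N̄]`
  have hmem : ∀ a : A, p'.ρ a ∈
      Algebra.adjoin (R ⧸ I) ({p'.ρ x} : Set (Matrix (Fin g) (Fin g) (R ⧸ I))) := by
    intro a
    refine mem_adjoin_of_commute p'.comp _ ?_
    change p'.ρ a * p'.ρ x = p'.ρ x * p'.ρ a
    rw [← map_mul, ← map_mul, mul_comm]
  let ψ' : A →+* ↥(Algebra.adjoin (R ⧸ I) ({p'.ρ x} : Set (Matrix (Fin g) (Fin g) (R ⧸ I)))) :=
    { toFun := fun a => ⟨p'.ρ a, hmem a⟩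
      map_one' := Subtype.ext (by simp)
      map_mul' := fun a b => Subtype.ext (by simp)
      map_zero' := Subtype.ext (by simp)
      map_add' := fun a b => Subtype.ext (by simp) }
  have hcomp : ψ'.comp ((Polynomial.aeval (R := k) x).toRingHom) =
      (redAdjoin I N (p'.ρ x) hNmap).comp (polyToAdjoin k N) := by
    apply Polynomial.ringHom_ext
    · intro c
      apply Subtype.ext
      simp only [RingHom.comp_apply, coe_redAdjoin, coe_polyToAdjoin_C]
      change p'.ρ (Polynomial.aeval x (Polynomial.C c)) = _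
      rw [Polynomial.aeval_C, AlgHom.commutes, mapMatrix_algebraMap]
      ext i j
      simp only [Matrix.algebraMap_matrix_apply]
      rfl
    · apply Subtype.ext
      simp only [RingHom.comp_apply, coe_redAdjoin, coe_polyToAdjoin_X]
      change p'.ρ (Polynomial.aeval x Polynomial.X) = _
      rw [Polynomial.aeval_X, RingHom.mapMatrix_apply, hNmap]
  obtain ⟨ψ, hψa, hψπ⟩ := exists_lift_of_formallySmooth
    ((Polynomial.aeval (R := k) x).toRingHom) hx (polyToAdjoin k N)
    (redAdjoin I N (p'.ρ x) hNmap) (redAdjoin_surjective I N _ hNmap)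
    (ker_redAdjoin_isNilpotent I hI N _ hNmap) ψ' hcomp
  have hψC : ∀ c : k, ((ψ (algebraMap k A c) : ↥(Algebra.adjoin R ({N} : Set _))) :
      Matrix (Fin g) (Fin g) R) = algebraMap k (Matrix (Fin g) (Fin g) R) c := by
    intro c
    have h1 := congrArg (fun h : Polynomial k →+* _ => h (Polynomial.C c)) hψa
    simp only [RingHom.comp_apply] at h1
    have h2 : (Polynomial.aeval (R := k) x).toRingHom (Polynomial.C c) = algebraMap k A c := by
      change Polynomial.aeval x (Polynomial.C c) = _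
      rw [Polynomial.aeval_C]
    rw [h2] at h1
    rw [h1, coe_polyToAdjoin_C]
    ext i j
    simp only [Matrix.algebraMap_matrix_apply]
    rfl
  have hψX : ((ψ x : ↥(Algebra.adjoin R ({N} : Set _))) : Matrix (Fin g) (Fin g) R) = N := by
    have h1 := congrArg (fun h : Polynomial k →+* _ => h Polynomial.X) hψa
    simp only [RingHom.comp_apply] at h1
    have h2 : (Polynomial.aeval (R := k) x).toRingHom Polynomial.X = x := by
      change Polynomial.aeval x Polynomial.X = _
      rw [Polynomial.aeval_X]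
    rw [h2] at h1
    rw [h1, coe_polyToAdjoin_X]
  let ρ : A →ₐ[k] Matrix (Fin g) (Fin g) R :=
    { toFun := fun a => ((ψ a : ↥(Algebra.adjoin R ({N} : Set _))) : Matrix (Fin g) (Fin g) R)
      map_one' := by simp
      map_mul' := fun a b => by simp
      map_zero' := by simp
      map_add' := fun a b => by simp
      commutes' := hψC }
  refine ⟨⟨ρ, ?_⟩, ?_⟩
  · change IsCompanion ((ψ x : ↥(Algebra.adjoin R ({N} : Set _))) : Matrix (Fin g) (Fin g) R)
    rw [hψX]; exact hNc
  · apply Pt.ext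
    apply AlgHom.ext
    intro a
    have h1 := congrArg (fun h : A →+* _ => ((h a : ↥(Algebra.adjoin (R ⧸ I) ({p'.ρ x} : Set _))) :
      Matrix (Fin g) (Fin g) (R ⧸ I))) hψπ
    simp only [RingHom.comp_apply, coe_redAdjoin] at h1
    exact h1

theorem formallySmooth_of_formallyEtale {S T : Type*} [CommRing S] [CommRing T] (f : S →+* T)
    (hf : f.FormallyEtale) : f.FormallySmooth := by
  letI := f.toAlgebra
  haveI : Algebra.FormallyEtale S T := hf
  exact (inferInstance : Algebra.FormallySmooth S T)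

/-- **CH-LIFT**. -/
theorem stmt_LIFT : Stmt_LIFT.{u} := by
  intro k _ A _ _ x g hx R _ _ I hI p'
  exact lift_of_formallySmooth (formallySmooth_of_formallyEtale _ hx) I hI p'

end Lift

section Smooth

/-- **CH-SMOOTH** from the lifting property. -/
theorem formallySmooth_of_isUniv {k : Type u} [CommRing k] {A : Type u} [CommRing A] [Algebra k A]
    {x : A} {g : ℕ}
    (hlift : ∀ (R : Type u) [CommRing R] [Algebra k R] (I : Ideal R), I ^ 2 = ⊥ →
      Function.Surjective (fun p : Pt k A x g R => p.map (Ideal.Quotient.mkₐ k I)))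
    {B : Type u} [CommRing B] [Algebra k B] (u : Pt k A x g B) (hu : IsUniv u) :
    Algebra.FormallySmooth k B := by
  refine Algebra.FormallySmooth.of_comp_surjective ?_
  intro R _ _ I hI f
  obtain ⟨p, hp⟩ := hlift R I hI (u.map f)
  obtain ⟨φ, hφ⟩ := (hu.bij R).2 p
  refine ⟨φ, ?_⟩
  apply (hu.bij (R ⧸ I)).1
  change u.map ((Ideal.Quotient.mkₐ k I).comp φ) = u.map f
  rw [Pt.map_comp]
  have hφ' : u.map φ = p := hφ
  rw [hφ']
  exact hp

/-- **CH-SMOOTH**. -/
theorem stmt_SMOOTH : Stmt_SMOOTH.{u} := by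
  intro k _ A _ _ _ x g hx B _ _ _ u hu
  haveI : Algebra.FormallySmooth k B :=
    formallySmooth_of_isUniv (fun R _ _ I hI => stmt_LIFT k A x g hx R I hI) u hu
  exact ⟨inferInstance, inferInstance⟩

end Smooth

end Fermat.Agent.S25.Chart.H98
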