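/-
helper93, S25 (Jacobian exists), package CHART / NUM: the VANDERMONDE CHART POINT.

`A` a `k`-algebra (`k` a field), `x : A`, `q_1, …, q_g : A →ₐ[k] k` points with pairwise different values of `x`.
Then `O(Z) = ∏ k(q_i) = k^g` has the basis `1, x, …, x^(g-1)` (Vandermonde), and
  `vpt x q hq : Pt k A x g k`,   `ρ b = W⁻¹ * diagonal (q_i b) * W`,   `W = vandermonde (q_i x)`,
is a chart point with ideal `⋂ ker q_i` and `det ρ(h) = ∏ q_i h`.
-/
import Fermat.Agent.S25.Chart.H46_Cyc

set_option autoImplicit false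

universe u

open Polynomial TensorProduct

namespace Fermat.Agent.S25.Chart.H93V

open Fermat.Agent.S25.Chart

variable {k : Type u} [Field k] {A : Type u} [CommRing A] [Algebra k A] (x : A) {g : ℕ}
  (q : Fin g → (A →ₐ[k] k))

/-- The Vandermonde matrix of the values of `x` at the points. -/
noncomputable def vdm : Matrix (Fin g) (Fin g) k := Matrix.vandermonde (fun i => q i x)

theorem isUnit_det_vdm (hq : Function.Injective (fun i => q i x)) : IsUnit (vdm x q).det :=
  isUnit_iff_ne_zero.mpr (Matrix.det_vandermonde_ne_zero_iff.mpr hq)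

/-- Conjugation by an invertible matrix, as an algebra map. -/
noncomputable def conjHom (W : Matrix (Fin g) (Fin g) k) (hW : IsUnit W.det) :
    Matrix (Fin g) (Fin g) k →ₐ[k] Matrix (Fin g) (Fin g) k where
  toFun M := W⁻¹ * M * W
  map_one' := by rw [Matrix.mul_one, Matrix.nonsing_inv_mul _ hW]
  map_mul' M N := by
    calc W⁻¹ * (M * N) * W = W⁻¹ * M * (W * W⁻¹) * N * W := by
          rw [Matrix.mul_nonsing_inv _ hW, Matrix.mul_one, Matrix.mul_assoc W⁻¹ M N]
      _ = W⁻¹ * M * W * (W⁻¹ * N * W) := by simp only [Matrix.mul_assoc]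
  map_zero' := by rw [Matrix.mul_zero, Matrix.zero_mul]
  map_add' M N := by rw [Matrix.mul_add, Matrix.add_mul]
  commutes' r := by
    rw [Algebra.algebraMap_eq_smul_one, Matrix.mul_smul, Matrix.smul_mul, Matrix.mul_one,
      Matrix.nonsing_inv_mul _ hW]

@[simp] theorem conjHom_apply (W : Matrix (Fin g) (Fin g) k) (hW : IsUnit W.det)
    (M : Matrix (Fin g) (Fin g) k) : conjHom W hW M = W⁻¹ * M * W := rfl

theorem conjHom_eq_zero_iff (W : Matrix (Fin g) (Fin g) k) (hW : IsUnit W.det)
    (M : Matrix (Fin g) (Fin g) k) : conjHom W hW M = 0 ↔ M = 0 := by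
  constructor
  · intro h
    rw [conjHom_apply] at h
    have h2 : W * (W⁻¹ * M * W) * W⁻¹ = 0 := by rw [h, Matrix.mul_zero, Matrix.zero_mul]
    rw [← Matrix.mul_assoc, ← Matrix.mul_assoc, Matrix.mul_nonsing_inv _ hW, Matrix.one_mul,
      Matrix.mul_assoc, Matrix.mul_nonsing_inv _ hW, Matrix.mul_one] at h2
    exact h2
  · intro h
    rw [h, map_zero]

/-- The values at the points, as a diagonal matrix. -/
noncomputable def diagHom : A →ₐ[k] Matrix (Fin g) (Fin g) k :=
  (Matrix.diagonalAlgHom k).comp (AlgHom.pi q)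

@[simp] theorem diagHom_apply (b : A) : diagHom q b = Matrix.diagonal (fun i => q i b) := rfl

variable {x q}

/-- The action of `A` on `k^g` in the basis `1, x, …, x^(g-1)`. -/
noncomputable def vrho (hq : Function.Injective (fun i => q i x)) :
    A →ₐ[k] Matrix (Fin g) (Fin g) k :=
  (conjHom (vdm x q) (isUnit_det_vdm x q hq)).comp (diagHom q)

theorem vrho_apply (hq : Function.Injective (fun i => q i x)) (b : A) :
    vrho hq b = (vdm x q)⁻¹ * Matrix.diagonal (fun i => q i b) * vdm x q := rfl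

theorem isCompanion_vrho (hq : Function.Injective (fun i => q i x)) : IsCompanion (vrho hq x) := by
  intro i j hi
  rw [vrho_apply, Matrix.mul_assoc]
  have hcol : ∀ l : Fin g, (Matrix.diagonal (fun i => q i x) * vdm x q) l i =
      vdm x q l ⟨(i : ℕ) + 1, hi⟩ := by
    intro l
    rw [Matrix.diagonal_mul]
    change q l x * (q l x) ^ (i : ℕ) = (q l x) ^ ((i : ℕ) + 1)
    rw [pow_succ']
  rw [Matrix.mul_apply, Finset.sum_congr rfl (fun l _ => by rw [hcol l]), ← Matrix.mul_apply,
    Matrix.nonsing_inv_mul _ (isUnit_det_vdm x q hq), Matrix.one_apply]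
  congr 1
  exact propext (Fin.ext_iff)

/-- **The Vandermonde chart point.** -/
noncomputable def vpt (hq : Function.Injective (fun i => q i x)) : Pt k A x g k :=
  ⟨vrho hq, isCompanion_vrho hq⟩

@[simp] theorem vpt_ρ (hq : Function.Injective (fun i => q i x)) (b : A) :
    (vpt hq).ρ b = (vdm x q)⁻¹ * Matrix.diagonal (fun i => q i b) * vdm x q := rfl

theorem vpt_ρ_eq_zero_iff (hq : Function.Injective (fun i => q i x)) (b : A) :
    (vpt hq).ρ b = 0 ↔ ∀ i, q i b = 0 := by
  change conjHom (vdm x q) (isUnit_det_vdm x q hq) (diagHom q b) = 0 ↔ _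
  rw [conjHom_eq_zero_iff, diagHom_apply]
  constructor
  · intro h i
    have := congrFun (congrFun h i) i
    rwa [Matrix.diagonal_apply_eq, Matrix.zero_apply] at this
  · intro h
    ext i j
    rw [Matrix.zero_apply, Matrix.diagonal_apply]
    split_ifs with hij
    · exact h i
    · rfl

theorem det_vpt_ρ (hq : Function.Injective (fun i => q i x)) (b : A) :
    ((vpt hq).ρ b).det = ∏ i, q i b := by
  rw [vpt_ρ, Matrix.det_mul, Matrix.det_mul, mul_right_comm,
    Matrix.det_nonsing_inv_mul_det _ (isUnit_det_vdm x q hq), one_mul, Matrix.det_diagonal]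

theorem isUnit_det_vpt_ρ (hq : Function.Injective (fun i => q i x)) (b : A)
    (hb : ∀ i, q i b ≠ 0) : IsUnit ((vpt hq).ρ b).det := by
  rw [det_vpt_ρ, isUnit_iff_ne_zero]
  exact Finset.prod_ne_zero_iff.mpr (fun i _ => hb i)

/-- Membership in the ideal of the Vandermonde point, pure tensors. -/
theorem one_tmul_mem_ideal_vpt (hq : Function.Injective (fun i => q i x)) (b : A) :
    ((1 : k) ⊗ₜ[k] b) ∈ (vpt hq).ideal ↔ ∀ i, q i b = 0 := by
  rw [H46.mem_ideal_iff, H46.rho_one_tmul, vpt_ρ_eq_zero_iff]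

/-- Every element of `k ⊗ A` is `1 ⊗ b`. -/
theorem exists_one_tmul (c : k ⊗[k] A) : ∃ b : A, c = (1 : k) ⊗ₜ[k] b := by
  refine ⟨Algebra.TensorProduct.lid k A c, ?_⟩
  have h := (Algebra.TensorProduct.lid k A).symm_apply_apply c
  rw [Algebra.TensorProduct.lid_symm_apply] at h
  exact h.symm

/-- The ideal of the Vandermonde point is the extension of `⨅ ker q_i`. -/
theorem ideal_vpt (hq : Function.Injective (fun i => q i x)) :
    (vpt hq).ideal = Ideal.map (Algebra.TensorProduct.includeRight : A →ₐ[k] k ⊗[k] A)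
      (⨅ i, RingHom.ker (q i)) := by
  ext c
  obtain ⟨b, rfl⟩ := exists_one_tmul c
  rw [one_tmul_mem_ideal_vpt]
  constructor
  · intro h
    refine Ideal.mem_map_of_mem _ ?_
    rw [Ideal.mem_iInf]
    intro i
    exact (RingHom.mem_ker).mpr (h i)
  · intro h i
    have hle : Ideal.map (Algebra.TensorProduct.includeRight : A →ₐ[k] k ⊗[k] A)
        (⨅ i, RingHom.ker (q i)) ≤
        RingHom.ker ((q i).comp (Algebra.TensorProduct.lid k A : k ⊗[k] A →ₐ[k] A)) := by
      rw [Ideal.map_le_iff_le_comap]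
      intro a ha
      rw [Ideal.mem_iInf] at ha
      rw [Ideal.mem_comap, RingHom.mem_ker]
      have h1 : q i a = 0 := (RingHom.mem_ker).mp (ha i)
      simpa using h1
    have h2 := hle h
    rw [RingHom.mem_ker] at h2
    simpa using h2

end Fermat.Agent.S25.Chart.H93V
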