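import Fermat.Agent.S25.Chart.H87_LimIso
import Fermat.Agent.S25.LB.H36_BC

/-!
# S25 (row 24), package CHART, leaf LIM-ISO, unconditional (helper87)

`stmt_LIMISO : Chart.Stmt_LIMISO` = `stmt_LIMISO_of` applied to helper36's `LB.H36.stmt_BCEX`.
-/

set_option autoImplicit false

universe u

namespace Fermat.Agent.S25.Chart.H87

/-- **LIM-ISO**: an isomorphism between the base changes of two triples over a finitely generated
subalgebra is defined over a larger finitely generated subalgebra. -/
theorem stmt_LIMISO : Stmt_LIMISO.{u} :=
  stmt_LIMISO_of Fermat.Agent.S25.LB.H36.stmt_BCEX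

end Fermat.Agent.S25.Chart.H87
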