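/-
helper59, S25 (Jacobian exists), package TRIP, leaf SJ-GRAPH (`Trip.Stmt_SJGRAPH`): the cuts.

`IsLocCart I s f ε` : local Cartier data of an ideal `I` on the open `D(s)`:
  `f ∈ I` a non-zero-divisor, `ε * I ⊆ (f)`, `ε ≡ s` modulo `I`.
If finitely many `s_j` generate the unit ideal then `I` is an invertible module (P1, helper59).

  (P2) graph of a point + a separability element `IsSepElem k B u h F K` ⟹ `IsLocCart (graphIdeal q) (q(h^K) ⊗ 1) …`  (helper59)
  (P3) `Stmt_TRANSFER` : local Cartier data pass to the other chart (abstract two-chart algebra)                     OPEN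
  (P4) `Stmt_COORD`    : unramified coordinates cover a Dedekind domain of finite type over `k = k̄`                   OPEN
  (P5) assembly (helper59)
-/
import Fermat.Agent.S25.Chart.H59_CartDefs2

set_option autoImplicit false

universe u

open Polynomial TensorProduct

namespace Fermat.Agent.S25.Chart.H59

/-- Local Cartier data of the ideal `I` on `D(s)`. -/
structure IsLocCart {T : Type u} [CommRing T] (I : Ideal T) (s f ε : T) : Prop where
  f_mem : f ∈ I
  reg : ∀ c : T, f * c = 0 → c = 0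
  sub_mem : s - ε ∈ I
  mul_mem : ∀ y ∈ I, ∃ w : T, ε * y = f * w

/-- **(P3) TRANSFER** (abstract two-chart algebra; think `T0 = S ⊗ B0`, `T1 = S ⊗ B1`, `T01 = S ⊗ B01`,
`x = 1 ⊗ x0`, `z = 1 ⊗ z1`): if the closed subscheme `V(I)` of the chart `Spec T0` does not meet `z = 0`
(`a * z ≡ 1` modulo `J = comap ι1 (map ι0 I)`), local Cartier data of `I` give local Cartier data of `J`.
Proof: `E = ι0 ε`, `F = ι0 f`, `v = ι1 z`; `v^N F = ι1 f'`, `v^N E = ι1 e'`; `f'` is regular (`ι1` injective, `F` regular,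
`v` a unit); `J` is finitely generated, so `z^m e' J ⊆ (f')` for one `m`; `ε' = a^(N+m) z^m e'`. -/
def Stmt_TRANSFER : Prop :=
  ∀ (T0 T1 T01 : Type u) [CommRing T0] [CommRing T1] [CommRing T01] [IsNoetherianRing T1]
    (ι0 : T0 →+* T01) (ι1 : T1 →+* T01), Function.Injective ι0 → Function.Injective ι1 →
    ∀ (x : T0) (z : T1), ι0 x * ι1 z = 1 →
    (∀ m : T01, ∃ (n : ℕ) (p : T0), ι0 x ^ n * m = ι0 p) →
    (∀ m : T01, ∃ (n : ℕ) (p : T1), ι1 z ^ n * m = ι1 p) →
    ∀ (I : Ideal T0) (a : T1), 1 - a * z ∈ Ideal.comap ι1 (Ideal.map ι0 I) →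
    ∀ (s f ε : T0) (s' : T1), ι0 s = ι1 s' → IsLocCart I s f ε →
      ∃ f' ε' : T1, IsLocCart (Ideal.comap ι1 (Ideal.map ι0 I)) s' f' ε'

/-- **(P4) COORD**: a Dedekind domain `B` of finite type over an algebraically closed field `k`, not a field, is
covered by unramified coordinates: finitely many `(u_j, h_j)` with `k[u_j] → B[1/h_j]` unramified (in the form of a
separability element) and `∑ b_j h_j^(K_j) = 1`.
Proof: for a maximal ideal `𝔪 ≠ ⊥`: `B/𝔪 = k` (Zariski's lemma), `u ∈ 𝔪 \ 𝔪²`, `𝔪 = (u) + 𝔪²`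
(`Ideal.eq_prime_pow_of_succ_lt_of_le`), so `Ω[B⁄k[u]] = 𝔪 Ω[B⁄k[u]]` (`D b = D (c + a u + ∑ m m')`), so `𝔪` is in
`Algebra.unramifiedLocus k[X] B` (`unramifiedLocus_eq_compl_support`, Nakayama);
`Algebra.exists_formallyUnramified_of_isUnramifiedAt` gives `h ∉ 𝔪`; then `H46u.exists_sep_tensor` as in
`H46u.exists_isSepElem` (with `Algebra.FiniteType k B` instead of finiteness over `k[x]`);
`u` is transcendental since `u ∉ k`.  The `h^K` generate the unit ideal. -/
def Stmt_COORD : Prop :=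
  ∀ (k : Type u) [Field k] [IsAlgClosed k] (B : Type u) [CommRing B] [Algebra k B] [IsDomain B]
    [IsDedekindDomain B] [Algebra.FiniteType k B], ¬ IsField B →
    ∃ (n : ℕ) (u h b : Fin n → B) (F : Fin n → Finset (B × B)) (K : Fin n → ℕ),
      (∀ j, Function.Injective (Polynomial.aeval (R := k) (u j)) ∧
        IsSepElem k B (u j) (h j) (F j) (K j)) ∧
      ∑ j, b j * h j ^ K j = 1

end Fermat.Agent.S25.Chart.H59
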