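/-
helper59, S25 (Jacobian exists), package TRIP, leaf SJ-GRAPH, part P4 = `H59.Stmt_COORD`:
unramified coordinates cover a Dedekind domain `B` of finite type over an algebraically closed field.

* `exists_sub_mem`      : `B = k + 𝔪` (Zariski's lemma);
* `exists_uniformizer`  : `u ∈ 𝔪 \ 𝔪²` with `(u) + 𝔪² = 𝔪`;
* `kaehler_le`          : `Ω[B⁄k[u]] = 𝔪 Ω[B⁄k[u]]`;
* `exists_unramified`   : `h ∉ 𝔪` with `k[u] → B[1/h]` formally unramified (Nakayama + unramified locus);
* `exists_isSepElem_of_unramified` : the separability element (helper46's `exists_sep_tensor`);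
* `stmt_COORD`.
-/
import Fermat.Agent.S25.Chart.H59_GraphDefs
import Fermat.Agent.S25.Chart.H46_CartU

set_option autoImplicit false

universe u

open Polynomial TensorProduct

namespace Fermat.Agent.S25.Chart.H59k

section Unram

variable {k : Type u} [Field k] {B : Type u} [CommRing B] [Algebra k B]

/-- `B = k + 𝔪` for a maximal ideal of an algebra of finite type over an algebraically closed field. -/
theorem exists_sub_mem [IsAlgClosed k] [Algebra.FiniteType k B] (𝔪 : Ideal B) [𝔪.IsMaximal] (b : B) :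
    ∃ c : k, b - algebraMap k B c ∈ 𝔪 := by
  let _ : Field (B ⧸ 𝔪) := Ideal.Quotient.field 𝔪
  have : Algebra.FiniteType k (B ⧸ 𝔪) :=
    Algebra.FiniteType.of_surjective (Ideal.Quotient.mkₐ k 𝔪) (Ideal.Quotient.mkₐ_surjective k 𝔪)
  have : Module.Finite k (B ⧸ 𝔪) := finite_of_finite_type_of_isJacobsonRing k (B ⧸ 𝔪)
  have : Algebra.IsIntegral k (B ⧸ 𝔪) := inferInstance
  obtain ⟨c, hc⟩ := (IsAlgClosed.algebraMap_bijective_of_isIntegral (k := k) (K := B ⧸ 𝔪)).2
    (Ideal.Quotient.mk 𝔪 b)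
  refine ⟨c, ?_⟩
  rw [← Ideal.Quotient.eq_zero_iff_mem, map_sub, ← hc]
  exact sub_self _

/-- A uniformiser at a maximal ideal of a Dedekind domain. -/
theorem exists_uniformizer [IsDedekindDomain B] (𝔪 : Ideal B) [𝔪.IsMaximal]
    (h𝔪 : 𝔪 ≠ ⊥) : ∃ u ∈ 𝔪, u ∉ 𝔪 ^ 2 ∧ Ideal.span {u} ⊔ 𝔪 ^ 2 = 𝔪 := by
  have hlt : 𝔪 ^ (1 + 1) < 𝔪 ^ 1 := Ideal.pow_succ_lt_pow h𝔪 1
  obtain ⟨u, hu1, hu2⟩ := SetLike.exists_of_lt hlt
  rw [pow_one] at hu1
  refine ⟨u, hu1, hu2, ?_⟩
  have h1 : 𝔪 ^ (1 + 1) < Ideal.span {u} ⊔ 𝔪 ^ 2 := by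
    refine lt_of_le_of_ne le_sup_right ?_
    intro h
    apply hu2
    have : u ∈ Ideal.span {u} ⊔ 𝔪 ^ 2 := Ideal.mem_sup_left (Ideal.mem_span_singleton_self u)
    rw [← h] at this
    exact this
  have h2 : Ideal.span {u} ⊔ 𝔪 ^ 2 ≤ 𝔪 ^ 1 := by
    rw [pow_one]
    exact sup_le ((Ideal.span_singleton_le_iff_mem _).mpr hu1) (Ideal.pow_le_self two_ne_zero)
  have := Ideal.eq_prime_pow_of_succ_lt_of_le h𝔪 h1 h2
  rw [this, pow_one]

/-- An element of a domain which is algebraic over an algebraically closed field lies in the field. -/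
theorem mem_range_of_isIntegral [IsAlgClosed k] [IsDomain B] {x : B} (hx : IsIntegral k x) :
    ∃ c : k, x = algebraMap k B c := by
  refine ⟨-(minpoly k x).coeff 0, ?_⟩
  have hq : (minpoly k x).leadingCoeff = 1 := minpoly.monic hx
  have h : (minpoly k x).degree = 1 :=
    IsAlgClosed.degree_eq_one_of_irreducible k (minpoly.irreducible hx)
  have : Polynomial.aeval x (minpoly k x) = 0 := minpoly.aeval k x
  rw [Polynomial.eq_X_add_C_of_degree_eq_one h, hq, Polynomial.C_1, one_mul, Polynomial.aeval_add,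
    Polynomial.aeval_X, Polynomial.aeval_C, add_eq_zero_iff_eq_neg] at this
  rw [map_neg]
  exact this

/-- A non-zero non-unit of `B` is transcendental over `k`. -/
theorem aeval_injective_of_mem [IsAlgClosed k] [IsDomain B] {𝔪 : Ideal B} (h𝔪 : 𝔪 ≠ ⊤) {u : B}
    (hu : u ∈ 𝔪) (hu0 : u ≠ 0) : Function.Injective (Polynomial.aeval (R := k) u) := by
  rw [← transcendental_iff_injective]
  intro halg
  obtain ⟨c, hc⟩ := mem_range_of_isIntegral halg.isIntegral
  have hc0 : c ≠ 0 := by
    rintro rfl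
    exact hu0 (by rw [hc, map_zero])
  apply h𝔪
  rw [Ideal.eq_top_iff_one]
  have : (1 : B) = algebraMap k B c⁻¹ * u := by
    rw [hc, ← map_mul, inv_mul_cancel₀ hc0, map_one]
  rw [this]
  exact Ideal.mul_mem_left _ _ hu

end Unram

section Kaehler

variable {k : Type u} [Field k] [IsAlgClosed k] {B : Type u} [CommRing B] [Algebra k B]
  [IsDedekindDomain B] [Algebra.FiniteType k B]

omit [IsDedekindDomain B] in
/-- `Ω[B⁄k[u]] = 𝔪 Ω[B⁄k[u]]` for a uniformiser `u` at `𝔪`. -/
theorem kaehler_le (𝔪 : Ideal B) [𝔪.IsMaximal] (u : B) (hu𝔪 : u ∈ 𝔪)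
    (hu : Ideal.span {u} ⊔ 𝔪 ^ 2 = 𝔪) :
    letI := H46r.algX (k := k) u
    (⊤ : Submodule B (Ω[B⁄k[X]])) ≤ 𝔪 • (⊤ : Submodule B (Ω[B⁄k[X]])) := by
  letI := H46r.algX (k := k) u
  haveI := H46r.tower_algX (k := k) u
  have hDu : KaehlerDifferential.D k[X] B u = 0 := by
    have : u = algebraMap k[X] B Polynomial.X := by
      show u = Polynomial.aeval u Polynomial.X
      rw [Polynomial.aeval_X]
    rw [this, Derivation.map_algebraMap]
  have hsm : ∀ (a : B) (ω : Ω[B⁄k[X]]), a ∈ 𝔪 → a • ω ∈ 𝔪 • (⊤ : Submodule B (Ω[B⁄k[X]])) :=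
    fun a ω ha => Submodule.smul_mem_smul ha Submodule.mem_top
  have key2 : ∀ m ∈ 𝔪 ^ 2, KaehlerDifferential.D k[X] B m ∈ 𝔪 • (⊤ : Submodule B (Ω[B⁄k[X]])) := by
    intro m hm
    rw [pow_two] at hm
    refine Submodule.mul_induction_on hm ?_ ?_
    · intro p hp q hq
      rw [Derivation.leibniz]
      exact Submodule.add_mem _ (hsm _ _ hp) (hsm _ _ hq)
    · intro x y hx hy
      rw [map_add]
      exact Submodule.add_mem _ hx hy
  have key : ∀ m ∈ 𝔪, KaehlerDifferential.D k[X] B m ∈ 𝔪 • (⊤ : Submodule B (Ω[B⁄k[X]])) := by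
    intro m hm
    rw [← hu] at hm
    obtain ⟨y, hy, m2, hm2, rfl⟩ := Submodule.mem_sup.mp hm
    obtain ⟨a, rfl⟩ := Ideal.mem_span_singleton'.mp hy
    rw [map_add, Derivation.leibniz, hDu, smul_zero, zero_add]
    exact Submodule.add_mem _ (hsm _ _ hu𝔪) (key2 m2 hm2)
  intro ω _
  have hω : ω ∈ Submodule.span B (Set.range (KaehlerDifferential.D k[X] B)) := by
    rw [KaehlerDifferential.span_range_derivation]
    trivial
  refine (Submodule.span_le.mpr ?_) hω
  rintro _ ⟨b, rfl⟩
  obtain ⟨c, hc⟩ := exists_sub_mem (k := k) 𝔪 b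
  have hDc : KaehlerDifferential.D k[X] B (algebraMap k B c) = 0 := by
    have : algebraMap k B c = algebraMap k[X] B (Polynomial.C c) := by
      show algebraMap k B c = Polynomial.aeval u (Polynomial.C c)
      rw [Polynomial.aeval_C]
    rw [this, Derivation.map_algebraMap]
  have e : KaehlerDifferential.D k[X] B b = KaehlerDifferential.D k[X] B (b - algebraMap k B c) := by
    rw [map_sub, hDc, sub_zero]
  show KaehlerDifferential.D k[X] B b ∈ _
  rw [e]
  exact key _ hc

/-- An unramified coordinate at a maximal ideal. -/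
theorem exists_unramified (𝔪 : Ideal B) [𝔪.IsMaximal] (h𝔪 : 𝔪 ≠ ⊥) :
    ∃ u h : B, h ∉ 𝔪 ∧ Function.Injective (Polynomial.aeval (R := k) u) ∧
      (letI := H46r.algX (k := k) u
       Algebra.FormallyUnramified k[X] (Localization.Away h)) := by
  obtain ⟨u, hu𝔪, hu2, hu⟩ := exists_uniformizer 𝔪 h𝔪
  have hu0 : u ≠ 0 := by
    rintro rfl
    exact hu2 (Ideal.zero_mem _)
  have hinj : Function.Injective (Polynomial.aeval (R := k) u) :=
    aeval_injective_of_mem (Ideal.IsMaximal.ne_top inferInstance) hu𝔪 hu0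
  letI := H46r.algX (k := k) u
  haveI := H46r.tower_algX (k := k) u
  haveI : Algebra.FiniteType k[X] B := Algebra.FiniteType.of_restrictScalars_finiteType k k[X] B
  have hfg : (⊤ : Submodule B (Ω[B⁄k[X]])).FG := Module.Finite.fg_top
  obtain ⟨r, hr1, hr2⟩ := Submodule.exists_sub_one_mem_and_smul_eq_zero_of_fg_of_le_smul 𝔪
    (⊤ : Submodule B (Ω[B⁄k[X]])) hfg (kaehler_le (k := k) 𝔪 u hu𝔪 hu)
  have hr : r ∉ 𝔪 := by
    intro hr
    apply Ideal.IsMaximal.ne_top (inferInstance : 𝔪.IsMaximal)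
    rw [Ideal.eq_top_iff_one]
    have : (1 : B) = r - (r - 1) := by ring
    rw [this]
    exact Ideal.sub_mem _ hr hr1
  refine ⟨u, r, hr, hinj, ?_⟩
  rw [← Algebra.basicOpen_subset_unramifiedLocus_iff, Algebra.unramifiedLocus_eq_compl_support]
  intro p hp
  rw [Set.mem_compl_iff, Module.notMem_support_iff']
  intro ω
  exact ⟨r, hp, hr2 ω Submodule.mem_top⟩

end Kaehler

section Sep

variable {k : Type u} [Field k] {B : Type u} [CommRing B] [Algebra k B]

/-- The separability element of an unramified coordinate (as `H46u.exists_isSepElem`, for `B` of finite type). -/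
theorem exists_isSepElem_of_unramified [IsDomain B] [Algebra.FiniteType k B] (u h : B)
    (hu : Function.Injective (Polynomial.aeval (R := k) u)) (h0 : h ≠ 0)
    (hunr : letI := H46r.algX (k := k) u
      Algebra.FormallyUnramified k[X] (Localization.Away h)) :
    ∃ (F : Finset (B × B)) (K : ℕ), H59.IsSepElem k B u h F K := by
  letI algB : Algebra k[X] B := H46r.algX (k := k) u
  haveI := H46r.tower_algX (k := k) u
  haveI := H46r.torsionFree_algX (k := k) u hu
  haveI : Module.Flat k[X] B := inferInstance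
  haveI : Algebra.FormallyUnramified k[X] (Localization.Away h) := hunr
  haveI hft0 : Algebra.FiniteType k[X] B := Algebra.FiniteType.of_restrictScalars_finiteType k k[X] B
  haveI hft1 : Algebra.FiniteType B (Localization.Away h) :=
    IsLocalization.finiteType_of_monoid_fg (Submonoid.powers h) _
  haveI : Algebra.FiniteType k[X] (Localization.Away h) := Algebra.FiniteType.trans hft0 hft1
  haveI : Module.Flat B (Localization.Away h) := IsLocalization.flat _ (Submonoid.powers h)
  haveI : Module.Flat k[X] (Localization.Away h) := Module.Flat.trans k[X] B _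
  have hinj : Function.Injective (algebraMap B (Localization.Away h)) :=
    IsLocalization.injective _ (powers_le_nonZeroDivisors_of_noZeroDivisors h0)
  obtain ⟨t0, K, hK, hs⟩ :=
    H46u.exists_sep_tensor (P := k[X]) (A := Localization.Away h) h hinj
  obtain ⟨F, hF⟩ := TensorProduct.exists_finset t0
  refine ⟨F, K, ?_, ?_⟩
  · rw [← hK, hF, map_sum]
    simp
  · intro C _ _ α β hαβ s
    letI algC : Algebra k[X] C :=
      (α.toRingHom.comp (Polynomial.aeval (R := k) u).toRingHom).toAlgebra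
    let α' : B →ₐ[k[X]] C := { α.toRingHom with commutes' := fun r => rfl }
    let β' : B →ₐ[k[X]] C :=
      { β.toRingHom with
        commutes' := fun r => by
          show β (Polynomial.aeval u r) = α (Polynomial.aeval u r)
          rw [← Polynomial.aeval_algHom_apply, ← Polynomial.aeval_algHom_apply, hαβ] }
    have hs' := hs s
    rw [hF] at hs'
    exact H46u.sep_universal (P := k[X]) F s hs' α' β'

end Sep

section Cover

variable {k : Type u} [Field k] [IsAlgClosed k] {B : Type u} [CommRing B] [Algebra k B]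
  [IsDedekindDomain B] [Algebra.FiniteType k B]

/-- The set of the `h^K` of the unramified coordinates. -/
def coordSet (k : Type u) [Field k] (B : Type u) [CommRing B] [Algebra k B] : Set B :=
  {t | ∃ (u h : B) (F : Finset (B × B)) (K : ℕ),
    Function.Injective (Polynomial.aeval (R := k) u) ∧ H59.IsSepElem k B u h F K ∧ t = h ^ K}

theorem span_coordSet (hB : ¬ IsField B) : Ideal.span (coordSet k B) = ⊤ := by
  by_contra hne
  obtain ⟨𝔪, h𝔪, hle⟩ := Ideal.exists_le_maximal _ hne
  haveI := h𝔪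
  have hbot : 𝔪 ≠ ⊥ := (Ideal.bot_lt_of_maximal 𝔪 hB).ne'
  obtain ⟨u, h, hh, hu, hunr⟩ := exists_unramified (k := k) 𝔪 hbot
  have h0 : h ≠ 0 := by
    rintro rfl
    exact hh (Ideal.zero_mem _)
  obtain ⟨F, K, hF⟩ := exists_isSepElem_of_unramified u h hu h0 hunr
  have hmem : h ^ K ∈ 𝔪 := hle (Ideal.subset_span ⟨u, h, F, K, hu, hF, rfl⟩)
  exact hh (h𝔪.isPrime.mem_of_pow_mem K hmem)

end Cover

end Fermat.Agent.S25.Chart.H59k

namespace Fermat.Agent.S25.Chart.H59

/-- **(P4) COORD**: unramified coordinates cover a Dedekind domain of finite type over `k = k̄`. -/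
theorem stmt_COORD : Stmt_COORD.{u} := by
  intro k _ _ B _ _ _ _ _ hB
  have h1 : (1 : B) ∈ Ideal.span (H59k.coordSet k B) := by
    rw [H59k.span_coordSet hB]
    trivial
  obtain ⟨n, b, g, hsum⟩ := Submodule.mem_span_set'.mp h1
  choose u h F K hu hF hg using fun j => (g j).2
  refine ⟨n, u, h, b, F, K, fun j => ⟨hu j, hF j⟩, ?_⟩
  rw [← hsum]
  refine Finset.sum_congr rfl fun j _ => ?_
  rw [smul_eq_mul, hg j]

end Fermat.Agent.S25.Chart.H59
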