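/-
helper59, S25 (Jacobian exists), chart side, DIV-EX: the algebra of Cartier data (`IsCart`).
* `invertible_of_mul_eq_span` : `f` a non-zero-divisor, `I * J = (f)`  ⟹  `Module.Invertible S J`.
* `IsCart.mul_eq`      : `I * (f, ε) = (f)`.
* `IsCart.mem_iff`     : `c ∈ I ↔ ∀ q ∈ (f, ε), ∃ d, c * q = d * f`.
* `IsCart.invertible`  : `Module.Invertible S (f, ε)`.
-/
import Fermat.Agent.S25.Chart.H59_CartDefs

set_option autoImplicit false

universe u

namespace Fermat.Agent.S25.Chart.H59

section Inv

variable {S : Type u} [CommRing S]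

/-- If `f` is a non-zero-divisor and `I * J = (f)`, then `J` is an invertible module. -/
theorem invertible_of_mul_eq_span (I J : Ideal S) (f : S) (hreg : ∀ c : S, f * c = 0 → c = 0)
    (hIJ : I * J = Ideal.span {f}) : Module.Invertible S J := by
  classical
  let A := Localization.Away f
  have hinj : Function.Injective (algebraMap S A) := by
    refine IsLocalization.injective A (M := Submonoid.powers f) ?_
    rintro x ⟨n, rfl⟩
    refine pow_mem (mem_nonZeroDivisors_iff.mpr ⟨fun c hc => hreg c hc, fun c hc => ?_⟩) n
    exact hreg c (by rw [mul_comm]; exact hc)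
  have hfaith : FaithfulSMul S A := (faithfulSMul_iff_algebraMap_injective S A).mpr hinj
  let finv : A := IsLocalization.Away.invSelf f
  have hfinv : finv * algebraMap S A f = 1 := by
    rw [mul_comm]; exact IsLocalization.Away.mul_invSelf f
  let φ : S →ₗ[S] A := (LinearMap.mulLeft S finv).comp (Algebra.linearMap S A)
  have hφ : ∀ x, φ x = finv * algebraMap S A x := fun x => rfl
  have hφinj : Function.Injective φ := by
    intro x y hxy
    apply hinj
    have := congrArg (fun t => algebraMap S A f * t) hxy
    simp only [hφ] at this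
    rwa [← mul_assoc, ← mul_assoc, mul_comm _ finv, hfinv, one_mul, one_mul] at this
  let I' : Submodule S A := Submodule.map (Algebra.linearMap S A) I
  let J' : Submodule S A := Submodule.map φ J
  have hmul : I' * J' = 1 := by
    apply le_antisymm
    · rw [Submodule.mul_le]
      rintro a ⟨y, hy, rfl⟩ b ⟨q, hq, rfl⟩
      have hyq : y * q ∈ Ideal.span {f} := hIJ ▸ Ideal.mul_mem_mul hy hq
      obtain ⟨d, hd⟩ := Ideal.mem_span_singleton'.mp hyq
      rw [Submodule.mem_one]
      refine ⟨d, ?_⟩
      rw [hφ, Algebra.linearMap_apply]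
      calc algebraMap S A d = algebraMap S A d * (finv * algebraMap S A f) := by
            rw [hfinv, mul_one]
        _ = finv * algebraMap S A (d * f) := by rw [map_mul]; ring
        _ = finv * algebraMap S A (y * q) := by rw [hd]
        _ = algebraMap S A y * (finv * algebraMap S A q) := by rw [map_mul]; ring
    · rw [Submodule.one_le]
      have hle : I * J ≤ Submodule.comap φ (I' * J') := by
        rw [Ideal.mul_le]
        intro y hy q hq
        rw [Submodule.mem_comap, hφ, map_mul]
        have : finv * (algebraMap S A y * algebraMap S A q) =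
            algebraMap S A y * (finv * algebraMap S A q) := by ring
        rw [this]
        exact Submodule.mul_mem_mul ⟨y, hy, rfl⟩ ⟨q, hq, rfl⟩
      have hf : f ∈ I * J := hIJ ▸ Ideal.subset_span rfl
      have := hle hf
      rwa [Submodule.mem_comap, hφ, hfinv] at this
  let u : (Submodule S A)ˣ := Units.mkOfMulEqOne J' I' (by rw [mul_comm]; exact hmul)
  have hu : Module.Invertible S (u : Submodule S A) := inferInstance
  have hu' : Module.Invertible S ↥(Submodule.map φ J) := hu
  exact Module.Invertible.congr (Submodule.equivMapOfInjective φ hφinj J).symm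

end Inv

section Cart

variable {S : Type u} [CommRing S] {I : Ideal S} {f ε : S}

theorem IsCart.eps_mem (_h : IsCart I f ε) : ε ∈ (Ideal.span {f, ε} : Ideal S) :=
  Ideal.subset_span (by simp)

theorem IsCart.f_mem_span (_h : IsCart I f ε) : f ∈ (Ideal.span {f, ε} : Ideal S) :=
  Ideal.subset_span (by simp)

/-- `I * (f, ε) = (f)`. -/
theorem IsCart.mul_eq (h : IsCart I f ε) : I * Ideal.span {f, ε} = Ideal.span {f} := by
  apply le_antisymm
  · rw [Ideal.mul_le]
    intro y hy q hq
    obtain ⟨a, b, rfl⟩ := Ideal.mem_span_pair.mp hq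
    obtain ⟨w, hw⟩ := h.mul_mem y hy
    have : y * (a * f + b * ε) = (y * a + b * w) * f := by
      have : b * (ε * y) = b * (f * w) := by rw [hw]
      linear_combination this
    rw [this]
    exact Ideal.mul_mem_left _ _ (Ideal.subset_span rfl)
  · rw [Ideal.span_singleton_le_iff_mem]
    have key : (1 - ε) * f + f * ε ∈ I * Ideal.span {f, ε} :=
      Ideal.add_mem _ (Ideal.mul_mem_mul h.one_sub_mem h.f_mem_span)
        (Ideal.mul_mem_mul h.f_mem h.eps_mem)
    have e : (1 - ε) * f + f * ε = f := by ring
    rwa [e] at key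

/-- `c ∈ I ↔ c * (f, ε) ⊆ (f)`. -/
theorem IsCart.mem_iff (h : IsCart I f ε) (c : S) :
    c ∈ I ↔ ∀ q ∈ (Ideal.span {f, ε} : Ideal S), ∃ d : S, c * q = d * f := by
  constructor
  · intro hc q hq
    have : c * q ∈ Ideal.span {f} := h.mul_eq ▸ Ideal.mul_mem_mul hc hq
    exact Ideal.mem_span_singleton'.mp this |>.imp fun d hd => hd.symm
  · intro hc
    obtain ⟨d, hd⟩ := hc ε h.eps_mem
    have : c = c * (1 - ε) + d * f := by rw [← hd]; ring
    rw [this]
    exact Ideal.add_mem _ (Ideal.mul_mem_left _ _ h.one_sub_mem) (Ideal.mul_mem_left _ _ h.f_mem)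

/-- `(f, ε)` is an invertible module. -/
theorem IsCart.invertible (h : IsCart I f ε) :
    Module.Invertible S (Ideal.span {f, ε} : Ideal S) :=
  invertible_of_mul_eq_span I _ f h.reg h.mul_eq

/-- `I` itself is an invertible module. -/
theorem IsCart.invertible_self (h : IsCart I f ε) : Module.Invertible S I :=
  invertible_of_mul_eq_span _ I f h.reg (by rw [mul_comm]; exact h.mul_eq)

end Cart

end Fermat.Agent.S25.Chart.H59
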