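/-
helper59, S25 (Jacobian exists), package TRIP, leaf SJ-GRAPH, parts P1 and P2.

(P1) `invertible_of_locCart` : local Cartier data `IsLocCart I (s j) (f j) (ε j)` with `∑ c j * s j = 1`
     make `I` an invertible module (`I * ((f₀) : I) = (f₀)`), and `I` has no annihilator.
(P2) `graph_locCart` : for a point `q : B → S` and a separability element of `(B, u, h)`, the graph ideal
     `ker (S ⊗ B → S)` has local Cartier data on `D(q(h^K))`: `f = 1 ⊗ u - q u ⊗ 1`, `ε = ∑ q b ⊗ a`.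
-/
import Fermat.Agent.S25.Chart.H59_GraphDefs
import Fermat.Agent.S25.Chart.H59_Cart
import Fermat.Agent.S25.Chart.H46_Reg

set_option autoImplicit false

universe u

open Polynomial TensorProduct

namespace Fermat.Agent.S25.Chart.H59

section P1

variable {T : Type u} [CommRing T] {I : Ideal T}

/-- The cofactor `w` of `ε * f₀ = f * w` lies in the colon ideal `((f₀) : I)`. -/
theorem IsLocCart.cofactor_mem {s f ε : T} (h : IsLocCart I s f ε) {f0 w : T}
    (hw : ε * f0 = f * w) (y : T) (hy : y ∈ I) : ∃ w' : T, w * y = f0 * w' := by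
  obtain ⟨w', hw'⟩ := h.mul_mem y hy
  refine ⟨w', ?_⟩
  have h1 : f * (w * y - f0 * w') = 0 := by
    have e1 : f * (w * y - f0 * w') = (f * w) * y - f0 * (f * w') := by ring
    rw [e1, ← hw, ← hw']
    ring
  have := h.reg _ h1
  exact sub_eq_zero.mp this

/-- **(P1)** local Cartier data on a cover make `I` invertible. -/
theorem invertible_of_locCart (I : Ideal T) {n : ℕ} (s f ε c : Fin n → T)
    (h : ∀ j, IsLocCart I (s j) (f j) (ε j)) (hc : ∑ j, c j * s j = 1) :
    Module.Invertible T I := by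
  rcases Nat.eq_zero_or_pos n with hn | hn
  · subst hn
    have h01 : (0 : T) = 1 := by simpa using hc
    have hsub : Subsingleton T := subsingleton_of_zero_eq_one h01
    refine invertible_of_mul_eq_span I I 0 (fun c _ => Subsingleton.elim _ _) ?_
    exact Subsingleton.elim _ _
  · set f0 : T := f ⟨0, hn⟩ with hf0
    have hf0I : f0 ∈ I := (h ⟨0, hn⟩).f_mem
    set J : Ideal T := (Ideal.span {f0} : Ideal T).colon (I : Set T) with hJ
    have memJ : ∀ {a : T}, a ∈ J ↔ ∀ y ∈ I, ∃ w : T, a * y = f0 * w := by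
      intro a
      rw [hJ, Submodule.mem_colon]
      constructor
      · intro H y hy
        obtain ⟨w, hw⟩ := Ideal.mem_span_singleton'.mp (H y hy)
        exact ⟨w, by rw [mul_comm f0 w, hw, smul_eq_mul]⟩
      · intro H y hy
        obtain ⟨w, hw⟩ := H y hy
        exact Ideal.mem_span_singleton'.mpr ⟨w, by rw [smul_eq_mul, hw, mul_comm]⟩
    have hf0J : f0 ∈ J := memJ.mpr fun y _ => ⟨y, rfl⟩
    refine invertible_of_mul_eq_span J I f0 (h ⟨0, hn⟩).reg ?_
    apply le_antisymm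
    · rw [Ideal.mul_le]
      intro a ha y hy
      obtain ⟨w, hw⟩ := memJ.mp ha y hy
      exact Ideal.mem_span_singleton'.mpr ⟨w, by rw [hw, mul_comm]⟩
    · rw [Ideal.span_singleton_le_iff_mem]
      have key : ∀ j, s j * f0 ∈ J * I := by
        intro j
        obtain ⟨w, hw⟩ := (h j).mul_mem f0 hf0I
        have hwJ : w ∈ J := memJ.mpr fun y hy => (h j).cofactor_mem hw y hy
        have e : s j * f0 = f0 * (s j - ε j) + w * f j := by
          have : ε j * f0 = w * f j := by rw [hw, mul_comm]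
          linear_combination this
        rw [e]
        exact Ideal.add_mem _ (Ideal.mul_mem_mul hf0J (h j).sub_mem)
          (Ideal.mul_mem_mul hwJ (h j).f_mem)
      have e : f0 = ∑ j, c j * (s j * f0) := by
        have : (∑ j, c j * s j) * f0 = ∑ j, c j * (s j * f0) := by
          rw [Finset.sum_mul]
          exact Finset.sum_congr rfl fun j _ => by ring
        rw [← this, hc, one_mul]
      rw [e]
      exact Ideal.sum_mem _ fun j _ => Ideal.mul_mem_left _ _ (key j)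

/-- An ideal with local Cartier data on a cover has no annihilator. -/
theorem faithful_of_locCart (I : Ideal T) {n : ℕ} (s f ε c : Fin n → T)
    (h : ∀ j, IsLocCart I (s j) (f j) (ε j)) (hc : ∑ j, c j * s j = 1) :
    ∀ a : T, (∀ y ∈ I, a * y = 0) → a = 0 := by
  intro a ha
  rcases Nat.eq_zero_or_pos n with hn | hn
  · subst hn
    have h01 : (0 : T) = 1 := by simpa using hc
    have hsub : Subsingleton T := subsingleton_of_zero_eq_one h01
    exact Subsingleton.elim _ _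
  · apply (h ⟨0, hn⟩).reg
    rw [mul_comm]
    exact ha _ (h ⟨0, hn⟩).f_mem

end P1

section P2

variable {k : Type u} [Field k] {B : Type u} [CommRing B] [Algebra k B]
  {S : Type u} [CommRing S] [Algebra k S]

/-- The evaluation `S ⊗ B → S` at a point `q : B → S`. -/
noncomputable def evPt (q : B →ₐ[k] S) : (S ⊗[k] B) →ₐ[S] S :=
  Algebra.TensorProduct.lift (AlgHom.id S S) q (fun _ _ => Commute.all _ _)

@[simp] theorem evPt_tmul (q : B →ₐ[k] S) (r : S) (b : B) : evPt q (r ⊗ₜ[k] b) = r * q b := by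
  simp [evPt]

/-- The generator `1 ⊗ u - q u ⊗ 1`. -/
noncomputable def fPt (q : B →ₐ[k] S) (u : B) : S ⊗[k] B := (1 : S) ⊗ₜ[k] u - q u ⊗ₜ[k] (1 : B)

/-- The element `ε = ∑ q b ⊗ a`. -/
noncomputable def epsPt (q : B →ₐ[k] S) (F : Finset (B × B)) : S ⊗[k] B :=
  ∑ i ∈ F, q i.2 ⊗ₜ[k] i.1

theorem fPt_eq_aeval (q : B →ₐ[k] S) (u : B) :
    fPt q u = Polynomial.aeval ((1 : S) ⊗ₜ[k] u) (Polynomial.X - Polynomial.C (q u)) := by
  rw [map_sub, Polynomial.aeval_X, Polynomial.aeval_C, Algebra.TensorProduct.algebraMap_apply]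
  rfl

theorem fPt_reg [IsDomain B] (q : B →ₐ[k] S) (u : B)
    (hu : Function.Injective (Polynomial.aeval (R := k) u)) (c : S ⊗[k] B)
    (hc : fPt q u * c = 0) : c = 0 := by
  rw [fPt_eq_aeval] at hc
  exact H46r.monic_aeval_regular u hu _ (Polynomial.monic_X_sub_C _) c hc

theorem evPt_fPt (q : B →ₐ[k] S) (u : B) : evPt q (fPt q u) = 0 := by
  simp [fPt]

theorem evPt_epsPt (q : B →ₐ[k] S) {u h : B} {F : Finset (B × B)} {K : ℕ}
    (hF : IsSepElem k B u h F K) : evPt q (epsPt q F) = q (h ^ K) := by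
  rw [epsPt, map_sum, ← hF.1, map_sum]
  refine Finset.sum_congr rfl fun i _ => ?_
  rw [evPt_tmul, map_mul, mul_comm]

/-- `ε` kills `1 ⊗ b - q b ⊗ 1` modulo `f`. -/
theorem epsPt_mul_sub (q : B →ₐ[k] S) {u h : B} {F : Finset (B × B)} {K : ℕ}
    (hF : IsSepElem k B u h F K) (b : B) :
    epsPt q F * ((1 : S) ⊗ₜ[k] b - q b ⊗ₜ[k] (1 : B)) ∈ (Ideal.span {fPt q u} : Ideal (S ⊗[k] B)) := by
  set J : Ideal (S ⊗[k] B) := Ideal.span {fPt q u} with hJ
  let α : B →ₐ[k] (S ⊗[k] B) ⧸ J :=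
    (Ideal.Quotient.mkₐ k J).comp Algebra.TensorProduct.includeRight
  let β : B →ₐ[k] (S ⊗[k] B) ⧸ J :=
    (Ideal.Quotient.mkₐ k J).comp
      ((Algebra.TensorProduct.includeLeft : S →ₐ[k] S ⊗[k] B).comp q)
  have hα : ∀ b : B, α b = Ideal.Quotient.mk J ((1 : S) ⊗ₜ[k] b) := fun _ => rfl
  have hβ : ∀ b : B, β b = Ideal.Quotient.mk J (q b ⊗ₜ[k] (1 : B)) := fun _ => rfl
  have hαβ : α u = β u := by
    rw [hα, hβ, ← sub_eq_zero, ← map_sub, Ideal.Quotient.eq_zero_iff_mem]
    exact Ideal.mem_span_singleton_self _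
  have h1 := hF.2 ((S ⊗[k] B) ⧸ J) α β hαβ b
  have h2 : (∑ i ∈ F, α i.1 * β i.2) = Ideal.Quotient.mk J (epsPt q F) := by
    rw [epsPt, map_sum]
    refine Finset.sum_congr rfl fun i _ => ?_
    rw [hα, hβ, ← map_mul, Algebra.TensorProduct.tmul_mul_tmul, one_mul, mul_one]
  rw [h2, hα, hβ, ← map_sub, ← map_mul, Ideal.Quotient.eq_zero_iff_mem] at h1
  exact h1

theorem epsPt_mul_mem (q : B →ₐ[k] S) {u h : B} {F : Finset (B × B)} {K : ℕ}
    (hF : IsSepElem k B u h F K) (y : S ⊗[k] B) :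
    epsPt q F * (y - evPt q y ⊗ₜ[k] (1 : B)) ∈ (Ideal.span {fPt q u} : Ideal (S ⊗[k] B)) := by
  induction y using TensorProduct.induction_on with
  | zero => simp
  | add y y' hy hy' =>
    have e : epsPt q F * (y + y' - evPt q (y + y') ⊗ₜ[k] (1 : B)) =
        epsPt q F * (y - evPt q y ⊗ₜ[k] (1 : B)) + epsPt q F * (y' - evPt q y' ⊗ₜ[k] (1 : B)) := by
      rw [map_add, TensorProduct.add_tmul]
      ring
    rw [e]
    exact Ideal.add_mem _ hy hy'
  | tmul r b =>
    have e : epsPt q F * (r ⊗ₜ[k] b - evPt q (r ⊗ₜ[k] b) ⊗ₜ[k] (1 : B)) =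
        (r ⊗ₜ[k] (1 : B)) * (epsPt q F * ((1 : S) ⊗ₜ[k] b - q b ⊗ₜ[k] (1 : B))) := by
      rw [evPt_tmul]
      have e1 : (r ⊗ₜ[k] b : S ⊗[k] B) = (r ⊗ₜ[k] (1 : B)) * ((1 : S) ⊗ₜ[k] b) := by
        rw [Algebra.TensorProduct.tmul_mul_tmul, mul_one, one_mul]
      have e2 : ((r * q b) ⊗ₜ[k] (1 : B) : S ⊗[k] B) = (r ⊗ₜ[k] (1 : B)) * (q b ⊗ₜ[k] (1 : B)) := by
        rw [Algebra.TensorProduct.tmul_mul_tmul, mul_one]
      rw [e1, e2]
      ring
    rw [e]
    exact Ideal.mul_mem_left _ _ (epsPt_mul_sub q hF b)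

/-- **(P2)** local Cartier data of the graph of a point from a separability element. -/
theorem graph_locCart [IsDomain B] (q : B →ₐ[k] S) {u h : B} {F : Finset (B × B)} {K : ℕ}
    (hu : Function.Injective (Polynomial.aeval (R := k) u)) (hF : IsSepElem k B u h F K) :
    IsLocCart (RingHom.ker (evPt q).toRingHom) (q (h ^ K) ⊗ₜ[k] (1 : B)) (fPt q u) (epsPt q F) where
  f_mem := by
    rw [RingHom.mem_ker]
    exact evPt_fPt q u
  reg := fPt_reg q u hu
  sub_mem := by
    rw [RingHom.mem_ker]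
    show evPt q _ = 0
    rw [map_sub, evPt_epsPt q hF, evPt_tmul, map_one, mul_one, sub_self]
  mul_mem := by
    intro y hy
    have hy0 : evPt q y = 0 := hy
    have := epsPt_mul_mem q hF y
    rw [hy0, TensorProduct.zero_tmul, sub_zero] at this
    obtain ⟨w, hw⟩ := Ideal.mem_span_singleton'.mp this
    exact ⟨w, by rw [← hw, mul_comm]⟩

end P2

end Fermat.Agent.S25.Chart.H59
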