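import Mathlib

/-!
# S25, package CHART, leaf CH-DIVEX, part T (helper85): the abstract algebra of `O(Z)`

Pure commutative algebra (Mathlib only).

* `invertible_of_mul_eq_span` : if `I * I' = (F)` with `F` a non-zero-divisor, then `I'` is an
  invertible module;
* `mem_of_mul_eq_span` : in that situation `c ∈ I ↔ c I' ⊆ (F)`;
* the two-chart glueing: rings `S0 → S01 ← S1` (both localisations, `x z = 1`), an ideal `J0` of `S0`,
  its trace `J1` on `S1`, with `J0 * J0' = (F)`, `J1 * J1' = (u)`, `F = x^g u`: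
  then `J0' S01` is the localisation of `J0'` (at `x`) and of `J1'` (at `z`, through `b ↦ x^g b`).
-/

set_option autoImplicit false

open TensorProduct

namespace Fermat.Agent.S25.Chart.H85

section Inv

variable {S : Type*} [CommRing S] {I I' : Ideal S} {F : S}

/-- the quotient by `F` of a product `i * i'` -/
theorem exists_div_of_mul_eq_span (h : I * I' = Ideal.span {F}) (i : I) (i' : I') :
    ∃ d : S, (i : S) * (i' : S) = d * F := by
  have hm : (i : S) * (i' : S) ∈ Ideal.span {F} := h ▸ Ideal.mul_mem_mul i.2 i'.2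
  obtain ⟨d, hd⟩ := Ideal.mem_span_singleton'.mp hm
  exact ⟨d, hd.symm⟩

/-- `c ∈ I` iff `c I' ⊆ (F)` -/
theorem mem_of_mul_eq_span (h : I * I' = Ideal.span {F}) (hF : ∀ c : S, c * F = 0 → c = 0)
    (c : S) : c ∈ I ↔ ∀ a ∈ I', ∃ d : S, c * a = d * F := by
  constructor
  · intro hc a ha
    exact exists_div_of_mul_eq_span h ⟨c, hc⟩ ⟨a, ha⟩
  · intro hc
    have hFm : F ∈ I * I' := h ▸ Ideal.subset_span rfl
    -- `c * y ∈ F • I` for all `y ∈ I * I'`
    have key : ∀ y ∈ I * I', ∃ j ∈ I, c * y = j * F := by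
      intro y hy
      refine Submodule.mul_induction_on hy ?_ ?_
      · intro j hj a ha
        obtain ⟨d, hd⟩ := hc a ha
        refine ⟨j * d, I.mul_mem_right d hj, ?_⟩
        rw [show c * (j * a) = j * (c * a) by ring, hd]
        ring
      · rintro y y' ⟨j, hj, e⟩ ⟨j', hj', e'⟩
        exact ⟨j + j', I.add_mem hj hj', by rw [mul_add, e, e']; ring⟩
    obtain ⟨j, hj, e⟩ := key F hFm
    have : c = j := by
      have h0 : (c - j) * F = 0 := by rw [sub_mul, e, sub_self]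
      exact sub_eq_zero.mp (hF _ h0)
    rw [this]
    exact hj

/-- the pairing `I ⊗ I' → S`, `i ⊗ i' ↦ i i' / F` -/
noncomputable def divPairing (h : I * I' = Ideal.span {F}) (hF : ∀ c : S, c * F = 0 → c = 0) :
    I ⊗[S] I' →ₗ[S] S :=
  TensorProduct.lift
    (LinearMap.mk₂ S (fun (i : I) (i' : I') => (exists_div_of_mul_eq_span h i i').choose)
      (by
        intro i j i'
        apply sub_eq_zero.mp
        apply hF
        rw [sub_mul, add_mul, ← (exists_div_of_mul_eq_span h (i + j) i').choose_spec,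
          ← (exists_div_of_mul_eq_span h i i').choose_spec,
          ← (exists_div_of_mul_eq_span h j i').choose_spec]
        push_cast
        ring)
      (by
        intro c i i'
        apply sub_eq_zero.mp
        apply hF
        rw [sub_mul, smul_eq_mul, mul_assoc,
          ← (exists_div_of_mul_eq_span h (c • i) i').choose_spec,
          ← (exists_div_of_mul_eq_span h i i').choose_spec]
        push_cast
        rw [smul_eq_mul]
        ring)
      (by
        intro i i' j'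
        apply sub_eq_zero.mp
        apply hF
        rw [sub_mul, add_mul, ← (exists_div_of_mul_eq_span h i (i' + j')).choose_spec,
          ← (exists_div_of_mul_eq_span h i i').choose_spec,
          ← (exists_div_of_mul_eq_span h i j').choose_spec]
        push_cast
        ring)
      (by
        intro c i i'
        apply sub_eq_zero.mp
        apply hF
        rw [sub_mul, smul_eq_mul, mul_assoc,
          ← (exists_div_of_mul_eq_span h i (c • i')).choose_spec,
          ← (exists_div_of_mul_eq_span h i i').choose_spec]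
        push_cast
        rw [smul_eq_mul]
        ring))

theorem divPairing_tmul (h : I * I' = Ideal.span {F}) (hF : ∀ c : S, c * F = 0 → c = 0)
    (i : I) (i' : I') : divPairing h hF (i ⊗ₜ[S] i') * F = (i : S) * (i' : S) := by
  unfold divPairing
  rw [TensorProduct.lift.tmul, LinearMap.mk₂_apply]
  exact (exists_div_of_mul_eq_span h i i').choose_spec.symm

theorem divPairing_symm_tmul (h : I * I' = Ideal.span {F}) (hF : ∀ c : S, c * F = 0 → c = 0)
    (i j : I) (i' a : I') :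
    divPairing h hF (i ⊗ₜ[S] i') • (j ⊗ₜ[S] a) = divPairing h hF (j ⊗ₜ[S] a) • (i ⊗ₜ[S] i') := by
  have hc := divPairing_tmul h hF i i'
  have hd := divPairing_tmul h hF j a
  have he := divPairing_tmul h hF j i'
  set c := divPairing h hF (i ⊗ₜ[S] i')
  set d := divPairing h hF (j ⊗ₜ[S] a)
  set e1 := divPairing h hF (j ⊗ₜ[S] i')
  have h1 : c • j = e1 • i := by
    apply Subtype.ext
    apply sub_eq_zero.mp
    apply hF
    change (c * (j : S) - e1 * (i : S)) * F = 0
    linear_combination (j : S) * hc - (i : S) * he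
  have h2 : e1 • a = d • i' := by
    apply Subtype.ext
    apply sub_eq_zero.mp
    apply hF
    change (e1 * (a : S) - d * (i' : S)) * F = 0
    linear_combination (a : S) * he - (i' : S) * hd
  rw [TensorProduct.smul_tmul', h1, ← TensorProduct.smul_tmul', TensorProduct.smul_tmul', 
    TensorProduct.smul_tmul, h2, TensorProduct.tmul_smul]

theorem divPairing_symm (h : I * I' = Ideal.span {F}) (hF : ∀ c : S, c * F = 0 → c = 0)
    (w θ : I ⊗[S] I') : divPairing h hF w • θ = divPairing h hF θ • w := by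
  induction w using TensorProduct.induction_on with
  | zero => simp
  | tmul i i' =>
    induction θ using TensorProduct.induction_on with
    | zero => simp
    | tmul j a => exact divPairing_symm_tmul h hF i j i' a
    | add θ θ' hθ hθ' => rw [smul_add, hθ, hθ', map_add, add_smul]
  | add w w' hw hw' => rw [map_add, add_smul, hw, hw', smul_add]

theorem exists_divPairing_eq_one (h : I * I' = Ideal.span {F})
    (hF : ∀ c : S, c * F = 0 → c = 0) : ∃ θ : I ⊗[S] I', divPairing h hF θ = 1 := by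
  have hFm : F ∈ I * I' := h ▸ Ideal.subset_span rfl
  have key : ∀ y ∈ I * I', ∃ θ : I ⊗[S] I', divPairing h hF θ * F = y := by
    intro y hy
    refine Submodule.mul_induction_on hy ?_ ?_
    · intro j hj a ha
      exact ⟨(⟨j, hj⟩ : I) ⊗ₜ[S] (⟨a, ha⟩ : I'), divPairing_tmul h hF _ _⟩
    · rintro y y' ⟨θ, e⟩ ⟨θ', e'⟩
      exact ⟨θ + θ', by rw [map_add, add_mul, e, e']⟩
  obtain ⟨θ, hθ⟩ := key F hFm
  refine ⟨θ, ?_⟩
  apply sub_eq_zero.mp
  apply hF
  rw [sub_mul, hθ, one_mul, sub_self]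

theorem divPairing_bijective (h : I * I' = Ideal.span {F}) (hF : ∀ c : S, c * F = 0 → c = 0) :
    Function.Bijective (divPairing h hF) := by
  obtain ⟨θ, hθ⟩ := exists_divPairing_eq_one h hF
  constructor
  · rw [injective_iff_map_eq_zero]
    intro w hw
    have := divPairing_symm h hF w θ
    rw [hw, zero_smul, hθ, one_smul] at this
    exact this.symm
  · intro s
    exact ⟨s • θ, by rw [map_smul, hθ, smul_eq_mul, mul_one]⟩

/-- if `I * I' = (F)` with `F` a non-zero-divisor, then `I'` is an invertible module -/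
theorem invertible_of_mul_eq_span (h : I * I' = Ideal.span {F})
    (hF : ∀ c : S, c * F = 0 → c = 0) : Module.Invertible S I' :=
  Module.Invertible.right (LinearEquiv.ofBijective _ (divPairing_bijective h hF))

end Inv

section Glue

variable {S0 S1 S01 : Type*} [CommRing S0] [CommRing S1] [CommRing S01]

/-- two localisations `S0 → S01 ← S1` with `x z = 1` -/
structure IsGlue (ι0 : S0 →+* S01) (ι1 : S1 →+* S01) (x : S0) (z : S1) : Prop where
  inj0 : Function.Injective ι0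
  inj1 : Function.Injective ι1
  hxz : ι0 x * ι1 z = 1
  sur0 : ∀ m : S01, ∃ (n : ℕ) (a : S0), ι0 x ^ n * m = ι0 a
  sur1 : ∀ m : S01, ∃ (n : ℕ) (b : S1), ι1 z ^ n * m = ι1 b

/-- the divisor data on the two charts -/
structure IsDivData (ι0 : S0 →+* S01) (ι1 : S1 →+* S01) (x : S0) (J0 J0' : Ideal S0)
    (J1 J1' : Ideal S1) (F : S0) (u : S1) (g : ℕ) : Prop where
  hJ1 : J1 = (J0.map ι0).comap ι1
  hF : ∀ c : S0, c * F = 0 → c = 0
  hu : ∀ c : S1, c * u = 0 → c = 0
  hFu : ι0 F = ι0 x ^ g * ι1 u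
  h0 : J0 * J0' = Ideal.span {F}
  h1 : J1 * J1' = Ideal.span {u}

variable {ι0 : S0 →+* S01} {ι1 : S1 →+* S01} {x : S0} {z : S1}

theorem IsGlue.zx_pow (hG : IsGlue ι0 ι1 x z) (n : ℕ) : ι1 z ^ n * ι0 x ^ n = 1 := by
  rw [← mul_pow, mul_comm, hG.hxz, one_pow]

theorem IsGlue.xz_pow (hG : IsGlue ι0 ι1 x z) (n : ℕ) : ι0 x ^ n * ι1 z ^ n = 1 := by
  rw [← mul_pow, hG.hxz, one_pow]

theorem IsGlue.x_cancel (hG : IsGlue ι0 ι1 x z) (n : ℕ) {m : S01} (h : ι0 x ^ n * m = 0) :
    m = 0 := by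
  have := congrArg (fun t => ι1 z ^ n * t) h
  simp only [mul_zero, ← mul_assoc, hG.zx_pow, one_mul] at this
  exact this

theorem IsGlue.z_cancel (hG : IsGlue ι0 ι1 x z) (n : ℕ) {m : S01} (h : ι1 z ^ n * m = 0) :
    m = 0 := by
  have := congrArg (fun t => ι0 x ^ n * t) h
  simp only [mul_zero, ← mul_assoc, hG.xz_pow, one_mul] at this
  exact this

/-- a non-zero-divisor of `S0` stays one in `S01` -/
theorem IsGlue.nzd0 (hG : IsGlue ι0 ι1 x z) {F : S0} (hF : ∀ c : S0, c * F = 0 → c = 0)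
    {m : S01} (h : ι0 F * m = 0) : m = 0 := by
  obtain ⟨n, a, ha⟩ := hG.sur0 m
  have h1 : ι0 (a * F) = 0 := by
    rw [map_mul, ← ha, mul_assoc, mul_comm m, h, mul_zero]
  have h2 : a * F = 0 := hG.inj0 (by rw [h1, map_zero])
  have h3 := hF a h2
  rw [h3, map_zero] at ha
  exact hG.x_cancel n ha

/-- a non-zero-divisor of `S1` stays one in `S01` -/
theorem IsGlue.nzd1 (hG : IsGlue ι0 ι1 x z) {u : S1} (hu : ∀ c : S1, c * u = 0 → c = 0)
    {m : S01} (h : ι1 u * m = 0) : m = 0 := by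
  obtain ⟨n, b, hb⟩ := hG.sur1 m
  have h1 : ι1 (b * u) = 0 := by
    rw [map_mul, ← hb, mul_assoc, mul_comm m, h, mul_zero]
  have h2 : b * u = 0 := hG.inj1 (by rw [h1, map_zero])
  have h3 := hu b h2
  rw [h3, map_zero] at hb
  exact hG.z_cancel n hb

variable {J0 J0' : Ideal S0} {J1 J1' : Ideal S1} {F : S0} {u : S1} {g : ℕ}

/-- `J0' S01` is the localisation of `J0'` -/
theorem IsGlue.surj0' (hG : IsGlue ι0 ι1 x z) (J0' : Ideal S0) {m : S01}
    (hm : m ∈ J0'.map ι0) : ∃ (n : ℕ) (a : S0), a ∈ J0' ∧ ι0 x ^ n * m = ι0 a := by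
  unfold Ideal.map at hm
  induction hm using Submodule.span_induction with
  | mem m hm =>
    obtain ⟨a, ha, rfl⟩ := hm
    exact ⟨0, a, ha, by rw [pow_zero, one_mul]⟩
  | zero => exact ⟨0, 0, J0'.zero_mem, by rw [mul_zero, map_zero]⟩
  | add m m' _ _ hm hm' =>
    obtain ⟨n, a, ha, e⟩ := hm
    obtain ⟨n', a', ha', e'⟩ := hm'
    refine ⟨n + n', x ^ n' * a + x ^ n * a', J0'.add_mem (J0'.mul_mem_left _ ha)
      (J0'.mul_mem_left _ ha'), ?_⟩
    rw [map_add, map_mul, map_mul, map_pow, map_pow, ← e, ← e', pow_add]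
    ring
  | smul s m _ hm =>
    obtain ⟨n, a, ha, e⟩ := hm
    obtain ⟨k, t, ht⟩ := hG.sur0 s
    refine ⟨k + n, t * a, J0'.mul_mem_left _ ha, ?_⟩
    rw [map_mul, ← e, ← ht, pow_add, smul_eq_mul]
    ring

/-- the trace of `J0` on `S1`: elements of `J0 S01` come from `J1` -/
theorem IsGlue.exists_mem_J1 (hG : IsGlue ι0 ι1 x z) (hJ1 : J1 = (J0.map ι0).comap ι1)
    {t : S01} (ht : t ∈ J0.map ι0) : ∃ (n : ℕ) (j1 : S1), j1 ∈ J1 ∧ t = ι0 x ^ n * ι1 j1 := by
  obtain ⟨n, j1, e⟩ := hG.sur1 t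
  refine ⟨n, j1, ?_, ?_⟩
  · rw [hJ1, Ideal.mem_comap, ← e]
    exact Ideal.mul_mem_left _ _ ht
  · rw [← e, ← mul_assoc, hG.xz_pow, one_mul]

/-- `b ↦ x^g b` maps `J1'` into `J0' S01` -/
theorem IsDivData.r1_mem (hG : IsGlue ι0 ι1 x z) (hD : IsDivData ι0 ι1 x J0 J0' J1 J1' F u g)
    {b : S1} (hb : b ∈ J1') : ι0 x ^ g * ι1 b ∈ J0'.map ι0 := by
  have hFm : F ∈ J0 * J0' := hD.h0 ▸ Ideal.subset_span rfl
  have key : ∀ y ∈ J0 * J0', ∃ w ∈ J0'.map ι0, ι1 b * ι0 y = ι1 u * w := by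
    intro y hy
    refine Submodule.mul_induction_on hy ?_ ?_
    · intro j hj a ha
      obtain ⟨n, j1, hj1, e⟩ := hG.exists_mem_J1 hD.hJ1 (Ideal.mem_map_of_mem ι0 hj)
      obtain ⟨c, hc⟩ := exists_div_of_mul_eq_span hD.h1 ⟨j1, hj1⟩ ⟨b, hb⟩
      have hc' : j1 * b = c * u := hc
      refine ⟨ι0 x ^ n * ι1 c * ι0 a,
        Ideal.mul_mem_left _ _ (Ideal.mem_map_of_mem ι0 ha), ?_⟩
      rw [map_mul, e]
      have : ι1 b * (ι0 x ^ n * ι1 j1 * ι0 a) = ι0 x ^ n * ι1 (j1 * b) * ι0 a := by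
        rw [map_mul]; ring
      rw [this, hc', map_mul]
      ring
    · rintro y y' ⟨w, hw, e⟩ ⟨w', hw', e'⟩
      exact ⟨w + w', Ideal.add_mem _ hw hw', by rw [map_add, mul_add, e, e', mul_add]⟩
  obtain ⟨w, hw, e⟩ := key F hFm
  have : ι0 x ^ g * ι1 b = w := by
    apply sub_eq_zero.mp
    apply hG.nzd1 hD.hu
    rw [mul_sub, ← e, hD.hFu]
    ring
  rw [this]
  exact hw

/-- `a J0 S01 ⊆ F S01` for `a ∈ J0'` -/
theorem IsDivData.mul_mem_span (hD : IsDivData ι0 ι1 x J0 J0' J1 J1' F u g) {a : S0}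
    (ha : a ∈ J0') {t : S01} (ht : t ∈ J0.map ι0) : ∃ y : S01, ι0 a * t = ι0 F * y := by
  unfold Ideal.map at ht
  induction ht using Submodule.span_induction with
  | mem t ht =>
    obtain ⟨j, hj, rfl⟩ := ht
    obtain ⟨d, hd⟩ := exists_div_of_mul_eq_span hD.h0 ⟨j, hj⟩ ⟨a, ha⟩
    have hd' : j * a = d * F := hd
    exact ⟨ι0 d, by rw [← map_mul, ← map_mul, mul_comm a, hd', mul_comm]⟩
  | zero => exact ⟨0, by rw [mul_zero, mul_zero]⟩
  | add t t' _ _ ht ht' =>
    obtain ⟨y, e⟩ := ht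
    obtain ⟨y', e'⟩ := ht'
    exact ⟨y + y', by rw [mul_add, e, e', mul_add]⟩
  | smul s t _ ht =>
    obtain ⟨y, e⟩ := ht
    exact ⟨s * y, by rw [smul_eq_mul, mul_left_comm, e]; ring⟩

/-- `J0' S01` is the localisation of `J1'` through `b ↦ x^g b`: generators -/
theorem IsDivData.surj1_gen (hG : IsGlue ι0 ι1 x z) (hD : IsDivData ι0 ι1 x J0 J0' J1 J1' F u g)
    {a : S0} (ha : a ∈ J0') :
    ∃ (n : ℕ) (b : S1), b ∈ J1' ∧ ι1 z ^ n * ι0 a = ι0 x ^ g * ι1 b := by
  have hum : u ∈ J1 * J1' := hD.h1 ▸ Ideal.subset_span rfl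
  have key : ∀ y ∈ J1 * J1', ∃ (n : ℕ) (b : S1), b ∈ J1' ∧
      ι1 z ^ n * (ι0 a * ι1 y) = ι0 F * ι1 b := by
    intro y hy
    refine Submodule.mul_induction_on hy ?_ ?_
    · intro j1 hj1 b1 hb1
      have hj1' : ι1 j1 ∈ J0.map ι0 := by
        have := hj1
        rw [hD.hJ1, Ideal.mem_comap] at this
        exact this
      obtain ⟨y', e⟩ := hD.mul_mem_span ha hj1'
      obtain ⟨n, t, ht⟩ := hG.sur1 y'
      refine ⟨n, t * b1, J1'.mul_mem_left _ hb1, ?_⟩
      rw [map_mul, ← mul_assoc (ι0 a), e, map_mul, ← ht]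
      ring
    · rintro y y' ⟨n, b, hb, e⟩ ⟨n', b', hb', e'⟩
      refine ⟨n + n', z ^ n' * b + z ^ n * b', J1'.add_mem (J1'.mul_mem_left _ hb)
        (J1'.mul_mem_left _ hb'), ?_⟩
      rw [map_add, map_add, map_mul, map_mul, map_pow, map_pow, mul_add (ι0 F), mul_left_comm (ι0 F),
        ← e, mul_left_comm (ι0 F), ← e', pow_add]
      ring
  obtain ⟨n, b, hb, e⟩ := key u hum
  refine ⟨n, b, hb, ?_⟩
  apply sub_eq_zero.mp
  apply hG.nzd1 hD.hu
  rw [mul_sub]
  have : ι1 u * (ι1 z ^ n * ι0 a) = ι1 z ^ n * (ι0 a * ι1 u) := by ring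
  rw [this, e, hD.hFu]
  ring

/-- `J0' S01` is the localisation of `J1'` through `b ↦ x^g b` -/
theorem IsDivData.surj1' (hG : IsGlue ι0 ι1 x z) (hD : IsDivData ι0 ι1 x J0 J0' J1 J1' F u g)
    {m : S01} (hm : m ∈ J0'.map ι0) :
    ∃ (n : ℕ) (b : S1), b ∈ J1' ∧ ι1 z ^ n * m = ι0 x ^ g * ι1 b := by
  unfold Ideal.map at hm
  induction hm using Submodule.span_induction with
  | mem m hm =>
    obtain ⟨a, ha, rfl⟩ := hm
    exact hD.surj1_gen hG ha
  | zero => exact ⟨0, 0, J1'.zero_mem, by rw [mul_zero, map_zero, mul_zero]⟩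
  | add m m' _ _ hm hm' =>
    obtain ⟨n, b, hb, e⟩ := hm
    obtain ⟨n', b', hb', e'⟩ := hm'
    refine ⟨n + n', z ^ n' * b + z ^ n * b', J1'.add_mem (J1'.mul_mem_left _ hb)
      (J1'.mul_mem_left _ hb'), ?_⟩
    rw [map_add, map_mul, map_mul, map_pow, map_pow, mul_add (ι0 x ^ g),
      mul_left_comm (ι0 x ^ g), ← e, mul_left_comm (ι0 x ^ g), ← e', pow_add]
    ring
  | smul s m _ hm =>
    obtain ⟨n, b, hb, e⟩ := hm
    obtain ⟨k, t, ht⟩ := hG.sur1 s
    refine ⟨k + n, t * b, J1'.mul_mem_left _ hb, ?_⟩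
    rw [map_mul, mul_left_comm (ι0 x ^ g), ← e, ← ht, pow_add, smul_eq_mul]
    ring

end Glue

end Fermat.Agent.S25.Chart.H85
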