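import Fermat.Agent.S25.Chart.Defs2
import Fermat.Agent.S25.Chart.H85_DivAbs
import Fermat.Agent.S25.LB.H60_Unit
import Fermat.Agent.S25.Chart.H59_Cart

/-!
# S25, package CHART, leaf CH-DIVEX, half (T) (helper85): the triple `O(Z_p)` from Cartier data

`stmt_DIVEX_TRIPLE : H59.Stmt_DIVEX_TRIPLE`.  The triple is built inside the rings:
`P0 = (f0, ε0) ⊆ R ⊗ B0`, `P1 = (f1, ε1) ⊆ R ⊗ B1`, `P01 = (f0, ε0) (R ⊗ B01)`, `r0 = ι0`,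
`r1 = x0^g * ι1`, sections `f0`, `f1`.  The last hypothesis of the statement (equality of the two
extended ideals on the overlap) is not used: it follows from the other ones (`IsDivData.r1_mem`,
`IsDivData.surj1'` of `H85_DivAbs`).
-/

set_option autoImplicit false
universe u
open Polynomial TensorProduct

namespace Fermat.Agent.S25.Chart.H85

open Fermat.Agent.S25.LB

variable {k : Type u} [Field k] {𝒞 : CurveDatum k} {R : Type u} [CommRing R] [Algebra k R]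

/-- the two charts of `C_R` are glued along localisations -/
theorem isGlue_of_isGood (hG : 𝒞.IsGood) :
    IsGlue (𝒞.ι0 R) (𝒞.ι1 R) ((1 : R) ⊗ₜ[k] 𝒞.x0) ((1 : R) ⊗ₜ[k] 𝒞.z1) where
  inj0 := H60.ι0_injective R hG
  inj1 := H60.ι1_injective R hG
  hxz := Triple.unit_mul_unit 𝒞 R
  sur0 := fun m => H60.surj0_unit R hG m
  sur1 := fun m => H60.surj1_unit R hG m

variable {J0 J0' : Ideal (R ⊗[k] 𝒞.B0)} {J1 J1' : Ideal (R ⊗[k] 𝒞.B1)}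
  {F : R ⊗[k] 𝒞.B0} {u : R ⊗[k] 𝒞.B1} {g : ℕ}

/-- the triple `O(Z)` in the ideal model: `P0 = J0' = F J0⁻¹`, `P1 = J1' = u J1⁻¹`. -/
noncomputable def divTriple (hG : 𝒞.IsGood)
    (hD : IsDivData (𝒞.ι0 R) (𝒞.ι1 R) ((1 : R) ⊗ₜ[k] 𝒞.x0) J0 J0' J1 J1' F u g) :
    Triple 𝒞 R where
  P0 := J0'
  P1 := J1'
  P01 := (J0'.map (𝒞.ι0 R) : Ideal (R ⊗[k] 𝒞.B01))
  r0 :=
    { toFun := fun a => ⟨𝒞.ι0 R a, Ideal.mem_map_of_mem _ a.2⟩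
      map_add' := fun a b => Subtype.ext (map_add (𝒞.ι0 R) (a : R ⊗[k] 𝒞.B0) b)
      map_smul' := fun c a => Subtype.ext (map_mul (𝒞.ι0 R) c (a : R ⊗[k] 𝒞.B0)) }
  r1 :=
    { toFun := fun b => ⟨𝒞.ι0 R ((1 : R) ⊗ₜ[k] 𝒞.x0) ^ g * 𝒞.ι1 R b,
        hD.r1_mem (isGlue_of_isGood hG) b.2⟩
      map_add' := fun a b => Subtype.ext (by
        change 𝒞.ι0 R ((1 : R) ⊗ₜ[k] 𝒞.x0) ^ g * 𝒞.ι1 R ((a : R ⊗[k] 𝒞.B1) + b) = _
        rw [map_add, mul_add]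
        rfl)
      map_smul' := fun c a => Subtype.ext (by
        change 𝒞.ι0 R ((1 : R) ⊗ₜ[k] 𝒞.x0) ^ g * 𝒞.ι1 R (c * (a : R ⊗[k] 𝒞.B1)) =
          𝒞.ι1 R c * (𝒞.ι0 R ((1 : R) ⊗ₜ[k] 𝒞.x0) ^ g * 𝒞.ι1 R a)
        rw [map_mul]
        ring) }
  inv0 := invertible_of_mul_eq_span hD.h0 hD.hF
  inv1 := invertible_of_mul_eq_span hD.h1 hD.hu
  surj0 := fun m => by
    obtain ⟨n, a, ha, e⟩ := (isGlue_of_isGood hG).surj0' J0' m.2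
    exact ⟨n, ⟨a, ha⟩, Subtype.ext e⟩
  ker0 := fun a ha => by
    refine ⟨0, ?_⟩
    rw [pow_zero, one_smul]
    have h1 : 𝒞.ι0 R (a : R ⊗[k] 𝒞.B0) = 0 := congrArg Subtype.val ha
    exact Subtype.ext (H60.ι0_injective R hG (h1.trans (map_zero _).symm))
  surj1 := fun m => by
    obtain ⟨n, b, hb, e⟩ := hD.surj1' (isGlue_of_isGood hG) m.2
    exact ⟨n, ⟨b, hb⟩, Subtype.ext e⟩
  ker1 := fun b hb => by
    refine ⟨0, ?_⟩
    rw [pow_zero, one_smul]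
    have h1 : 𝒞.ι0 R ((1 : R) ⊗ₜ[k] 𝒞.x0) ^ g * 𝒞.ι1 R (b : R ⊗[k] 𝒞.B1) = 0 :=
      congrArg Subtype.val hb
    have h2 : 𝒞.ι1 R (b : R ⊗[k] 𝒞.B1) = 0 := (isGlue_of_isGood hG).x_cancel g h1
    exact Subtype.ext (H60.ι1_injective R hG (h2.trans (map_zero _).symm))

theorem divTriple_r0 (hG : 𝒞.IsGood)
    (hD : IsDivData (𝒞.ι0 R) (𝒞.ι1 R) ((1 : R) ⊗ₜ[k] 𝒞.x0) J0 J0' J1 J1' F u g) (a : J0') :
    @Subtype.val (R ⊗[k] 𝒞.B01) (fun m => m ∈ (J0'.map (𝒞.ι0 R) : Ideal (R ⊗[k] 𝒞.B01)))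
      ((divTriple hG hD).r0 a) = 𝒞.ι0 R a := rfl

theorem divTriple_r1 (hG : 𝒞.IsGood)
    (hD : IsDivData (𝒞.ι0 R) (𝒞.ι1 R) ((1 : R) ⊗ₜ[k] 𝒞.x0) J0 J0' J1 J1' F u g) (b : J1') :
    @Subtype.val (R ⊗[k] 𝒞.B01) (fun m => m ∈ (J0'.map (𝒞.ι0 R) : Ideal (R ⊗[k] 𝒞.B01)))
      ((divTriple hG hD).r1 b) = 𝒞.ι0 R ((1 : R) ⊗ₜ[k] 𝒞.x0) ^ g * 𝒞.ι1 R b := rfl

/-- the rigidification: `f = 1 + z w` generates `J` modulo `K J` when `z ∈ K` -/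
theorem rigid_aux {S : Type u} [CommRing S] (K J : Ideal S) {f w z : S} (hz : z ∈ K)
    (hf : f ∈ J) (hw : f = 1 + z * w) (q : J) :
    q - (q : S) • (⟨f, hf⟩ : J) ∈ K • (⊤ : Submodule S J) := by
  have : q - (q : S) • (⟨f, hf⟩ : J) = (z * (-w)) • q := by
    apply Subtype.ext
    change (q : S) - q * f = (z * (-w)) * q
    rw [hw]
    ring
  rw [this]
  exact Submodule.smul_mem_smul (K.mul_mem_right _ hz) Submodule.mem_top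

/-- **DIV-EX, half (T)**. -/
theorem stmt_DIVEX_TRIPLE : H59.Stmt_DIVEX_TRIPLE.{u} := by
  intro k _ 𝒞 hG g R _ _ p f0 ε0 f1 ε1 w h0 h1 hw hf _
  have hF0 : ∀ c : R ⊗[k] 𝒞.B0, c * f0 = 0 → c = 0 :=
    fun c hc => h0.reg c ((mul_comm f0 c).trans hc)
  have hF1 : ∀ c : R ⊗[k] 𝒞.B1, c * f1 = 0 → c = 0 :=
    fun c hc => h1.reg c ((mul_comm f1 c).trans hc)
  have hD : IsDivData (𝒞.ι0 R) (𝒞.ι1 R) ((1 : R) ⊗ₜ[k] 𝒞.x0) p.ideal (Ideal.span {f0, ε0})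
      p.ideal1 (Ideal.span {f1, ε1}) f0 f1 g :=
    { hJ1 := rfl
      hF := hF0
      hu := hF1
      hFu := hf
      h0 := h0.mul_eq
      h1 := h1.mul_eq }
  have hf0 : f0 ∈ Ideal.span {f0, ε0} := Ideal.subset_span (by simp)
  have hf1 : f1 ∈ Ideal.span {f1, ε1} := Ideal.subset_span (by simp)
  refine ⟨divTriple hG hD, ⟨f0, hf0⟩, ⟨f1, hf1⟩, ?_, ?_⟩
  · refine ⟨?_, ?_, ?_, ?_, ?_⟩
    · -- glue
      apply Subtype.ext
      rw [divTriple_r0, divTriple_r1]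
      exact hf
    · -- reg0
      intro c hc
      have : c * f0 = 0 := congrArg Subtype.val hc
      exact hD.hF c this
    · -- reg1
      intro c hc
      have : c * f1 = 0 := congrArg Subtype.val hc
      exact hD.hu c this
    · -- div0
      intro c
      rw [mem_of_mul_eq_span hD.h0 hD.hF c]
      constructor
      · intro hc q
        obtain ⟨d, hd⟩ := hc q.1 q.2
        exact ⟨d, Subtype.ext hd⟩
      · intro hc a ha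
        obtain ⟨d, hd⟩ := hc ⟨a, ha⟩
        exact ⟨d, congrArg Subtype.val hd⟩
    · -- div1
      intro c
      rw [mem_of_mul_eq_span hD.h1 hD.hu c]
      constructor
      · intro hc q
        obtain ⟨d, hd⟩ := hc q.1 q.2
        exact ⟨d, Subtype.ext hd⟩
      · intro hc a ha
        obtain ⟨d, hd⟩ := hc ⟨a, ha⟩
        exact ⟨d, congrArg Subtype.val hd⟩
  · -- rigid
    have hz : ((1 : R) ⊗ₜ[k] 𝒞.z1 : R ⊗[k] 𝒞.B1) ∈ RingHom.ker (𝒞.eR R).toRingHom := by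
      rw [RingHom.mem_ker]
      change (𝒞.eR R) ((1 : R) ⊗ₜ[k] 𝒞.z1) = 0
      simp [CurveDatum.eR, 𝒞.he]
    exact ⟨⟨f1, hf1⟩, fun q => ⟨@Subtype.val (R ⊗[k] 𝒞.B1)
      (fun m => m ∈ (Ideal.span {f1, ε1} : Ideal (R ⊗[k] 𝒞.B1))) q,
      rigid_aux _ _ hz hf1 hw q⟩⟩

end Fermat.Agent.S25.Chart.H85
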