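import Fermat.Agent.S25.Chart.H85_DivAbs
import Fermat.Agent.S25.Chart.H59_GraphDefs

/-!
# S25, package CHART, SJ-GRAPH cut (P3) TRANSFER (helper85)

`stmt_TRANSFER : H59.Stmt_TRANSFER`: local Cartier data of an ideal `I` of the first chart whose zero
set does not meet `z = 0` give local Cartier data of `J = comap ι1 (map ι0 I)` on the second chart.
`transfer_fg` is the same statement with "`J` finitely generated" in place of "`T1` noetherian".
-/

set_option autoImplicit false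
universe u

namespace Fermat.Agent.S25.Chart.H85

section Transfer

variable {T0 T1 T01 : Type u} [CommRing T0] [CommRing T1] [CommRing T01]
  {ι0 : T0 →+* T01} {ι1 : T1 →+* T01} {x : T0} {z : T1}

theorem one_sub_pow_dvd {S : Type*} [CommRing S] (u : S) (n : ℕ) :
    ∃ q : S, 1 - u ^ n = (1 - u) * q :=
  ⟨∑ i ∈ Finset.range n, u ^ i, (mul_neg_geom_sum u n).symm⟩

/-- `E * I01 ⊆ (F)` on the overlap, for local Cartier data -/
theorem locCart_mul_map {I : Ideal T0} {s f ε : T0} (h : H59.IsLocCart I s f ε) {t : T01}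
    (ht : t ∈ I.map ι0) : ∃ c : T01, ι0 ε * t = ι0 f * c := by
  unfold Ideal.map at ht
  induction ht using Submodule.span_induction with
  | mem t ht =>
    obtain ⟨j, hj, rfl⟩ := ht
    obtain ⟨w, hw⟩ := h.mul_mem j hj
    exact ⟨ι0 w, by rw [← map_mul, hw, map_mul]⟩
  | zero => exact ⟨0, by rw [mul_zero, mul_zero]⟩
  | add t t' _ _ ht ht' =>
    obtain ⟨c, e⟩ := ht
    obtain ⟨c', e'⟩ := ht'
    exact ⟨c + c', by rw [mul_add, e, e', mul_add]⟩
  | smul r t _ ht =>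
    obtain ⟨c, e⟩ := ht
    exact ⟨r * c, by rw [smul_eq_mul, mul_left_comm, e, mul_left_comm]⟩

/-- a uniform exponent on a finite set -/
theorem exists_uniform_pow (z e' f' : T1) (S : Finset T1)
    (h : ∀ y ∈ S, ∃ (m : ℕ) (c : T1), z ^ m * (e' * y) = f' * c) :
    ∃ M : ℕ, ∀ y ∈ S, ∃ c : T1, z ^ M * (e' * y) = f' * c := by
  classical
  induction S using Finset.induction_on with
  | empty => exact ⟨0, fun y hy => absurd hy (Finset.notMem_empty y)⟩
  | insert y0 S _ ih =>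
    obtain ⟨M, hM⟩ := ih (fun y hy => h y (Finset.mem_insert_of_mem hy))
    obtain ⟨m, c, hc⟩ := h y0 (Finset.mem_insert_self y0 S)
    refine ⟨M + m, fun y hy => ?_⟩
    rcases Finset.mem_insert.mp hy with rfl | hy
    · exact ⟨z ^ M * c, by rw [pow_add, mul_assoc, hc]; ring⟩
    · obtain ⟨c', hc'⟩ := hM y hy
      exact ⟨z ^ m * c', by rw [pow_add, mul_comm (z ^ M), mul_assoc, hc']; ring⟩

/-- **TRANSFER**, with `J` finitely generated. -/
theorem transfer_fg (hG : IsGlue ι0 ι1 x z) (I : Ideal T0) (a : T1)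
    (ha : 1 - a * z ∈ Ideal.comap ι1 (Ideal.map ι0 I))
    (hfg : (Ideal.comap ι1 (Ideal.map ι0 I)).FG)
    {s f ε : T0} {s' : T1} (hs : ι0 s = ι1 s') (h : H59.IsLocCart I s f ε) :
    ∃ f' ε' : T1, H59.IsLocCart (Ideal.comap ι1 (Ideal.map ι0 I)) s' f' ε' := by
  obtain ⟨N1, f', hf'⟩ := hG.sur1 (ι0 f)
  obtain ⟨N2, e', he'⟩ := hG.sur1 (ι0 ε)
  have hF : ι0 f = ι0 x ^ N1 * ι1 f' := by
    rw [← hf', ← mul_assoc, hG.xz_pow, one_mul]
  have hf'mem : ι1 f' ∈ I.map ι0 := by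
    rw [← hf']
    exact Ideal.mul_mem_left _ _ (Ideal.mem_map_of_mem _ h.f_mem)
  have hreg : ∀ c : T1, f' * c = 0 → c = 0 := by
    intro c hc
    have h1 : ι0 f * ι1 c = 0 := by
      rw [hF, mul_assoc, ← map_mul, hc, map_zero, mul_zero]
    have h2 : ι1 c = 0 :=
      hG.nzd0 (F := f) (fun c hc => h.reg c ((mul_comm _ _).trans hc)) h1
    exact hG.inj1 (h2.trans (map_zero _).symm)
  -- divisibility, with an exponent depending on `y`
  have hdiv : ∀ y ∈ Ideal.comap ι1 (Ideal.map ι0 I),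
      ∃ (m : ℕ) (c : T1), z ^ m * (e' * y) = f' * c := by
    intro y hy
    rw [Ideal.mem_comap] at hy
    obtain ⟨c0, hc0⟩ := locCart_mul_map h hy
    obtain ⟨m, c', hc'⟩ := hG.sur1 (ι1 z ^ N2 * ι0 x ^ N1 * c0)
    refine ⟨m, c', hG.inj1 ?_⟩
    rw [map_mul, map_mul, map_mul, map_pow, ← he', ← hc']
    linear_combination (ι1 z ^ m * ι1 z ^ N2) * hc0 + (ι1 z ^ m * ι1 z ^ N2 * c0) * hF
  obtain ⟨S, hS⟩ := hfg
  obtain ⟨M, hM⟩ := exists_uniform_pow z e' f' S (fun y hy =>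
    hdiv y (hS ▸ Ideal.subset_span hy))
  have hMall : ∀ y ∈ Ideal.comap ι1 (Ideal.map ι0 I), ∃ c : T1, z ^ M * (e' * y) = f' * c := by
    intro y hy
    rw [← hS] at hy
    induction hy using Submodule.span_induction with
    | mem y hy => exact hM y hy
    | zero => exact ⟨0, by rw [mul_zero, mul_zero, mul_zero]⟩
    | add y y' _ _ hy hy' =>
      obtain ⟨c, e⟩ := hy
      obtain ⟨c', e''⟩ := hy'
      exact ⟨c + c', by rw [mul_add, mul_add, e, e'', mul_add]⟩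
    | smul r y _ hy =>
      obtain ⟨c, e⟩ := hy
      exact ⟨r * c, by rw [smul_eq_mul, mul_left_comm e', mul_left_comm (z ^ M), e]; ring⟩
  refine ⟨f', a ^ (N2 + M) * z ^ M * e', ⟨?_, hreg, ?_, ?_⟩⟩
  · rw [Ideal.mem_comap]
    exact hf'mem
  · -- `s' - ε' ∈ J`
    rw [Ideal.mem_comap]
    have hu : 1 - ι1 (a * z) ∈ I.map ι0 := by
      have := ha
      rw [Ideal.mem_comap, map_sub, map_one] at this
      exact this
    obtain ⟨q, hq⟩ := one_sub_pow_dvd (ι1 (a * z)) (N2 + M)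
    have e1 : ι1 (s' - a ^ (N2 + M) * z ^ M * e') =
        ι0 (s - ε) + (ι0 ε * q) * (1 - ι1 (a * z)) := by
      rw [map_sub, map_mul, map_mul, map_pow, map_pow, ← he', map_sub, hs]
      have e2 : ι1 a ^ (N2 + M) * ι1 z ^ M * (ι1 z ^ N2 * ι0 ε) = ι1 (a * z) ^ (N2 + M) * ι0 ε := by
        rw [map_mul, mul_pow, pow_add (ι1 z)]
        ring
      rw [e2]
      linear_combination (ι0 ε) * hq
    rw [e1]
    exact Ideal.add_mem _ (Ideal.mem_map_of_mem _ h.sub_mem) (Ideal.mul_mem_left _ _ hu)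
  · -- `ε' * J ⊆ (f')`
    intro y hy
    obtain ⟨c, hc⟩ := hMall y hy
    exact ⟨a ^ (N2 + M) * c, by
      rw [mul_assoc, mul_assoc, hc]
      ring⟩

/-- **(P3) TRANSFER**. -/
theorem stmt_TRANSFER : H59.Stmt_TRANSFER.{u} := by
  intro T0 T1 T01 _ _ _ _ ι0 ι1 h0 h1 x z hxz s0 s1 I a ha s f ε s' hs h
  exact transfer_fg (x := x) (z := z) ⟨h0, h1, hxz, s0, s1⟩ I a ha
    ((isNoetherianRing_iff_ideal_fg T1).mp inferInstance _) hs h

end Transfer

end Fermat.Agent.S25.Chart.H85
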