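/-
helper59, S25 (Jacobian exists): `Top.S.Stmt_GRINV` (the graph of a point is a relative effective Cartier divisor,
for EVERY `k`-algebra `R`) by the route of unramified coordinates:
`H59.stmt_COORD` + `H59.graph_locCart` + `H59.invertible_of_locCart` + TRANSFER without finiteness.

* `transfer_gen` : helper85's `transfer_fg` without "`J` finitely generated": the exponent for
  `g = 1 - a z ∈ J` is a uniform exponent (`y = g γ y + a^m z^m y`).
* `relDiv_abs`   : the abstract two-chart statement.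
* `stmt_GRINV`   : `Top.S.Stmt_GRINV`.
-/
import Fermat.Agent.S25.Chart.H59_Coord
import Fermat.Agent.S25.Chart.H59_GraphLoc
import Fermat.Agent.S25.Chart.H85_Transfer
import Fermat.Agent.S25.Chart.H85_DivTriple
import Fermat.Agent.S25.Num.H50_Fibre
import Fermat.Agent.S25.Top.DefsS
import Fermat.Agent.S25.Trip.H85_SjGraph

set_option autoImplicit false

universe u

open Polynomial TensorProduct

namespace Fermat.Agent.S25.Chart.H59

open Fermat.Agent.S25.Chart.H85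

section Transfer

variable {T0 T1 T01 : Type u} [CommRing T0] [CommRing T1] [CommRing T01]
  {ι0 : T0 →+* T01} {ι1 : T1 →+* T01} {x : T0} {z : T1}

/-- **TRANSFER** without finiteness hypotheses. -/
theorem transfer_gen (hG : IsGlue ι0 ι1 x z) (I : Ideal T0) (a : T1)
    (ha : 1 - a * z ∈ Ideal.comap ι1 (Ideal.map ι0 I))
    {s f ε : T0} {s' : T1} (hs : ι0 s = ι1 s') (h : IsLocCart I s f ε) :
    ∃ f' ε' : T1, IsLocCart (Ideal.comap ι1 (Ideal.map ι0 I)) s' f' ε' := by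
  obtain ⟨N1, f', hf'⟩ := hG.sur1 (ι0 f)
  obtain ⟨N2, e', he'⟩ := hG.sur1 (ι0 ε)
  have hF : ι0 f = ι0 x ^ N1 * ι1 f' := by
    rw [← hf', ← mul_assoc, hG.xz_pow, one_mul]
  have hf'mem : ι1 f' ∈ I.map ι0 := by
    rw [← hf']
    exact Ideal.mul_mem_left _ _ (Ideal.mem_map_of_mem _ h.f_mem)
  have hreg : ∀ c : T1, f' * c = 0 → c = 0 := by
    intro c hc
    have h1 : ι0 f * ι1 c = 0 := by
      rw [hF, mul_assoc, ← map_mul, hc, map_zero, mul_zero]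
    have h2 : ι1 c = 0 :=
      hG.nzd0 (F := f) (fun c hc => h.reg c ((mul_comm _ _).trans hc)) h1
    exact hG.inj1 (h2.trans (map_zero _).symm)
  have hdiv : ∀ y ∈ Ideal.comap ι1 (Ideal.map ι0 I),
      ∃ (m : ℕ) (c : T1), z ^ m * (e' * y) = f' * c := by
    intro y hy
    rw [Ideal.mem_comap] at hy
    obtain ⟨c0, hc0⟩ := locCart_mul_map h hy
    obtain ⟨m, c', hc'⟩ := hG.sur1 (ι1 z ^ N2 * ι0 x ^ N1 * c0)
    refine ⟨m, c', hG.inj1 ?_⟩
    rw [map_mul, map_mul, map_mul, map_pow, ← he', ← hc']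
    linear_combination (ι1 z ^ m * ι1 z ^ N2) * hc0 + (ι1 z ^ m * ι1 z ^ N2 * c0) * hF
  -- the exponent of `g = 1 - a z` is uniform
  obtain ⟨M, cg, hcg⟩ := hdiv (1 - a * z) ha
  have hMall : ∀ y ∈ Ideal.comap ι1 (Ideal.map ι0 I), ∃ c : T1, z ^ M * (e' * y) = f' * c := by
    intro y hy
    obtain ⟨m, c, hc⟩ := hdiv y hy
    obtain ⟨γ, hγ⟩ := one_sub_pow_dvd (a * z) m
    refine ⟨cg * (γ * y) + a ^ m * z ^ M * c, ?_⟩
    have e1 : z ^ M * (e' * y) =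
        (z ^ M * (e' * (1 - a * z))) * (γ * y) + a ^ m * z ^ M * (z ^ m * (e' * y)) := by
      have : (1 : T1) = (1 - a * z) * γ + a ^ m * z ^ m := by
        rw [← hγ, ← mul_pow]
        ring
      calc z ^ M * (e' * y) = z ^ M * (e' * y) * 1 := by rw [mul_one]
        _ = z ^ M * (e' * y) * ((1 - a * z) * γ + a ^ m * z ^ m) := by rw [← this]
        _ = _ := by ring
    rw [e1, hcg, hc]
    ring
  refine ⟨f', a ^ (N2 + M) * z ^ M * e', ⟨?_, hreg, ?_, ?_⟩⟩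
  · rw [Ideal.mem_comap]
    exact hf'mem
  · rw [Ideal.mem_comap]
    have hu : 1 - ι1 (a * z) ∈ I.map ι0 := by
      have := ha
      rw [Ideal.mem_comap, map_sub, map_one] at this
      exact this
    obtain ⟨q, hq⟩ := one_sub_pow_dvd (ι1 (a * z)) (N2 + M)
    have e1 : ι1 (s' - a ^ (N2 + M) * z ^ M * e') =
        ι0 (s - ε) + (ι0 ε * q) * (1 - ι1 (a * z)) := by
      rw [map_sub, map_mul, map_mul, map_pow, map_pow, ← he', map_sub, hs]
      have e2 : ι1 a ^ (N2 + M) * ι1 z ^ M * (ι1 z ^ N2 * ι0 ε) = ι1 (a * z) ^ (N2 + M) * ι0 ε := by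
        rw [map_mul, mul_pow, pow_add (ι1 z)]
        ring
      rw [e2]
      linear_combination (ι0 ε) * hq
    rw [e1]
    exact Ideal.add_mem _ (Ideal.mem_map_of_mem _ h.sub_mem) (Ideal.mul_mem_left _ _ hu)
  · intro y hy
    obtain ⟨c, hc⟩ := hMall y hy
    exact ⟨a ^ (N2 + M) * c, by
      rw [mul_assoc, mul_assoc, hc]
      ring⟩

/-- On the overlap, `map ι1 (comap ι1 K) = K`. -/
theorem map_comap_of_isGlue (hG : IsGlue ι0 ι1 x z) (K : Ideal T01) :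
    Ideal.map ι1 (Ideal.comap ι1 K) = K := by
  apply le_antisymm Ideal.map_comap_le
  intro m hm
  obtain ⟨n, p, hp⟩ := hG.sur1 m
  have hpK : p ∈ Ideal.comap ι1 K := by
    rw [Ideal.mem_comap, ← hp]
    exact Ideal.mul_mem_left _ _ hm
  have e : m = ι0 x ^ n * ι1 p := by
    rw [← hp, ← mul_assoc, hG.xz_pow, one_mul]
  rw [e]
  exact Ideal.mul_mem_left _ _ (Ideal.mem_map_of_mem _ hpK)

end Transfer

section Abs

variable {k : Type u} [Field k] {B : Type u} [CommRing B] [Algebra k B] [IsDomain B]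
  {R : Type u} [CommRing R] [Algebra k R]
  {T1 T01 : Type u} [CommRing T1] [CommRing T01]

/-- The abstract two-chart statement: a point `β : B → R` of the first chart, unramified coordinates covering
`B`, and the second chart `T1` glued along `T01`. -/
theorem relDiv_abs (β : B →ₐ[k] R) {n : ℕ} (u h b : Fin n → B) (F : Fin n → Finset (B × B))
    (K : Fin n → ℕ)
    (hdata : ∀ j, Function.Injective (Polynomial.aeval (R := k) (u j)) ∧
      IsSepElem k B (u j) (h j) (F j) (K j))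
    (hsum : ∑ j, b j * h j ^ K j = 1)
    {ι0 : (R ⊗[k] B) →+* T01} {ι1 : T1 →+* T01} {x : R ⊗[k] B} {z : T1}
    (hG : IsGlue ι0 ι1 x z) (σ : R →+* T1) (hσ : ∀ r : R, ι0 (r ⊗ₜ[k] (1 : B)) = ι1 (σ r))
    (a : T1)
    (ha : 1 - a * z ∈ Ideal.comap ι1 (Ideal.map ι0 (RingHom.ker (evPt β).toRingHom))) :
    Module.Invertible (R ⊗[k] B) (RingHom.ker (evPt β).toRingHom) ∧
    Module.Invertible T1 (Ideal.comap ι1 (Ideal.map ι0 (RingHom.ker (evPt β).toRingHom))) ∧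
    Ideal.map ι0 (RingHom.ker (evPt β).toRingHom) =
      Ideal.map ι1 (Ideal.comap ι1 (Ideal.map ι0 (RingHom.ker (evPt β).toRingHom))) := by
  have hloc : ∀ j, IsLocCart (RingHom.ker (evPt β).toRingHom)
      (β (h j ^ K j) ⊗ₜ[k] (1 : B)) (fPt β (u j)) (epsPt β (F j)) :=
    fun j => graph_locCart β (hdata j).1 (hdata j).2
  have hsumR : ∑ j, β (b j) * β (h j ^ K j) = 1 := by
    rw [← map_one β, ← hsum, map_sum]
    exact Finset.sum_congr rfl fun j _ => (map_mul β _ _).symm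
  refine ⟨?_, ?_, (map_comap_of_isGlue hG _).symm⟩
  · refine invertible_of_locCart _ (fun j => β (h j ^ K j) ⊗ₜ[k] (1 : B)) (fun j => fPt β (u j))
      (fun j => epsPt β (F j)) (fun j => β (b j) ⊗ₜ[k] (1 : B)) hloc ?_
    have : ∀ j, (β (b j) ⊗ₜ[k] (1 : B)) * (β (h j ^ K j) ⊗ₜ[k] (1 : B)) =
        ((β (b j) * β (h j ^ K j)) ⊗ₜ[k] (1 : B) : R ⊗[k] B) := by
      intro j
      rw [Algebra.TensorProduct.tmul_mul_tmul, mul_one]
    rw [Finset.sum_congr rfl fun j _ => this j, ← TensorProduct.sum_tmul, hsumR]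
    rfl
  · have hex : ∀ j, ∃ f' ε' : T1, IsLocCart
        (Ideal.comap ι1 (Ideal.map ι0 (RingHom.ker (evPt β).toRingHom)))
        (σ (β (h j ^ K j))) f' ε' :=
      fun j => transfer_gen hG _ a ha (hσ _) (hloc j)
    choose f' ε' hfε using hex
    refine invertible_of_locCart _ (fun j => σ (β (h j ^ K j))) f' ε' (fun j => σ (β (b j))) hfε ?_
    have : ∀ j, σ (β (b j)) * σ (β (h j ^ K j)) = σ (β (b j) * β (h j ^ K j)) :=
      fun j => (map_mul σ _ _).symm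
    rw [Finset.sum_congr rfl fun j _ => this j, ← map_sum, hsumR, map_one]

end Abs

end Fermat.Agent.S25.Chart.H59

namespace Fermat.Agent.S25.Top.S.H59

open Fermat.Agent.S25.LB Fermat.Agent.S25.Chart Fermat.Agent.S25.Num Fermat.Agent.S25.Top.S

variable {k : Type u} [Field k] {𝒞 : CurveDatum k} {R : Type u} [CommRing R] [Algebra k R]

theorem ker_ev0_eq (β : 𝒞.B0 →ₐ[k] R) :
    (RingHom.ker (ev0 β) : Ideal (R ⊗[k] 𝒞.B0)) = RingHom.ker (Chart.H59.evPt β).toRingHom := rfl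

theorem ker_ev1_eq (β : 𝒞.B1 →ₐ[k] R) :
    (RingHom.ker (ev1 β) : Ideal (R ⊗[k] 𝒞.B1)) = RingHom.ker (Chart.H59.evPt β).toRingHom := rfl

/-- `1 - β(x0) ⊗ z1` lies in the ideal of the graph on the other chart. -/
theorem one_sub_mem0 (β : 𝒞.B0 →ₐ[k] R) :
    1 - (β 𝒞.x0 ⊗ₜ[k] (1 : 𝒞.B1)) * ((1 : R) ⊗ₜ[k] 𝒞.z1) ∈
      Ideal.comap (𝒞.ι1 R) (Ideal.map (𝒞.ι0 R) (RingHom.ker (Chart.H59.evPt β).toRingHom)) := by
  rw [Ideal.mem_comap]
  have hmem : (Chart.H59.fPt β 𝒞.x0) ∈ RingHom.ker (Chart.H59.evPt β).toRingHom := by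
    rw [RingHom.mem_ker]
    exact Chart.H59.evPt_fPt β 𝒞.x0
  have e : 𝒞.ι1 R (1 - (β 𝒞.x0 ⊗ₜ[k] (1 : 𝒞.B1)) * ((1 : R) ⊗ₜ[k] 𝒞.z1)) =
      ((1 : R) ⊗ₜ[k] 𝒞.i1 𝒞.z1) * 𝒞.ι0 R (Chart.H59.fPt β 𝒞.x0) := by
    rw [Chart.H59.fPt, map_sub, map_sub, map_one, map_mul, H60.ι1_tmul, H60.ι1_tmul, H60.ι0_tmul,
      H60.ι0_tmul, map_one, map_one, mul_sub, Algebra.TensorProduct.tmul_mul_tmul,
      Algebra.TensorProduct.tmul_mul_tmul, Algebra.TensorProduct.tmul_mul_tmul, mul_one, one_mul,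
      one_mul, mul_one, mul_comm (𝒞.i1 𝒞.z1) (𝒞.i0 𝒞.x0), 𝒞.hxz, Algebra.TensorProduct.one_def,
      one_mul]
  rw [e]
  exact Ideal.mul_mem_left _ _ (Ideal.mem_map_of_mem _ hmem)

/-- `1 - β(z1) ⊗ x0` lies in the ideal of the graph on the other chart. -/
theorem one_sub_mem1 (β : 𝒞.B1 →ₐ[k] R) :
    1 - (β 𝒞.z1 ⊗ₜ[k] (1 : 𝒞.B0)) * ((1 : R) ⊗ₜ[k] 𝒞.x0) ∈
      Ideal.comap (𝒞.ι0 R) (Ideal.map (𝒞.ι1 R) (RingHom.ker (Chart.H59.evPt β).toRingHom)) := by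
  rw [Ideal.mem_comap]
  have hmem : (Chart.H59.fPt β 𝒞.z1) ∈ RingHom.ker (Chart.H59.evPt β).toRingHom := by
    rw [RingHom.mem_ker]
    exact Chart.H59.evPt_fPt β 𝒞.z1
  have e : 𝒞.ι0 R (1 - (β 𝒞.z1 ⊗ₜ[k] (1 : 𝒞.B0)) * ((1 : R) ⊗ₜ[k] 𝒞.x0)) =
      ((1 : R) ⊗ₜ[k] 𝒞.i0 𝒞.x0) * 𝒞.ι1 R (Chart.H59.fPt β 𝒞.z1) := by
    rw [Chart.H59.fPt, map_sub, map_sub, map_one, map_mul, H60.ι1_tmul, H60.ι1_tmul, H60.ι0_tmul,
      H60.ι0_tmul, map_one, map_one, mul_sub, Algebra.TensorProduct.tmul_mul_tmul,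
      Algebra.TensorProduct.tmul_mul_tmul, Algebra.TensorProduct.tmul_mul_tmul, mul_one, one_mul,
      one_mul, mul_one, 𝒞.hxz, Algebra.TensorProduct.one_def, one_mul]
  rw [e]
  exact Ideal.mul_mem_left _ _ (Ideal.mem_map_of_mem _ hmem)

/-- **S-GRINV**: the graph of a point is a relative effective Cartier divisor, over every `k`-algebra. -/
theorem stmt_GRINV : Stmt_GRINV.{u} := by
  intro k _ _ 𝒞 hG R _ _ β
  have hglue := Chart.H85.isGlue_of_isGood (R := R) hG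
  haveI := hG.dom0
  haveI := hG.dom1
  haveI := H50.isDedekindDomain_B0 𝒞 hG
  haveI := H50.isDedekindDomain_B1 𝒞 hG
  haveI := H50.finiteType_B0 𝒞 hG
  haveI := H50.finiteType_B1 𝒞 hG
  rcases β with β | β
  · obtain ⟨n, u, h, b, F, K, hdata, hsum⟩ :=
      Chart.H59.stmt_COORD k 𝒞.B0 (Trip.H85.not_isField_B0 hG)
    obtain ⟨h1, h2, h3⟩ := Chart.H59.relDiv_abs β u h b F K hdata hsum hglue
      (Algebra.TensorProduct.includeLeftRingHom : R →+* R ⊗[k] 𝒞.B1)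
      (fun r => by
        rw [Algebra.TensorProduct.includeLeftRingHom_apply, H60.ι0_tmul, H60.ι1_tmul, map_one,
          map_one])
      (β 𝒞.x0 ⊗ₜ[k] (1 : 𝒞.B1)) (one_sub_mem0 β)
    exact ⟨h1, h2, h3⟩
  · obtain ⟨n, u, h, b, F, K, hdata, hsum⟩ :=
      Chart.H59.stmt_COORD k 𝒞.B1 (Trip.H85.not_isField_B1 hG)
    obtain ⟨h1, h2, h3⟩ := Chart.H59.relDiv_abs β u h b F K hdata hsum (Trip.H85.glue_symm hglue)
      (Algebra.TensorProduct.includeLeftRingHom : R →+* R ⊗[k] 𝒞.B0)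
      (fun r => by
        rw [Algebra.TensorProduct.includeLeftRingHom_apply, H60.ι0_tmul, H60.ι1_tmul, map_one,
          map_one])
      (β 𝒞.z1 ⊗ₜ[k] (1 : 𝒞.B0)) (one_sub_mem1 β)
    exact ⟨h2, h1, h3.symm⟩

end Fermat.Agent.S25.Top.S.H59
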