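/-
helper26, S25 package CHART, leaf LOCSPLIT (`Stmt_LOCSPLIT` of `S25/Chart/Defs3.lean`), pure algebra.

Over a noetherian local ring `R`, a surjection `Φ : F → P` from a free module (of any rank) onto a projective module
which is injective modulo the maximal ideal is injective.
Proof: `Φ` splits, `π = 1 - s Φ` is a projector onto `K = ker Φ`; `K ⊆ 𝔪 F` gives `K = π K ⊆ 𝔪 K`, hence
`K ⊆ 𝔪^n F` for all `n`; the coordinates of an element of `K` in a basis of `F` lie in `⋂ 𝔪^n = 0` (Krull).
-/
import Fermat.Agent.S25.Chart.Defs3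

set_option autoImplicit false

universe u

namespace Fermat.Agent.S25.Chart.H26

/-- A linear form maps `I • ⊤` into `I`. -/
theorem linearForm_mem_of_mem_smul_top {R : Type*} [CommRing R] {F : Type*} [AddCommGroup F]
    [Module R F] (I : Ideal R) (ℓ : F →ₗ[R] R) (v : F) (hv : v ∈ I • (⊤ : Submodule R F)) :
    ℓ v ∈ I := by
  refine Submodule.smul_induction_on hv ?_ ?_
  · intro r hr w _
    rw [map_smul, smul_eq_mul]
    exact I.mul_mem_right _ hr
  · intro x y hx hy
    rw [map_add]
    exact I.add_mem hx hy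

/-- In a free module over a noetherian local ring, `⋂ 𝔪^n F = 0` (no finiteness of `F`). -/
theorem eq_zero_of_forall_mem_pow_smul_top (R : Type*) [CommRing R] [IsLocalRing R]
    [IsNoetherianRing R] (F : Type*) [AddCommGroup F] [Module R F] [Module.Free R F] (v : F)
    (hv : ∀ n : ℕ, v ∈ (IsLocalRing.maximalIdeal R ^ n) • (⊤ : Submodule R F)) : v = 0 := by
  let b := Module.Free.chooseBasis R F
  have hcoord : ∀ i, b.repr v i = 0 := by
    intro i
    have hmem : b.repr v i ∈ ⨅ n : ℕ, IsLocalRing.maximalIdeal R ^ n := by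
      rw [Submodule.mem_iInf]
      intro n
      exact linearForm_mem_of_mem_smul_top _ (b.coord i) v (hv n)
    rw [Ideal.iInf_pow_eq_bot_of_isLocalRing _
      (IsLocalRing.maximalIdeal.isMaximal R).ne_top] at hmem
    exact hmem
  exact b.repr.map_eq_zero_iff.1 (Finsupp.ext hcoord)

/-- **LOCSPLIT**, with arbitrary universes. -/
theorem locsplit (R : Type*) [CommRing R] [IsLocalRing R] [IsNoetherianRing R]
    (F P : Type*) [AddCommGroup F] [Module R F] [Module.Free R F]
    [AddCommGroup P] [Module R P] [Module.Projective R P] (Φ : F →ₗ[R] P)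
    (hsurj : Function.Surjective Φ)
    (hinj : ∀ v : F, Φ v ∈ (IsLocalRing.maximalIdeal R) • (⊤ : Submodule R P) →
      v ∈ (IsLocalRing.maximalIdeal R) • (⊤ : Submodule R F)) :
    Function.Injective Φ := by
  obtain ⟨s, hs⟩ := Module.projective_lifting_property Φ LinearMap.id hsurj
  have hs' : ∀ x, Φ (s x) = x := fun x => LinearMap.congr_fun hs x
  let π : F →ₗ[R] F := LinearMap.id - s ∘ₗ Φ
  have hπ : ∀ v, π v = v - s (Φ v) := fun v => rfl
  have hπker : ∀ v, Φ (π v) = 0 := by
    intro v
    rw [hπ, map_sub, hs', sub_self]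
  have hπid : ∀ v, Φ v = 0 → π v = v := by
    intro v hv
    rw [hπ, hv, map_zero, sub_zero]
  have key : ∀ n : ℕ, ∀ v : F, Φ v = 0 →
      v ∈ (IsLocalRing.maximalIdeal R ^ n) • (⊤ : Submodule R F) := by
    intro n
    induction n with
    | zero =>
      intro v _
      rw [pow_zero, Ideal.one_eq_top, Submodule.top_smul]
      trivial
    | succ n ih =>
      intro v hv
      have h1 : v ∈ (IsLocalRing.maximalIdeal R) • (⊤ : Submodule R F) :=
        hinj v (by rw [hv]; exact Submodule.zero_mem _)
      have h2 : π v ∈ (IsLocalRing.maximalIdeal R) •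
          ((IsLocalRing.maximalIdeal R ^ n) • (⊤ : Submodule R F)) := by
        refine Submodule.smul_induction_on h1 ?_ ?_
        · intro r hr w _
          rw [map_smul]
          exact Submodule.smul_mem_smul hr (ih (π w) (hπker w))
        · intro x y hx hy
          rw [map_add]
          exact Submodule.add_mem _ hx hy
      rw [hπid v hv] at h2
      rwa [pow_succ', Submodule.mul_smul]
  rw [injective_iff_map_eq_zero]
  intro v hv
  exact eq_zero_of_forall_mem_pow_smul_top R F v (fun n => key n v hv)

/-- **LOCSPLIT**. -/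
theorem stmt_LOCSPLIT : Stmt_LOCSPLIT.{u} := by
  intro R _ _ _ F P _ _ _ _ _ _ Φ hsurj hinj
  exact locsplit R F P Φ hsurj hinj

end Fermat.Agent.S25.Chart.H26
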