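/-
helper33, S25 (Jacobian exists), package CHART: auxiliary lemmas for the CHARTLEMMA assembly.

* `Triple.Iso` is reflexive and symmetric; `H1 = 0` and rigidity are invariant under isomorphisms;
* `H1 = 0` is invariant under isomorphisms of two-chart data and stable under base change of two-chart data;
* `BC` along equal maps;
* chart points of a localisation `A'` of `A` are determined by their restriction to `A`;
* determinants of chart points under `Pt.map`.
-/
import Fermat.Agent.S25.Chart.Defs3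
import Fermat.Agent.S25.LB.DefsE

set_option autoImplicit false

universe u

open Polynomial TensorProduct

namespace Fermat.Agent.S25.Chart.H33

open Fermat.Agent.S25.LB Fermat.Agent.S25.Chart Fermat.Agent.S25

/-! ### Two-chart data -/

section Data

variable {A : Type u} [CommRing A]

theorem h1_subsingleton_iff (N : P1.Data A) :
    Subsingleton N.H1 ↔ ∀ m : N.N01, ∃ (a : N.N0) (b : N.N1), m = N.j0 a + N.j1 b := by
  constructor
  · intro h m
    have h0 : (Submodule.Quotient.mk m : N.H1) = 0 := Subsingleton.elim _ _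
    rw [Submodule.Quotient.mk_eq_zero] at h0
    obtain ⟨x, ⟨a, rfl⟩, y, ⟨b, rfl⟩, hxy⟩ := Submodule.mem_sup.mp h0
    exact ⟨a, b, hxy.symm⟩
  · intro h
    refine ⟨fun x y => ?_⟩
    obtain ⟨m, rfl⟩ := Submodule.Quotient.mk_surjective _ x
    obtain ⟨m', rfl⟩ := Submodule.Quotient.mk_surjective _ y
    rw [Submodule.Quotient.eq]
    obtain ⟨a, b, hab⟩ := h (m - m')
    rw [hab]
    exact Submodule.add_mem _ (Submodule.mem_sup_left ⟨a, rfl⟩) (Submodule.mem_sup_right ⟨b, rfl⟩)

theorem h1_subsingleton_of_dataIso {N N' : P1.Data A} (E : P1.Data.Iso N N')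
    (h : Subsingleton N.H1) : Subsingleton N'.H1 := by
  rw [h1_subsingleton_iff] at h ⊢
  intro m'
  obtain ⟨a, b, hab⟩ := h (E.e01.symm m')
  refine ⟨E.e0 a, E.e1 b, ?_⟩
  rw [← E.e_j0, ← E.e_j1, ← map_add, ← hab, LinearEquiv.apply_symm_apply]

theorem h1_subsingleton_baseChange (N : P1.Data A) (h : Subsingleton N.H1)
    (A' : Type u) [CommRing A'] [Algebra A A'] : Subsingleton (N.baseChange A').H1 := by
  rw [h1_subsingleton_iff] at h ⊢
  intro m
  induction m using TensorProduct.induction_on with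
  | zero => exact ⟨0, 0, by rw [map_zero, map_zero, add_zero]; exact rfl⟩
  | tmul a' m =>
    obtain ⟨a, b, hab⟩ := h m
    refine ⟨a' ⊗ₜ[A] a, a' ⊗ₜ[A] b, ?_⟩
    change a' ⊗ₜ[A] m = (N.j0.baseChange A') (a' ⊗ₜ[A] a) + (N.j1.baseChange A') (a' ⊗ₜ[A] b)
    rw [LinearMap.baseChange_tmul, LinearMap.baseChange_tmul, ← TensorProduct.tmul_add, ← hab]
  | add x y hx hy =>
    obtain ⟨a, b, hab⟩ := hx
    obtain ⟨a', b', hab'⟩ := hy
    refine ⟨a + a', b + b', ?_⟩
    rw [hab, hab', map_add, map_add]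
    abel

end Data

/-! ### Triples -/

section Triple

variable {k : Type u} [Field k] {𝒞 : CurveDatum k} {R : Type u} [CommRing R] [Algebra k R]

theorem triple_h1_iff (L : Triple 𝒞 R) :
    Subsingleton L.H1 ↔ ∀ m : L.P01, ∃ (a : L.P0) (b : L.P1), m = L.r0 a + L.r1 b :=
  h1_subsingleton_iff L.toData

/-- The identity isomorphism. -/
def isoRefl (L : Triple 𝒞 R) : Triple.Iso L L where
  e0 := LinearEquiv.refl _ _
  e1 := LinearEquiv.refl _ _
  e01 := LinearEquiv.refl _ _
  comm0 := fun _ => rfl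
  comm1 := fun _ => rfl

/-- The inverse isomorphism. -/
def isoSymm {L L' : Triple 𝒞 R} (e : Triple.Iso L L') : Triple.Iso L' L where
  e0 := e.e0.symm
  e1 := e.e1.symm
  e01 := e.e01.symm
  comm0 := fun p => by
    apply e.e01.injective
    rw [LinearEquiv.apply_symm_apply, e.comm0, LinearEquiv.apply_symm_apply]
  comm1 := fun p => by
    apply e.e01.injective
    rw [LinearEquiv.apply_symm_apply, e.comm1, LinearEquiv.apply_symm_apply]

theorem h1_subsingleton_of_iso {L L' : Triple 𝒞 R} (e : Triple.Iso L L')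
    (h : Subsingleton L.H1) : Subsingleton L'.H1 := by
  rw [triple_h1_iff] at h ⊢
  intro m'
  obtain ⟨a, b, hab⟩ := h (e.e01.symm m')
  refine ⟨e.e0 a, e.e1 b, ?_⟩
  rw [← e.comm0, ← e.comm1, ← map_add, ← hab, LinearEquiv.apply_symm_apply]

variable {R' : Type u} [CommRing R'] [Algebra k R']

/-- `BC` along equal maps. -/
def bcCongr {φ ψ : R →ₐ[k] R'} (h : φ = ψ) {L : Triple 𝒞 R} {L' : Triple 𝒞 R'}
    (β : BC φ L L') : BC ψ L L' := h ▸ β

theorem bcCongr_b0 {φ ψ : R →ₐ[k] R'} (h : φ = ψ) {L : Triple 𝒞 R} {L' : Triple 𝒞 R'}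
    (β : BC φ L L') : (bcCongr h β).b0 = β.b0 := by
  subst h; rfl

theorem bcCongr_b1 {φ ψ : R →ₐ[k] R'} (h : φ = ψ) {L : Triple 𝒞 R} {L' : Triple 𝒞 R'}
    (β : BC φ L L') : (bcCongr h β).b1 = β.b1 := by
  subst h; rfl

end Triple

/-! ### Chart points -/

section Pt

variable {k : Type u} [CommRing k] {A : Type u} [CommRing A] [Algebra k A] {x : A} {g : ℕ}
  {R : Type u} [CommRing R] [Algebra k R] {R' : Type u} [CommRing R'] [Algebra k R']

theorem det_map (φ : R →ₐ[k] R') (p : Pt k A x g R) (a : A) :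
    ((p.map φ).ρ a).det = φ ((p.ρ a).det) := by
  rw [Pt.map_ρ_apply]
  exact (RingHom.map_det φ.toRingHom (p.ρ a)).symm

theorem isUnit_det_map (φ : R →ₐ[k] R') (p : Pt k A x g R) (a : A) (h : IsUnit (p.ρ a).det) :
    IsUnit ((p.map φ).ρ a).det := by
  rw [det_map]
  exact h.map φ

variable (A' : Type u) [CommRing A'] [Algebra k A'] [Algebra A A'] [IsScalarTower k A A']

/-- The restriction of a chart point of `A'` to `A`. -/
def restrict (p' : Pt k A' (algebraMap A A' x) g R) : Pt k A x g R where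
  ρ := p'.ρ.comp (IsScalarTower.toAlgHom k A A')
  comp := p'.comp

@[simp] theorem restrict_ρ (p' : Pt k A' (algebraMap A A' x) g R) (a : A) :
    (restrict A' p').ρ a = p'.ρ (algebraMap A A' a) := rfl

theorem restrict_map (φ : R →ₐ[k] R') (p' : Pt k A' (algebraMap A A' x) g R) :
    restrict A' (p'.map φ) = (restrict A' p').map φ := by
  apply Pt.ext; apply AlgHom.ext; intro a
  rfl

/-- Chart points of a localisation are determined by their restriction. -/
theorem restrict_injective (h : A) [IsLocalization.Away h A']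
    (p' q' : Pt k A' (algebraMap A A' x) g R) (hpq : restrict A' p' = restrict A' q') :
    p' = q' := by
  apply Pt.ext; apply AlgHom.ext; intro y
  have hres : ∀ a : A, p'.ρ (algebraMap A A' a) = q'.ρ (algebraMap A A' a) := fun a => by
    have := congrArg (fun p : Pt k A x g R => p.ρ a) hpq
    exact this
  obtain ⟨n, a, hya⟩ := IsLocalization.Away.surj h y
  -- `y * h^n = a`
  have hu : IsUnit (algebraMap A A' h ^ n) := (IsLocalization.Away.algebraMap_isUnit h).pow n
  have hup : IsUnit (p'.ρ (algebraMap A A' h ^ n)) := hu.map p'.ρ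
  have e1 : p'.ρ y * p'.ρ (algebraMap A A' h ^ n) = q'.ρ y * p'.ρ (algebraMap A A' h ^ n) := by
    have hp : p'.ρ (algebraMap A A' h ^ n) = q'.ρ (algebraMap A A' h ^ n) := by
      rw [← map_pow, hres]
    rw [← map_mul, hya, hres, ← hya, map_mul, hp]
  exact hup.mul_left_injective e1

end Pt

end Fermat.Agent.S25.Chart.H33
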