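/-
helper33, S25 (Jacobian exists), package CHART: the CLOSING file of CHARTLEMMA.

`stmt_CHARTLEMMA_of : Num.Stmt_NSPCH → Stmt_CHARTLEMMA` and `stmt_CHARTLEMMA_of_NSP : Num.Stmt_NSP → Stmt_CHARTLEMMA`:
all the leaves of CHART and LB are plugged in; the only remaining input is the centre of the chart
(NUM-NSPCH: a non-special chart point over `k`; from NUM-NSP by helper93's `Num.H93.nspch_of`).
-/
import Fermat.Agent.S25.Chart.H33_ChartLemma
import Fermat.Agent.S25.Chart.H76_Hilb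
import Fermat.Agent.S25.Chart.H98_LiftMat
import Fermat.Agent.S25.Chart.H46_OpenUnit
import Fermat.Agent.S25.Chart.H59_DivExFinal
import Fermat.Agent.S25.Chart.H92_DivUniq
import Fermat.Agent.S25.Chart.H46_DivBC
import Fermat.Agent.S25.Chart.H98_DivH0
import Fermat.Agent.S25.Chart.H93_Mono
import Fermat.Agent.S25.Chart.H93_IsoDiv
import Fermat.Agent.S25.Chart.H4_Close2
import Fermat.Agent.S25.LB.H36_BC
import Fermat.Agent.S25.LB.H73_BCUniq
import Fermat.Agent.S25.LB.H36_BCData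
import Fermat.Agent.S25.LB.H44_FibKClose
import Fermat.Agent.S25.Num.H93_NspCh

set_option autoImplicit false

universe u

open Polynomial TensorProduct

namespace Fermat.Agent.S25.Chart.H33

open Fermat.Agent.S25.LB Fermat.Agent.S25.Chart Fermat.Agent.S25

/-- The genus exists. -/
theorem isGenus_genus33 {k : Type u} [Field k] {𝒞 : CurveDatum k} (good : 𝒞.IsGood) :
    IsGenus 𝒞 (Num.genus 𝒞) := by
  intro L e0 e1 e01 h0 h1
  exact Num.H45.h1_unit good ⟨e0, e1, e01, h0, h1⟩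

/-- The centre of the chart, in the form used by the assembly. -/
theorem stmt_NSP_of (hN : Num.Stmt_NSPCH.{u}) : Stmt_NSP.{u} := by
  intro k _ _ 𝒞 hG h hEt
  obtain ⟨pt, L, s0, s1, hu, hd, hH⟩ := hN k 𝒞 hG h hEt _ (isGenus_genus33 hG)
  exact ⟨Num.genus 𝒞, isGenus_genus33 hG, pt, L, s0, s1, hd, hu, hH⟩

/-- **CHARTLEMMA**, from the centre of the chart. -/
theorem stmt_CHARTLEMMA_of (hN : Num.Stmt_NSPCH.{u}) : Stmt_CHARTLEMMA.{u} :=
  chartLemma_of H76.stmt_HILB H98.stmt_SMOOTH H46o.stmt_OPENUNIT H59.stmt_DIVEX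
    H92U.stmt_DIVUNIQ H46b.stmt_DIVBC H98d.stmt_DIVH0 H93.stmt_MONO H4.stmt_SPREADN
    H93I.stmt_ISODIV LB.H36.stmt_BCEX LB.H73.stmt_BCUNIQ Trip.H92.stmt_BCCOMP LB.H36.stmt_BCDATA
    LB.H44.stmt_FIBK (stmt_NSP_of hN)

/-- **CHARTLEMMA**, from NUM-NSP. -/
theorem stmt_CHARTLEMMA_of_NSP (hN : Num.Stmt_NSP.{u}) : Stmt_CHARTLEMMA.{u} :=
  stmt_CHARTLEMMA_of (Num.H93.nspch_of hN)

end Fermat.Agent.S25.Chart.H33
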