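/-
helper46, S25 (Jacobian exists), package TRIP, leaf SJ-GRAPH, cut (P4) COORD, tail:
a separability element from an unramified localisation, for `B` of finite type over `k`
(generalises `H46u.exists_isSepElem`, where `B` is finite over `k[x]` and the localisation is etale).
-/
import Fermat.Agent.S25.Chart.H46_CartU

set_option autoImplicit false

universe u

open Polynomial TensorProduct

namespace Fermat.Agent.S25.Chart.H46s

open Fermat.Agent.S25.LB Fermat.Agent.S25.Chart

/-- The separability element for a domain `B` of finite type over `k`, `x` transcendental, with `A = B[1/h]`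
formally unramified over `k[x]` (as an `Algebra` instance on `A`, compatible with the one of `B`). -/
theorem exists_isSepElem_alg {k : Type u} [Field k] {B : Type u} [CommRing B] [Algebra k B] [IsDomain B]
    [Algebra.FiniteType k B] (x h : B) (hx : Function.Injective (Polynomial.aeval (R := k) x))
    (A : Type u) [CommRing A] [Algebra B A] [IsLocalization.Away h A] (h0 : h ≠ 0)
    [algA : Algebra k[X] A]
    (halg : ∀ r : k[X], algebraMap k[X] A r = algebraMap B A (Polynomial.aeval x r))
    [Algebra.FormallyUnramified k[X] A] :
    ∃ (F : Finset (B × B)) (K : ℕ), H59.IsSepElem k B x h F K := by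
  letI algB : Algebra k[X] B := H46r.algX (k := k) x
  haveI := H46r.tower_algX (k := k) x
  haveI := H46r.torsionFree_algX (k := k) x hx
  haveI : Module.Flat k[X] B := inferInstance
  haveI : IsScalarTower k[X] B A := IsScalarTower.of_algebraMap_eq (fun r => halg r)
  haveI hft0 : Algebra.FiniteType k[X] B := Algebra.FiniteType.of_restrictScalars_finiteType k k[X] B
  haveI hft1 : Algebra.FiniteType B A :=
    IsLocalization.finiteType_of_monoid_fg (Submonoid.powers h) _
  haveI : Algebra.FiniteType k[X] A := Algebra.FiniteType.trans hft0 hft1
  haveI : Module.Flat B A := IsLocalization.flat A (Submonoid.powers h)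
  haveI : Module.Flat k[X] A := Module.Flat.trans k[X] B A
  have hinj : Function.Injective (algebraMap B A) :=
    IsLocalization.injective A (powers_le_nonZeroDivisors_of_noZeroDivisors h0)
  obtain ⟨t0, K, hK, hs⟩ := H46u.exists_sep_tensor (P := k[X]) (A := A) h hinj
  obtain ⟨F, hF⟩ := TensorProduct.exists_finset t0
  refine ⟨F, K, ?_, ?_⟩
  · rw [← hK, hF, map_sum]
    simp
  · intro C _ _ α β hαβ s
    letI algC : Algebra k[X] C :=
      (α.toRingHom.comp (Polynomial.aeval (R := k) x).toRingHom).toAlgebra
    let α' : B →ₐ[k[X]] C := { α.toRingHom with commutes' := fun r => rfl }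
    let β' : B →ₐ[k[X]] C :=
      { β.toRingHom with
        commutes' := fun r => by
          show β (Polynomial.aeval x r) = α (Polynomial.aeval x r)
          rw [← Polynomial.aeval_algHom_apply, ← Polynomial.aeval_algHom_apply, hαβ] }
    have hs' := hs s
    rw [hF] at hs'
    exact H46u.sep_universal (P := k[X]) F s hs' α' β'

/-- The same with the hypothesis in `RingHom` form. -/
theorem exists_isSepElem_ft {k : Type u} [Field k] {B : Type u} [CommRing B] [Algebra k B] [IsDomain B]
    [Algebra.FiniteType k B] (x h : B) (hx : Function.Injective (Polynomial.aeval (R := k) x))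
    (A : Type u) [CommRing A] [Algebra B A] [IsLocalization.Away h A] (h0 : h ≠ 0)
    (hUn : ((algebraMap B A).comp (Polynomial.aeval (R := k) x).toRingHom).FormallyUnramified) :
    ∃ (F : Finset (B × B)) (K : ℕ), H59.IsSepElem k B x h F K := by
  letI algA : Algebra k[X] A :=
    ((algebraMap B A).comp (Polynomial.aeval (R := k) x).toRingHom).toAlgebra
  haveI : Algebra.FormallyUnramified k[X] A := hUn
  exact exists_isSepElem_alg x h hx A h0 (fun r => rfl)

/-- The form with the default algebra instance of `Localization.Away h` over `k[X]`. -/
theorem exists_isSepElem_away {k : Type u} [Field k] {B : Type u} [CommRing B]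
    [Algebra k B] [IsDomain B] [Algebra.FiniteType k B] (u h : B)
    (hu : Function.Injective (Polynomial.aeval (R := k) u)) (h0 : h ≠ 0)
    (hUn : letI := H46r.algX (k := k) u; Algebra.FormallyUnramified k[X] (Localization.Away h)) :
    ∃ (F : Finset (B × B)) (K : ℕ), H59.IsSepElem k B u h F K := by
  letI algB : Algebra k[X] B := H46r.algX (k := k) u
  haveI : Algebra.FormallyUnramified k[X] (Localization.Away h) := hUn
  exact exists_isSepElem_alg u h hu (Localization.Away h) h0
    (fun r => IsScalarTower.algebraMap_apply k[X] B (Localization.Away h) r)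

/-- From a prime of the unramified locus of `k[x] → B`: some `h ∉ p` has a separability element. -/
theorem exists_isSepElem_of_isUnramifiedAt {k : Type u} [Field k] {B : Type u} [CommRing B]
    [Algebra k B] [IsDomain B] [Algebra.FiniteType k B] (x : B)
    (hx : Function.Injective (Polynomial.aeval (R := k) x)) (p : Ideal B) [p.IsPrime]
    (hp : letI := H46r.algX (k := k) x; Algebra.IsUnramifiedAt k[X] p) :
    ∃ h : B, h ∉ p ∧ ∃ (F : Finset (B × B)) (K : ℕ), H59.IsSepElem k B x h F K := by
  letI algB : Algebra k[X] B := H46r.algX (k := k) x
  haveI := H46r.tower_algX (k := k) x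
  haveI hft0 : Algebra.FiniteType k[X] B := Algebra.FiniteType.of_restrictScalars_finiteType k k[X] B
  haveI : Algebra.IsUnramifiedAt k[X] p := hp
  obtain ⟨f, hfp, H⟩ := Algebra.exists_formallyUnramified_of_isUnramifiedAt (R := k[X]) p
  have hf0 : f ≠ 0 := by
    rintro rfl
    exact hfp (Ideal.zero_mem p)
  refine ⟨f, hfp, ?_⟩
  exact exists_isSepElem_alg x f hx (Localization.Away f) hf0
    (fun r => IsScalarTower.algebraMap_apply k[X] B (Localization.Away f) r)

end Fermat.Agent.S25.Chart.H46s
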