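/-
helper4, S25 package CHART: CLOSING file, part 3: `Stmt_CHARTLEMMA`, unconditional
(the output of the package CHART; assembly `H33.chartLemma_of` by helper33, centre by NUM).
-/
import Fermat.Agent.S25.Chart.H4_Close2
import Fermat.Agent.S25.Chart.H33_ChartLemma
import Fermat.Agent.S25.Chart.H76_Hilb
import Fermat.Agent.S25.Chart.H98_LiftMat
import Fermat.Agent.S25.Chart.H46_OpenUnit
import Fermat.Agent.S25.LB.H36_BCData
import Fermat.Agent.S25.Num.H63_NumFinal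
import Fermat.Agent.S25.Num.H45_Iso

set_option autoImplicit false

universe u

namespace Fermat.Agent.S25.Chart.H4

open Fermat.Agent.S25.LB

/-- The genus exists. -/
theorem isGenus_genus' {k : Type u} [Field k] {𝒞 : CurveDatum k} (good : 𝒞.IsGood) :
    IsGenus 𝒞 (Fermat.Agent.S25.Num.genus 𝒞) := by
  intro L e0 e1 e01 h0 h1
  exact Fermat.Agent.S25.Num.H45.h1_unit good ⟨e0, e1, e01, h0, h1⟩

/-- The centre of the chart, in the form used by the assembly. -/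
theorem stmt_NSP33 : H33.Stmt_NSP.{u} := by
  intro k _ _ 𝒞 hG h hEt
  refine ⟨Fermat.Agent.S25.Num.genus 𝒞, isGenus_genus' hG, ?_⟩
  obtain ⟨pt, L, s0, s1, hu, hd, hH⟩ :=
    Fermat.Agent.S25.Num.H63.stmt_NSPCH k 𝒞 hG h hEt _ (isGenus_genus' hG)
  exact ⟨pt, L, s0, s1, hd, hu, hH⟩

/-- **CHARTLEMMA**, unconditional. -/
theorem stmt_CHARTLEMMA : Stmt_CHARTLEMMA.{u} :=
  H33.chartLemma_of H76.stmt_HILB H98.stmt_SMOOTH H46o.stmt_OPENUNIT H59.stmt_DIVEX
    H92U.stmt_DIVUNIQ H46b.stmt_DIVBC H98d.stmt_DIVH0 H93.stmt_MONO stmt_SPREADN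
    H93I.stmt_ISODIV LB.H36.stmt_BCEX LB.H73.stmt_BCUNIQ
    Fermat.Agent.S25.Trip.H92.stmt_BCCOMP LB.H36.stmt_BCDATA LB.H44.stmt_FIBK stmt_NSP33

end Fermat.Agent.S25.Chart.H4
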