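import Fermat.Agent.S25.Chart.Defs3
import Fermat.Agent.S25.LB.H7_VB
import Fermat.Agent.S25.LB.H60_Unit

/-!
# S25, package CHART, leaf QFINGEN (helper51)

`L` a triple on a good curve datum over any `k`-algebra `R`, `(σ0, σ1)` a global section whose
divisor does not meet `x0 = ∞` (`GenAtInfty L σ1`: `P1 = S1 σ1 + z1 P1`).  Then `P0 / S0 σ0` is a
finitely generated `R`-module.

Route: `P1` is finitely generated over `R[z1]` (LB-VB), so by Nakayama some `a(z1)`,
`a ∈ 1 + X R[X]`, maps `P1` into `S1 σ1`; the reflected polynomial `F = X^d a(1/X)` is monic and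
`x0^M F(x0)` maps `P0` into `S0 σ0`; division with remainder by the monic `G = X^M F`.

* `gen_of_retract` : generators from an `X`-equivariant retraction of `R[X]^r`;
* `exists_nak` : the Nakayama polynomial;
* `stmt_QFINGEN : Stmt_QFINGEN`.
-/

set_option autoImplicit false
set_option linter.style.haveILetI false
set_option linter.unusedSectionVars false
set_option linter.unusedVariables false

universe u

open Polynomial TensorProduct

namespace Fermat.Agent.S25.Chart.H51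

open Fermat.Agent.S25.LB

section Abs

variable {R S P : Type*} [CommRing R] [CommRing S] [Algebra R S] [AddCommGroup P] [Module S P]

/-- The images of the standard basis under an `X`-equivariant retraction of `R[X]^r` generate. -/
theorem gen_of_retract (s : S) (r : ℕ) (i : P → (Fin r → R[X])) (p : (Fin r → R[X]) → P)
    (hadd : ∀ v w, p (v + w) = p v + p w)
    (hC : ∀ (c : R) v, p (c • v) = algebraMap R S c • p v)
    (hX : ∀ v, p ((X : R[X]) • v) = s • p v)
    (hpi : ∀ q, p (i q) = q) (q : P) :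
    q = ∑ j : Fin r, (Polynomial.aeval s (i q j)) • p (Pi.single j 1) := by
  classical
  have h0 : p 0 = 0 := by
    have h := hadd 0 0
    rw [add_zero] at h
    exact left_eq_add.mp h
  have hXn : ∀ (n : ℕ) v, p ((X : R[X]) ^ n • v) = s ^ n • p v := by
    intro n
    induction n with
    | zero => intro v; simp
    | succ n ih =>
      intro v
      rw [pow_succ', mul_smul, hX, ih, pow_succ', mul_smul]
  have hmono : ∀ (f : R[X]) v, p (f • v) = Polynomial.aeval s f • p v := by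
    intro f
    induction f using Polynomial.induction_on' with
    | add f g hf hg =>
      intro v
      rw [add_smul, hadd, hf, hg, map_add, add_smul]
    | monomial n c =>
      intro v
      have e : (Polynomial.monomial n c : R[X]) • v = c • ((X : R[X]) ^ n • v) := by
        funext j
        simp only [Pi.smul_apply, smul_eq_mul]
        rw [← Polynomial.C_mul_X_pow_eq_monomial, Polynomial.smul_eq_C_mul, mul_assoc]
      rw [e, hC, hXn, Polynomial.aeval_monomial, mul_smul]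
  have hsum : ∀ (T : Finset (Fin r)) (w : Fin r → (Fin r → R[X])),
      p (∑ j ∈ T, w j) = ∑ j ∈ T, p (w j) := by
    intro T w
    induction T using Finset.induction_on with
    | empty => simpa using h0
    | insert a T ha ih => rw [Finset.sum_insert ha, Finset.sum_insert ha, hadd, ih]
  have hv : i q = ∑ j : Fin r, (i q j) • (Pi.single j (1 : R[X]) : Fin r → R[X]) := by
    funext l
    simp only [Finset.sum_apply, Pi.smul_apply, smul_eq_mul, Pi.single_apply, mul_ite, mul_one,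
      mul_zero, Finset.sum_ite_eq, Finset.mem_univ, if_true]
  conv_lhs => rw [← hpi q, hv, hsum]
  exact Finset.sum_congr rfl fun j _ => hmono _ _


open scoped Pointwise in
/-- **Nakayama**: if `P` is generated over `R[s]` by finitely many elements and
`P = S σ + s P`, then some `a(s)`, `a ∈ 1 + X R[X]`, maps `P` into `S σ`. -/
theorem exists_nak (s : S) (σ : P) (r : ℕ) (g : Fin r → P)
    (hg : ∀ q : P, ∃ f : Fin r → R[X], q = ∑ j, Polynomial.aeval s (f j) • g j)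
    (hgen : ∀ q : P, ∃ (c : S) (q' : P), q = c • σ + s • q') :
    ∃ a : R[X], a.coeff 0 = 1 ∧ ∀ q : P, ∃ c : S, Polynomial.aeval s a • q = c • σ := by
  classical
  letI : Module R[X] P := Module.compHom P ((Polynomial.aeval s : R[X] →ₐ[R] S) : R[X] →+* S)
  have hsm : ∀ (f : R[X]) (q : P), f • q = Polynomial.aeval s f • q := fun _ _ => rfl
  let N : Submodule R[X] P :=
    { carrier := {q | ∃ c : S, q = c • σ}
      add_mem' := by
        rintro _ _ ⟨c, rfl⟩ ⟨c', rfl⟩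
        exact ⟨c + c', (add_smul c c' σ).symm⟩
      zero_mem' := ⟨0, (zero_smul S σ).symm⟩
      smul_mem' := by
        rintro f _ ⟨c, rfl⟩
        exact ⟨Polynomial.aeval s f * c, by rw [hsm, mul_smul]⟩ }
  have hfg : (⊤ : Submodule R[X] P).FG := by
    refine ⟨Finset.univ.image g, ?_⟩
    rw [eq_top_iff]
    intro q _
    obtain ⟨f, hf⟩ := hg q
    rw [hf]
    refine Submodule.sum_mem _ fun j _ => ?_
    rw [← hsm]
    exact Submodule.smul_mem _ _ (Submodule.subset_span (by simp))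
  have hle : (⊤ : Submodule R[X] P) ≤
      N ⊔ (Ideal.span {(X : R[X])}) • (⊤ : Submodule R[X] P) := by
    intro q _
    obtain ⟨c, q', hq⟩ := hgen q
    rw [hq]
    refine Submodule.add_mem_sup ⟨c, rfl⟩ ?_
    have e : s • q' = (X : R[X]) • q' := by rw [hsm, Polynomial.aeval_X]
    rw [e]
    exact Submodule.smul_mem_smul (Ideal.mem_span_singleton_self X) trivial
  obtain ⟨a, ha1, ha⟩ :=
    Submodule.exists_sub_one_mem_and_smul_le_of_fg_of_le_sup hfg le_rfl hle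
  refine ⟨a, ?_, fun q => ?_⟩
  · rw [Ideal.mem_span_singleton, Polynomial.X_dvd_iff, Polynomial.coeff_sub,
      Polynomial.coeff_one_zero, sub_eq_zero] at ha1
    exact ha1
  · have h1 : a • q ∈ a • (⊤ : Submodule R[X] P) :=
      Submodule.smul_mem_pointwise_smul q a ⊤ trivial
    obtain ⟨c, hc⟩ := ha h1
    exact ⟨c, hc⟩

end Abs

section Refl

variable {R T : Type*} [CommRing R] [CommRing T]

/-- The reflected polynomial of `a ∈ 1 + X R[X]` is monic. -/
theorem reflect_monic (a : R[X]) (ha : a.coeff 0 = 1) : (reflect a.natDegree a).Monic := by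
  apply Polynomial.monic_of_natDegree_le_of_coeff_eq_one a.natDegree
  · rw [Polynomial.natDegree_le_iff_coeff_eq_zero]
    intro i hi
    rw [coeff_reflect, revAt_eq_self_of_lt hi]
    exact Polynomial.coeff_eq_zero_of_natDegree_lt hi
  · rw [coeff_reflect, revAt_le le_rfl, Nat.sub_self, ha]

/-- `F(u) = u^d a(v)` for `u v = 1`, `F` the reflected polynomial of `a`. -/
theorem eval₂_reflect_eq (i : R →+* T) (u v : T) (huv : u * v = 1) (a : R[X]) :
    Polynomial.eval₂ i u (reflect a.natDegree a) = u ^ a.natDegree * Polynomial.eval₂ i v a := by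
  letI : Invertible v := ⟨u, huv, by rw [mul_comm]; exact huv⟩
  have h := Polynomial.eval₂_reflect_mul_pow i v a.natDegree a le_rfl
  have e : (⅟v : T) = u := rfl
  rw [e] at h
  rw [← h, mul_comm (u ^ a.natDegree), mul_assoc, ← mul_pow, mul_comm v u, huv, one_pow, mul_one]

end Refl

section Main

variable {k : Type u} [Field k] {𝒞 : CurveDatum k} {R : Type u} [CommRing R] [Algebra k R]

/-- `ι0` of a polynomial in `x0`. -/
theorem ι0_aeval (f : R[X]) :
    𝒞.ι0 R (Polynomial.aeval ((1 : R) ⊗ₜ[k] 𝒞.x0 : R ⊗[k] 𝒞.B0) f)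
      = Polynomial.eval₂ (algebraMap R (R ⊗[k] 𝒞.B01)) ((1 : R) ⊗ₜ[k] 𝒞.i0 𝒞.x0) f := by
  rw [Polynomial.aeval_def, Polynomial.hom_eval₂]
  congr 1
  exact RingHom.ext fun r => (Algebra.TensorProduct.map (AlgHom.id R R) 𝒞.i0).commutes r

/-- `ι1` of a polynomial in `z1`. -/
theorem ι1_aeval (f : R[X]) :
    𝒞.ι1 R (Polynomial.aeval ((1 : R) ⊗ₜ[k] 𝒞.z1 : R ⊗[k] 𝒞.B1) f)
      = Polynomial.eval₂ (algebraMap R (R ⊗[k] 𝒞.B01)) ((1 : R) ⊗ₜ[k] 𝒞.i1 𝒞.z1) f := by
  rw [Polynomial.aeval_def, Polynomial.hom_eval₂]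
  congr 1
  exact RingHom.ext fun r => (Algebra.TensorProduct.map (AlgHom.id R R) 𝒞.i1).commutes r

/-- The pointwise step: `x0^M F(x0) q ∈ S0 σ0`. -/
theorem key_step (hG : 𝒞.IsGood) (L : Triple 𝒞 R) (σ0 : L.P0) (σ1 : L.P1)
    (hglue : L.r0 σ0 = L.r1 σ1) (a : R[X])
    (ha : ∀ q : L.P1, ∃ c : R ⊗[k] 𝒞.B1,
      Polynomial.aeval ((1 : R) ⊗ₜ[k] 𝒞.z1 : R ⊗[k] 𝒞.B1) a • q = c • σ1) (q : L.P0) :
    ∃ (M : ℕ) (c0 : R ⊗[k] 𝒞.B0),
      (((1 : R) ⊗ₜ[k] 𝒞.x0 : R ⊗[k] 𝒞.B0) ^ M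
        * Polynomial.aeval ((1 : R) ⊗ₜ[k] 𝒞.x0 : R ⊗[k] 𝒞.B0) (reflect a.natDegree a)) • q
        = c0 • σ0 := by
  set x : R ⊗[k] 𝒞.B0 := (1 : R) ⊗ₜ[k] 𝒞.x0 with hx
  set z : R ⊗[k] 𝒞.B1 := (1 : R) ⊗ₜ[k] 𝒞.z1 with hz
  set x' : R ⊗[k] 𝒞.B01 := (1 : R) ⊗ₜ[k] 𝒞.i0 𝒞.x0 with hx'
  set z' : R ⊗[k] 𝒞.B01 := (1 : R) ⊗ₜ[k] 𝒞.i1 𝒞.z1 with hz'
  set d := a.natDegree with hd
  have hxz : x' * z' = 1 := Triple.unit_mul_unit 𝒞 R
  have hιx : 𝒞.ι0 R x = x' := rfl
  obtain ⟨n, q1, hq1⟩ := L.surj1 (L.r0 q)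
  obtain ⟨c, hc⟩ := ha q1
  obtain ⟨m, c0, hc0⟩ := H60.surj0_unit (R := R) hG (𝒞.ι1 R c)
  have h1 : 𝒞.ι1 R c • L.r1 σ1
      = Polynomial.eval₂ (algebraMap R (R ⊗[k] 𝒞.B01)) z' a • (z' ^ n • L.r0 q) := by
    rw [← L.r1.map_smulₛₗ, ← hc, L.r1.map_smulₛₗ, ι1_aeval, hq1]
  have hzero : L.r0 ((x ^ m * Polynomial.aeval x (reflect d a)) • q
      - (x ^ (n + d) * c0) • σ0) = 0 := by
    rw [map_sub, L.r0.map_smulₛₗ, L.r0.map_smulₛₗ, sub_eq_zero, map_mul, map_mul, map_pow,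
      map_pow, ι0_aeval, hιx, ← hc0, hglue, mul_smul, mul_smul, mul_smul, h1,
      eval₂_reflect_eq (algebraMap R (R ⊗[k] 𝒞.B01)) x' z' hxz a]
    simp only [smul_smul]
    congr 1
    have e1 : x' ^ (n + d) * z' ^ n = x' ^ d := by
      rw [pow_add, mul_comm (x' ^ n), mul_assoc, ← mul_pow, hxz, one_pow, mul_one]
    calc x' ^ m * (x' ^ d * Polynomial.eval₂ (algebraMap R (R ⊗[k] 𝒞.B01)) z' a)
        = x' ^ m * Polynomial.eval₂ (algebraMap R (R ⊗[k] 𝒞.B01)) z' a
            * (x' ^ (n + d) * z' ^ n) := by rw [e1]; ring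
      _ = x' ^ (n + d) * (x' ^ m * (Polynomial.eval₂ (algebraMap R (R ⊗[k] 𝒞.B01)) z' a
            * z' ^ n)) := by ring
  obtain ⟨m', hm'⟩ := L.ker0 _ hzero
  refine ⟨m' + m, x ^ m' * (x ^ (n + d) * c0), ?_⟩
  rw [smul_sub, sub_eq_zero, smul_smul, smul_smul] at hm'
  rw [pow_add, mul_assoc, hm']

/-- **CH-QFINGEN**. -/
theorem stmt_QFINGEN : Stmt_QFINGEN.{u} := by
  intro k _ 𝒞 hG R _ _ L σ0 σ1 hglue hgen
  classical
  obtain ⟨-, ⟨r0, i0, p0, hpi0, -, hX0⟩, ⟨r1, i1, p1, hpi1, -, hX1⟩⟩ :=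
    H7.stmt_VB k 𝒞 hG R L
  set x : R ⊗[k] 𝒞.B0 := (1 : R) ⊗ₜ[k] 𝒞.x0 with hx
  set z : R ⊗[k] 𝒞.B1 := (1 : R) ⊗ₜ[k] 𝒞.z1 with hz
  -- the maps as plain functions on `L.P0`, `L.P1`
  let I0 : L.P0 → (Fin r0 → R[X]) := fun q => i0 q
  let Q0 : (Fin r0 → R[X]) → L.P0 := fun v => p0 v
  let I1 : L.P1 → (Fin r1 → R[X]) := fun q => i1 q
  let Q1 : (Fin r1 → R[X]) → L.P1 := fun v => p1 v
  let g0 : Fin r0 → L.P0 := fun j => Q0 (Pi.single j 1)
  let g1 : Fin r1 → L.P1 := fun j => Q1 (Pi.single j 1)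
  -- generators of `P0` over `R[x0]` and of `P1` over `R[z1]`
  have hg0 : ∀ q : L.P0, q = ∑ j : Fin r0, Polynomial.aeval x (I0 q j) • g0 j :=
    gen_of_retract (R := R) (S := R ⊗[k] 𝒞.B0) (P := L.P0) x r0 I0 Q0 (fun v w => map_add p0 v w)
      (fun c v => p0.map_smul c v) (fun v => hX0 v) (fun q => hpi0 q)
  have hg1 : ∀ q : L.P1, q = ∑ j : Fin r1, Polynomial.aeval z (I1 q j) • g1 j :=
    gen_of_retract (R := R) (S := R ⊗[k] 𝒞.B1) (P := L.P1) z r1 I1 Q1 (fun v w => map_add p1 v w)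
      (fun c v => p1.map_smul c v) (fun v => hX1 v) (fun q => hpi1 q)
  -- Nakayama
  obtain ⟨a, ha0, ha⟩ := exists_nak (R := R) z σ1 r1 g1
    (fun q => ⟨fun j => I1 q j, hg1 q⟩) hgen
  have hF : (reflect a.natDegree a).Monic := reflect_monic a ha0
  -- a uniform exponent
  have hkey := key_step hG L σ0 σ1 hglue a ha
  choose Mf cf hMf using fun j : Fin r0 => hkey (g0 j)
  set M := Finset.univ.sup Mf with hM
  set G : R[X] := X ^ M * reflect a.natDegree a with hGdef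
  have hGm : G.Monic := (Polynomial.monic_X_pow M).mul hF
  have hGx : Polynomial.aeval x G = x ^ M * Polynomial.aeval x (reflect a.natDegree a) := by
    rw [hGdef, map_mul, map_pow, Polynomial.aeval_X]
  have hGg : ∀ j : Fin r0, ∃ c : R ⊗[k] 𝒞.B0, Polynomial.aeval x G • g0 j = c • σ0 := by
    intro j
    have hle : Mf j ≤ M := Finset.le_sup (Finset.mem_univ j)
    refine ⟨x ^ (M - Mf j) * cf j, ?_⟩
    rw [mul_smul, ← hMf j, smul_smul, hGx, ← mul_assoc, ← pow_add, Nat.sub_add_cancel hle]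
  choose cg hcg using hGg
  -- the generators `x0^i g_j`, `i ≤ deg G`
  set D := G.natDegree with hD
  refine ⟨r0 * (D + 1), fun l =>
    x ^ ((finProdFinEquiv.symm l).2 : ℕ) • g0 (finProdFinEquiv.symm l).1, fun q => ?_⟩
  refine ⟨fun l => ((I0 q (finProdFinEquiv.symm l).1) %ₘ G).coeff ((finProdFinEquiv.symm l).2 : ℕ),
    ∑ j : Fin r0, Polynomial.aeval x ((I0 q j) /ₘ G) * cg j, ?_⟩
  -- the remainder as a sum of monomials
  have hrem : ∀ f : R[X], Polynomial.aeval x (f %ₘ G)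
      = ∑ i : Fin (D + 1),
          ((f %ₘ G).coeff (i : ℕ) ⊗ₜ[k] (1 : 𝒞.B0) : R ⊗[k] 𝒞.B0) * x ^ (i : ℕ) := by
    intro f
    have hdeg : (f %ₘ G).natDegree < D + 1 :=
      Nat.lt_succ_of_le (Polynomial.natDegree_modByMonic_le f hGm)
    conv_lhs => rw [Polynomial.as_sum_range' (f %ₘ G) (D + 1) hdeg]
    rw [map_sum, Finset.sum_range]
    refine Finset.sum_congr rfl fun i _ => ?_
    rw [Polynomial.aeval_monomial]
    rfl
  have hsplit : ∀ j : Fin r0, Polynomial.aeval x (I0 q j) • g0 j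
      = (∑ i : Fin (D + 1), (((I0 q j) %ₘ G).coeff (i : ℕ) ⊗ₜ[k] (1 : 𝒞.B0) : R ⊗[k] 𝒞.B0)
          • (x ^ (i : ℕ) • g0 j))
        + (Polynomial.aeval x ((I0 q j) /ₘ G) * cg j) • σ0 := by
    intro j
    conv_lhs => rw [← Polynomial.modByMonic_add_div (I0 q j) G]
    rw [map_add, add_smul, map_mul, mul_comm (Polynomial.aeval x G), mul_smul, hcg j, smul_smul,
      hrem, Finset.sum_smul]
    congr 1
    exact Finset.sum_congr rfl fun i _ => (mul_smul _ _ _)
  conv_lhs => rw [hg0 q]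
  rw [Finset.sum_congr rfl fun j _ => hsplit j, Finset.sum_add_distrib, ← Finset.sum_smul]
  congr 1
  rw [← (finProdFinEquiv (m := r0) (n := D + 1)).sum_comp, Fintype.sum_prod_type]
  refine Finset.sum_congr rfl fun j _ => Finset.sum_congr rfl fun i _ => ?_
  simp only [Equiv.symm_apply_apply]

end Main

end Fermat.Agent.S25.Chart.H51
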