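/-
helper59, S25 (Jacobian exists), chart side, leaf A-CART = "relative effective Cartier divisors".
Pure commutative algebra, Mathlib only.

Setting: `R → B` a ring homomorphism, `I` an ideal of `B`, `p` an ideal of `R`, `𝔞 = pB`.
* `inf_map_le_mul_of_flat`  : `B ⧸ I` flat over `R`  ⟹  `I ⊓ pB ≤ pB * I`.
* `flat_of_exact`           : `0 → M → N → P → 0` exact, `N` and `P` flat  ⟹  `M` flat.
* `eq_span_singleton_of_fibre` : `I` finitely generated, `pB ≤ jacobson ⊥`, `B ⧸ I` flat,
    `f ∈ I`, `I ≤ (f) ⊔ pB`  ⟹  `I = (f)`.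
* `nonZeroDivisor_of_fibre` : `B` noetherian, `pB ≤ jacobson ⊥`, `B` and `B ⧸ (f)` flat over `R`,
    `f` a non-zero-divisor modulo `pB`  ⟹  `f` is a non-zero-divisor of `B`.
* `relCartier_local`        : the two together.
-/
import Mathlib

set_option autoImplicit false

namespace Fermat.Agent.S25.Chart.H59

open TensorProduct

section Flat

variable {R : Type*} [CommRing R]

/-- A submodule-type kernel of a surjection of flat modules onto a flat module is flat:
if `0 → M → N → P → 0` is exact with `N` and `P` flat, then `M` is flat. -/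
theorem flat_of_exact {M N P : Type*} [AddCommGroup M] [AddCommGroup N] [AddCommGroup P]
    [Module R M] [Module R N] [Module R P] [Module.Flat R N] [Module.Flat R P]
    (g : M →ₗ[R] N) (f : N →ₗ[R] P) (hg : Function.Injective g) (hf : Function.Surjective f)
    (H : Function.Exact g f) : Module.Flat R M := by
  rw [Module.Flat.iff_rTensor_injective']
  intro J
  -- `J ⊗ M → R ⊗ M → R ⊗ N` equals `J ⊗ M → J ⊗ N → R ⊗ N`, which is injective
  have h1 : Function.Injective (g.lTensor J) :=
    LinearMap.lTensor_injective_of_exact_of_flat f hf g hg H J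
  have h2 : Function.Injective (J.subtype.rTensor N) :=
    Module.Flat.rTensor_preserves_injective_linearMap _ J.injective_subtype
  have hcomm : (g.lTensor R) ∘ₗ (J.subtype.rTensor M) = (J.subtype.rTensor N) ∘ₗ (g.lTensor J) := by
    ext a m
    simp
  have h3 : Function.Injective ((g.lTensor R) ∘ₗ (J.subtype.rTensor M)) := by
    rw [hcomm]
    exact h2.comp h1
  exact Function.Injective.of_comp h3

end Flat

section Cartier

variable {R B : Type*} [CommRing R] [CommRing B] [Algebra R B]

/-- Elements of `pB` are finite sums `∑ algebraMap (a i) * c i` with `a i ∈ p`. -/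
theorem exists_sum_of_mem_map {p : Ideal R} {x : B} (hx : x ∈ p.map (algebraMap R B)) :
    ∃ (n : ℕ) (a : Fin n → R) (c : Fin n → B), (∀ i, a i ∈ p) ∧
      x = ∑ i, a i • c i := by
  obtain ⟨n, c, g, hsum⟩ := Submodule.mem_span_set'.mp hx
  choose a ha hag using fun i => (g i).2
  refine ⟨n, a, c, ha, ?_⟩
  rw [← hsum]
  refine Finset.sum_congr rfl fun i _ => ?_
  rw [← hag i, smul_eq_mul, Algebra.smul_def, mul_comm]

/-- The quotient map is `R`-linear. -/
theorem mk_smul' (I : Ideal B) (a : R) (c : B) :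
    Ideal.Quotient.mk I (a • c) = a • Ideal.Quotient.mk I c := rfl

/-- If `B ⧸ I` is flat over `R` then `I ⊓ pB ≤ pB * I` for every ideal `p` of `R`
(this is `Tor₁ (B ⧸ I) (R ⧸ p) = 0`, proved by the equational criterion). -/
theorem inf_map_le_mul_of_flat (I : Ideal B) [Module.Flat R (B ⧸ I)] (p : Ideal R) :
    I ⊓ p.map (algebraMap R B) ≤ p.map (algebraMap R B) * I := by
  intro x hx0
  obtain ⟨hxI, hxp⟩ := Ideal.mem_inf.mp hx0
  obtain ⟨n, a, c, ha, hx⟩ := exists_sum_of_mem_map hxp
  have hrel : ∑ i, a i • (Ideal.Quotient.mk I (c i)) = 0 := by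
    have h0 : Ideal.Quotient.mk I x = 0 := Ideal.Quotient.eq_zero_iff_mem.mpr hxI
    rw [← h0, hx, map_sum]
    exact Finset.sum_congr rfl fun i _ => (mk_smul' I (a i) (c i)).symm
  obtain ⟨k, A, y, hxy, hA⟩ := Module.Flat.isTrivialRelation_of_sum_smul_eq_zero (R := R)
    (M := B ⧸ I) (f := a) (x := fun i => Ideal.Quotient.mk I (c i)) hrel
  replace hxy : ∀ i, Ideal.Quotient.mk I (c i) = ∑ j, A i j • y j := hxy
  choose y' hy' using fun j => Ideal.Quotient.mk_surjective (y j)
  have he : ∀ i, c i - ∑ j, A i j • y' j ∈ I := by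
    intro i
    rw [← Ideal.Quotient.eq_zero_iff_mem, map_sub, sub_eq_zero, hxy i, map_sum]
    refine Finset.sum_congr rfl fun j _ => ?_
    rw [mk_smul', hy' j]
  have hx2 : x = ∑ i, a i • (c i - ∑ j, A i j • y' j) := by
    have h2 : ∑ i, a i • ∑ j, A i j • y' j = 0 := by
      simp_rw [Finset.smul_sum, smul_smul]
      rw [Finset.sum_comm]
      refine Finset.sum_eq_zero fun j _ => ?_
      rw [← Finset.sum_smul, hA j, zero_smul]
    rw [hx]
    simp_rw [smul_sub]
    rw [Finset.sum_sub_distrib, h2, sub_zero]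
  rw [hx2]
  refine Ideal.sum_mem _ fun i _ => ?_
  rw [Algebra.smul_def]
  exact Ideal.mul_mem_mul (Ideal.mem_map_of_mem _ (ha i)) (he i)

/-- **A-CART, generation**: if `B ⧸ I` is flat over `R`, `I` is finitely generated, `pB` lies in the
Jacobson radical of `B` and `f ∈ I` generates `I` modulo `pB`, then `I = (f)`. -/
theorem eq_span_singleton_of_fibre (I : Ideal B) [Module.Flat R (B ⧸ I)] (p : Ideal R)
    (hI : I.FG) (hp : p.map (algebraMap R B) ≤ Ideal.jacobson ⊥)
    (f : B) (hf : f ∈ I) (hgen : I ≤ Ideal.span {f} ⊔ p.map (algebraMap R B)) :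
    I = Ideal.span {f} := by
  refine le_antisymm ?_ ((Ideal.span_singleton_le_iff_mem _).mpr hf)
  refine Submodule.le_of_le_smul_of_le_jacobson_bot hI hp ?_
  intro y hy
  obtain ⟨u, hu, z, hz, hyz⟩ := Submodule.mem_sup.mp (hgen hy)
  have huI : u ∈ I := (Ideal.span_singleton_le_iff_mem _).mpr hf hu
  have hzI : z ∈ I := by
    have h1 : z = y - u := by rw [← hyz]; ring
    rw [h1]
    exact I.sub_mem hy huI
  have h2 : z ∈ p.map (algebraMap R B) * I := inf_map_le_mul_of_flat I p (Ideal.mem_inf.mpr ⟨hzI, hz⟩)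
  rw [← hyz]
  exact Submodule.add_mem_sup hu h2

/-- The annihilator of `f`, as an ideal. -/
def annIdeal (f : B) : Ideal B := LinearMap.ker (LinearMap.mulLeft B f)

theorem mem_annIdeal {f b : B} : b ∈ annIdeal f ↔ f * b = 0 := by
  simp [annIdeal, LinearMap.mem_ker]

/-- The principal ideal `(f)` is flat over `R` if `B` and `B ⧸ (f)` are. -/
theorem flat_span_singleton [Module.Flat R B] (I : Ideal B) [Module.Flat R (B ⧸ I)] :
    Module.Flat R I :=
  flat_of_exact (I.subtype.restrictScalars R) (I.mkQ.restrictScalars R)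
    I.injective_subtype I.mkQ_surjective (LinearMap.exact_subtype_mkQ I)

/-- `B ⧸ Ann f ≃ (f)`, `R`-linearly. -/
noncomputable def quotAnnEquiv (f : B) : (B ⧸ annIdeal f) ≃ₗ[R] (Ideal.span {f} : Ideal B) :=
  let φ : B →ₗ[B] (Ideal.span {f} : Ideal B) :=
    (LinearMap.mulLeft B f).codRestrict (Ideal.span {f})
      (fun b => Ideal.mem_span_singleton'.mpr ⟨b, mul_comm b f⟩)
  have hφ : Function.Surjective φ := by
    rintro ⟨y, hy⟩
    obtain ⟨b, hb⟩ := Ideal.mem_span_singleton'.mp hy
    exact ⟨b, Subtype.ext (by simpa [φ, mul_comm] using hb)⟩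
  have hker : LinearMap.ker φ = annIdeal f := by
    ext b
    simp [φ, annIdeal, LinearMap.mem_ker]
  ((Submodule.quotEquivOfEq _ _ hker.symm).trans (φ.quotKerEquivOfSurjective hφ)).restrictScalars R

/-- **A-CART, non-zero-divisor**: `B` noetherian, `B` and `B ⧸ (f)` flat over `R`, `pB` in the
Jacobson radical, `f` a non-zero-divisor modulo `pB`; then `f` is a non-zero-divisor. -/
theorem nonZeroDivisor_of_fibre [IsNoetherianRing B] [Module.Flat R B] (p : Ideal R)
    (hp : p.map (algebraMap R B) ≤ Ideal.jacobson ⊥) (f : B)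
    [Module.Flat R (B ⧸ (Ideal.span {f} : Ideal B))]
    (hnzd : ∀ b, f * b ∈ p.map (algebraMap R B) → b ∈ p.map (algebraMap R B)) :
    ∀ b, f * b = 0 → b = 0 := by
  have : Module.Flat R (Ideal.span {f} : Ideal B) := flat_span_singleton (Ideal.span {f})
  have : Module.Flat R (B ⧸ annIdeal f) := Module.Flat.of_linearEquiv (quotAnnEquiv (R := R) f)
  have hK : annIdeal f ≤ p.map (algebraMap R B) := fun b hb =>
    hnzd b (by rw [mem_annIdeal.mp hb]; exact Ideal.zero_mem _)
  have hK2 : annIdeal f ≤ p.map (algebraMap R B) • annIdeal f := fun b hb =>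
    inf_map_le_mul_of_flat (annIdeal f) p (Ideal.mem_inf.mpr ⟨hb, hK hb⟩)
  have hbot : annIdeal f = ⊥ :=
    Submodule.eq_bot_of_le_smul_of_le_jacobson_bot _ _ (IsNoetherian.noetherian _) hK2 hp
  intro b hb
  have : b ∈ annIdeal f := mem_annIdeal.mpr hb
  rw [hbot] at this
  exact (Submodule.mem_bot B).mp this

/-- **A-CART, local form**: `R → B` with `B` noetherian, `pB` in the Jacobson radical of `B`
(e.g. `B` local and `pB` in its maximal ideal), `B` and `B ⧸ I` flat over `R`, `f ∈ I` with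
`I ≤ (f) + pB` and `f` a non-zero-divisor modulo `pB`.  Then `I = (f)` and `f` is a
non-zero-divisor of `B`. -/
theorem relCartier_local [IsNoetherianRing B] [Module.Flat R B] (I : Ideal B)
    [Module.Flat R (B ⧸ I)] (p : Ideal R) (hp : p.map (algebraMap R B) ≤ Ideal.jacobson ⊥)
    (f : B) (hf : f ∈ I) (hgen : I ≤ Ideal.span {f} ⊔ p.map (algebraMap R B))
    (hnzd : ∀ b, f * b ∈ p.map (algebraMap R B) → b ∈ p.map (algebraMap R B)) :
    I = Ideal.span {f} ∧ ∀ b, f * b = 0 → b = 0 := by
  have hI : I = Ideal.span {f} :=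
    eq_span_singleton_of_fibre I p (IsNoetherian.noetherian I) hp f hf hgen
  refine ⟨hI, ?_⟩
  have : Module.Flat R (B ⧸ (Ideal.span {f} : Ideal B)) := hI ▸ (inferInstance : Module.Flat R (B ⧸ I))
  exact nonZeroDivisor_of_fibre p hp f hnzd

end Cartier

end Fermat.Agent.S25.Chart.H59
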