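import Mathlib

/-!
# S25 (Jacobian exists), package CHART, leaf LIM-OBJ (helper82): invertible modules by dual bases

Pure algebra, Mathlib only.

* `rankOne_of_invertible` : `q m • m' = q m' • m` in an invertible module;
* `exists_dualBasis_of_invertible` : an invertible module has a finite family `(p_i, q_i)` with
  `∑ q_i (p_i) = 1`;
* `eq_sum_of_dualBasis` : then `m = ∑ q_i (m) • p_i`;
* `invertible_of_dualBasis` : conversely a module with such a family satisfying the rank one
  relation is invertible;
* `Res t M` : restriction of scalars along `t : S₀ →+* S`;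
* `descSub t p` : the `S₀`-submodule of `M` spanned by the `p_i`;
* `invertible_descSub` : **descent**: if `t` is injective and `q_i (p_j) ∈ range t` then
  `descSub t p` is an invertible `S₀`-module;
* `mem_descSub_iff` : `y ∈ descSub t p ↔ ∀ i, q_i y ∈ range t`.
-/

set_option autoImplicit false

open TensorProduct

namespace Fermat.Agent.S25.Chart.H82

section Inv

variable {S : Type*} [CommRing S] {M : Type*} [AddCommGroup M] [Module S M]

/-- The rank one relation in an invertible module. -/
theorem rankOne_of_invertible [Module.Invertible S M] (q : Module.Dual S M) (m m' : M) :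
    q m • m' = q m' • m := by
  have h := Module.Invertible.tmul_comm (R := S) (m₁ := m) (m₂ := m')
  let φ : M ⊗[S] M →ₗ[S] M := TensorProduct.lift ((LinearMap.lsmul S M).comp q)
  have h' := congrArg φ h
  simpa [φ] using h'

theorem exists_dualBasis_aux (t : Module.Dual S M ⊗[S] M) :
    ∃ (n : ℕ) (p : Fin n → M) (q : Fin n → Module.Dual S M),
      contractLeft S M t = ∑ i, q i (p i) := by
  induction t with
  | zero => exact ⟨0, Fin.elim0, Fin.elim0, by simp⟩
  | tmul f m => exact ⟨1, fun _ => m, fun _ => f, by simp [contractLeft_apply]⟩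
  | add x y hx hy =>
    obtain ⟨n, p, q, h⟩ := hx
    obtain ⟨n', p', q', h'⟩ := hy
    refine ⟨n + n', Fin.append p p', Fin.append q q', ?_⟩
    rw [map_add, h, h', Fin.sum_univ_add]
    simp [Fin.append_left, Fin.append_right]

/-- An invertible module has a finite "dual basis" of trace one. -/
theorem exists_dualBasis_of_invertible [Module.Invertible S M] :
    ∃ (n : ℕ) (p : Fin n → M) (q : Fin n → Module.Dual S M), ∑ i, q i (p i) = 1 := by
  obtain ⟨t, ht⟩ := (Module.Invertible.bijective (R := S) (M := M)).2 1
  obtain ⟨n, p, q, h⟩ := exists_dualBasis_aux t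
  exact ⟨n, p, q, by rw [← h, ht]⟩

variable {ι : Type*} [Fintype ι] (p : ι → M) (q : ι → Module.Dual S M)

/-- The dual basis property. -/
theorem eq_sum_of_dualBasis (h1 : ∑ i, q i (p i) = 1)
    (h2 : ∀ i (m m' : M), q i m • m' = q i m' • m) (m : M) :
    m = ∑ i, q i m • p i := by
  calc m = (∑ i, q i (p i)) • m := by rw [h1, one_smul]
    _ = ∑ i, q i (p i) • m := Finset.sum_smul
    _ = ∑ i, q i m • p i := Finset.sum_congr rfl (fun i _ => h2 i (p i) m)

/-- A module with a finite dual basis of trace one satisfying the rank one relation is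
invertible. -/
theorem invertible_of_dualBasis (h1 : ∑ i, q i (p i) = 1)
    (h2 : ∀ i (m m' : M), q i m • m' = q i m' • m) : Module.Invertible S M := by
  let g : S →ₗ[S] Module.Dual S M ⊗[S] M :=
    LinearMap.toSpanSingleton S _ (∑ i, q i ⊗ₜ[S] p i)
  have hq : ∀ (f : Module.Dual S M) (i : ι) (m : M), q i m • f = f m • q i := by
    intro f i m
    ext m'
    rw [LinearMap.smul_apply, LinearMap.smul_apply, smul_eq_mul, smul_eq_mul]
    have h := congrArg f (h2 i m' m)
    rw [map_smul, map_smul, smul_eq_mul, smul_eq_mul] at h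
    rw [mul_comm (f m), ← h, mul_comm]
  have hg : ∀ t, g (contractLeft S M t) = t := by
    intro t
    induction t with
    | zero => rw [map_zero, map_zero]
    | tmul f m =>
      rw [contractLeft_apply]
      change (f m) • (∑ i, q i ⊗ₜ[S] p i) = f ⊗ₜ[S] m
      conv_rhs => rw [eq_sum_of_dualBasis p q h1 h2 m]
      rw [Finset.smul_sum, TensorProduct.tmul_sum]
      refine Finset.sum_congr rfl (fun i _ => ?_)
      rw [TensorProduct.tmul_smul, TensorProduct.smul_tmul', TensorProduct.smul_tmul', hq]
    | add x y hx hy => rw [map_add, map_add, hx, hy]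
  refine ⟨⟨Function.LeftInverse.injective hg, ?_⟩⟩
  intro s
  refine ⟨s • ∑ i, q i ⊗ₜ[S] p i, ?_⟩
  rw [map_smul, map_sum]
  simp only [contractLeft_apply]
  rw [h1, smul_eq_mul, mul_one]

end Inv

section Res

variable {S₀ S : Type*} [CommRing S₀] [CommRing S] (t : S₀ →+* S)

/-- Restriction of scalars along `t`. -/
def Res (_t : S₀ →+* S) (M : Type*) : Type _ := M

variable (M : Type*) [AddCommGroup M] [Module S M]

instance instAddCommGroupRes : AddCommGroup (Res t M) := inferInstanceAs (AddCommGroup M)

instance instModuleRes : Module S₀ (Res t M) := Module.compHom M t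

variable {M}

theorem res_smul_def (c : S₀) (m : M) :
    (c • (show Res t M from m) : Res t M) = (t c • m : M) := rfl

variable {ι : Type*} (p : ι → M)

/-- The `S₀`-submodule of `M` spanned by the `p_i`. -/
def descSub : Submodule S₀ (Res t M) := Submodule.span S₀ (Set.range p)

theorem mem_descSub (i : ι) : p i ∈ descSub t p := Submodule.subset_span ⟨i, rfl⟩

theorem smul_mem_descSub (c : S₀) {m : M} (h : m ∈ descSub t p) : t c • m ∈ descSub t p :=
  (descSub t p).smul_mem c h

theorem add_mem_descSub {m m' : M} (h : m ∈ descSub t p) (h' : m' ∈ descSub t p) :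
    (m + m' : M) ∈ descSub t p := (descSub t p).add_mem h h'

theorem zero_mem_descSub : (0 : M) ∈ descSub t p := (descSub t p).zero_mem

theorem sum_mem_descSub {κ : Type*} (s : Finset κ) (f : κ → M)
    (h : ∀ i ∈ s, f i ∈ descSub t p) : (∑ i ∈ s, f i : M) ∈ descSub t p :=
  (descSub t p).sum_mem h

/-- Induction principle for `descSub`. -/
theorem descSub_induction {C : M → Prop} (h0 : C 0) (hp : ∀ i, C (p i))
    (hadd : ∀ m m', C m → C m' → C (m + m')) (hsmul : ∀ (c : S₀) m, C m → C (t c • m))
    {m : M} (hm : m ∈ descSub t p) : C m := by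
  induction hm using Submodule.span_induction with
  | mem x hx => obtain ⟨i, rfl⟩ := hx; exact hp i
  | zero => exact h0
  | add x y _ _ hx hy => exact hadd x y hx hy
  | smul c x _ hx => exact hsmul c x hx

/-- The `S`-span of `descSub` is everything as soon as the `p_i` generate. -/
theorem span_descSub_eq_top (hgen : Submodule.span S (Set.range p) = ⊤) :
    Submodule.span S {m : M | m ∈ descSub t p} = ⊤ := by
  rw [eq_top_iff, ← hgen]
  refine Submodule.span_mono ?_
  rintro _ ⟨i, rfl⟩
  exact mem_descSub t p i

variable (q : ι → Module.Dual S M)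

/-- The values of the `q_i` on `descSub` are in the range of `t`. -/
theorem q_mem_range_of_mem_descSub (hc : ∀ i j, q i (p j) ∈ t.range) (i : ι) {m : M}
    (hm : m ∈ descSub t p) : q i m ∈ t.range := by
  refine descSub_induction t p (C := fun m => q i m ∈ t.range) ?_ ?_ ?_ ?_ hm
  · rw [map_zero]; exact t.range.zero_mem
  · intro j; exact hc i j
  · intro m m' h h'; rw [map_add]; exact t.range.add_mem h h'
  · intro c m h
    rw [map_smul, smul_eq_mul]
    exact t.range.mul_mem ⟨c, rfl⟩ h

variable [Fintype ι]

/-- Membership in `descSub` by the coordinates. -/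
theorem mem_descSub_iff (h1 : ∑ i, q i (p i) = 1)
    (h2 : ∀ i (m m' : M), q i m • m' = q i m' • m) (hc : ∀ i j, q i (p j) ∈ t.range) (y : M) :
    y ∈ descSub t p ↔ ∀ i, q i y ∈ t.range := by
  constructor
  · intro hy i
    exact q_mem_range_of_mem_descSub t p q hc i hy
  · intro hy
    rw [eq_sum_of_dualBasis p q h1 h2 y]
    refine sum_mem_descSub t p _ _ (fun i _ => ?_)
    obtain ⟨a, ha⟩ := hy i
    rw [← ha]
    exact smul_mem_descSub t p a (mem_descSub t p i)

/-- **Descent of invertibility** to a subring containing the matrix of the dual basis. -/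
theorem invertible_descSub (ht : Function.Injective t) (h1 : ∑ i, q i (p i) = 1)
    (h2 : ∀ i (m m' : M), q i m • m' = q i m' • m) (hc : ∀ i j, q i (p j) ∈ t.range) :
    Module.Invertible S₀ ↥(descSub t p) := by
  have hr : ∀ (i : ι) (m : ↥(descSub t p)), ∃ a : S₀, t a = q i (show M from m.1) := fun i m =>
    q_mem_range_of_mem_descSub t p q hc i m.2
  choose c hcs using hr
  let q₀ : ι → Module.Dual S₀ ↥(descSub t p) := fun i =>
    { toFun := fun m => c i m
      map_add' := fun m m' => by
        apply ht
        rw [map_add, hcs, hcs, hcs]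
        exact map_add (q i) (show M from m.1) (show M from m'.1)
      map_smul' := fun a m => by
        apply ht
        rw [RingHom.id_apply, smul_eq_mul, map_mul, hcs, hcs]
        change q i (t a • (show M from m.1)) = _
        rw [map_smul, smul_eq_mul] }
  let p₀ : ι → ↥(descSub t p) := fun i => ⟨p i, mem_descSub t p i⟩
  refine invertible_of_dualBasis p₀ q₀ ?_ ?_
  · apply ht
    rw [map_sum, map_one, ← h1]
    exact Finset.sum_congr rfl (fun i _ => hcs i (p₀ i))
  · intro i m m'
    apply Subtype.ext
    change t (c i m) • (show M from m'.1) = t (c i m') • (show M from m.1)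
    rw [hcs, hcs]
    exact h2 i _ _

end Res

end Fermat.Agent.S25.Chart.H82
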