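import Fermat.Agent.S25.Chart.Defs2
import Fermat.Agent.S25.Chart.H82_LimInv

/-!
# S25 (Jacobian exists), package CHART, leaf LIM-OBJ (helper82): tensor rings over subalgebras

`k` a field, `R` a `k`-algebra, `R₀ ⊂ R` a subalgebra, `B` a `k`-algebra.

* `tmap_injective` : `R₀ ⊗ B → R ⊗ B` is injective;
* `DefOver B R₀ s` : `s ∈ R ⊗ B` comes from `R₀ ⊗ B`; `defOver_mono`, `exists_fg_defOver`,
  `exists_fg_defOver_family`;
* `ι0_tmap`, `ι1_tmap` : naturality of the restriction maps;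
* `loc0_tensor`, `loc1_tensor` : `R ⊗ B01` is the localisation of `R ⊗ B0` at `x0` (of `R ⊗ B1`
  at `z1`), elementwise;
* `Good`, `good_zero`, `good_add`, `good_smul` : the elements of a localised module with
  numerator in a given sub-lattice.
-/

set_option autoImplicit false
set_option linter.style.haveILetI false

universe u

open TensorProduct

namespace Fermat.Agent.S25.Chart.H82

open Fermat.Agent.S25.LB Fermat.Agent.S25.Chart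

variable {k : Type u} [Field k]

section Tens

variable {R R' R'' : Type u} [CommRing R] [Algebra k R] [CommRing R'] [Algebra k R']
  [CommRing R''] [Algebra k R'']
  (B : Type u) [CommRing B] [Algebra k B]

theorem tmap_tmul (φ : R →ₐ[k] R') (r : R) (b : B) :
    tmap φ B (r ⊗ₜ[k] b) = φ r ⊗ₜ[k] b := by
  simp [tmap]

theorem tmap_comp (φ : R →ₐ[k] R') (ψ : R' →ₐ[k] R'') (s : R ⊗[k] B) :
    tmap ψ B (tmap φ B s) = tmap (ψ.comp φ) B s := by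
  induction s with
  | zero => simp
  | tmul r b => simp [tmap_tmul]
  | add x y hx hy => rw [map_add, map_add, map_add, hx, hy]

theorem tmap_injective (φ : R →ₐ[k] R') (hφ : Function.Injective φ) :
    Function.Injective (tmap φ B) := by
  have h := Module.Flat.rTensor_preserves_injective_linearMap (M := B) φ.toLinearMap hφ
  have e : ∀ s, tmap φ B s = (φ.toLinearMap.rTensor B) s := by
    intro s
    induction s with
    | zero => simp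
    | tmul r b => simp [tmap_tmul]
    | add x y hx hy => rw [map_add, map_add, hx, hy]
  intro s s' hs
  apply h
  rw [← e, ← e, hs]

/-- `s ∈ R ⊗ B` is defined over the subalgebra `R₀`. -/
def DefOver (R₀ : Subalgebra k R) (s : R ⊗[k] B) : Prop :=
  ∃ a : ↥R₀ ⊗[k] B, tmap R₀.val B a = s

variable {B}

theorem defOver_iff_mem_range (R₀ : Subalgebra k R) (s : R ⊗[k] B) :
    DefOver B R₀ s ↔ s ∈ ((tmap R₀.val B).toRingHom).range := Iff.rfl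

theorem defOver_mono {R₀ R₁ : Subalgebra k R} (h : R₀ ≤ R₁) {s : R ⊗[k] B}
    (hs : DefOver B R₀ s) : DefOver B R₁ s := by
  obtain ⟨a, rfl⟩ := hs
  refine ⟨tmap (Subalgebra.inclusion h) B a, ?_⟩
  rw [tmap_comp]
  rfl

variable (B)

theorem exists_fg_defOver (s : R ⊗[k] B) :
    ∃ R₀ : Subalgebra k R, R₀.FG ∧ DefOver B R₀ s := by
  induction s with
  | zero => exact ⟨⊥, Subalgebra.fg_bot, 0, map_zero _⟩
  | tmul r b =>
    refine ⟨Algebra.adjoin k ({r} : Set R), ?_,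
      (⟨r, Algebra.subset_adjoin (Set.mem_singleton r)⟩ : ↥(Algebra.adjoin k ({r} : Set R)))
        ⊗ₜ[k] b, ?_⟩
    · have := Subalgebra.fg_adjoin_finset (R := k) ({r} : Finset R)
      simpa using this
    · rw [tmap_tmul]
      rfl
  | add x y hx hy =>
    obtain ⟨R₁, h1, d1⟩ := hx
    obtain ⟨R₂, h2, d2⟩ := hy
    refine ⟨R₁ ⊔ R₂, h1.sup h2, ?_⟩
    obtain ⟨a1, ha1⟩ := defOver_mono le_sup_left d1
    obtain ⟨a2, ha2⟩ := defOver_mono le_sup_right d2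
    exact ⟨a1 + a2, by rw [map_add, ha1, ha2]⟩

theorem exists_fg_defOver_finset {ι : Type*} (s : ι → R ⊗[k] B) (F : Finset ι) :
    ∃ R₀ : Subalgebra k R, R₀.FG ∧ ∀ i ∈ F, DefOver B R₀ (s i) := by
  classical
  induction F using Finset.induction_on with
  | empty => exact ⟨⊥, Subalgebra.fg_bot, fun i hi => absurd hi (Finset.notMem_empty i)⟩
  | insert a F _ ih =>
    obtain ⟨R₁, h1, d1⟩ := ih
    obtain ⟨R₂, h2, d2⟩ := exists_fg_defOver B (s a)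
    refine ⟨R₁ ⊔ R₂, h1.sup h2, fun i hi => ?_⟩
    rcases Finset.mem_insert.1 hi with rfl | hi'
    · exact defOver_mono le_sup_right d2
    · exact defOver_mono le_sup_left (d1 i hi')

theorem exists_fg_defOver_family {ι : Type*} [Fintype ι] (s : ι → R ⊗[k] B) :
    ∃ R₀ : Subalgebra k R, R₀.FG ∧ ∀ i, DefOver B R₀ (s i) := by
  obtain ⟨R₀, h, d⟩ := exists_fg_defOver_finset B s Finset.univ
  exact ⟨R₀, h, fun i => d i (Finset.mem_univ i)⟩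

end Tens

section Nat

variable (𝒞 : CurveDatum k) {R R' : Type u} [CommRing R] [Algebra k R] [CommRing R']
  [Algebra k R']

theorem ι0_tmul (r : R) (b : 𝒞.B0) : 𝒞.ι0 R (r ⊗ₜ[k] b) = r ⊗ₜ[k] 𝒞.i0 b := by
  simp [CurveDatum.ι0]

theorem ι1_tmul (r : R) (b : 𝒞.B1) : 𝒞.ι1 R (r ⊗ₜ[k] b) = r ⊗ₜ[k] 𝒞.i1 b := by
  simp [CurveDatum.ι1]

theorem ι0_tmap (φ : R →ₐ[k] R') (c : R ⊗[k] 𝒞.B0) :
    𝒞.ι0 R' (tmap φ 𝒞.B0 c) = tmap φ 𝒞.B01 (𝒞.ι0 R c) := by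
  induction c with
  | zero => simp
  | tmul r b => rw [tmap_tmul, ι0_tmul, ι0_tmul, tmap_tmul]
  | add x y hx hy => rw [map_add, map_add, map_add, map_add, hx, hy]

theorem ι1_tmap (φ : R →ₐ[k] R') (c : R ⊗[k] 𝒞.B1) :
    𝒞.ι1 R' (tmap φ 𝒞.B1 c) = tmap φ 𝒞.B01 (𝒞.ι1 R c) := by
  induction c with
  | zero => simp
  | tmul r b => rw [tmap_tmul, ι1_tmul, ι1_tmul, tmap_tmul]
  | add x y hx hy => rw [map_add, map_add, map_add, map_add, hx, hy]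

variable {𝒞}

theorem loc0_elt (h : 𝒞.IsGood) (b : 𝒞.B01) :
    ∃ (n : ℕ) (a : 𝒞.B0), 𝒞.i0 𝒞.x0 ^ n * b = 𝒞.i0 a := by
  letI := 𝒞.i0.toRingHom.toAlgebra
  haveI := h.loc0
  obtain ⟨⟨a, ⟨_, n, rfl⟩⟩, hs⟩ := IsLocalization.surj (Submonoid.powers 𝒞.x0) b
  refine ⟨n, a, ?_⟩
  rw [mul_comm]
  have e : ∀ y : 𝒞.B0, algebraMap 𝒞.B0 𝒞.B01 y = 𝒞.i0 y := fun _ => rfl
  rw [e, e, map_pow] at hs
  exact hs

theorem loc1_elt (h : 𝒞.IsGood) (b : 𝒞.B01) :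
    ∃ (n : ℕ) (a : 𝒞.B1), 𝒞.i1 𝒞.z1 ^ n * b = 𝒞.i1 a := by
  letI := 𝒞.i1.toRingHom.toAlgebra
  haveI := h.loc1
  obtain ⟨⟨a, ⟨_, n, rfl⟩⟩, hs⟩ := IsLocalization.surj (Submonoid.powers 𝒞.z1) b
  refine ⟨n, a, ?_⟩
  rw [mul_comm]
  have e : ∀ y : 𝒞.B1, algebraMap 𝒞.B1 𝒞.B01 y = 𝒞.i1 y := fun _ => rfl
  rw [e, e, map_pow] at hs
  exact hs

variable (R)

theorem one_tmul_pow {B : Type u} [CommRing B] [Algebra k B] (b : B) (n : ℕ) :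
    ((1 : R) ⊗ₜ[k] b) ^ n = (1 : R) ⊗ₜ[k] (b ^ n) := by
  rw [Algebra.TensorProduct.tmul_pow, one_pow]

theorem ι0_one_tmul_x0 : 𝒞.ι0 R ((1 : R) ⊗ₜ[k] 𝒞.x0) = (1 : R) ⊗ₜ[k] 𝒞.i0 𝒞.x0 :=
  ι0_tmul 𝒞 1 𝒞.x0

theorem ι1_one_tmul_z1 : 𝒞.ι1 R ((1 : R) ⊗ₜ[k] 𝒞.z1) = (1 : R) ⊗ₜ[k] 𝒞.i1 𝒞.z1 :=
  ι1_tmul 𝒞 1 𝒞.z1

theorem loc0_tensor (h : 𝒞.IsGood) (s : R ⊗[k] 𝒞.B01) :
    ∃ (n : ℕ) (a : R ⊗[k] 𝒞.B0), ((1 : R) ⊗ₜ[k] 𝒞.i0 𝒞.x0) ^ n * s = 𝒞.ι0 R a := by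
  induction s with
  | zero => exact ⟨0, 0, by simp⟩
  | tmul r b =>
    obtain ⟨n, a, ha⟩ := loc0_elt h b
    refine ⟨n, r ⊗ₜ[k] a, ?_⟩
    rw [one_tmul_pow, Algebra.TensorProduct.tmul_mul_tmul, one_mul, ha, ι0_tmul]
  | add x y hx hy =>
    obtain ⟨n, a, ha⟩ := hx
    obtain ⟨m, b, hb⟩ := hy
    refine ⟨n + m, ((1 : R) ⊗ₜ[k] 𝒞.x0) ^ m * a + ((1 : R) ⊗ₜ[k] 𝒞.x0) ^ n * b, ?_⟩
    rw [map_add, map_mul, map_mul, map_pow, map_pow, ι0_one_tmul_x0, ← ha, ← hb]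
    ring

theorem loc1_tensor (h : 𝒞.IsGood) (s : R ⊗[k] 𝒞.B01) :
    ∃ (n : ℕ) (a : R ⊗[k] 𝒞.B1), ((1 : R) ⊗ₜ[k] 𝒞.i1 𝒞.z1) ^ n * s = 𝒞.ι1 R a := by
  induction s with
  | zero => exact ⟨0, 0, by simp⟩
  | tmul r b =>
    obtain ⟨n, a, ha⟩ := loc1_elt h b
    refine ⟨n, r ⊗ₜ[k] a, ?_⟩
    rw [one_tmul_pow, Algebra.TensorProduct.tmul_mul_tmul, one_mul, ha, ι1_tmul]
  | add x y hx hy =>
    obtain ⟨n, a, ha⟩ := hx
    obtain ⟨m, b, hb⟩ := hy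
    refine ⟨n + m, ((1 : R) ⊗ₜ[k] 𝒞.z1) ^ m * a + ((1 : R) ⊗ₜ[k] 𝒞.z1) ^ n * b, ?_⟩
    rw [map_add, map_mul, map_mul, map_pow, map_pow, ι1_one_tmul_z1, ← ha, ← hb]
    ring

end Nat

section G

variable {S₀ S T₀ T : Type*} [CommRing S₀] [CommRing S] [CommRing T₀] [CommRing T]
  (t : S₀ →+* S) (τ : T₀ →+* T) (ι : S →+* T)
  {P Q : Type*} [AddCommGroup P] [Module S P] [AddCommGroup Q] [Module T Q]
  (r : P →ₛₗ[ι] Q) (A : Submodule S₀ (Res t P)) (x₀ : S₀)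

/-- `m` has a numerator in the sub-lattice `A` after multiplication by a power of `x₀`. -/
def Good (m : Q) : Prop :=
  ∃ (n : ℕ) (p : P), p ∈ A ∧ (ι (t x₀)) ^ n • m = r p

theorem good_of_mem {p : P} (hp : p ∈ A) : Good t ι r A x₀ (r p) :=
  ⟨0, p, hp, by rw [pow_zero, one_smul]⟩

theorem good_zero : Good t ι r A x₀ (0 : Q) :=
  ⟨0, 0, A.zero_mem, by rw [smul_zero, map_zero]⟩

theorem good_add {m m' : Q} (hm : Good t ι r A x₀ m) (hm' : Good t ι r A x₀ m') :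
    Good t ι r A x₀ (m + m') := by
  obtain ⟨n, p, hp, h⟩ := hm
  obtain ⟨n', p', hp', h'⟩ := hm'
  refine ⟨n + n', t (x₀ ^ n') • p + t (x₀ ^ n) • p',
    A.add_mem (A.smul_mem (x₀ ^ n') hp) (A.smul_mem (x₀ ^ n) hp'), ?_⟩
  rw [map_add, r.map_smulₛₗ, r.map_smulₛₗ, ← h, ← h', smul_add, smul_smul, smul_smul, map_pow,
    map_pow, map_pow, map_pow, pow_add]
  congr 1
  rw [mul_comm]

theorem good_smul (hloc : ∀ c : T₀, ∃ (n : ℕ) (a : S₀), (ι (t x₀)) ^ n * τ c = ι (t a))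
    (c : T₀) {m : Q} (hm : Good t ι r A x₀ m) : Good t ι r A x₀ (τ c • m) := by
  obtain ⟨n, p, hp, h⟩ := hm
  obtain ⟨n', a, ha⟩ := hloc c
  refine ⟨n + n', t a • p, A.smul_mem a hp, ?_⟩
  rw [r.map_smulₛₗ, ← h, ← ha, smul_smul, smul_smul, pow_add]
  congr 1
  ring

end G

end Fermat.Agent.S25.Chart.H82
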