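import Mathlib
import Fermat.Agent.S25.Chart.Defs

/-!
# S25, package CHART, leaf CH-LIFT (helper85), part 1: matrices commuting with a companion matrix

For a companion matrix `C` over a commutative ring `R` (`C e_i = e_(i+1)`):
* `comp_pow_mulVec_e0` : `C^i e₀ = e_i`;
* `eq_zero_of_commute` : a matrix commuting with `C` and killing `e₀` is `0`;
* `eq_nf_of_commute`, `mem_adjoin_of_commute` : the commutant of `C` is `R[C]`, with the normal form
  `M = ∑ i, (M e₀)_i • C^i`;
* `liftC` : companion matrices lift along `R → R ⧸ I`.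

Mathlib only (plus the definitions of `Chart/Defs.lean`).
-/

set_option autoImplicit false
universe u
open Polynomial TensorProduct

namespace Fermat.Agent.S25.Chart.H85

variable {R : Type u} [CommRing R] {g : ℕ}

theorem e0_eq_single (h : 0 < g) : e0 g R = Pi.single (⟨0, h⟩ : Fin g) 1 := by
  funext i
  unfold e0
  by_cases hi : (i : ℕ) = 0
  · have : i = ⟨0, h⟩ := Fin.ext hi
    subst this
    simp
  · have : i ≠ ⟨0, h⟩ := fun hh => hi (by rw [hh])
    simp [hi, this]

/-- a companion matrix sends `e_i` to `e_(i+1)` -/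
theorem comp_mulVec_single {C : Matrix (Fin g) (Fin g) R} (hC : IsCompanion C) (n : ℕ)
    (hn : n + 1 < g) :
    C.mulVec (Pi.single (⟨n, by omega⟩ : Fin g) 1) = Pi.single (⟨n + 1, hn⟩ : Fin g) 1 := by
  funext j
  rw [Matrix.mulVec_single_one]
  have h := hC ⟨n, by omega⟩ j hn
  simp only at h
  change C j ⟨n, _⟩ = _
  rw [h]
  by_cases hj : (j : ℕ) = n + 1
  · have : j = ⟨n + 1, hn⟩ := Fin.ext hj
    subst this
    simp
  · have : j ≠ ⟨n + 1, hn⟩ := fun hh => hj (by rw [hh])
    simp [hj, this]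

/-- `C^i e₀ = e_i` -/
theorem comp_pow_mulVec_e0 {C : Matrix (Fin g) (Fin g) R} (hC : IsCompanion C) :
    ∀ (n : ℕ) (hn : n < g), (C ^ n).mulVec (e0 g R) = Pi.single (⟨n, hn⟩ : Fin g) 1 := by
  intro n
  induction n with
  | zero =>
    intro hn
    rw [pow_zero, Matrix.one_mulVec, e0_eq_single hn]
  | succ n ih =>
    intro hn
    rw [pow_succ', ← Matrix.mulVec_mulVec, ih (by omega), comp_mulVec_single hC n hn]

/-- a matrix commuting with a companion matrix is determined by its first column -/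
theorem eq_zero_of_commute {C M : Matrix (Fin g) (Fin g) R} (hC : IsCompanion C)
    (hM : Commute M C) (h0 : M.mulVec (e0 g R) = 0) : M = 0 := by
  ext i j
  have h1 : M.mulVec (Pi.single j 1) = 0 := by
    have hj := comp_pow_mulVec_e0 hC (j : ℕ) j.2
    have hj' : (Pi.single j 1 : Fin g → R) = (C ^ (j : ℕ)).mulVec (e0 g R) := by
      rw [hj]
    rw [hj', Matrix.mulVec_mulVec, (hM.pow_right _).eq, ← Matrix.mulVec_mulVec, h0,
      Matrix.mulVec_zero]
  have h2 := congrFun h1 i
  rw [Matrix.mulVec_single_one] at h2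
  exact h2

/-- the normal form of a matrix commuting with a companion matrix -/
noncomputable def nf (C : Matrix (Fin g) (Fin g) R) (m : Fin g → R) : Matrix (Fin g) (Fin g) R :=
  ∑ i : Fin g, m i • C ^ (i : ℕ)

theorem nf_mulVec_e0 {C : Matrix (Fin g) (Fin g) R} (hC : IsCompanion C) (m : Fin g → R) :
    (nf C m).mulVec (e0 g R) = m := by
  unfold nf
  rw [Matrix.sum_mulVec]
  have : ∀ i : Fin g, (m i • C ^ (i : ℕ)).mulVec (e0 g R) = m i • Pi.single i 1 := by
    intro i
    rw [Matrix.smul_mulVec, comp_pow_mulVec_e0 hC (i : ℕ) i.2]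
  simp only [this]
  funext j
  simp [Finset.sum_apply, Pi.single_apply]

theorem nf_commute (C : Matrix (Fin g) (Fin g) R) (m : Fin g → R) : Commute (nf C m) C := by
  unfold nf
  refine Commute.sum_left _ _ _ (fun i _ => ?_)
  exact ((Commute.refl C).pow_left _).smul_left _

theorem eq_nf_of_commute {C M : Matrix (Fin g) (Fin g) R} (hC : IsCompanion C)
    (hM : Commute M C) : M = nf C (M.mulVec (e0 g R)) := by
  have h := eq_zero_of_commute hC (M := M - nf C (M.mulVec (e0 g R)))
    (hM.sub_left (nf_commute C _)) (by rw [Matrix.sub_mulVec, nf_mulVec_e0 hC, sub_self])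
  exact sub_eq_zero.mp h

theorem nf_mem_adjoin (C : Matrix (Fin g) (Fin g) R) (m : Fin g → R) :
    nf C m ∈ Algebra.adjoin R {C} := by
  unfold nf
  refine Subalgebra.sum_mem _ (fun i _ => ?_)
  exact Subalgebra.smul_mem _ (Subalgebra.pow_mem _ (Algebra.self_mem_adjoin_singleton R C) _) _

theorem mem_adjoin_of_commute {C M : Matrix (Fin g) (Fin g) R} (hC : IsCompanion C)
    (hM : Commute M C) : M ∈ Algebra.adjoin R {C} := by
  rw [eq_nf_of_commute hC hM]
  exact nf_mem_adjoin C _

theorem commute_of_mem_adjoin {C M : Matrix (Fin g) (Fin g) R}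
    (hM : M ∈ Algebra.adjoin R {C}) : Commute M C :=
  (Algebra.commute_of_mem_adjoin_self hM).symm


/-! ### lifting a companion matrix -/

variable (I : Ideal R)

/-- a lift of a companion matrix over `R ⧸ I` to a companion matrix over `R` -/
noncomputable def liftC (Cb : Matrix (Fin g) (Fin g) (R ⧸ I)) : Matrix (Fin g) (Fin g) R :=
  fun j i => if (i : ℕ) + 1 < g then (if (j : ℕ) = (i : ℕ) + 1 then 1 else 0)
    else (Ideal.Quotient.mk_surjective (Cb j i)).choose

theorem liftC_isCompanion (Cb : Matrix (Fin g) (Fin g) (R ⧸ I)) : IsCompanion (liftC I Cb) := by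
  intro i j hi
  unfold liftC
  rw [if_pos hi]

theorem liftC_map (Cb : Matrix (Fin g) (Fin g) (R ⧸ I)) (hCb : IsCompanion Cb) :
    (liftC I Cb).map (Ideal.Quotient.mk I) = Cb := by
  ext j i
  rw [Matrix.map_apply]
  unfold liftC
  by_cases hi : (i : ℕ) + 1 < g
  · rw [if_pos hi, hCb i j hi]
    split_ifs <;> simp
  · rw [if_neg hi]
    exact (Ideal.Quotient.mk_surjective (Cb j i)).choose_spec

end Fermat.Agent.S25.Chart.H85
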