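import Mathlib
import Fermat.Agent.S25.Chart.H85_LiftMat

/-!
# S25, package CHART, leaf CH-LIFT (helper85): chart points lift along square-zero extensions

Let `k[X] → A`, `X ↦ x`, be formally étale, `I ⊂ R` an ideal with `I ^ 2 = 0` and
`ρ̄ : A → M_g(R ⧸ I)` a chart point (`ρ̄ x` a companion matrix).  Lift the companion matrix `ρ̄ x` to a
companion matrix `C` over `R`.  The commutant of a companion matrix is the commutative ring `R[C]`
(part 1), so `ρ̄` is a `k[X]`-algebra map `A → (R ⧸ I)[C̄]`; the reduction `R[C] → (R ⧸ I)[C̄]` is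
surjective with square-zero kernel, and formal étaleness lifts `ρ̄` to `ρ : A → R[C] ⊂ M_g(R)` with
`ρ x = C`.
-/

set_option autoImplicit false
universe u
open Polynomial TensorProduct
open scoped IsMulCommutative

namespace Fermat.Agent.S25.Chart.H85

variable {k : Type u} [CommRing k] {R : Type u} [CommRing R] [Algebra k R] {g : ℕ}

/-- the commutative ring `R[C]` of polynomials in a matrix `C` -/
abbrev RC (C : Matrix (Fin g) (Fin g) R) : Subalgebra R (Matrix (Fin g) (Fin g) R) :=
  Algebra.adjoin R {C}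

/-- the generator `C` of `R[C]` -/
def genRC (C : Matrix (Fin g) (Fin g) R) : RC C := ⟨C, Algebra.self_mem_adjoin_singleton R C⟩

/-- the structure map `k[X] → R[C]`, `X ↦ C` -/
noncomputable def polyHom (k : Type u) [CommRing k] [Algebra k R]
    (C : Matrix (Fin g) (Fin g) R) : k[X] →+* RC C :=
  Polynomial.eval₂RingHom ((algebraMap R (RC C)).comp (algebraMap k R)) (genRC C)

theorem polyHom_X (C : Matrix (Fin g) (Fin g) R) : polyHom k C X = genRC C := by
  unfold polyHom
  simp

theorem polyHom_C (C : Matrix (Fin g) (Fin g) R) (a : k) :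
    polyHom k C (Polynomial.C a) = algebraMap R (RC C) (algebraMap k R a) := by
  unfold polyHom
  simp

variable (I : Ideal R)

/-- reduction of matrices modulo `I` -/
noncomputable abbrev redMat (I : Ideal R) (g : ℕ) :
    Matrix (Fin g) (Fin g) R →+* Matrix (Fin g) (Fin g) (R ⧸ I) :=
  (Ideal.Quotient.mk I).mapMatrix

theorem redMat_algebraMap (r : R) :
    redMat I g (algebraMap R (Matrix (Fin g) (Fin g) R) r) =
      algebraMap (R ⧸ I) (Matrix (Fin g) (Fin g) (R ⧸ I)) (Ideal.Quotient.mk I r) := by
  ext i j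
  simp [Matrix.algebraMap_matrix_apply]
  split_ifs <;> simp

theorem redMat_mem_RC {C : Matrix (Fin g) (Fin g) R} {M : Matrix (Fin g) (Fin g) R}
    (hM : M ∈ Algebra.adjoin R {C}) : redMat I g M ∈ Algebra.adjoin (R ⧸ I) {redMat I g C} := by
  induction hM using Algebra.adjoin_induction with
  | mem x hx =>
    rw [Set.mem_singleton_iff] at hx
    subst hx
    exact Algebra.self_mem_adjoin_singleton _ _
  | algebraMap r =>
    rw [redMat_algebraMap]
    exact Subalgebra.algebraMap_mem _ _
  | add y z _ _ hy hz =>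
    rw [map_add]
    exact Subalgebra.add_mem _ hy hz
  | mul y z _ _ hy hz =>
    rw [map_mul]
    exact Subalgebra.mul_mem _ hy hz

/-- reduction modulo `I` on `R[C]` -/
noncomputable def redRC (C : Matrix (Fin g) (Fin g) R) : RC C →+* RC (redMat I g C) :=
  ((redMat I g).comp (RC C).val.toRingHom).codRestrict (RC (redMat I g C))
    (fun b => redMat_mem_RC I b.2)

theorem redRC_val (C : Matrix (Fin g) (Fin g) R) (b : RC C) :
    (redRC I C b : Matrix (Fin g) (Fin g) (R ⧸ I)) = redMat I g b.1 := rfl

theorem redRC_comp_polyHom (C : Matrix (Fin g) (Fin g) R) :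
    (redRC I C).comp (polyHom k C) = polyHom k (redMat I g C) := by
  apply Polynomial.ringHom_ext
  · intro a
    rw [RingHom.comp_apply, polyHom_C, polyHom_C]
    apply Subtype.ext
    rw [redRC_val]
    change redMat I g (algebraMap R (Matrix (Fin g) (Fin g) R) (algebraMap k R a)) =
      algebraMap (R ⧸ I) (Matrix (Fin g) (Fin g) (R ⧸ I)) (algebraMap k (R ⧸ I) a)
    rw [redMat_algebraMap, IsScalarTower.algebraMap_apply k R (R ⧸ I)]
    rfl
  · rw [RingHom.comp_apply, polyHom_X, polyHom_X]
    rfl

theorem redRC_surjective {C : Matrix (Fin g) (Fin g) R}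
    (hCb : IsCompanion (redMat I g C)) : Function.Surjective (redRC I C) := by
  intro bb
  have h1 := eq_nf_of_commute hCb (commute_of_mem_adjoin bb.2)
  set mb := (bb.1).mulVec (e0 g (R ⧸ I)) with hmb
  let m : Fin g → R := fun i => (Ideal.Quotient.mk_surjective (mb i)).choose
  have hm : ∀ i, Ideal.Quotient.mk I (m i) = mb i :=
    fun i => (Ideal.Quotient.mk_surjective (mb i)).choose_spec
  refine ⟨⟨nf C m, nf_mem_adjoin C m⟩, ?_⟩
  apply Subtype.ext
  rw [redRC_val, h1]
  change redMat I g (nf C m) = nf (redMat I g C) mb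
  unfold nf
  rw [map_sum]
  refine Finset.sum_congr rfl (fun i _ => ?_)
  rw [← hm i, Algebra.smul_def, Algebra.smul_def, map_mul, map_pow, redMat_algebraMap]

theorem redRC_ker_sq (hI : I ^ 2 = ⊥) (C : Matrix (Fin g) (Fin g) R) :
    IsNilpotent (RingHom.ker (redRC I C)) := by
  refine ⟨2, ?_⟩
  rw [pow_two, Ideal.zero_eq_bot, ← le_bot_iff, Ideal.mul_le]
  intro b hb b' hb'
  rw [RingHom.mem_ker] at hb hb'
  have hent : ∀ (c : RC C), redRC I C c = 0 → ∀ i j, c.1 i j ∈ I := by
    intro c hc i j
    have h1 : redMat I g c.1 = 0 := by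
      rw [← redRC_val, hc]
      rfl
    have h2 := congrFun (congrFun h1 i) j
    rw [RingHom.mapMatrix_apply, Matrix.map_apply] at h2
    exact Ideal.Quotient.eq_zero_iff_mem.mp h2
  rw [Ideal.mem_bot]
  apply Subtype.ext
  change b.1 * b'.1 = 0
  ext i j
  rw [Matrix.mul_apply]
  refine Finset.sum_eq_zero (fun l _ => ?_)
  have : b.1 i l * b'.1 l j ∈ I ^ 2 := by
    rw [pow_two]
    exact Ideal.mul_mem_mul (hent b hb i l) (hent b' hb' l j)
  rw [hI, Ideal.mem_bot] at this
  exact this


/-- a ring homomorphism `k[X] → R[C]` is the structure map as soon as it is so on constants and on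
`X` -/
theorem eq_polyHom {C : Matrix (Fin g) (Fin g) R} (ψ : k[X] →+* RC C)
    (hc : ∀ a : k, (ψ (Polynomial.C a) : Matrix (Fin g) (Fin g) R) =
      algebraMap k (Matrix (Fin g) (Fin g) R) a)
    (hX : (ψ X : Matrix (Fin g) (Fin g) R) = C) : ψ = polyHom k C := by
  apply Polynomial.ringHom_ext
  · intro a
    apply Subtype.ext
    rw [hc a, polyHom_C]
    change _ = algebraMap R (Matrix (Fin g) (Fin g) R) (algebraMap k R a)
    rw [← IsScalarTower.algebraMap_apply]
  · apply Subtype.ext
    rw [hX, polyHom_X]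
    rfl

/-- **CH-LIFT**. -/
theorem stmt_LIFT : Stmt_LIFT.{u} := by
  intro k _ A _ _ x g hfe R _ _ I hI pbar
  -- the companion matrix and its lift
  let C : Matrix (Fin g) (Fin g) R := liftC I (pbar.ρ x)
  have hC : IsCompanion C := liftC_isCompanion I _
  have hCmap : redMat I g C = pbar.ρ x := by
    rw [RingHom.mapMatrix_apply]
    exact liftC_map I _ pbar.comp
  have hCb : IsCompanion (redMat I g C) := hCmap ▸ pbar.comp
  -- algebra structures over `k[X]`
  let algA : Algebra k[X] A := (Polynomial.aeval (R := k) x).toRingHom.toAlgebra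
  have : Algebra.FormallyEtale k[X] A := hfe
  let algB : Algebra k[X] (RC C) := (polyHom k C).toAlgebra
  let algBb : Algebra k[X] (RC (redMat I g C)) := (polyHom k (redMat I g C)).toAlgebra
  have hAlgA : ∀ P : k[X], algebraMap k[X] A P = Polynomial.aeval x P := fun P => rfl
  have hAlgB : ∀ P : k[X], algebraMap k[X] (RC C) P = polyHom k C P := fun P => rfl
  have hAlgBb : ∀ P : k[X], algebraMap k[X] (RC (redMat I g C)) P =
      polyHom k (redMat I g C) P := fun P => rfl
  -- the reduction map as a `k[X]`-algebra map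
  let π : RC C →ₐ[k[X]] RC (redMat I g C) :=
    { redRC I C with
      commutes' := fun P => by
        change redRC I C (polyHom k C P) = polyHom k (redMat I g C) P
        rw [← redRC_comp_polyHom]
        rfl }
  have hπ : ∀ b : RC C, π b = redRC I C b := fun b => rfl
  -- the given point as a `k[X]`-algebra map to the reduction
  let fbr : A →+* RC (redMat I g C) :=
    (pbar.ρ : A →+* Matrix (Fin g) (Fin g) (R ⧸ I)).codRestrict (RC (redMat I g C))
      (fun a => mem_adjoin_of_commute hCb (by
        rw [hCmap]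
        change pbar.ρ a * pbar.ρ x = pbar.ρ x * pbar.ρ a
        rw [← map_mul, ← map_mul, mul_comm]))
  have hfbr : ∀ a : A, (fbr a : Matrix (Fin g) (Fin g) (R ⧸ I)) = pbar.ρ a := fun a => rfl
  have hfbr_poly : fbr.comp (Polynomial.aeval (R := k) x).toRingHom =
      polyHom k (redMat I g C) := by
    apply eq_polyHom
    · intro a
      rw [RingHom.comp_apply]
      change (fbr (Polynomial.aeval x (Polynomial.C a)) : Matrix (Fin g) (Fin g) (R ⧸ I)) = _
      rw [Polynomial.aeval_C, hfbr, AlgHom.commutes]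
    · rw [RingHom.comp_apply]
      change (fbr (Polynomial.aeval x X) : Matrix (Fin g) (Fin g) (R ⧸ I)) = _
      rw [Polynomial.aeval_X, hfbr, hCmap]
  let fb : A →ₐ[k[X]] RC (redMat I g C) :=
    { fbr with
      commutes' := fun P => by
        change fbr ((Polynomial.aeval (R := k) x).toRingHom P) = polyHom k (redMat I g C) P
        rw [← hfbr_poly]
        rfl }
  have hfb : ∀ a : A, fb a = fbr a := fun a => rfl
  -- the lift
  let ρB : A →ₐ[k[X]] RC C := Algebra.FormallySmooth.liftOfSurjective fb π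
    (redRC_surjective I hCb) (redRC_ker_sq I hI C)
  have hρB : ∀ a : A, π (ρB a) = fb a := fun a =>
    Algebra.FormallySmooth.liftOfSurjective_apply fb π (redRC_surjective I hCb)
      (redRC_ker_sq I hI C) a
  have hρB_poly : ∀ P : k[X], ρB (Polynomial.aeval x P) = polyHom k C P := fun P => by
    rw [← hAlgA, ρB.commutes, hAlgB]
  -- back to matrices
  let ρ : A →ₐ[k] Matrix (Fin g) (Fin g) R :=
    { ((RC C).val.toRingHom).comp (ρB : A →+* RC C) with
      commutes' := fun a => by
        change ((ρB (algebraMap k A a) : RC C) : Matrix (Fin g) (Fin g) R) = _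
        rw [← Polynomial.aeval_C (x := x), hρB_poly, polyHom_C]
        change algebraMap R (Matrix (Fin g) (Fin g) R) (algebraMap k R a) = _
        rw [← IsScalarTower.algebraMap_apply] }
  have hρ : ∀ a : A, ρ a = (ρB a : Matrix (Fin g) (Fin g) R) := fun a => rfl
  have hρx : ρ x = C := by
    rw [hρ]
    have h := hρB_poly X
    rw [Polynomial.aeval_X, polyHom_X] at h
    rw [h]
    rfl
  refine ⟨⟨ρ, by rw [hρx]; exact hC⟩, ?_⟩
  apply Pt.ext
  apply AlgHom.ext
  intro a
  change (Ideal.Quotient.mkₐ k I).mapMatrix (ρ a) = pbar.ρ a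
  rw [← hfbr, ← hfb, ← hρB, hπ, redRC_val, hρ]
  rfl

end Fermat.Agent.S25.Chart.H85
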