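import Mathlib

/-!
# S25 (row 24), package CHART, leaves LIM-RIG / LIM-ISO (helper87): the abstract part

Pure commutative algebra (Mathlib only).

* `h87_tmapSub_injective`, `h87_exists_fg_range_finset`, `h87_exists_fun_of_range` : every finite set of
  elements of `R ⊗ B` comes from `R₁ ⊗ B` for a finitely generated subalgebra `R₁ ⊇ R₀`;
  `R₁ ⊗ B → R ⊗ B` is injective;
* `h87_exists_comparison` : for ring maps `S₀ → S₁ → S` (the second one injective) and semilinear
  generating maps `b' : P₀ → P₁`, `b : P₀ → P` of invertible modules there is an injective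
  semilinear map `c : P₁ → P` with `c ∘ b' = b`;
* `h87_span_image`, `h87_exists_coeff`, `h87_exists_coeff_ideal` : coordinates with respect to the images of a
  finite generating set;
* `h87_rigid_data`, `h87_rigid_descent` : the two halves of the descent of rigidity.

This file contains no `sorry`.
-/

set_option autoImplicit false
set_option linter.style.haveILetI false

open TensorProduct

namespace Fermat.Agent.S25.Chart.H87

universe u

/-! ## Finitely generated subalgebras -/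

section Capture

variable {k : Type u} [Field k] {R : Type u} [CommRing R] [Algebra k R]
  (B : Type u) [CommRing B] [Algebra k B]

/-- The map `R₁ ⊗ B → R ⊗ B` of a subalgebra `R₁ ⊆ R`. -/
noncomputable abbrev h87_tmapSub (R₁ : Subalgebra k R) : (↥R₁ ⊗[k] B) →ₐ[k] (R ⊗[k] B) :=
  Algebra.TensorProduct.map R₁.val (AlgHom.id k B)

theorem h87_tmapSub_eq_rTensor (R₁ : Subalgebra k R) (x : ↥R₁ ⊗[k] B) :
    h87_tmapSub B R₁ x = LinearMap.rTensor B R₁.val.toLinearMap x := by
  induction x using TensorProduct.induction_on with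
  | zero => simp
  | tmul r b => simp
  | add x y hx hy => rw [map_add, map_add, hx, hy]

theorem h87_tmapSub_injective (R₁ : Subalgebra k R) : Function.Injective (h87_tmapSub B R₁) := by
  have h : Function.Injective R₁.val.toLinearMap := Subtype.val_injective
  have h2 := Module.Flat.rTensor_preserves_injective_linearMap (M := B) R₁.val.toLinearMap h
  intro x y hxy
  apply h2
  rw [← h87_tmapSub_eq_rTensor, ← h87_tmapSub_eq_rTensor]
  exact hxy

theorem h87_tmapSub_inclusion {R₁ R₂ : Subalgebra k R} (h : R₁ ≤ R₂) (x : ↥R₁ ⊗[k] B) :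
    h87_tmapSub B R₂ (Algebra.TensorProduct.map (Subalgebra.inclusion h) (AlgHom.id k B) x)
      = h87_tmapSub B R₁ x := by
  induction x using TensorProduct.induction_on with
  | zero => simp
  | tmul r b => simp
  | add x y hx hy => rw [map_add, map_add, map_add, hx, hy]

theorem h87_mem_range_mono {R₁ R₂ : Subalgebra k R} (h : R₁ ≤ R₂) {s : R ⊗[k] B}
    (hs : s ∈ Set.range (h87_tmapSub B R₁)) : s ∈ Set.range (h87_tmapSub B R₂) := by
  obtain ⟨t, rfl⟩ := hs
  exact ⟨_, h87_tmapSub_inclusion B h t⟩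

theorem h87_exists_fg_range (R₀ : Subalgebra k R) (h₀ : R₀.FG) (s : R ⊗[k] B) :
    ∃ R₁ : Subalgebra k R, R₀ ≤ R₁ ∧ R₁.FG ∧ s ∈ Set.range (h87_tmapSub B R₁) := by
  induction s using TensorProduct.induction_on with
  | zero => exact ⟨R₀, le_rfl, h₀, 0, map_zero _⟩
  | tmul r b =>
    have hr : r ∈ R₀ ⊔ Algebra.adjoin k ({r} : Set R) :=
      (le_sup_right : Algebra.adjoin k ({r} : Set R) ≤ _)
        (Algebra.subset_adjoin (Set.mem_singleton r))
    have hfg : (Algebra.adjoin k ({r} : Set R)).FG := by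
      have := Subalgebra.fg_adjoin_finset (R := k) ({r} : Finset R)
      simpa using this
    refine ⟨R₀ ⊔ Algebra.adjoin k ({r} : Set R), le_sup_left, h₀.sup hfg,
      (⟨r, hr⟩ : ↥(R₀ ⊔ Algebra.adjoin k ({r} : Set R))) ⊗ₜ[k] b, ?_⟩
    simp
  | add x y hx hy =>
    obtain ⟨R₁, h1, f1, m1⟩ := hx
    obtain ⟨R₂, h2, f2, m2⟩ := hy
    refine ⟨R₁ ⊔ R₂, h1.trans le_sup_left, f1.sup f2, ?_⟩
    obtain ⟨a, ha⟩ := h87_mem_range_mono B (le_sup_left : R₁ ≤ R₁ ⊔ R₂) m1
    obtain ⟨b, hb⟩ := h87_mem_range_mono B (le_sup_right : R₂ ≤ R₁ ⊔ R₂) m2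
    exact ⟨a + b, by rw [map_add, ha, hb]⟩

theorem h87_exists_fg_range_finset (R₀ : Subalgebra k R) (h₀ : R₀.FG) (t : Finset (R ⊗[k] B)) :
    ∃ R₁ : Subalgebra k R, R₀ ≤ R₁ ∧ R₁.FG ∧ ∀ s ∈ t, s ∈ Set.range (h87_tmapSub B R₁) := by
  classical
  induction t using Finset.induction_on with
  | empty => exact ⟨R₀, le_rfl, h₀, fun s hs => absurd hs (Finset.notMem_empty s)⟩
  | insert s t _ ih =>
    obtain ⟨R₁, h1, f1, m1⟩ := ih
    obtain ⟨R₂, h2, f2, m2⟩ := h87_exists_fg_range B R₁ f1 s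
    refine ⟨R₂, h1.trans h2, f2, fun x hx => ?_⟩
    rcases Finset.mem_insert.1 hx with rfl | hx
    · exact m2
    · exact h87_mem_range_mono B h2 (m1 x hx)

end Capture

/-- Choice of preimages along a finite set of indices. -/
theorem h87_exists_fun_of_range {ι α β : Type*} [Zero α] (t : Finset ι) (g : α → β) (f : ι → β)
    (h : ∀ i ∈ t, f i ∈ Set.range g) : ∃ f' : ι → α, ∀ i ∈ t, g (f' i) = f i := by
  classical
  refine ⟨fun i => if hi : i ∈ t then (h i hi).choose else 0, fun i hi => ?_⟩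
  simp only [hi, dif_pos]
  exact (h i hi).choose_spec

/-! ## The comparison map -/

section ComparisonLin

variable {S₀ S₁ S : Type*} [CommRing S₀] [CommRing S₁] [CommRing S]
  {P₀ P₁ P : Type*} [AddCommGroup P₀] [AddCommGroup P₁] [AddCommGroup P]
  [Module S₀ P₀] [Module S₁ P₁] [Module S P]

theorem h87_liftBaseChange_bijective [Algebra S₀ S] [Module S₀ P] [IsScalarTower S₀ S P]
    [Module.Invertible S₀ P₀] [Module.Invertible S P] (b : P₀ →ₗ[S₀] P)
    (hgen : Submodule.span S (Set.range b) = ⊤) :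
    Function.Bijective (LinearMap.liftBaseChange S b) := by
  apply Module.Invertible.bijective_of_surjective
  rw [← LinearMap.range_eq_top, LinearMap.range_liftBaseChange]
  exact hgen

theorem h87_exists_comparison_lin [Algebra S₀ S₁] [Algebra S₁ S] [Algebra S₀ S]
    [IsScalarTower S₀ S₁ S]
    [Module S₀ P₁] [IsScalarTower S₀ S₁ P₁] [Module S₀ P] [IsScalarTower S₀ S P]
    [Module.Invertible S₀ P₀] [Module.Invertible S₁ P₁] [Module.Invertible S P]
    (hinj : Function.Injective (algebraMap S₁ S))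
    (b' : P₀ →ₗ[S₀] P₁) (hgen' : Submodule.span S₁ (Set.range b') = ⊤)
    (b : P₀ →ₗ[S₀] P) (hgen : Submodule.span S (Set.range b) = ⊤) :
    ∃ c : P₁ →+ P, (∀ (s : S₁) (x : P₁), c (s • x) = algebraMap S₁ S s • c x) ∧
      (∀ x, c (b' x) = b x) ∧ Function.Injective c := by
  let Φ₁ : (S₁ ⊗[S₀] P₀) ≃ₗ[S₁] P₁ :=
    LinearEquiv.ofBijective (LinearMap.liftBaseChange S₁ b') (h87_liftBaseChange_bijective b' hgen')
  let Φ : (S ⊗[S₀] P₀) ≃ₗ[S] P :=
    LinearEquiv.ofBijective (LinearMap.liftBaseChange S b) (h87_liftBaseChange_bijective b hgen)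
  let f : S₁ →ₗ[S₀] S := (IsScalarTower.toAlgHom S₀ S₁ S).toLinearMap
  have hf : Function.Injective f := hinj
  let T : (S₁ ⊗[S₀] P₀) →ₗ[S₀] (S ⊗[S₀] P₀) := LinearMap.rTensor P₀ f
  have hT : Function.Injective T := Module.Flat.rTensor_preserves_injective_linearMap f hf
  have hTs : ∀ (s : S₁) (z : S₁ ⊗[S₀] P₀), T (s • z) = algebraMap S₁ S s • T z := by
    intro s z
    induction z using TensorProduct.induction_on with
    | zero => simp
    | tmul s' x =>
      rw [TensorProduct.smul_tmul', LinearMap.rTensor_tmul, LinearMap.rTensor_tmul,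
        TensorProduct.smul_tmul', smul_eq_mul, smul_eq_mul]
      congr 1
      exact map_mul (algebraMap S₁ S) s s'
    | add x y hx hy => rw [smul_add, map_add, map_add, hx, hy, smul_add]
  have hΦ₁ : ∀ x, Φ₁ ((1 : S₁) ⊗ₜ[S₀] x) = b' x := fun x => by
    show LinearMap.liftBaseChange S₁ b' ((1 : S₁) ⊗ₜ[S₀] x) = b' x
    rw [LinearMap.liftBaseChange_tmul, one_smul]
  have hΦ : ∀ x, Φ ((1 : S) ⊗ₜ[S₀] x) = b x := fun x => by
    show LinearMap.liftBaseChange S b ((1 : S) ⊗ₜ[S₀] x) = b x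
    rw [LinearMap.liftBaseChange_tmul, one_smul]
  refine ⟨(Φ.toLinearMap.toAddMonoidHom.comp T.toAddMonoidHom).comp
    Φ₁.symm.toLinearMap.toAddMonoidHom, ?_, ?_, ?_⟩
  · intro s x
    show Φ (T (Φ₁.symm (s • x))) = algebraMap S₁ S s • Φ (T (Φ₁.symm x))
    rw [map_smul, hTs, map_smul]
  · intro x
    show Φ (T (Φ₁.symm (b' x))) = b x
    rw [← hΦ₁ x, LinearEquiv.symm_apply_apply]
    have : T ((1 : S₁) ⊗ₜ[S₀] x) = (1 : S) ⊗ₜ[S₀] x := by
      show LinearMap.rTensor P₀ f ((1 : S₁) ⊗ₜ[S₀] x) = _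
      rw [LinearMap.rTensor_tmul]
      congr 1
      exact map_one (algebraMap S₁ S)
    rw [this, hΦ]
  · intro x y hxy
    have h1 : Φ (T (Φ₁.symm x)) = Φ (T (Φ₁.symm y)) := hxy
    exact Φ₁.symm.injective (hT (Φ.injective h1))

end ComparisonLin

section Comparison

variable {S₀ S₁ S : Type*} [CommRing S₀] [CommRing S₁] [CommRing S]
  {P₀ P₁ P : Type*} [AddCommGroup P₀] [AddCommGroup P₁] [AddCommGroup P]
  [Module S₀ P₀] [Module S₁ P₁] [Module S P]

/-- **The comparison map** of two base changes. -/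
theorem h87_exists_comparison (τ₀₁ : S₀ →+* S₁) (τ₁ : S₁ →+* S) (hτ₁ : Function.Injective τ₁)
    (hP₀ : Module.Invertible S₀ P₀) (hP₁ : Module.Invertible S₁ P₁) (hP : Module.Invertible S P)
    (b' : P₀ →+ P₁) (hb' : ∀ (c : S₀) (q : P₀), b' (c • q) = τ₀₁ c • b' q)
    (hgen' : Submodule.span S₁ (Set.range b') = ⊤)
    (b : P₀ →+ P) (hb : ∀ (c : S₀) (q : P₀), b (c • q) = τ₁ (τ₀₁ c) • b q)
    (hgen : Submodule.span S (Set.range b) = ⊤) :
    ∃ c : P₁ →+ P, (∀ (s : S₁) (x : P₁), c (s • x) = τ₁ s • c x) ∧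
      (∀ x, c (b' x) = b x) ∧ Function.Injective c := by
  letI : Algebra S₀ S₁ := τ₀₁.toAlgebra
  letI : Algebra S₁ S := τ₁.toAlgebra
  letI : Algebra S₀ S := (τ₁.comp τ₀₁).toAlgebra
  haveI : IsScalarTower S₀ S₁ S := IsScalarTower.of_algebraMap_eq (fun _ => rfl)
  letI : Module S₀ P₁ := Module.compHom P₁ τ₀₁
  haveI : IsScalarTower S₀ S₁ P₁ := ⟨fun a s x => by
    show (τ₀₁ a * s) • x = τ₀₁ a • (s • x)
    rw [mul_smul]⟩
  letI : Module S₀ P := Module.compHom P (τ₁.comp τ₀₁)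
  haveI : IsScalarTower S₀ S P := ⟨fun a s x => by
    show (τ₁ (τ₀₁ a) * s) • x = τ₁ (τ₀₁ a) • (s • x)
    rw [mul_smul]⟩
  let b'l : P₀ →ₗ[S₀] P₁ :=
    { toFun := b'
      map_add' := map_add b'
      map_smul' := fun c q => hb' c q }
  let bl : P₀ →ₗ[S₀] P :=
    { toFun := b
      map_add' := map_add b
      map_smul' := fun c q => hb c q }
  exact h87_exists_comparison_lin hτ₁ b'l hgen' bl hgen

end Comparison

end Fermat.Agent.S25.Chart.H87
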