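import Fermat.Agent.S25.Chart.H87_LimRigAbs

/-!
# S25 (row 24), package CHART, leaf LIM-ISO (helper87): the abstract part

Pure commutative algebra (Mathlib only).

* `h87_injective_of_gen` : a semilinear generating map of invertible modules along an injective ring
  map is injective;
* `h87_equiv_descent` : a linear equivalence `e : P ≃ Q` over `S` which maps the image of an
  injective semilinear map `c : P₁ → P` onto the image of `d : Q₁ → Q` descends to `P₁ ≃ Q₁`;
* `h87_range_of_span` : the condition `e (c x) ∈ range d` can be tested on generators;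
* `h87_range_of_coeff` : it holds if the coordinates of `e` come from `S₁`.

This file contains no `sorry`.
-/

set_option autoImplicit false
set_option linter.style.haveILetI false

open TensorProduct

namespace Fermat.Agent.S25.Chart.H87

section Inj

variable {S₁ S : Type*} [CommRing S₁] [CommRing S]
  {P₁ P : Type*} [AddCommGroup P₁] [AddCommGroup P] [Module S₁ P₁] [Module S P]

/-- A semilinear generating map of invertible modules along an injective ring map is injective. -/
theorem h87_injective_of_gen (τ₁ : S₁ →+* S) (hτ₁ : Function.Injective τ₁)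
    (hP₁ : Module.Invertible S₁ P₁) (hP : Module.Invertible S P)
    (c : P₁ →+ P) (hc : ∀ (s : S₁) (x : P₁), c (s • x) = τ₁ s • c x)
    (hgen : Submodule.span S (Set.range c) = ⊤) : Function.Injective c := by
  obtain ⟨c', -, hc'c, hc'inj⟩ := h87_exists_comparison (RingHom.id S₁) τ₁ hτ₁ hP₁ hP₁ hP
    (AddMonoidHom.id P₁) (fun _ _ => rfl) (by
      rw [eq_top_iff]
      intro x _
      exact Submodule.subset_span ⟨x, rfl⟩) c (fun s x => hc s x) hgen
  intro x y hxy
  apply hc'inj
  have hx := hc'c x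
  have hy := hc'c y
  simp only [AddMonoidHom.id_apply] at hx hy
  rw [hx, hy, hxy]

end Inj

section Descent

variable {S₁ S : Type*} [CommRing S₁] [CommRing S] (τ₁ : S₁ →+* S)
  {P₁ Q₁ P Q : Type*} [AddCommGroup P₁] [AddCommGroup Q₁] [AddCommGroup P] [AddCommGroup Q]
  [Module S₁ P₁] [Module S₁ Q₁] [Module S P] [Module S Q]
  (c : P₁ →+ P) (hc : ∀ (s : S₁) (x : P₁), c (s • x) = τ₁ s • c x)
  (d : Q₁ →+ Q) (hd : ∀ (s : S₁) (x : Q₁), d (s • x) = τ₁ s • d x)

include hc hd in
/-- **Descent of a linear equivalence** along injective semilinear maps. -/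
theorem h87_equiv_descent (hcinj : Function.Injective c) (hdinj : Function.Injective d)
    (e : P ≃ₗ[S] Q)
    (h1 : ∀ x, e (c x) ∈ Set.range d) (h2 : ∀ y, e.symm (d y) ∈ Set.range c) :
    ∃ e₁ : P₁ ≃ₗ[S₁] Q₁, ∀ x, d (e₁ x) = e (c x) := by
  choose f hf using h1
  choose g hg using h2
  refine ⟨{ toFun := f
            map_add' := fun x y => ?_
            map_smul' := fun s x => ?_
            invFun := g
            left_inv := fun x => ?_
            right_inv := fun y => ?_ }, fun x => hf x⟩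
  · apply hdinj
    rw [hf, map_add, map_add, map_add, hf, hf]
  · apply hdinj
    rw [RingHom.id_apply, hf, hc, map_smul, hd, hf]
  · apply hcinj
    rw [hg, hf, LinearEquiv.symm_apply_apply]
  · apply hdinj
    rw [hf, hg, LinearEquiv.apply_symm_apply]

include hc hd in
/-- The condition `f (c x) ∈ range d` can be tested on generators. -/
theorem h87_range_of_span (f : P →ₗ[S] Q) (G : Set P₁) (hG : Submodule.span S₁ G = ⊤)
    (h : ∀ x ∈ G, f (c x) ∈ Set.range d) (x : P₁) : f (c x) ∈ Set.range d := by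
  have hx : x ∈ Submodule.span S₁ G := by rw [hG]; exact Submodule.mem_top
  induction hx using Submodule.span_induction with
  | mem y hy => exact h y hy
  | zero => exact ⟨0, by rw [map_zero, map_zero, map_zero]⟩
  | add x y _ _ hx hy =>
    obtain ⟨a, ha⟩ := hx
    obtain ⟨b, hb⟩ := hy
    exact ⟨a + b, by rw [map_add, ha, hb, map_add, map_add]⟩
  | smul s x _ hx =>
    obtain ⟨a, ha⟩ := hx
    exact ⟨s • a, by rw [hd, ha, hc, map_smul]⟩

end Descent

section Coeff

variable {S₀ S₁ S : Type*} [CommRing S₀] [CommRing S₁] [CommRing S]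
  (τ₀₁ : S₀ →+* S₁) (τ₁ : S₁ →+* S)
  {P₀ Q₀ P₁ Q₁ P Q : Type*} [AddCommGroup P₀] [AddCommGroup Q₀] [AddCommGroup P₁]
  [AddCommGroup Q₁] [AddCommGroup P] [AddCommGroup Q]
  [Module S₀ P₀] [Module S₀ Q₀] [Module S₁ P₁] [Module S₁ Q₁] [Module S P] [Module S Q]

omit [Module S₀ Q₀] in
/-- The condition `f (c x) ∈ range d` holds if the coordinates of `f` on the images of a generating set
come from `S₁`. -/
theorem h87_range_of_coeff
    (bP : P₀ →+ P₁) (hbP : ∀ (s : S₀) (x : P₀), bP (s • x) = τ₀₁ s • bP x)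
    (hgenP : Submodule.span S₁ (Set.range bP) = ⊤)
    (bQ : Q₀ →+ Q₁)
    (c : P₁ →+ P) (hc : ∀ (s : S₁) (x : P₁), c (s • x) = τ₁ s • c x)
    (d : Q₁ →+ Q) (hd : ∀ (s : S₁) (x : Q₁), d (s • x) = τ₁ s • d x)
    (tP : Finset P₀) (htP : Submodule.span S₀ (tP : Set P₀) = ⊤) (tQ : Finset Q₀)
    (f : P →ₗ[S] Q) (A : P₀ → Q₀ → S₁)
    (hA : ∀ y ∈ tP, f (c (bP y)) = ∑ z ∈ tQ, τ₁ (A y z) • d (bQ z)) (x : P₁) :
    f (c x) ∈ Set.range d := by
  refine h87_range_of_span τ₁ c hc d hd f (bP '' (tP : Set P₀))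
    (h87_span_image τ₀₁ bP hbP tP htP hgenP) ?_ x
  rintro _ ⟨y, hy, rfl⟩
  refine ⟨∑ z ∈ tQ, A y z • bQ z, ?_⟩
  rw [hA y hy, map_sum]
  exact Finset.sum_congr rfl (fun z _ => hd _ _)

end Coeff

end Fermat.Agent.S25.Chart.H87
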