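import Fermat.Agent.S25.Chart.H87_LimAbs

/-!
# S25 (row 24), package CHART, leaf LIM-RIG (helper87): the abstract descent of rigidity

Pure commutative algebra (Mathlib only).  `τ : S₀ → S` a ring map, `b : P₀ → P` a `τ`-semilinear
generating map, `t₀` a finite generating set of `P₀`.

* `h87_span_image` : the images of `t₀` generate `P`;
* `h87_exists_coeff`, `h87_exists_coeff_ideal` : coordinates (with coefficients in an ideal `I` for
  the elements of `I • ⊤`);
* `h87_rigid_data` : rigidity of `P` (`P / I P` generated by one element) as finitely many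
  equations between the images of `t₀`;
* `h87_rigid_descent` : the same equations over `S₁ ⊆ S` give the rigidity of `P₁`.

This file contains no `sorry`.
-/

set_option autoImplicit false
set_option linter.style.haveILetI false

open TensorProduct

namespace Fermat.Agent.S25.Chart.H87

section Coeff

variable {S₀ S : Type*} [CommRing S₀] [CommRing S]
  {P₀ P : Type*} [AddCommGroup P₀] [AddCommGroup P] [Module S₀ P₀] [Module S P]
  (τ : S₀ →+* S) (b : P₀ →+ P) (hb : ∀ (c : S₀) (q : P₀), b (c • q) = τ c • b q)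
  (t₀ : Finset P₀) (ht₀ : Submodule.span S₀ (t₀ : Set P₀) = ⊤)

include hb ht₀ in
/-- The images of a generating set generate. -/
theorem h87_span_image (hgen : Submodule.span S (Set.range b) = ⊤) :
    Submodule.span S (b '' (t₀ : Set P₀)) = ⊤ := by
  rw [eq_top_iff, ← hgen, Submodule.span_le]
  rintro _ ⟨x, rfl⟩
  have hx : x ∈ Submodule.span S₀ (t₀ : Set P₀) := by rw [ht₀]; exact Submodule.mem_top
  induction hx using Submodule.span_induction with
  | mem q hq => exact Submodule.subset_span ⟨q, hq, rfl⟩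
  | zero => rw [map_zero]; exact Submodule.zero_mem _
  | add x y _ _ hx hy => rw [map_add]; exact Submodule.add_mem _ hx hy
  | smul a x _ hx => rw [hb]; exact Submodule.smul_mem _ _ hx

include hb ht₀ in
/-- Coordinates with respect to the images of a generating set. -/
theorem h87_exists_coeff (hgen : Submodule.span S (Set.range b) = ⊤) (x : P) :
    ∃ f : P₀ → S, x = ∑ q ∈ t₀, f q • b q := by
  classical
  have hx : x ∈ Submodule.span S (b '' (t₀ : Set P₀)) := by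
    rw [h87_span_image τ b hb t₀ ht₀ hgen]; exact Submodule.mem_top
  induction hx using Submodule.span_induction with
  | mem y hy =>
    obtain ⟨q, hq, rfl⟩ := hy
    refine ⟨fun y => if y = q then 1 else 0, ?_⟩
    have hq' : q ∈ t₀ := hq
    simp only [ite_smul, one_smul, zero_smul, Finset.sum_ite_eq', hq', if_true]
  | zero => exact ⟨fun _ => 0, by simp⟩
  | add x y _ _ hx hy =>
    obtain ⟨f, rfl⟩ := hx
    obtain ⟨g, rfl⟩ := hy
    exact ⟨fun q => f q + g q, by simp only [add_smul, Finset.sum_add_distrib]⟩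
  | smul a x _ hx =>
    obtain ⟨f, rfl⟩ := hx
    exact ⟨fun q => a * f q, by simp only [mul_smul, Finset.smul_sum]⟩

include hb ht₀ in
/-- Coordinates of the elements of `I • ⊤`, with coefficients in `I`. -/
theorem h87_exists_coeff_ideal (hgen : Submodule.span S (Set.range b) = ⊤) (I : Ideal S) (x : P)
    (hx : x ∈ I • (⊤ : Submodule S P)) :
    ∃ f : P₀ → S, (∀ q, f q ∈ I) ∧ x = ∑ q ∈ t₀, f q • b q := by
  refine Submodule.smul_induction_on hx ?_ ?_
  · intro r hr n _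
    obtain ⟨f, rfl⟩ := h87_exists_coeff τ b hb t₀ ht₀ hgen n
    exact ⟨fun q => r * f q, fun q => I.mul_mem_right _ hr,
      by simp only [mul_smul, Finset.smul_sum]⟩
  · intro x y hx hy
    obtain ⟨f, hf, rfl⟩ := hx
    obtain ⟨g, hg, rfl⟩ := hy
    exact ⟨fun q => f q + g q, fun q => I.add_mem (hf q) (hg q),
      by simp only [add_smul, Finset.sum_add_distrib]⟩

include hb ht₀ in
/-- **Rigidity as finitely many equations.** -/
theorem h87_rigid_data (hgen : Submodule.span S (Set.range b) = ⊤) (I : Ideal S) (p : P)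
    (hp : ∀ q : P, ∃ a : S, q - a • p ∈ I • (⊤ : Submodule S P)) :
    ∃ (cf a : P₀ → S) (u : P₀ → P₀ → S), (∀ q y, u q y ∈ I) ∧
      ∀ q, b q - a q • (∑ y ∈ t₀, cf y • b y) = ∑ y ∈ t₀, u q y • b y := by
  obtain ⟨cf, hcf⟩ := h87_exists_coeff τ b hb t₀ ht₀ hgen p
  have h1 : ∀ q : P₀, ∃ a : S, ∃ f : P₀ → S, (∀ y, f y ∈ I) ∧
      b q - a • p = ∑ y ∈ t₀, f y • b y := by
    intro q
    obtain ⟨a, ha⟩ := hp (b q)
    obtain ⟨f, hf, e⟩ := h87_exists_coeff_ideal τ b hb t₀ ht₀ hgen I _ ha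
    exact ⟨a, f, hf, e⟩
  choose a u hu hrel using h1
  refine ⟨cf, a, u, hu, fun q => ?_⟩
  rw [← hcf]
  exact hrel q

end Coeff

section Descent

variable {S₀ S₁ S : Type*} [CommRing S₀] [CommRing S₁] [CommRing S]
  {P₀ P₁ P : Type*} [AddCommGroup P₀] [AddCommGroup P₁] [AddCommGroup P]
  [Module S₀ P₀] [Module S₁ P₁] [Module S P]

/-- **Descent of rigidity.** -/
theorem h87_rigid_descent (τ₀₁ : S₀ →+* S₁) (τ₁ : S₁ →+* S) (hτ₁ : Function.Injective τ₁)
    (hP₀ : Module.Invertible S₀ P₀) (hP₁ : Module.Invertible S₁ P₁) (hP : Module.Invertible S P)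
    (b' : P₀ →+ P₁) (hb' : ∀ (c : S₀) (q : P₀), b' (c • q) = τ₀₁ c • b' q)
    (hgen' : Submodule.span S₁ (Set.range b') = ⊤)
    (b : P₀ →+ P) (hb : ∀ (c : S₀) (q : P₀), b (c • q) = τ₁ (τ₀₁ c) • b q)
    (hgen : Submodule.span S (Set.range b) = ⊤)
    (I₁ : Ideal S₁)
    (t₀ : Finset P₀) (ht₀ : Submodule.span S₀ (t₀ : Set P₀) = ⊤)
    (cf a : P₀ → S₁) (u : P₀ → P₀ → S₁)
    (hu : ∀ q ∈ t₀, ∀ y ∈ t₀, u q y ∈ I₁)
    (hrel : ∀ q ∈ t₀, b q - τ₁ (a q) • (∑ y ∈ t₀, τ₁ (cf y) • b y)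
      = ∑ y ∈ t₀, τ₁ (u q y) • b y) :
    ∃ p₁ : P₁, ∀ q₁ : P₁, ∃ a₁ : S₁, q₁ - a₁ • p₁ ∈ I₁ • (⊤ : Submodule S₁ P₁) := by
  obtain ⟨c, hc, hcb, hcinj⟩ :=
    h87_exists_comparison τ₀₁ τ₁ hτ₁ hP₀ hP₁ hP b' hb' hgen' b hb hgen
  have hcsum : ∀ (f : P₀ → S₁), c (∑ y ∈ t₀, f y • b' y) = ∑ y ∈ t₀, τ₁ (f y) • b y := by
    intro f
    rw [map_sum]
    exact Finset.sum_congr rfl (fun y _ => by rw [hc, hcb])
  refine ⟨∑ y ∈ t₀, cf y • b' y, fun q₁ => ?_⟩
  -- the equations over `S₁`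
  have hrel₁ : ∀ q ∈ t₀, b' q - a q • (∑ y ∈ t₀, cf y • b' y) = ∑ y ∈ t₀, u q y • b' y := by
    intro q hq
    apply hcinj
    rw [map_sub, hc, hcb, hcsum, hcsum]
    exact hrel q hq
  have hmem : ∀ q ∈ t₀, b' q - a q • (∑ y ∈ t₀, cf y • b' y) ∈ I₁ • (⊤ : Submodule S₁ P₁) := by
    intro q hq
    rw [hrel₁ q hq]
    exact Submodule.sum_mem _ (fun y hy =>
      Submodule.smul_mem_smul (hu q hq y hy) Submodule.mem_top)
  obtain ⟨s, rfl⟩ := h87_exists_coeff τ₀₁ b' hb' t₀ ht₀ hgen' q₁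
  refine ⟨∑ q ∈ t₀, s q * a q, ?_⟩
  have e : ∑ q ∈ t₀, s q • b' q - (∑ q ∈ t₀, s q * a q) • (∑ y ∈ t₀, cf y • b' y)
      = ∑ q ∈ t₀, s q • (b' q - a q • (∑ y ∈ t₀, cf y • b' y)) := by
    rw [Finset.sum_smul, ← Finset.sum_sub_distrib]
    exact Finset.sum_congr rfl (fun q _ => by rw [smul_sub, mul_smul])
  rw [e]
  exact Submodule.sum_mem _ (fun q hq => Submodule.smul_mem _ _ (hmem q hq))

end Descent

end Fermat.Agent.S25.Chart.H87
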