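import Fermat.Agent.S25.LB.DefsE
import Fermat.Agent.S25.Chart.H87_LimRigAbs

/-!
# S25 (row 24), package CHART, leaf LIM-RIG (helper87)

`stmt_LIMRIG_of : LB.Stmt_BCEX → Chart.Stmt_LIMRIG` : rigidity descends to a finitely generated
subalgebra.

Proof.  Let `β : BC R₀.val L₀ L`, `L` rigid with generator `p` of `L.P1 / I_e L.P1`.  Choose a finite
generating set `t₀` of `L₀.P1`.  The rigidity of `L` is a finite system of equations between the images
of `t₀` with coefficients in `R ⊗ B1` (`h87_rigid_data`); the coefficients come from `R₁ ⊗ B1` for a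
finitely generated `R₁ ⊇ R₀` (`h87_exists_fg_range_finset`); for a base change `L₁` of `L₀` to `R₁`
(LB-BCEX) the comparison map `L₁.P1 → L.P1` is injective (`h87_exists_comparison`: `R₁ ⊗ B1 → R ⊗ B1`
is injective and `L₀.P1` is flat), so the equations hold in `L₁.P1` (`h87_rigid_descent`).

This file contains no `sorry`.
-/

set_option autoImplicit false
set_option linter.style.haveILetI false

universe u

open TensorProduct

namespace Fermat.Agent.S25.Chart.H87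

open Fermat.Agent.S25.LB Fermat.Agent.S25.Chart

section Nat

variable {k : Type u} [Field k] (𝒞 : CurveDatum k) {R : Type u} [CommRing R] [Algebra k R]

theorem h87_tmap_eq (R₁ : Subalgebra k R) (B : Type u) [CommRing B] [Algebra k B]
    (c : ↥R₁ ⊗[k] B) : tmap R₁.val B c = h87_tmapSub B R₁ c := rfl

theorem h87_tmap_comp {R₀ R₁ : Subalgebra k R} (hle : R₀ ≤ R₁) (B : Type u) [CommRing B]
    [Algebra k B] (c : ↥R₀ ⊗[k] B) :
    tmap R₁.val B (tmap (Subalgebra.inclusion hle) B c) = tmap R₀.val B c :=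
  h87_tmapSub_inclusion B hle c

/-- Naturality of the base point. -/
theorem h87_eR_tmap (R₁ : Subalgebra k R) (u : ↥R₁ ⊗[k] 𝒞.B1) :
    𝒞.eR R (tmap R₁.val 𝒞.B1 u) = ((𝒞.eR ↥R₁ u : ↥R₁) : R) := by
  induction u using TensorProduct.induction_on with
  | zero => simp
  | tmul r b =>
    rw [h87_tmap_eq, h87_tmapSub, Algebra.TensorProduct.map_tmul]
    simp only [CurveDatum.eR, Algebra.TensorProduct.lift_tmul, AlgHom.coe_id, id_eq,
      AlgHom.coe_comp, Function.comp_apply, Subalgebra.coe_val, Subalgebra.coe_mul]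
    congr 1
  | add x y hx hy =>
    rw [map_add, map_add, hx, hy, map_add]
    rfl

theorem h87_mem_ker (R₁ : Subalgebra k R) (u : ↥R₁ ⊗[k] 𝒞.B1)
    (h : tmap R₁.val 𝒞.B1 u ∈ RingHom.ker (𝒞.eR R).toRingHom) :
    u ∈ RingHom.ker (𝒞.eR ↥R₁).toRingHom := by
  rw [RingHom.mem_ker] at h ⊢
  have h1 : 𝒞.eR R (tmap R₁.val 𝒞.B1 u) = 0 := h
  rw [h87_eR_tmap] at h1
  exact Subtype.ext h1

end Nat

/-- **LIM-RIG** (from LB-BCEX): rigidity descends to a finitely generated subalgebra. -/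
theorem stmt_LIMRIG_of (hEX : Fermat.Agent.S25.LB.Stmt_BCEX.{u}) : Stmt_LIMRIG.{u} := by
  intro k _ 𝒞 hgood R _ _ R₀ L₀ L hfg β hrig
  classical
  have hP₀ : Module.Invertible (↥R₀ ⊗[k] 𝒞.B1) L₀.P1 := L₀.inv1
  have hP : Module.Invertible (R ⊗[k] 𝒞.B1) L.P1 := L.inv1
  obtain ⟨t₀, ht₀⟩ : (⊤ : Submodule (↥R₀ ⊗[k] 𝒞.B1) L₀.P1).FG := by
    haveI := hP₀
    exact Module.Finite.fg_top
  obtain ⟨p, hp⟩ := hrig
  obtain ⟨cf, a, u, hu, hrel⟩ := h87_rigid_data (tmap R₀.val 𝒞.B1).toRingHom β.b1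
    (fun c q => β.semi1 c q) t₀ ht₀ β.gen1 (RingHom.ker (𝒞.eR R).toRingHom) p hp
  -- the coefficients come from a finitely generated subalgebra
  obtain ⟨R₁, hle, hfg₁, hcap⟩ := h87_exists_fg_range_finset 𝒞.B1 R₀ hfg
    (t₀.image cf ∪ t₀.image a ∪ (t₀ ×ˢ t₀).image (fun qy => u qy.1 qy.2))
  obtain ⟨cf', hcf'⟩ := h87_exists_fun_of_range t₀ (h87_tmapSub 𝒞.B1 R₁) cf (fun q hq =>
    hcap _ (Finset.mem_union_left _ (Finset.mem_union_left _ (Finset.mem_image_of_mem cf hq))))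
  obtain ⟨a', ha'⟩ := h87_exists_fun_of_range t₀ (h87_tmapSub 𝒞.B1 R₁) a (fun q hq =>
    hcap _ (Finset.mem_union_left _ (Finset.mem_union_right _ (Finset.mem_image_of_mem a hq))))
  obtain ⟨u', hu'⟩ := h87_exists_fun_of_range (t₀ ×ˢ t₀) (h87_tmapSub 𝒞.B1 R₁)
    (fun qy => u qy.1 qy.2) (fun qy hqy =>
    hcap _ (Finset.mem_union_right _ (Finset.mem_image_of_mem (fun qy => u qy.1 qy.2) hqy)))
  -- the base change to `R₁`
  obtain ⟨L₁, ⟨β₁⟩⟩ := hEX k 𝒞 hgood ↥R₀ ↥R₁ (Subalgebra.inclusion hle) L₀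
  refine ⟨R₁, hle, L₁, hfg₁, ⟨β₁⟩, ?_⟩
  refine h87_rigid_descent (tmap (Subalgebra.inclusion hle) 𝒞.B1).toRingHom
    (tmap R₁.val 𝒞.B1).toRingHom (h87_tmapSub_injective 𝒞.B1 R₁) hP₀ L₁.inv1 hP
    β₁.b1 (fun c q => β₁.semi1 c q) β₁.gen1 β.b1 ?_ β.gen1
    (RingHom.ker (𝒞.eR ↥R₁).toRingHom) t₀ ht₀ cf' a' (fun q y => u' (q, y)) ?_ ?_
  · intro c q
    rw [β.semi1]
    congr 1
    exact (h87_tmap_comp hle 𝒞.B1 c).symm
  · intro q hq y hy
    apply h87_mem_ker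
    have e : tmap R₁.val 𝒞.B1 (u' (q, y)) = u q y :=
      hu' (q, y) (Finset.mem_product.2 ⟨hq, hy⟩)
    rw [e]
    exact hu q y
  · intro q hq
    have e1 : ∑ y ∈ t₀, (tmap R₁.val 𝒞.B1).toRingHom (cf' y) • β.b1 y
        = ∑ y ∈ t₀, cf y • β.b1 y :=
      Finset.sum_congr rfl (fun y hy => by
        have : (tmap R₁.val 𝒞.B1).toRingHom (cf' y) = cf y := hcf' y hy
        rw [this])
    have e2 : ∑ y ∈ t₀, (tmap R₁.val 𝒞.B1).toRingHom (u' (q, y)) • β.b1 y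
        = ∑ y ∈ t₀, u q y • β.b1 y :=
      Finset.sum_congr rfl (fun y hy => by
        have : (tmap R₁.val 𝒞.B1).toRingHom (u' (q, y)) = u q y :=
          hu' (q, y) (Finset.mem_product.2 ⟨hq, hy⟩)
        rw [this])
    have e3 : (tmap R₁.val 𝒞.B1).toRingHom (a' q) = a q := ha' q hq
    rw [e1, e2, e3]
    exact hrel q

end Fermat.Agent.S25.Chart.H87
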