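import Fermat.Agent.S25.LB.H73_BCUniq
import Fermat.Agent.S25.Chart.H87_LimRig
import Fermat.Agent.S25.Chart.H87_LimIsoAbs

/-!
# S25 (row 24), package CHART, leaf LIM-ISO (helper87)

`stmt_LIMISO_of : LB.Stmt_BCEX → Chart.Stmt_LIMISO` : an isomorphism between the base changes to `R`
of two triples over a finitely generated subalgebra `R₀` is defined over a larger finitely generated
subalgebra `R₁`.

Proof.  Choose finite generating sets of `L₀.P0`, `L₀.P1`, `L₀'.P0`, `L₀'.P1`.  The coordinates of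
`E.e0`, `E.e0⁻¹`, `E.e1`, `E.e1⁻¹` on the images of the generators are finitely many elements of
`R ⊗ B0`, `R ⊗ B1`; they come from `R₁ ⊗ B0`, `R₁ ⊗ B1` for a finitely generated `R₁ ⊇ R₀`
(`h87_exists_fg_range_finset`).  Let `L₁`, `L₁'` be base changes of `L₀`, `L₀'` to `R₁` (LB-BCEX).
`L`, `L'` are base changes of `L₁`, `L₁'` (`h87_exists_cmp`) and the maps `L₁.P_i → L.P_i` are
injective (`h87_bc_injective`: `R₁ ⊗ B → R ⊗ B` is injective and invertible modules are flat).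
So `E.e0`, `E.e1` restrict to isomorphisms `L₁.P_i ≃ L₁'.P_i` (`h87_equiv_descent`); on the overlap
`P01` is generated by the image of `r0`, so `E.e01` restricts as well, and the compatibilities with
`r0`, `r1` hold because they hold after the injective maps to `L'.P01` (`h87_iso_descent`).

This file contains no `sorry`.
-/

set_option autoImplicit false
set_option linter.style.haveILetI false

universe u

open TensorProduct

namespace Fermat.Agent.S25.Chart.H87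

open Fermat.Agent.S25.LB Fermat.Agent.S25.Chart

section Cmp

variable {k : Type u} [Field k] {𝒞 : CurveDatum k} {R : Type u} [CommRing R] [Algebra k R]

/-- The image of `r0` generates `P01`. -/
theorem h87_span_range_r0 (L : Triple 𝒞 R) :
    Submodule.span (R ⊗[k] 𝒞.B01) (Set.range L.r0) = ⊤ := by
  rw [eq_top_iff]
  rintro m -
  obtain ⟨n, p, hp⟩ := L.surj0 m
  have h1 : L.r0 p ∈ Submodule.span (R ⊗[k] 𝒞.B01) (Set.range L.r0) :=
    Submodule.subset_span ⟨p, rfl⟩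
  rw [← hp] at h1
  have h2 := Submodule.smul_mem _ (((1 : R) ⊗ₜ[k] 𝒞.i1 𝒞.z1 : R ⊗[k] 𝒞.B01) ^ n) h1
  rwa [smul_smul, ← mul_pow, mul_comm, Triple.unit_mul_unit, one_pow, one_smul] at h2

/-- The maps of a base change along the inclusion of a subalgebra are injective. -/
theorem h87_bc_injective (hgood : 𝒞.IsGood) (R₁ : Subalgebra k R) (L₁ : Triple 𝒞 ↥R₁)
    (L : Triple 𝒞 R) (γ : BC R₁.val L₁ L) :
    Function.Injective γ.b0 ∧ Function.Injective γ.b1 ∧ Function.Injective γ.b01 := by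
  refine ⟨?_, ?_, ?_⟩
  · exact h87_injective_of_gen (tmap R₁.val 𝒞.B0).toRingHom (h87_tmapSub_injective 𝒞.B0 R₁)
      L₁.inv0 L.inv0 γ.b0 (fun s x => γ.semi0 s x) γ.gen0
  · exact h87_injective_of_gen (tmap R₁.val 𝒞.B1).toRingHom (h87_tmapSub_injective 𝒞.B1 R₁)
      L₁.inv1 L.inv1 γ.b1 (fun s x => γ.semi1 s x) γ.gen1
  · exact h87_injective_of_gen (tmap R₁.val 𝒞.B01).toRingHom (h87_tmapSub_injective 𝒞.B01 R₁)
      (H60.inv01 L₁ hgood) (H60.inv01 L hgood) γ.b01 (fun s x => γ.semi01 s x) (H73.gen01 γ)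

/-- **The comparison of two base changes**: if `L` is a base change of `L₀` along `R₀ ⊆ R` and `L₁` is
a base change of `L₀` along `R₀ ⊆ R₁`, then `L` is a base change of `L₁` along `R₁ ⊆ R`, compatibly. -/
theorem h87_exists_cmp (hgood : 𝒞.IsGood) {R₀ R₁ : Subalgebra k R} (hle : R₀ ≤ R₁)
    (L₀ : Triple 𝒞 ↥R₀) (L₁ : Triple 𝒞 ↥R₁) (L : Triple 𝒞 R)
    (β : BC R₀.val L₀ L) (β₁ : BC (Subalgebra.inclusion hle) L₀ L₁) :
    ∃ γ : BC R₁.val L₁ L, (∀ x, γ.b0 (β₁.b0 x) = β.b0 x) ∧ (∀ x, γ.b1 (β₁.b1 x) = β.b1 x) ∧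
      (∀ x, γ.b01 (β₁.b01 x) = β.b01 x) := by
  obtain ⟨c0, hc0, hc0b, -⟩ := h87_exists_comparison
    (tmap (Subalgebra.inclusion hle) 𝒞.B0).toRingHom (tmap R₁.val 𝒞.B0).toRingHom
    (h87_tmapSub_injective 𝒞.B0 R₁) L₀.inv0 L₁.inv0 L.inv0
    β₁.b0 (fun c q => β₁.semi0 c q) β₁.gen0 β.b0 (by
      intro c q
      rw [β.semi0]
      congr 1
      exact (h87_tmap_comp hle 𝒞.B0 c).symm) β.gen0
  obtain ⟨c1, hc1, hc1b, -⟩ := h87_exists_comparison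
    (tmap (Subalgebra.inclusion hle) 𝒞.B1).toRingHom (tmap R₁.val 𝒞.B1).toRingHom
    (h87_tmapSub_injective 𝒞.B1 R₁) L₀.inv1 L₁.inv1 L.inv1
    β₁.b1 (fun c q => β₁.semi1 c q) β₁.gen1 β.b1 (by
      intro c q
      rw [β.semi1]
      congr 1
      exact (h87_tmap_comp hle 𝒞.B1 c).symm) β.gen1
  obtain ⟨c01, hc01, hc01b, -⟩ := h87_exists_comparison
    (tmap (Subalgebra.inclusion hle) 𝒞.B01).toRingHom (tmap R₁.val 𝒞.B01).toRingHom
    (h87_tmapSub_injective 𝒞.B01 R₁) (H60.inv01 L₀ hgood) (H60.inv01 L₁ hgood)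
    (H60.inv01 L hgood)
    β₁.b01 (fun c q => β₁.semi01 c q) (H73.gen01 β₁) β.b01 (by
      intro c q
      rw [β.semi01]
      congr 1
      exact (h87_tmap_comp hle 𝒞.B01 c).symm) (H73.gen01 β)
  have comm0 : ∀ p, c01 (L₁.r0 p) = L.r0 (c0 p) := by
    intro p
    have hp : p ∈ Submodule.span (↥R₁ ⊗[k] 𝒞.B0) (Set.range β₁.b0) := by
      rw [β₁.gen0]; exact Submodule.mem_top
    induction hp using Submodule.span_induction with
    | mem x hx =>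
      obtain ⟨y, rfl⟩ := hx
      rw [← β₁.comm0, hc01b, hc0b, β.comm0]
    | zero => rw [map_zero, map_zero, map_zero, map_zero]
    | add x y _ _ hx hy => rw [map_add, map_add, map_add, map_add, hx, hy]
    | smul s x _ hx =>
      rw [L₁.r0.map_smulₛₗ, hc01, hc0, L.r0.map_smulₛₗ, hx]
      congr 1
      exact H73.tmap_ι0 R₁.val s
  have comm1 : ∀ p, c01 (L₁.r1 p) = L.r1 (c1 p) := by
    intro p
    have hp : p ∈ Submodule.span (↥R₁ ⊗[k] 𝒞.B1) (Set.range β₁.b1) := by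
      rw [β₁.gen1]; exact Submodule.mem_top
    induction hp using Submodule.span_induction with
    | mem x hx =>
      obtain ⟨y, rfl⟩ := hx
      rw [← β₁.comm1, hc01b, hc1b, β.comm1]
    | zero => rw [map_zero, map_zero, map_zero, map_zero]
    | add x y _ _ hx hy => rw [map_add, map_add, map_add, map_add, hx, hy]
    | smul s x _ hx =>
      rw [L₁.r1.map_smulₛₗ, hc01, hc1, L.r1.map_smulₛₗ, hx]
      congr 1
      exact H73.tmap_ι1 R₁.val s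
  refine ⟨{ b0 := c0, b1 := c1, b01 := c01
            semi0 := fun c q => hc0 c q
            semi1 := fun c q => hc1 c q
            semi01 := fun c q => hc01 c q
            comm0 := comm0
            comm1 := comm1
            gen0 := ?_
            gen1 := ?_ }, hc0b, hc1b, hc01b⟩
  · rw [eq_top_iff, ← β.gen0, Submodule.span_le]
    rintro _ ⟨x, rfl⟩
    rw [← hc0b]
    exact Submodule.subset_span ⟨_, rfl⟩
  · rw [eq_top_iff, ← β.gen1, Submodule.span_le]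
    rintro _ ⟨x, rfl⟩
    rw [← hc1b]
    exact Submodule.subset_span ⟨_, rfl⟩

/-- **Descent of an isomorphism of triples** to a subalgebra, given the range conditions on the two
charts. -/
theorem h87_iso_descent (hgood : 𝒞.IsGood) (R₁ : Subalgebra k R) (L₁ L₁' : Triple 𝒞 ↥R₁)
    (L L' : Triple 𝒞 R) (γ : BC R₁.val L₁ L) (γ' : BC R₁.val L₁' L') (E : Triple.Iso L L')
    (h0 : ∀ x, E.e0 (γ.b0 x) ∈ Set.range γ'.b0)
    (h0' : ∀ y, E.e0.symm (γ'.b0 y) ∈ Set.range γ.b0)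
    (h1 : ∀ x, E.e1 (γ.b1 x) ∈ Set.range γ'.b1)
    (h1' : ∀ y, E.e1.symm (γ'.b1 y) ∈ Set.range γ.b1) :
    Nonempty (Triple.Iso L₁ L₁') := by
  obtain ⟨i0, i1, i01⟩ := h87_bc_injective hgood R₁ L₁ L γ
  obtain ⟨i0', i1', i01'⟩ := h87_bc_injective hgood R₁ L₁' L' γ'
  obtain ⟨e0, he0⟩ := h87_equiv_descent (tmap R₁.val 𝒞.B0).toRingHom γ.b0
    (fun s x => γ.semi0 s x) γ'.b0 (fun s x => γ'.semi0 s x) i0 i0' E.e0 h0 h0'
  obtain ⟨e1, he1⟩ := h87_equiv_descent (tmap R₁.val 𝒞.B1).toRingHom γ.b1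
    (fun s x => γ.semi1 s x) γ'.b1 (fun s x => γ'.semi1 s x) i1 i1' E.e1 h1 h1'
  have h01 : ∀ x, E.e01 (γ.b01 x) ∈ Set.range γ'.b01 := by
    intro x
    refine h87_range_of_span (tmap R₁.val 𝒞.B01).toRingHom γ.b01 (fun s x => γ.semi01 s x)
      γ'.b01 (fun s x => γ'.semi01 s x) E.e01.toLinearMap (Set.range L₁.r0)
      (h87_span_range_r0 L₁) ?_ x
    rintro _ ⟨p, rfl⟩
    refine ⟨L₁'.r0 (e0 p), ?_⟩
    show γ'.b01 (L₁'.r0 (e0 p)) = E.e01 (γ.b01 (L₁.r0 p))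
    rw [γ'.comm0, he0, γ.comm0, E.comm0]
  have h01' : ∀ y, E.e01.symm (γ'.b01 y) ∈ Set.range γ.b01 := by
    intro y
    refine h87_range_of_span (tmap R₁.val 𝒞.B01).toRingHom γ'.b01 (fun s x => γ'.semi01 s x)
      γ.b01 (fun s x => γ.semi01 s x) E.e01.symm.toLinearMap (Set.range L₁'.r0)
      (h87_span_range_r0 L₁') ?_ y
    rintro _ ⟨p, rfl⟩
    refine ⟨L₁.r0 (e0.symm p), ?_⟩
    show γ.b01 (L₁.r0 (e0.symm p)) = E.e01.symm (γ'.b01 (L₁'.r0 p))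
    apply E.e01.injective
    rw [LinearEquiv.apply_symm_apply, γ.comm0, E.comm0, ← he0, LinearEquiv.apply_symm_apply,
      γ'.comm0]
  obtain ⟨e01, he01⟩ := h87_equiv_descent (tmap R₁.val 𝒞.B01).toRingHom γ.b01
    (fun s x => γ.semi01 s x) γ'.b01 (fun s x => γ'.semi01 s x) i01 i01' E.e01 h01 h01'
  refine ⟨{ e0 := e0, e1 := e1, e01 := e01, comm0 := fun p => ?_, comm1 := fun p => ?_ }⟩
  · apply i01'
    rw [he01, γ.comm0, E.comm0, ← he0, γ'.comm0]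
  · apply i01'
    rw [he01, γ.comm1, E.comm1, ← he1, γ'.comm1]

end Cmp

/-- **LIM-ISO** (from LB-BCEX): an isomorphism between the base changes of two triples over a finitely
generated subalgebra is defined over a larger finitely generated subalgebra. -/
theorem stmt_LIMISO_of (hEX : Fermat.Agent.S25.LB.Stmt_BCEX.{u}) : Stmt_LIMISO.{u} := by
  intro k _ 𝒞 hgood R _ _ R₀ L₀ L₀' L L' hfg β β' hE
  obtain ⟨E⟩ := hE
  classical
  -- finite generating sets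
  obtain ⟨t0, ht0⟩ : (⊤ : Submodule (↥R₀ ⊗[k] 𝒞.B0) L₀.P0).FG := by
    haveI := L₀.inv0
    exact Module.Finite.fg_top
  obtain ⟨t1, ht1⟩ : (⊤ : Submodule (↥R₀ ⊗[k] 𝒞.B1) L₀.P1).FG := by
    haveI := L₀.inv1
    exact Module.Finite.fg_top
  obtain ⟨t0', ht0'⟩ : (⊤ : Submodule (↥R₀ ⊗[k] 𝒞.B0) L₀'.P0).FG := by
    haveI := L₀'.inv0
    exact Module.Finite.fg_top
  obtain ⟨t1', ht1'⟩ : (⊤ : Submodule (↥R₀ ⊗[k] 𝒞.B1) L₀'.P1).FG := by
    haveI := L₀'.inv1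
    exact Module.Finite.fg_top
  -- the coordinates of the isomorphism and of its inverse
  have hA0 : ∀ y : L₀.P0, ∃ f : L₀'.P0 → R ⊗[k] 𝒞.B0,
      E.e0 (β.b0 y) = ∑ z ∈ t0', f z • β'.b0 z := fun y =>
    h87_exists_coeff (tmap R₀.val 𝒞.B0).toRingHom β'.b0 (fun c q => β'.semi0 c q) t0' ht0'
      β'.gen0 _
  have hA0' : ∀ z : L₀'.P0, ∃ f : L₀.P0 → R ⊗[k] 𝒞.B0,
      E.e0.symm (β'.b0 z) = ∑ y ∈ t0, f y • β.b0 y := fun z =>
    h87_exists_coeff (tmap R₀.val 𝒞.B0).toRingHom β.b0 (fun c q => β.semi0 c q) t0 ht0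
      β.gen0 _
  have hA1 : ∀ y : L₀.P1, ∃ f : L₀'.P1 → R ⊗[k] 𝒞.B1,
      E.e1 (β.b1 y) = ∑ z ∈ t1', f z • β'.b1 z := fun y =>
    h87_exists_coeff (tmap R₀.val 𝒞.B1).toRingHom β'.b1 (fun c q => β'.semi1 c q) t1' ht1'
      β'.gen1 _
  have hA1' : ∀ z : L₀'.P1, ∃ f : L₀.P1 → R ⊗[k] 𝒞.B1,
      E.e1.symm (β'.b1 z) = ∑ y ∈ t1, f y • β.b1 y := fun z =>
    h87_exists_coeff (tmap R₀.val 𝒞.B1).toRingHom β.b1 (fun c q => β.semi1 c q) t1 ht1
      β.gen1 _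
  choose A0 hA0 using hA0
  choose A0' hA0' using hA0'
  choose A1 hA1 using hA1
  choose A1' hA1' using hA1'
  -- the coordinates come from a finitely generated subalgebra
  obtain ⟨Ra, hlea, hfga, hcapa⟩ := h87_exists_fg_range_finset 𝒞.B0 R₀ hfg
    ((t0 ×ˢ t0').image (fun yz => A0 yz.1 yz.2) ∪ (t0' ×ˢ t0).image (fun zy => A0' zy.1 zy.2))
  obtain ⟨R₁, hleb, hfg₁, hcapb⟩ := h87_exists_fg_range_finset 𝒞.B1 Ra hfga
    ((t1 ×ˢ t1').image (fun yz => A1 yz.1 yz.2) ∪ (t1' ×ˢ t1).image (fun zy => A1' zy.1 zy.2))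
  have hle : R₀ ≤ R₁ := hlea.trans hleb
  obtain ⟨a0, ha0⟩ := h87_exists_fun_of_range (t0 ×ˢ t0') (h87_tmapSub 𝒞.B0 R₁)
    (fun yz => A0 yz.1 yz.2) (fun yz hyz => h87_mem_range_mono 𝒞.B0 hleb
      (hcapa _ (Finset.mem_union_left _
        (Finset.mem_image_of_mem (fun yz => A0 yz.1 yz.2) hyz))))
  obtain ⟨a0', ha0'⟩ := h87_exists_fun_of_range (t0' ×ˢ t0) (h87_tmapSub 𝒞.B0 R₁)
    (fun zy => A0' zy.1 zy.2) (fun zy hzy => h87_mem_range_mono 𝒞.B0 hleb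
      (hcapa _ (Finset.mem_union_right _
        (Finset.mem_image_of_mem (fun zy => A0' zy.1 zy.2) hzy))))
  obtain ⟨a1, ha1⟩ := h87_exists_fun_of_range (t1 ×ˢ t1') (h87_tmapSub 𝒞.B1 R₁)
    (fun yz => A1 yz.1 yz.2) (fun yz hyz =>
      hcapb _ (Finset.mem_union_left _
        (Finset.mem_image_of_mem (fun yz => A1 yz.1 yz.2) hyz)))
  obtain ⟨a1', ha1'⟩ := h87_exists_fun_of_range (t1' ×ˢ t1) (h87_tmapSub 𝒞.B1 R₁)
    (fun zy => A1' zy.1 zy.2) (fun zy hzy =>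
      hcapb _ (Finset.mem_union_right _
        (Finset.mem_image_of_mem (fun zy => A1' zy.1 zy.2) hzy)))
  -- the base changes to `R₁`
  obtain ⟨L₁, ⟨β₁⟩⟩ := hEX k 𝒞 hgood ↥R₀ ↥R₁ (Subalgebra.inclusion hle) L₀
  obtain ⟨L₁', ⟨β₁'⟩⟩ := hEX k 𝒞 hgood ↥R₀ ↥R₁ (Subalgebra.inclusion hle) L₀'
  obtain ⟨γ, hγ0, hγ1, -⟩ := h87_exists_cmp hgood hle L₀ L₁ L β β₁
  obtain ⟨γ', hγ0', hγ1', -⟩ := h87_exists_cmp hgood hle L₀' L₁' L' β' β₁'
  refine ⟨R₁, hle, L₁, L₁', hfg₁, ⟨β₁⟩, ⟨β₁'⟩, ?_⟩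
  refine h87_iso_descent hgood R₁ L₁ L₁' L L' γ γ' E ?_ ?_ ?_ ?_
  · intro x
    refine h87_range_of_coeff (tmap (Subalgebra.inclusion hle) 𝒞.B0).toRingHom
      (tmap R₁.val 𝒞.B0).toRingHom β₁.b0 (fun s x => β₁.semi0 s x) β₁.gen0 β₁'.b0
      γ.b0 (fun s x => γ.semi0 s x) γ'.b0 (fun s x => γ'.semi0 s x)
      t0 ht0 t0' E.e0.toLinearMap (fun y z => a0 (y, z)) ?_ x
    intro y hy
    show E.e0 (γ.b0 (β₁.b0 y))
      = ∑ z ∈ t0', (tmap R₁.val 𝒞.B0) (a0 (y, z)) • γ'.b0 (β₁'.b0 z)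
    rw [hγ0, hA0 y]
    refine Finset.sum_congr rfl (fun z hz => ?_)
    rw [hγ0']
    congr 1
    exact (ha0 (y, z) (Finset.mem_product.2 ⟨hy, hz⟩)).symm
  · intro x
    refine h87_range_of_coeff (tmap (Subalgebra.inclusion hle) 𝒞.B0).toRingHom
      (tmap R₁.val 𝒞.B0).toRingHom β₁'.b0 (fun s x => β₁'.semi0 s x) β₁'.gen0 β₁.b0
      γ'.b0 (fun s x => γ'.semi0 s x) γ.b0 (fun s x => γ.semi0 s x)
      t0' ht0' t0 E.e0.symm.toLinearMap (fun z y => a0' (z, y)) ?_ x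
    intro z hz
    show E.e0.symm (γ'.b0 (β₁'.b0 z))
      = ∑ y ∈ t0, (tmap R₁.val 𝒞.B0) (a0' (z, y)) • γ.b0 (β₁.b0 y)
    rw [hγ0', hA0' z]
    refine Finset.sum_congr rfl (fun y hy => ?_)
    rw [hγ0]
    congr 1
    exact (ha0' (z, y) (Finset.mem_product.2 ⟨hz, hy⟩)).symm
  · intro x
    refine h87_range_of_coeff (tmap (Subalgebra.inclusion hle) 𝒞.B1).toRingHom
      (tmap R₁.val 𝒞.B1).toRingHom β₁.b1 (fun s x => β₁.semi1 s x) β₁.gen1 β₁'.b1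
      γ.b1 (fun s x => γ.semi1 s x) γ'.b1 (fun s x => γ'.semi1 s x)
      t1 ht1 t1' E.e1.toLinearMap (fun y z => a1 (y, z)) ?_ x
    intro y hy
    show E.e1 (γ.b1 (β₁.b1 y))
      = ∑ z ∈ t1', (tmap R₁.val 𝒞.B1) (a1 (y, z)) • γ'.b1 (β₁'.b1 z)
    rw [hγ1, hA1 y]
    refine Finset.sum_congr rfl (fun z hz => ?_)
    rw [hγ1']
    congr 1
    exact (ha1 (y, z) (Finset.mem_product.2 ⟨hy, hz⟩)).symm
  · intro x
    refine h87_range_of_coeff (tmap (Subalgebra.inclusion hle) 𝒞.B1).toRingHom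
      (tmap R₁.val 𝒞.B1).toRingHom β₁'.b1 (fun s x => β₁'.semi1 s x) β₁'.gen1 β₁.b1
      γ'.b1 (fun s x => γ'.semi1 s x) γ.b1 (fun s x => γ.semi1 s x)
      t1' ht1' t1 E.e1.symm.toLinearMap (fun z y => a1' (z, y)) ?_ x
    intro z hz
    show E.e1.symm (γ'.b1 (β₁'.b1 z))
      = ∑ y ∈ t1, (tmap R₁.val 𝒞.B1) (a1' (z, y)) • γ.b1 (β₁.b1 y)
    rw [hγ1', hA1' z]
    refine Finset.sum_congr rfl (fun y hy => ?_)
    rw [hγ1]
    congr 1
    exact (ha1' (z, y) (Finset.mem_product.2 ⟨hz, hy⟩)).symm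

end Fermat.Agent.S25.Chart.H87
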