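import Fermat.Agent.S25.Chart.H87_LimRig
import Fermat.Agent.S25.LB.H36_BC

/-!
# S25 (row 24), package CHART, leaf LIM-RIG, unconditional (helper87)

`stmt_LIMRIG : Chart.Stmt_LIMRIG` = `stmt_LIMRIG_of` applied to helper36's `LB.H36.stmt_BCEX`.
-/

set_option autoImplicit false

universe u

namespace Fermat.Agent.S25.Chart.H87

/-- **LIM-RIG**: rigidity descends to a finitely generated subalgebra. -/
theorem stmt_LIMRIG : Stmt_LIMRIG.{u} :=
  stmt_LIMRIG_of Fermat.Agent.S25.LB.H36.stmt_BCEX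

end Fermat.Agent.S25.Chart.H87
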