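import Mathlib

/-!
# S25, leaf CH-DIVH0 (helper98), part A: the rank count (pure algebra, Mathlib only)

* `finrank_tensor_of_invertible` : `A` an `R`-algebra which is free of rank `g` as an `R`-module, `M` an invertible
  `A`-module, `κ` a field over `R`: `dim_κ (κ ⊗[R] M) = g`
  (`κ ⊗[R] A` is artinian, so its invertible modules are free);
* `injective_of_surjective_of_finrank` : a surjection `M → N` of finite `R`-modules, `N` projective, with
  `dim (κ(p) ⊗ M) ≤ dim (κ(p) ⊗ N)` at every prime, is injective;
* `injective_of_surjective_of_invertible` : a surjective `R`-linear map from an invertible `A`-module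
  (`A ≅ R^g`) onto `R^g` is injective.
-/

set_option autoImplicit false
set_option linter.style.haveILetI false

universe u

open TensorProduct

namespace Fermat.Agent.S25.Chart.H98d

section Fibre

variable {R : Type u} [CommRing R]

/-- a finite module all of whose fibres vanish is zero -/
theorem subsingleton_of_fibres (K : Type u) [AddCommGroup K] [Module R K] [Module.Finite R K]
    (h : ∀ p : PrimeSpectrum R, Subsingleton (p.asIdeal.ResidueField ⊗[R] K)) : Subsingleton K := by
  rw [← Module.support_eq_empty_iff (R := R)]
  ext p
  simp only [Set.mem_empty_iff_false, iff_false]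
  rw [Module.mem_support_iff_nontrivial_residueField_tensorProduct]
  haveI := h p
  exact not_nontrivial _

theorem injective_of_surjective_of_finrank {M N : Type u}
    [AddCommGroup M] [Module R M] [Module.Finite R M]
    [AddCommGroup N] [Module R N] [Module.Finite R N] [Module.Projective R N]
    (φ : M →ₗ[R] N) (hφ : Function.Surjective φ)
    (hrank : ∀ p : PrimeSpectrum R,
      Module.finrank p.asIdeal.ResidueField (p.asIdeal.ResidueField ⊗[R] M) ≤
        Module.finrank p.asIdeal.ResidueField (p.asIdeal.ResidueField ⊗[R] N)) :
    Function.Injective φ := by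
  obtain ⟨σ, hσ⟩ := Module.projective_lifting_property φ LinearMap.id hφ
  have hσ' : ∀ n, φ (σ n) = n := fun n => congrArg (fun f : N →ₗ[R] N => f n) hσ
  let π : M →ₗ[R] LinearMap.ker φ :=
    (LinearMap.id - σ ∘ₗ φ).codRestrict (LinearMap.ker φ) (fun x => by
      rw [LinearMap.mem_ker]
      simp only [LinearMap.sub_apply, LinearMap.id_coe, id_eq, LinearMap.coe_comp,
        Function.comp_apply, map_sub, hσ', sub_self])
  have hπ : ∀ x : LinearMap.ker φ, π x = x := by
    intro x
    apply Subtype.ext
    have hx : φ x = 0 := x.2
    simp only [π, LinearMap.codRestrict_apply, LinearMap.sub_apply, LinearMap.id_coe, id_eq,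
      LinearMap.coe_comp, Function.comp_apply, hx, map_zero, sub_zero]
  haveI : Module.Finite R (LinearMap.ker φ) := Module.Finite.of_surjective π (fun x => ⟨x, hπ x⟩)
  have hπc : ∀ x : M, ((π x : LinearMap.ker φ) : M) = x - σ (φ x) := fun x => rfl
  let e : M ≃ₗ[R] (LinearMap.ker φ) × N :=
    { toFun := fun x => (π x, φ x)
      map_add' := fun x y => by rw [map_add, map_add]; rfl
      map_smul' := fun r x => by rw [map_smul, map_smul]; rfl
      invFun := fun y => (y.1 : M) + σ y.2
      left_inv := fun x => by
        change ((π x : LinearMap.ker φ) : M) + σ (φ x) = x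
        rw [hπc, sub_add_cancel]
      right_inv := fun y => by
        obtain ⟨x, n⟩ := y
        have hx : φ x = 0 := x.2
        have h0 : π (σ n) = 0 := Subtype.ext (by
          rw [hπc, hσ', sub_self]; rfl)
        have h1 : π ((x : M) + σ n) = x := by
          rw [map_add, hπ, h0, add_zero]
        have h2 : φ ((x : M) + σ n) = n := by rw [map_add, hx, hσ', zero_add]
        exact Prod.ext h1 h2 }
  have hK : Subsingleton (LinearMap.ker φ) := by
    refine subsingleton_of_fibres (R := R) (LinearMap.ker φ) fun p => ?_
    have e' : p.asIdeal.ResidueField ⊗[R] M ≃ₗ[p.asIdeal.ResidueField]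
        (p.asIdeal.ResidueField ⊗[R] (LinearMap.ker φ)) × (p.asIdeal.ResidueField ⊗[R] N) :=
      (TensorProduct.AlgebraTensorModule.congr
        (LinearEquiv.refl p.asIdeal.ResidueField p.asIdeal.ResidueField) e).trans
        (TensorProduct.prodRight R p.asIdeal.ResidueField p.asIdeal.ResidueField _ _)
    have h1 := e'.finrank_eq
    rw [Module.finrank_prod] at h1
    have h2 := hrank p
    have h0 : Module.finrank p.asIdeal.ResidueField
        (p.asIdeal.ResidueField ⊗[R] (LinearMap.ker φ)) = 0 := by omega
    exact (Module.finrank_zero_iff (R := p.asIdeal.ResidueField)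
      (M := p.asIdeal.ResidueField ⊗[R] (LinearMap.ker φ))).mp h0
  rw [← LinearMap.ker_eq_bot]
  exact Submodule.eq_bot_of_subsingleton

end Fibre

section Inv

variable {R : Type u} [CommRing R] {A : Type u} [CommRing A] [Algebra R A]

/-- the fibre dimension of an invertible module over a finite free algebra of rank `g` -/
theorem finrank_tensor_of_invertible {g : ℕ} (hA : A ≃ₗ[R] (Fin g → R))
    (M : Type u) [AddCommGroup M] [Module A M] [Module R M] [IsScalarTower R A M]
    [Module.Invertible A M] (κ : Type u) [Field κ] [Algebra R κ] :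
    Module.finrank κ (κ ⊗[R] M) = g := by
  letI : Algebra A (κ ⊗[R] A) := Algebra.TensorProduct.rightAlgebra
  haveI : Nontrivial R := (algebraMap R κ).domain_nontrivial
  haveI : Module.Free R A := Module.Free.of_equiv hA.symm
  haveI : Module.Finite R A := Module.Finite.equiv hA.symm
  haveI : Module.Finite κ (κ ⊗[R] A) := inferInstance
  haveI : IsArtinianRing (κ ⊗[R] A) := IsArtinianRing.of_finite κ _
  haveI : Module.Free (κ ⊗[R] A) ((κ ⊗[R] A) ⊗[A] M) := inferInstance
  obtain ⟨e⟩ := Module.Invertible.free_iff_linearEquiv.mp
    (inferInstance : Module.Free (κ ⊗[R] A) ((κ ⊗[R] A) ⊗[A] M))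
  have e1 : (κ ⊗[R] A) ⊗[A] M ≃ₗ[κ] κ ⊗[R] M :=
    Algebra.IsPushout.cancelBaseChange R κ A (κ ⊗[R] A) M
  rw [← e1.finrank_eq, (e.restrictScalars κ).finrank_eq, Module.finrank_baseChange,
    hA.finrank_eq, Module.finrank_fin_fun]

/-- a surjective `R`-linear map from an invertible module over a finite free `R`-algebra of rank `g`
onto `R^g` is injective -/
theorem injective_of_surjective_of_invertible {g : ℕ} (hA : A ≃ₗ[R] (Fin g → R))
    {M : Type u} [AddCommGroup M] [Module A M] [Module R M] [IsScalarTower R A M]
    [Module.Invertible A M] {N : Type u} [AddCommGroup N] [Module R N]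
    (hN : N ≃ₗ[R] (Fin g → R)) (φ : M →ₗ[R] N) (hφ : Function.Surjective φ) :
    Function.Injective φ := by
  haveI : Module.Free R A := Module.Free.of_equiv hA.symm
  haveI : Module.Finite R A := Module.Finite.equiv hA.symm
  haveI : Module.Free R N := Module.Free.of_equiv hN.symm
  haveI : Module.Finite R N := Module.Finite.equiv hN.symm
  haveI : Module.Finite R M := Module.Finite.trans A M
  refine injective_of_surjective_of_finrank φ hφ fun p => ?_
  haveI : Nontrivial R := (algebraMap R p.asIdeal.ResidueField).domain_nontrivial
  rw [finrank_tensor_of_invertible hA M p.asIdeal.ResidueField, Module.finrank_baseChange,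
    hN.finrank_eq, Module.finrank_fin_fun]

end Inv

end Fermat.Agent.S25.Chart.H98d
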