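import Mathlib
import Fermat.Agent.S25.Chart.H98_DivH0Alg

/-!
# S25, leaf CH-DIVH0 (helper98), part B: the abstract core

Two charts `S0 → S01 ← S1` over `R`, modules `P0`, `P1`, `P01` with semilinear restriction maps `r0`, `r1`, a glued
section `(s0, s1)`, an ideal `I ⊆ S0` with `S0 ⧸ I ≅ R^g` and `I • P0 ⊆ S0 s0`.  If
* `P1 / S1 s1 → P01 / S01 s01` is bijective (`hsurj`, `hinj`), `s01` is regular (`hreg`),
* `P01 = r0 P0 + r1 P1` (`H1 L = 0`),
* `S01 / (ι0 S0 + ι1 S1) ≅ R^g` (`H1 O ≅ R^g`),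
then every glued pair `(t0, t1)` is `(a • s0, b • s1)` with `ι0 a = ι1 b`.

Proof: the connecting map `P0 / I P0 → H1 O`, `q ↦ [c]` for `r0 q = r1 q1 + c • s01`, is a well defined `R`-linear
surjection from an invertible `S0 ⧸ I`-module onto `R^g`, hence injective (`injective_of_surjective_of_invertible`),
and it kills the class of `t0`.
-/

set_option autoImplicit false
set_option linter.style.haveILetI false

universe u

open TensorProduct

namespace Fermat.Agent.S25.Chart.H98d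

section Core

variable {R : Type u} [CommRing R]
  {S0 S1 S01 : Type u} [CommRing S0] [CommRing S1] [CommRing S01]
  [Algebra R S0] [Algebra R S1] [Algebra R S01]
  {P0 P1 P01 : Type u} [AddCommGroup P0] [AddCommGroup P1] [AddCommGroup P01]
  [Module S0 P0] [Module S1 P1] [Module S01 P01]

theorem core (ι0 : S0 →ₐ[R] S01) (ι1 : S1 →ₐ[R] S01) (r0 : P0 →+ P01) (r1 : P1 →+ P01)
    (hr0 : ∀ (c : S0) (q : P0), r0 (c • q) = ι0 c • r0 q)
    (hr1 : ∀ (c : S1) (q : P1), r1 (c • q) = ι1 c • r1 q)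
    (s0 : P0) (s1 : P1) (hglue : r0 s0 = r1 s1)
    [Module.Invertible S0 P0] (I : Ideal S0) {g : ℕ} (hA : (S0 ⧸ I) ≃ₗ[R] (Fin g → R))
    (hI : ∀ c ∈ I, ∀ q : P0, ∃ d : S0, c • q = d • s0)
    (hsurj : ∀ m : P01, ∃ (q1 : P1) (c : S01), m = r1 q1 + c • r0 s0)
    (hinj : ∀ (q1 : P1) (c : S01), r1 q1 = c • r0 s0 → ∃ d : S1, q1 = d • s1)
    (hreg : ∀ c : S01, c • r0 s0 = 0 → c = 0)
    (hH1L : ∀ m : P01, ∃ (q : P0) (q1 : P1), m = r0 q + r1 q1)
    {N : Type u} [AddCommGroup N] [Module R N] (ν : S01 →ₗ[R] N) (hν : Function.Surjective ν)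
    (hker : ∀ (a : S0) (b : S1), ν (ι0 a + ι1 b) = 0)
    (hN : N ≃ₗ[R] (Fin g → R))
    (t0 : P0) (t1 : P1) (ht : r0 t0 = r1 t1) :
    ∃ (a : S0) (b : S1), t0 = a • s0 ∧ t1 = b • s1 ∧ ι0 a = ι1 b := by
  classical
  have hex : ∀ q : P0, ∃ (q1 : P1) (c : S01), r0 q = r1 q1 + c • r0 s0 := fun q => hsurj (r0 q)
  -- well-definedness
  have hwd : ∀ (q : P0) (q1 q1' : P1) (c c' : S01), r0 q = r1 q1 + c • r0 s0 →
      r0 q = r1 q1' + c' • r0 s0 → ν c = ν c' := by
    intro q q1 q1' c c' h h'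
    have h1 : r1 (q1 - q1') = (c' - c) • r0 s0 := by
      rw [map_sub, sub_smul]
      have h2 := h.symm.trans h'
      rw [sub_eq_sub_iff_add_eq_add]
      rw [h2]; abel
    obtain ⟨d, hd⟩ := hinj _ _ h1
    have h2 : (c' - c - ι1 d) • r0 s0 = 0 := by
      rw [sub_smul, ← h1, hd, hr1, ← hglue, sub_self]
    have h3 := hreg _ h2
    have h4 : ν (c' - c) = 0 := by
      have h5 := hker 0 d
      rw [map_zero, zero_add, ← sub_eq_zero.mp h3] at h5
      exact h5
    rw [map_sub, sub_eq_zero] at h4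
    exact h4.symm
  choose Q1 C hQC using hex
  have hchar : ∀ (q : P0) (q1 : P1) (c : S01), r0 q = r1 q1 + c • r0 s0 → ν (C q) = ν c :=
    fun q q1 c h => hwd q _ _ _ _ (hQC q) h
  letI : Module R P0 := Module.compHom P0 (algebraMap R S0)
  haveI : IsScalarTower R S0 P0 := ⟨fun r s x => by
    change (r • s) • x = algebraMap R S0 r • (s • x)
    rw [Algebra.smul_def, mul_smul]⟩
  let φ0 : P0 →ₗ[R] N :=
    { toFun := fun q => ν (C q)
      map_add' := fun q q' => by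
        rw [← map_add]
        refine hchar (q + q') (Q1 q + Q1 q') (C q + C q') ?_
        rw [map_add, map_add, add_smul, hQC q, hQC q']
        abel
      map_smul' := fun r q => by
        rw [RingHom.id_apply, ← map_smul]
        refine hchar (r • q) (algebraMap R S1 r • Q1 q) (r • C q) ?_
        change r0 (algebraMap R S0 r • q) = _
        rw [hr0, hr1, hQC q, smul_add, AlgHom.commutes, AlgHom.commutes, Algebra.smul_def,
          mul_smul] }
  have hφ0 : ∀ (q : P0) (q1 : P1) (c : S01), r0 q = r1 q1 + c • r0 s0 → φ0 q = ν c := hchar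
  -- `I • P0 ⊆ S0 s0`
  have hIP : ∀ q ∈ (I • ⊤ : Submodule S0 P0), ∃ d : S0, q = d • s0 := by
    intro q hq
    refine Submodule.smul_induction_on hq (fun c hc x _ => hI c hc x) ?_
    rintro x y ⟨d, rfl⟩ ⟨d', rfl⟩
    exact ⟨d + d', (add_smul _ _ _).symm⟩
  have hφ0I : ∀ q ∈ (I • ⊤ : Submodule S0 P0), φ0 q = 0 := by
    intro q hq
    obtain ⟨d, rfl⟩ := hIP q hq
    rw [hφ0 (d • s0) 0 (ι0 d) (by rw [hr0, map_zero, zero_add])]
    have h5 := hker d 0
    rw [map_zero, add_zero] at h5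
    exact h5
  -- descend to `M = P0 ⧸ I P0`
  let φ1 : (P0 ⧸ (I • ⊤ : Submodule S0 P0).restrictScalars R) →ₗ[R] N :=
    Submodule.liftQ _ φ0 (fun q hq => hφ0I q hq)
  let φ : (P0 ⧸ (I • ⊤ : Submodule S0 P0)) →ₗ[R] N :=
    φ1 ∘ₗ (Submodule.Quotient.restrictScalarsEquiv R (I • ⊤ : Submodule S0 P0)).symm.toLinearMap
  have hφmk : ∀ q : P0, φ (Submodule.Quotient.mk q) = φ0 q := fun q => rfl
  have hφsurj : Function.Surjective φ := by
    intro n
    obtain ⟨c, rfl⟩ := hν n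
    obtain ⟨q, q1, hq⟩ := hH1L (c • r0 s0)
    refine ⟨Submodule.Quotient.mk q, ?_⟩
    rw [hφmk]
    refine hφ0 q (-q1) c ?_
    rw [map_neg, hq]
    abel
  haveI : Module.Invertible (S0 ⧸ I) (P0 ⧸ (I • ⊤ : Submodule S0 P0)) :=
    Module.Invertible.congr
      ((TensorProduct.quotTensorEquivQuotSMul P0 I).extendScalarsOfSurjective
        Ideal.Quotient.mk_surjective)
  haveI : IsScalarTower R (S0 ⧸ I) (P0 ⧸ (I • ⊤ : Submodule S0 P0)) := by
    refine ⟨fun r a m => ?_⟩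
    obtain ⟨a, rfl⟩ := Ideal.Quotient.mk_surjective a
    obtain ⟨m, rfl⟩ := Submodule.Quotient.mk_surjective _ m
    change Submodule.Quotient.mk ((r • a) • m) = Submodule.Quotient.mk (r • (a • m))
    rw [smul_assoc]
  have hφinj := injective_of_surjective_of_invertible hA hN φ hφsurj
  have h0 : φ (Submodule.Quotient.mk t0) = 0 := by
    rw [hφmk, hφ0 t0 t1 0 (by rw [zero_smul, add_zero]; exact ht), map_zero]
  have h1 : (Submodule.Quotient.mk t0 : P0 ⧸ (I • ⊤ : Submodule S0 P0)) = 0 :=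
    hφinj (h0.trans (map_zero φ).symm)
  have h2 : t0 ∈ (I • ⊤ : Submodule S0 P0) := (Submodule.Quotient.mk_eq_zero _).mp h1
  obtain ⟨a, ha⟩ := hIP t0 h2
  obtain ⟨b, hb⟩ := hinj t1 (ι0 a) (by rw [← ht, ha, hr0])
  refine ⟨a, b, ha, hb, ?_⟩
  have h3 : (ι0 a - ι1 b) • r0 s0 = 0 := by
    rw [sub_smul, ← hr0, ← ha, ht, hglue, ← hr1, ← hb, sub_self]
  exact sub_eq_zero.mp (hreg _ h3)

end Core

end Fermat.Agent.S25.Chart.H98d
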